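import Mathlib

/-!
# Orders at the primes of a number field
-/

set_option autoImplicit false
set_option linter.unusedSectionVars false
set_option linter.style.haveILetI false

open scoped Classical nonZeroDivisors

namespace Fermat.Agent.CFT

open Module NumberField IsDedekindDomain FractionalIdeal WithZero

section

variable {K : Type*} [Field K] [NumberField K]

/-- the order of `x` at the prime `v` -/
noncomputable def ordv (v : HeightOneSpectrum (𝓞 K)) (x : Kˣ) : ℤ :=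
  FractionalIdeal.count K v (spanSingleton (𝓞 K)⁰ (x : K))

theorem span_ne_zero (x : Kˣ) : spanSingleton (𝓞 K)⁰ (x : K) ≠ 0 := by
  rw [Ne, spanSingleton_eq_zero_iff]
  exact x.ne_zero

theorem ordv_mul (v : HeightOneSpectrum (𝓞 K)) (x y : Kˣ) :
    ordv v (x * y) = ordv v x + ordv v y := by
  rw [ordv, ordv, ordv, Units.val_mul, ← spanSingleton_mul_spanSingleton,
    count_mul K v (span_ne_zero x) (span_ne_zero y)]

theorem ordv_one (v : HeightOneSpectrum (𝓞 K)) : ordv v (1 : Kˣ) = 0 := by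
  have h := ordv_mul v 1 1
  rw [mul_one] at h
  omega

theorem ordv_inv (v : HeightOneSpectrum (𝓞 K)) (x : Kˣ) : ordv v x⁻¹ = - ordv v x := by
  have h := ordv_mul v x x⁻¹
  rw [mul_inv_cancel, ordv_one] at h
  omega

theorem ordv_div (v : HeightOneSpectrum (𝓞 K)) (x y : Kˣ) :
    ordv v (x / y) = ordv v x - ordv v y := by
  rw [div_eq_mul_inv, ordv_mul, ordv_inv, sub_eq_add_neg]

theorem ordv_pow (v : HeightOneSpectrum (𝓞 K)) (x : Kˣ) (n : ℕ) :
    ordv v (x ^ n) = n * ordv v x := by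
  induction n with
  | zero => simp [ordv_one]
  | succ n ih =>
    rw [pow_succ, ordv_mul, ih]
    push_cast
    ring

theorem ordv_zpow (v : HeightOneSpectrum (𝓞 K)) (x : Kˣ) (n : ℤ) :
    ordv v (x ^ n) = n * ordv v x := by
  obtain n | n := n
  · rw [Int.ofNat_eq_natCast, zpow_natCast, ordv_pow]
  · rw [zpow_negSucc, ordv_inv, ordv_pow, Int.negSucc_eq]
    push_cast
    ring

theorem ordv_prod {ι : Type*} (v : HeightOneSpectrum (𝓞 K)) (s : Finset ι) (f : ι → Kˣ) :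
    ordv v (∏ i ∈ s, f i) = ∑ i ∈ s, ordv v (f i) := by
  induction s using Finset.induction_on with
  | empty => simp [ordv_one]
  | insert a s ha ih => rw [Finset.prod_insert ha, Finset.sum_insert ha, ordv_mul, ih]

theorem ordv_coe (v : HeightOneSpectrum (𝓞 K)) (x : Kˣ) (a : 𝓞 K) (ha : (a : K) = x) :
    ordv v x = (Associates.mk v.asIdeal).count (Associates.mk (Ideal.span {a})).factors := by
  have ha0 : a ≠ 0 := by
    rintro rfl
    exact x.ne_zero (by rw [← ha]; simp)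
  have h : spanSingleton (𝓞 K)⁰ (x : K) = ((Ideal.span {a} : Ideal (𝓞 K)) : FractionalIdeal (𝓞 K)⁰ K) := by
    rw [coeIdeal_span_singleton]
    congr 1
    exact ha.symm
  rw [ordv, h, count_coe]
  simpa using ha0

theorem valuation_coe (v : HeightOneSpectrum (𝓞 K)) (x : Kˣ) (a : 𝓞 K) (ha : (a : K) = x) :
    v.valuation K (x : K) = exp (-(ordv v x)) := by
  have ha0 : a ≠ 0 := by
    rintro rfl
    exact x.ne_zero (by rw [← ha]; simp)
  rw [ordv_coe v x a ha, ← ha]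
  have := v.valuation_of_algebraMap (K := K) a
  refine Eq.trans this ?_
  rw [v.intValuation_if_neg ha0]

theorem exists_frac (x : Kˣ) : ∃ (a b : 𝓞 K) (y z : Kˣ), (a : K) = y ∧ (b : K) = z ∧ x = y / z := by
  obtain ⟨a, b, hb, h⟩ := IsFractionRing.div_surjective (A := 𝓞 K) (x : K)
  have hb0 : (algebraMap (𝓞 K) K b) ≠ 0 := by
    simpa using nonZeroDivisors.ne_zero hb
  have ha0 : (algebraMap (𝓞 K) K a) ≠ 0 := by
    intro h0
    rw [h0, zero_div] at h
    exact x.ne_zero h.symm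
  refine ⟨a, b, Units.mk0 _ ha0, Units.mk0 _ hb0, rfl, rfl, ?_⟩
  apply Units.ext
  rw [Units.val_div_eq_div_val, Units.val_mk0, Units.val_mk0, h]

theorem valuation_eq (v : HeightOneSpectrum (𝓞 K)) (x : Kˣ) :
    v.valuation K (x : K) = exp (-(ordv v x)) := by
  obtain ⟨a, b, y, z, ha, hb, rfl⟩ := exists_frac x
  rw [ordv_div, Units.val_div_eq_div_val, map_div₀, valuation_coe v y a ha, valuation_coe v z b hb,
    ← exp_sub]
  congr 1
  ring

theorem valuation_eq_one_iff (v : HeightOneSpectrum (𝓞 K)) (x : Kˣ) :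
    v.valuation K (x : K) = 1 ↔ ordv v x = 0 := by
  rw [valuation_eq, ← exp_zero, exp_inj, neg_eq_zero]

theorem valuation_le_one_iff (v : HeightOneSpectrum (𝓞 K)) (x : Kˣ) :
    v.valuation K (x : K) ≤ 1 ↔ 0 ≤ ordv v x := by
  rw [valuation_eq, ← exp_zero, exp_le_exp, neg_nonpos]

theorem ordv_nonneg_of_int (v : HeightOneSpectrum (𝓞 K)) (x : Kˣ) (a : 𝓞 K) (ha : (a : K) = x) :
    0 ≤ ordv v x := by
  rw [ordv_coe v x a ha]
  exact Int.natCast_nonneg _

theorem ordv_finite (x : Kˣ) : {v : HeightOneSpectrum (𝓞 K) | ordv v x ≠ 0}.Finite :=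
  finite_factors (spanSingleton (𝓞 K)⁰ (x : K))

theorem exists_int_of_ordv_nonneg (x : Kˣ) (h : ∀ v : HeightOneSpectrum (𝓞 K), 0 ≤ ordv v x) :
    ∃ a : 𝓞 K, (a : K) = x := by
  obtain ⟨a, ha⟩ := HeightOneSpectrum.mem_integers_of_valuation_le_one (R := 𝓞 K) K (x : K)
    (fun v => (valuation_le_one_iff v x).mpr (h v))
  exact ⟨a, ha⟩

/-- the units of `𝓞 K` inside `Kˣ` -/
noncomputable def unitsHom (K : Type*) [Field K] [NumberField K] : (𝓞 K)ˣ →* Kˣ :=
  Units.map (algebraMap (𝓞 K) K).toMonoidHom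

theorem unitsHom_injective : Function.Injective (unitsHom K) := by
  intro u v h
  apply Units.ext
  have := congrArg Units.val h
  exact RingOfIntegers.ext this

theorem ordv_unitsHom (v : HeightOneSpectrum (𝓞 K)) (u : (𝓞 K)ˣ) : ordv v (unitsHom K u) = 0 := by
  have h1 := ordv_nonneg_of_int v (unitsHom K u) u rfl
  have h2 := ordv_nonneg_of_int v (unitsHom K u⁻¹) (u⁻¹ : (𝓞 K)ˣ) rfl
  rw [map_inv, ordv_inv] at h2
  omega

theorem exists_unit_of_ordv_eq_zero (x : Kˣ) (h : ∀ v : HeightOneSpectrum (𝓞 K), ordv v x = 0) :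
    ∃ u : (𝓞 K)ˣ, unitsHom K u = x := by
  obtain ⟨a, ha⟩ := exists_int_of_ordv_nonneg x fun v => (h v).ge
  obtain ⟨b, hb⟩ := exists_int_of_ordv_nonneg x⁻¹ fun v => by rw [ordv_inv, h v, neg_zero]
  have hab : a * b = 1 := by
    apply RingOfIntegers.ext
    change (a : K) * (b : K) = 1
    rw [ha, hb, ← Units.val_mul, mul_inv_cancel, Units.val_one]
  refine ⟨⟨a, b, hab, by rw [mul_comm, hab]⟩, ?_⟩
  apply Units.ext
  exact ha

/-- the fractional ideal with given exponents -/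
theorem exists_ideal (m : HeightOneSpectrum (𝓞 K) →₀ ℤ) :
    ∃ I : (FractionalIdeal (𝓞 K)⁰ K)ˣ, ∀ v, FractionalIdeal.count K v (I : FractionalIdeal (𝓞 K)⁰ K) = m v := by
  have hne : m.prod (fun v n => (v.asIdeal : FractionalIdeal (𝓞 K)⁰ K) ^ n) ≠ 0 := by
    rw [Finsupp.prod, Finset.prod_ne_zero_iff]
    intro v _
    exact zpow_ne_zero _ (coeIdeal_ne_zero.mpr v.ne_bot)
  exact ⟨Units.mk0 _ hne, fun v => count_finsuppProd K v m⟩

theorem ordv_eq_of_principal {I J : (FractionalIdeal (𝓞 K)⁰ K)ˣ} {x : Kˣ}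
    (h : toPrincipalIdeal (𝓞 K) K x = I / J) (v : HeightOneSpectrum (𝓞 K)) :
    ordv v x = FractionalIdeal.count K v (I : FractionalIdeal (𝓞 K)⁰ K) -
      FractionalIdeal.count K v (J : FractionalIdeal (𝓞 K)⁰ K) := by
  have h1 := congrArg Units.val h
  rw [coe_toPrincipalIdeal, Units.val_div_eq_div_val, div_eq_mul_inv] at h1
  rw [ordv, h1, count_mul K v I.ne_zero (inv_ne_zero J.ne_zero), count_inv]
  ring

instance finite_quot : Finite ((FractionalIdeal (𝓞 K)⁰ K)ˣ ⧸ (toPrincipalIdeal (𝓞 K) K).range) :=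
  Finite.of_equiv _ (ClassGroup.equiv (R := 𝓞 K) K).toEquiv

/-- `S` generates the class group of `K` (in a convenient form) -/
def SGen (S : Set (HeightOneSpectrum (𝓞 K))) : Prop :=
  ∀ m : HeightOneSpectrum (𝓞 K) →₀ ℤ, ∃ c : Kˣ, ∀ v ∉ S, ordv v c = m v

theorem SGen.mono {S T : Set (HeightOneSpectrum (𝓞 K))} (h : SGen S) (hST : S ⊆ T) : SGen T := by
  intro m
  obtain ⟨c, hc⟩ := h m
  exact ⟨c, fun v hv => hc v fun h => hv (hST h)⟩

theorem exists_sgen (K : Type*) [Field K] [NumberField K] :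
    ∃ S : Set (HeightOneSpectrum (𝓞 K)), S.Finite ∧ SGen S := by
  set Q := (FractionalIdeal (𝓞 K)⁰ K)ˣ ⧸ (toPrincipalIdeal (𝓞 K) K).range
  have hrep : ∀ q : Q, ∃ J : (FractionalIdeal (𝓞 K)⁰ K)ˣ, (QuotientGroup.mk J : Q) = q :=
    fun q => QuotientGroup.mk_surjective q
  choose J hJ using hrep
  refine ⟨⋃ q : Q, {v | FractionalIdeal.count K v (J q : FractionalIdeal (𝓞 K)⁰ K) ≠ 0},
    Set.finite_iUnion fun q => finite_factors _, ?_⟩
  intro m
  obtain ⟨I, hI⟩ := exists_ideal m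
  have h1 : (QuotientGroup.mk (I / J (QuotientGroup.mk I)) : Q) = 1 := by
    rw [QuotientGroup.mk_div, hJ, div_self']
  rw [QuotientGroup.eq_one_iff] at h1
  obtain ⟨c, hc⟩ := h1
  refine ⟨c, fun v hv => ?_⟩
  rw [ordv_eq_of_principal hc, hI]
  have : FractionalIdeal.count K v (J (QuotientGroup.mk I) : FractionalIdeal (𝓞 K)⁰ K) = 0 := by
    by_contra hne
    exact hv (Set.mem_iUnion.mpr ⟨_, hne⟩)
  rw [this, sub_zero]

theorem exists_principal_pow (K : Type*) [Field K] [NumberField K] :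
    ∃ h : ℕ, 0 < h ∧ ∀ m : HeightOneSpectrum (𝓞 K) →₀ ℤ, ∃ x : Kˣ, ∀ v, ordv v x = h * m v := by
  set Q := (FractionalIdeal (𝓞 K)⁰ K)ˣ ⧸ (toPrincipalIdeal (𝓞 K) K).range
  refine ⟨Nat.card Q, Nat.card_pos, fun m => ?_⟩
  obtain ⟨I, hI⟩ := exists_ideal m
  have h1 : (QuotientGroup.mk (I ^ Nat.card Q) : Q) = 1 := by
    rw [QuotientGroup.mk_pow, pow_card_eq_one']
  rw [QuotientGroup.eq_one_iff] at h1
  obtain ⟨c, hc⟩ := h1
  refine ⟨c, fun v => ?_⟩
  have h2 : toPrincipalIdeal (𝓞 K) K c = I ^ Nat.card Q / 1 := by rw [_root_.div_one, hc]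
  rw [ordv_eq_of_principal h2, Units.val_one, count_one, sub_zero, Units.val_pow_eq_pow_val,
    count_pow, hI]

end

end Fermat.Agent.CFT
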