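import Fermat.Agent.CFT.SecondIneq
import Fermat.Agent.S14Lib.ClassPart

/-!
# The analytic input for S14
-/

set_option autoImplicit false
set_option linter.unusedSectionVars false
set_option linter.style.haveILetI false

open scoped Classical nonZeroDivisors Topology

namespace Fermat.Agent.CFT

open NumberField Filter IsDedekindDomain H03 Module

section

variable {K : Type*} [Field K] [NumberField K]

theorem psum_le_add (K : Type*) [Field K] [NumberField K] {s : ℝ} (hs : 1 < s) (hs2 : s ≤ 2)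
    {P Q R : HeightOneSpectrum (𝓞 K) → Prop} (h : ∀ v, P v → Q v ∨ R v) :
    psum K s P ≤ psum K s Q + psum K s R := by
  rw [psum, psum, psum, ← (summable_psum K hs hs2 Q).tsum_add (summable_psum K hs hs2 R)]
  refine Summable.tsum_le_tsum (fun v => ?_) (summable_psum K hs hs2 P)
    ((summable_psum K hs hs2 Q).add (summable_psum K hs hs2 R))
  have h0 := nrm_nonneg K s v.asIdeal
  have hv := h v
  by_cases hP : P v <;> by_cases hQ : Q v <;> by_cases hR : R v <;> simp_all

theorem ne_bot_iff_mem {I : Ideal (𝓞 K)} : I ≠ ⊥ ↔ I ∈ (Ideal (𝓞 K))⁰ :=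
  (mem_nonZeroDivisors_iff_ne_zero (M₀ := Ideal (𝓞 K))).symm

/-- A character of the class group as an ideal character. -/
noncomputable def clHom {A : Type*} [AddCommGroup A] (ρ : ClassGroup (𝓞 K) →* Multiplicative A) :
    IdealHom (⊤ : Ideal (𝓞 K)) A where
  toFun I := if h : I ∈ (Ideal (𝓞 K))⁰ then (ρ (ClassGroup.mk0 ⟨I, h⟩)).toAdd else 0
  map_mul I J hI hJ _ _ := by
    rw [ne_bot_iff_mem] at hI hJ
    rw [dif_pos hI, dif_pos hJ, dif_pos (mul_mem hI hJ), ← toAdd_mul, ← map_mul, ← map_mul]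
    rfl
  triv x hx _ := by
    have h : Ideal.span {x} ∈ (Ideal (𝓞 K))⁰ := by
      rw [← ne_bot_iff_mem, Ne, Ideal.span_singleton_eq_bot]
      exact hx
    rw [dif_pos h]
    have : ClassGroup.mk0 (⟨Ideal.span {x}, h⟩ : (Ideal (𝓞 K))⁰) = 1 := by
      rw [ClassGroup.mk0_eq_one_iff]
      exact ⟨⟨x, rfl⟩⟩
    rw [this, map_one]
    rfl

theorem clHom_apply {A : Type*} [AddCommGroup A] (ρ : ClassGroup (𝓞 K) →* Multiplicative A)
    {I : Ideal (𝓞 K)} (h : I ∈ (Ideal (𝓞 K))⁰) :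
    (clHom ρ).toFun I = (ρ (ClassGroup.mk0 ⟨I, h⟩)).toAdd := dif_pos h

end

/-- **The analytic input of S14.** -/
theorem analyticInput : S14Lib.AnalyticInput := by
  intro K L _ _ _ _ _ p hp hp2 hdeg ρ hρ B
  haveI : Fact p.Prime := ⟨hp⟩
  have hp3 : 3 ≤ p := by
    have := hp.two_le
    omega
  by_contra hcon
  push Not at hcon
  set c := clHom ρ with hc
  have hsurj' : Function.Surjective ρ := by
    have h1 : ρ.range ≠ ⊥ := fun h => hρ (MonoidHom.range_eq_bot_iff.mp h)
    haveI : Fact (Nat.card (Multiplicative (ZMod p))).Prime := ⟨by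
      rw [Nat.card_congr Multiplicative.toAdd, Nat.card_zmod]; exact hp⟩
    rcases ρ.range.eq_bot_or_eq_top_of_prime_card with h | h
    · exact absurd h h1
    · exact MonoidHom.range_eq_top.mp h
  have hsurj : ∀ a : ZMod p, ∃ I : Ideal (𝓞 K), I ≠ ⊥ ∧ IsCoprime I ⊤ ∧ c.toFun I = a := by
    intro a
    obtain ⟨x, hx⟩ := hsurj' (Multiplicative.ofAdd a)
    obtain ⟨⟨I, hI⟩, rfl⟩ := ClassGroup.mk0_surjective x
    refine ⟨I, ne_bot_iff_mem.mpr hI, isCoprime_top.symm, ?_⟩
    rw [hc, clHom_apply ρ hI, hx]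
    rfl
  obtain ⟨C1, h1⟩ := c.exists_key top_ne_bot hsurj
  obtain ⟨C2, h2⟩ := exists_lower K
  obtain ⟨C3, h3⟩ := exists_upper L
  -- the primes of degree one, not in the kernel
  have hfin : {v : HeightOneSpectrum (𝓞 K) | (fun v => Deg1 K v ∧
      ¬ (IsCoprime v.asIdeal ⊤ ∧ c.toFun v.asIdeal = 0)) v ∧ ¬ Spl K L v}.Finite := by
    refine Set.Finite.subset (s := {v : HeightOneSpectrum (𝓞 K) |
      Ideal.absNorm v.asIdeal ≤ B}) ?_ ?_
    · have h := Ideal.finite_setOfPred_absNorm_le (S := 𝓞 K) B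
      refine Set.Finite.of_finite_image (f := fun v : HeightOneSpectrum (𝓞 K) => v.asIdeal)
        (h.subset ?_) (asIdeal_injective K).injOn
      rintro _ ⟨v, hv, rfl⟩
      exact hv
    · rintro v ⟨⟨hv1, hv2⟩, hv3⟩
      by_contra hB
      have hB' : B < Ideal.absNorm v.asIdeal := not_le.mp hB
      have hmem := ne_bot_iff_mem.mp v.ne_bot
      refine hv3 ?_
      rw [Spl, hdeg]
      refine hcon v.asIdeal hmem v.isPrime hv1 hB' ?_
      intro h0
      refine hv2 ⟨isCoprime_top.symm, ?_⟩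
      rw [hc, clHom_apply ρ hmem, h0]
      rfl
  have hkey : p ≤ 2 := by
    refine nat_le_of_eventually (C := C1 + C3 + p * hfin.toFinset.card + p * C2) ?_
    filter_upwards [h1, h2, h3, eventually_Ioc] with s hs1 hs2 hs3 hs
    have h4 := psum_le_add_of_finite K hs.1 hs.2 hfin
    have h5 := split_le K L hs.1 hs.2
    have h6 := psum_le_add K hs.1 hs.2 (P := Deg1 K)
      (Q := fun v => Deg1 K v ∧ ¬ (IsCoprime v.asIdeal ⊤ ∧ c.toFun v.asIdeal = 0))
      (R := fun v => IsCoprime v.asIdeal ⊤ ∧ c.toFun v.asIdeal = 0)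
      (fun v hv => by
        by_cases h : IsCoprime v.asIdeal ⊤ ∧ c.toFun v.asIdeal = 0
        · exact Or.inr h
        · exact Or.inl ⟨hv, h⟩)
    rw [hdeg] at h5
    rw [Nat.card_zmod] at hs1
    have hp0 : (0 : ℝ) ≤ p := Nat.cast_nonneg _
    have h7 := mul_le_mul_of_nonneg_left h4 hp0
    have h8 := mul_le_mul_of_nonneg_left h6 hp0
    have h9 := mul_le_mul_of_nonneg_left hs2 hp0
    push_cast
    nlinarith
  omega

end Fermat.Agent.CFT
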