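import Fermat.Agent.CFT.Iface3Pf
import Fermat.Agent.CFT.S14Input

/-!
# Killing the `p`-part of the class group with nonsplit primes
-/

set_option autoImplicit false
set_option linter.unusedSectionVars false
set_option linter.style.haveILetI false
set_option linter.unusedVariables false

open scoped Classical nonZeroDivisors Pointwise

noncomputable section

namespace Fermat.Agent.CFT

open Module NumberField IsDedekindDomain FractionalIdeal
open Fermat.Agent.CC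
open Fermat.Agent.LF (DK)

section

variable {K : Type} [Field K] [NumberField K] (p : ℕ) (Z : Set (HeightOneSpectrum (𝓞 K)))

/-- ideals which are principal modulo `p` and outside `Z` -/
def clSub : Subgroup (FractionalIdeal (𝓞 K)⁰ K)ˣ where
  carrier := {I | ∃ c : Kˣ, ∀ v ∉ Z, (p : ℤ) ∣ ordv v c -
    FractionalIdeal.count K v (I : FractionalIdeal (𝓞 K)⁰ K)}
  one_mem' := ⟨1, fun v _ => by rw [ordv_one, Units.val_one, count_one, sub_zero]; exact dvd_zero _⟩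
  mul_mem' := by
    rintro I J ⟨c, hc⟩ ⟨d, hd⟩
    refine ⟨c * d, fun v hv => ?_⟩
    rw [ordv_mul, Units.val_mul, count_mul K v I.ne_zero J.ne_zero, add_sub_add_comm]
    exact dvd_add (hc v hv) (hd v hv)
  inv_mem' := by
    rintro I ⟨c, hc⟩
    refine ⟨c⁻¹, fun v hv => ?_⟩
    rw [ordv_inv, Units.val_inv_eq_inv_val, count_inv, ← neg_sub_neg, neg_neg, neg_neg, ← neg_sub]
    exact (dvd_neg.mpr (hc v hv))

theorem principal_mem (x : Kˣ) : toPrincipalIdeal (𝓞 K) K x ∈ clSub p Z :=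
  ⟨x, fun v _ => by
    rw [coe_toPrincipalIdeal]
    change (p : ℤ) ∣ ordv v x - ordv v x
    rw [sub_self]
    exact dvd_zero _⟩

theorem pow_mem' (I : (FractionalIdeal (𝓞 K)⁰ K)ˣ) : I ^ p ∈ clSub p Z :=
  ⟨1, fun v _ => by
    rw [ordv_one, Units.val_pow_eq_pow_val, count_pow, zero_sub, dvd_neg]
    exact dvd_mul_right _ _⟩

theorem prime_mem (v : HeightOneSpectrum (𝓞 K)) (hv : v ∈ Z)
    (hI : v.asIdeal ∈ (Ideal (𝓞 K))⁰) : FractionalIdeal.mk0 K ⟨v.asIdeal, hI⟩ ∈ clSub p Z :=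
  ⟨1, fun w hw => by
    have hne : v ≠ w := by
      rintro rfl
      exact hw hv
    rw [ordv_one, FractionalIdeal.coe_mk0]
    change (p : ℤ) ∣ 0 - FractionalIdeal.count K w (v.asIdeal : FractionalIdeal (𝓞 K)⁰ K)
    rw [count_maximal_coprime K w hne, sub_zero]
    exact dvd_zero _⟩

theorem exists_dual_ne {p : ℕ} [Fact p.Prime] {Q : Type*} [AddCommGroup Q] (hk : ∀ x : Q, p • x = 0)
    {x : Q} (hx : x ≠ 0) : ∃ φ : Q →+ ZMod p, φ x ≠ 0 := by
  obtain ⟨φ, -, hφ⟩ := fp_sep hk ⊥ (y := x) (by rwa [AddSubgroup.mem_bot])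
  exact ⟨φ, hφ⟩

/-- if `clSub` is proper there is a character of the class group trivial on the primes in `Z` -/
theorem exists_rho [hp : Fact p.Prime] (hZ : clSub p Z ≠ (⊤ : Subgroup (FractionalIdeal (𝓞 K)⁰ K)ˣ)) :
    ∃ ρ : ClassGroup (𝓞 K) →* Multiplicative (ZMod p), ρ ≠ 1 ∧
      ∀ v ∈ Z, ∀ hI : v.asIdeal ∈ (Ideal (𝓞 K))⁰, ρ (ClassGroup.mk0 ⟨v.asIdeal, hI⟩) = 1 := by
  set Q := Additive ((FractionalIdeal (𝓞 K)⁰ K)ˣ ⧸ clSub p Z) with hQ
  have hk : ∀ x : Q, p • x = 0 := by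
    intro x
    obtain ⟨I, hI⟩ := QuotientGroup.mk_surjective (Additive.toMul x)
    have h1 : (Additive.toMul x) ^ p = 1 := by
      rw [← hI, ← QuotientGroup.mk_pow, QuotientGroup.eq_one_iff]
      exact pow_mem' p Z I
    exact congrArg Additive.ofMul h1
  obtain ⟨I, hI⟩ : ∃ I, I ∉ clSub p Z := by
    by_contra hcon
    push Not at hcon
    exact hZ (eq_top_iff.mpr fun x _ => hcon x)
  set x : Q := Additive.ofMul (QuotientGroup.mk I) with hx
  have hx0 : x ≠ 0 := by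
    intro h
    apply hI
    rw [← QuotientGroup.eq_one_iff]
    exact congrArg Additive.toMul h
  obtain ⟨φ, hφ⟩ := exists_dual_ne (p := p) (Q := Q) hk (x := x) hx0
  let φm : ((FractionalIdeal (𝓞 K)⁰ K)ˣ ⧸ clSub p Z) →* Multiplicative (ZMod p) :=
    { toFun := fun y => Multiplicative.ofAdd (φ (Additive.ofMul y))
      map_one' := by
        have : φ (Additive.ofMul 1) = 0 := map_zero φ
        rw [this]; rfl
      map_mul' := fun a b => by
        have : φ (Additive.ofMul (a * b)) = φ (Additive.ofMul a) + φ (Additive.ofMul b) :=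
          map_add φ _ _
        rw [this]; rfl }
  let e : ((FractionalIdeal (𝓞 K)⁰ K)ˣ ⧸ (toPrincipalIdeal (𝓞 K) K).range) →*
      ((FractionalIdeal (𝓞 K)⁰ K)ˣ ⧸ clSub p Z) :=
    QuotientGroup.map _ _ (MonoidHom.id _) (by
      rintro _ ⟨y, rfl⟩
      exact principal_mem p Z y)
  refine ⟨(φm.comp e).comp (ClassGroup.equiv K).toMonoidHom, ?_, ?_⟩
  · intro h1
    have h2 := DFunLike.congr_fun h1 ((ClassGroup.equiv K).symm (QuotientGroup.mk I))
    have h3 : φm (e (QuotientGroup.mk I)) = 1 := by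
      have h4 : φm (e (ClassGroup.equiv K ((ClassGroup.equiv K).symm (QuotientGroup.mk I)))) = 1 :=
        h2
      rwa [MulEquiv.apply_symm_apply] at h4
    apply hφ
    exact congrArg Multiplicative.toAdd h3
  · intro v hv hI'
    change φm (e (ClassGroup.equiv K (ClassGroup.mk0 ⟨v.asIdeal, hI'⟩))) = 1
    rw [ClassGroup.equiv_mk0]
    have h4 : e (QuotientGroup.mk' (toPrincipalIdeal (𝓞 K) K).range
        (FractionalIdeal.mk0 K ⟨v.asIdeal, hI'⟩)) = 1 := by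
      change (QuotientGroup.mk (FractionalIdeal.mk0 K ⟨v.asIdeal, hI'⟩) :
        (FractionalIdeal (𝓞 K)⁰ K)ˣ ⧸ clSub p Z) = 1
      rw [QuotientGroup.eq_one_iff]
      exact prime_mem p Z v hv hI'
    rw [h4, map_one]

end

/-- **class group half of the choice of `S'`** -/
theorem exists_T {p : ℕ} [hp : Fact p.Prime] (hp2 : p ≠ 2) {K F : IntermediateField ℚ Qb}
    (hKF : CC.CycExt p K F) (B : Finset Nat.Primes) :
    ∃ T : Finset Nat.Primes,
      (∀ q ∈ T, q ∉ B ∧ ∃ A : ValuationSubring Qb, A.LiesOverPrime ((q : Nat.Primes) : ℕ) ∧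
        ¬ LF.DK A K ≤ F.fixingSubgroup ∧ ∃ φ ∈ LF.DK A K, A.IsFrobeniusAt φ ((q : Nat.Primes) : ℕ)) ∧
      ∀ S : Finset Nat.Primes, T ⊆ S → CC.ClTriv p S K := by
  have hgal := H51.isGalois_Qbar
  haveI := hKF.fK
  haveI := hKF.fF
  haveI := numK hKF
  haveI := numF hKF
  letI := algKF hKF.le
  haveI := galKF hKF
  -- the primes
  have key : ∀ ρ : ClassGroup (𝓞 K) →* Multiplicative (ZMod p), ∃ (q : Nat.Primes)
      (v : HeightOneSpectrum (𝓞 K)) (hv : v.asIdeal ∈ (Ideal (𝓞 K))⁰), ρ ≠ 1 →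
      (ρ (ClassGroup.mk0 ⟨v.asIdeal, hv⟩) ≠ 1 ∧ ((q : ℕ) : 𝓞 K) ∈ v.asIdeal ∧
      q ∉ B ∧ ∃ A : ValuationSubring Qb, A.LiesOverPrime ((q : Nat.Primes) : ℕ) ∧
        ¬ LF.DK A K ≤ F.fixingSubgroup ∧ ∃ φ ∈ LF.DK A K, A.IsFrobeniusAt φ ((q : Nat.Primes) : ℕ)) := by
    intro ρ
    by_cases hρ : ρ = 1
    · obtain ⟨P, hP, hPp⟩ : ∃ P : Ideal (𝓞 K), P ≠ ⊥ ∧ P.IsPrime := by
          obtain ⟨M, hM⟩ := Ideal.exists_maximal (𝓞 K)
          exact ⟨M, Ring.ne_bot_of_isMaximal_of_not_isField hM (RingOfIntegers.not_isField K),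
            hM.isPrime⟩
      exact ⟨⟨p, hp.out⟩, ⟨P, hPp, hP⟩, mem_nonZeroDivisors_of_ne_zero hP, fun h => absurd hρ h⟩
    obtain ⟨P, hP, hPp, hPq, hPB, hPρ, hPs⟩ := analyticInput K F p hp.out hp2 (finrankKF hKF) ρ hρ
      (B.sup fun q => (q : ℕ))
    have hP0 : P ≠ ⊥ := by
      rw [ne_bot_iff_mem]; exact hP
    set v : HeightOneSpectrum (𝓞 K) := ⟨P, hPp, hP0⟩ with hv
    refine ⟨⟨Ideal.absNorm P, hPq⟩, v, hP, fun _ => ⟨hPρ, Ideal.absNorm_mem P, ?_, ?_⟩⟩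
    · intro hB
      have h1 : Ideal.absNorm P ≤ B.sup fun q => (q : ℕ) :=
        Finset.le_sup (f := fun q : Nat.Primes => (q : ℕ)) hB
      omega
    · obtain ⟨q', A, hq', hA, hAv⟩ := H02L.exists_place_over v
      have hqA : ((Ideal.absNorm P : ℕ) : Qb) ∈ A.nonunits :=
        (natCast_mem_iff hAv _).mp (Ideal.absNorm_mem P)
      refine ⟨A, hqA, ?_, ?_⟩
      · intro hle
        have h1 := locDeg_of_split hKF hPq hqA hle v hAv
        haveI := v.isPrime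
        have hmain := Ideal.ncard_primesOver_mul_ramificationIdxIn_mul_inertiaDegIn
          v.asIdeal (𝓞 F) Gal(F/K)
        rw [IsGalois.card_aut_eq_finrank, finrankKF hKF] at hmain
        rw [locDeg, finrankKF hKF] at h1
        rcases (Nat.dvd_prime hp.out).mp (Dvd.intro _ hmain) with h2 | h2
        · rw [h2, Nat.div_one] at h1
          exact hp.out.one_lt.ne' h1
        · exact hPs h2
      · obtain ⟨φ, hφK, hφ⟩ := L00.Unr.exists_frob hPq hqA K
        refine ⟨φ, ⟨hφ.1, hφK⟩, ?_⟩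
        have h1 : L00.Unr.nrm A K = Ideal.absNorm P := by
          rw [L00.Unr.nrm, H02L.primeOf_of_primeUnder hAv, ← Submodule.cardQuot_apply,
            Ideal.absNorm_apply]
        rwa [h1] at hφ
  choose q v hv h using key
  haveI : Finite (ClassGroup (𝓞 K) →* Multiplicative (ZMod p)) := DFunLike.finite _
  have hfin : {q' | ∃ ρ : ClassGroup (𝓞 K) →* Multiplicative (ZMod p), ρ ≠ 1 ∧ q ρ = q'}.Finite :=
    (Set.finite_range q).subset fun q' ⟨ρ, _, h⟩ => ⟨ρ, h⟩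
  refine ⟨hfin.toFinset, fun q' hq' => ?_, fun S hS _ n => ?_⟩
  · obtain ⟨ρ, hρ, rfl⟩ := hfin.mem_toFinset.mp hq'
    exact (h ρ hρ).2.2
  · set Z := placesOver K S with hZ
    have htop : clSub p Z = ⊤ := by
      by_contra hne
      obtain ⟨ρ, hρ, hρZ⟩ := exists_rho p Z hne
      refine (h ρ hρ).1 (hρZ (v ρ) ⟨q ρ, hS (hfin.mem_toFinset.mpr ⟨ρ, hρ, rfl⟩), (h ρ hρ).2.1⟩
        (hv ρ))
    obtain ⟨I, hI⟩ := exists_ideal n
    have hI' : I ∈ clSub p Z := by rw [htop]; trivial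
    obtain ⟨c, hc⟩ := hI'
    refine ⟨c, fun w hw => ?_⟩
    rw [← hI w]
    exact hc w fun ⟨q', hq', hm⟩ => hw q' hq' hm

end Fermat.Agent.CFT
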