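import Fermat.Agent.CFT.UnrFin
import Fermat.Agent.CC.LocInv

/-!
# The Hasse principle for `H²(G_{K,S}, μ_p)`
-/

set_option autoImplicit false
set_option linter.unusedSectionVars false
set_option linter.style.haveILetI false
set_option linter.unusedVariables false
set_option maxHeartbeats 400000

open scoped Classical Pointwise

noncomputable section

namespace Fermat.Agent.CFT

open Module NumberField IsDedekindDomain WithZero
open Fermat.Agent.CC
open Fermat.Agent.LF (DK ZK)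

theorem DK_le_fix (A : ValuationSubring Qb) (K : IntermediateField ℚ Qb) :
    DK A K ≤ K.fixingSubgroup := inf_le_right

/-- continuity of `D_A ∩ G_K → G_{K,S}` -/
theorem contLocS (S : Finset Nat.Primes) (A : ValuationSubring Qb) (K : IntermediateField ℚ Qb) :
    Lev.Cont (Subgroup.inclusion (DK_le_fix A K)) (lev.sub (DK A K))
      ((levS S).sub K.fixingSubgroup) := by
  rintro U ⟨V, hV, hVU⟩
  exact ⟨V, lev_isOpen_of_levS hV, fun x hx => hVU hx⟩

/-- localisation of classes unramified outside `S` -/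
def locS (p : ℕ) (S : Finset Nat.Primes) (A : ValuationSubring Qb) (K : IntermediateField ℚ Qb) :
    H2 ((levS S).sub K.fixingSubgroup) (TorP p (UL Qb)) →+
      H2 (lev.sub (DK A K)) (TorP p (UL Qb)) :=
  H2map (Subgroup.inclusion (DK_le_fix A K)) (contLocS S A K) (AddMonoidHom.id _)
    (fun _ _ => rfl)

/-- the value in `Qb` -/
def vl {p : ℕ} (m : TorP p (UL Qb)) : Qb := (TorP.incl p (UL Qb) m).val

theorem vl_add {p : ℕ} (m m' : TorP p (UL Qb)) : vl (m + m') = vl m * vl m' := by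
  rw [vl, map_add]; rfl

theorem vl_zero {p : ℕ} : vl (0 : TorP p (UL Qb)) = 1 := by
  rw [vl, map_zero]; rfl

theorem vl_pow {p : ℕ} (m : TorP p (UL Qb)) : vl m ^ p = 1 := by
  have := congrArg UL.val (TorP.incl_mem m)
  rwa [UL.val_nsmul, UL.val_zero] at this

theorem vl_inj {p : ℕ} {m m' : TorP p (UL Qb)} (h : vl m = vl m') : m = m' :=
  TorP.incl_injective (UL.ext h)

theorem vl_ne {p : ℕ} (m : TorP p (UL Qb)) : vl m ≠ 0 := UL.val_ne_zero _

theorem mem_fix_adjoin {σ : GQ} {ζ : Qb} (h : σ ζ = ζ) :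
    σ ∈ (IntermediateField.adjoin ℚ {ζ}).fixingSubgroup := by
  rw [IntermediateField.mem_fixingSubgroup_iff]
  intro x hx
  have h2 : IntermediateField.adjoin ℚ {ζ} ≤
      IntermediateField.fixedField (Subgroup.zpowers σ) := by
    rw [IntermediateField.adjoin_simple_le_iff, IntermediateField.mem_fixedField_iff]
    rintro f hf
    obtain ⟨k, rfl⟩ := Subgroup.mem_zpowers_iff.mp hf
    have h3 : σ ∈ MulAction.stabilizer GQ ζ := h
    exact (MulAction.stabilizer GQ ζ).zpow_mem h3 k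
  exact (IntermediateField.mem_fixedField_iff _ _).mp (h2 hx) σ (Subgroup.mem_zpowers σ)

section Loc

variable {A : ValuationSubring Qb} {q p : ℕ}

theorem not_dvd_of_ne (hq : q.Prime) (hp : p.Prime) (hqp : q ≠ p) : ¬ q ∣ p :=
  fun h => hqp ((Nat.prime_dvd_prime_iff_eq hq hp).mp h)

theorem inertia_smul (hq : q.Prime) (hp : p.Prime) (hqp : q ≠ p) (hA : A.LiesOverPrime q)
    {σ : GQ} (hσ : σ ∈ A.inertiaSubgroupIn ℚ) (m : TorP p (UL Qb)) : σ • m = m := by
  apply vl_inj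
  exact H05.inertia_apply_rootOfUnity (m := p) hq hA (not_dvd_of_ne hq hp hqp) hσ (vl_pow m)

/-- `μ_p` is unramified outside `p` -/
theorem smooth_levS (hp : p.Prime) (S : Finset Nat.Primes) (hpS : (⟨p, hp⟩ : Nat.Primes) ∈ S) :
    (levS S).Smooth (TorP p (UL Qb)) := by
  intro m
  have hint : IsIntegral ℚ (vl m) := Algebra.IsIntegral.isIntegral _
  haveI : FiniteDimensional ℚ (IntermediateField.adjoin ℚ {vl m}) :=
    IntermediateField.adjoin.finiteDimensional hint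
  refine ⟨(IntermediateField.adjoin ℚ {vl m}).fixingSubgroup, ⟨_, ⟨inferInstance, ?_⟩, le_rfl⟩, ?_⟩
  · intro q hq A hA σ hσ
    apply mem_fix_adjoin
    have hqp : (q : ℕ) ≠ p := fun h => hq (by
      have : q = ⟨p, hp⟩ := Subtype.ext h
      rwa [this])
    exact H05.inertia_apply_rootOfUnity (m := p) q.2 hA (not_dvd_of_ne q.2 hp hqp) hσ (vl_pow m)
  · intro s hs
    apply vl_inj
    exact (IntermediateField.mem_fixingSubgroup_iff _ _).mp hs _
      (IntermediateField.mem_adjoin_simple_self ℚ _)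

/-- roots of units are unramified -/
theorem inertia_root (hq : q.Prime) (hp : p.Prime) (hqp : q ≠ p) (hA : A.LiesOverPrime q)
    {u υ : Qb} (hu : A.valuation u = 1) (hυ : υ ^ p = u) {σ : GQ}
    (hσ : σ ∈ A.inertiaSubgroupIn ℚ) (hσu : σ u = u) : σ υ = υ := by
  have hu0 : u ≠ 0 := by
    rintro rfl
    rw [map_zero] at hu
    exact zero_ne_one hu
  have hυ0 : υ ≠ 0 := by
    rintro rfl
    rw [zero_pow hp.ne_zero] at hυ
    exact hu0 hυ.symm
  have h1 : A.valuation υ = 1 := by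
    have h2 : A.valuation υ ^ p = 1 := by rw [← map_pow, hυ, hu]
    rcases lt_trichotomy (A.valuation υ) 1 with h | h | h
    · exact absurd h2 (pow_lt_one₀ zero_le h hp.ne_zero).ne
    · exact h
    · exact absurd h2 (one_lt_pow₀ h hp.ne_zero).ne'
  have hυA : υ ∈ A := (A.valuation_le_one_iff _).mp h1.le
  have hυA' : υ⁻¹ ∈ A := (A.valuation_le_one_iff _).mp (by rw [map_inv₀, h1, inv_one])
  have h3 : σ υ * υ⁻¹ = 1 := by
    refine H05.rootsOfUnity_eq_of_residue_eq hq hA (not_dvd_of_ne hq hp hqp) (m := p) ?_ (one_pow _) ?_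
    · rw [mul_pow, ← map_pow, hυ, hσu, inv_pow, hυ, mul_inv_cancel₀ hu0]
    · have h4 : σ υ - υ ∈ A.nonunits := ((H09.mem_inertia_iff A σ).mp hσ).2 _ hυA
      have h5 : σ υ * υ⁻¹ - 1 = (σ υ - υ) * υ⁻¹ := by
        rw [sub_mul, mul_inv_cancel₀ hυ0]
      rw [h5]
      exact mul_mem_nonunits h4 hυA'
  exact (mul_inv_eq_one₀ hυ0).mp h3

end Loc

section Ord

variable {A : ValuationSubring Qb} {q p : ℕ} {K : IntermediateField ℚ Qb} [NumberField K]
  {v : HeightOneSpectrum (𝓞 K)}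

theorem val_le_one_iff' (hv : PrimeUnder A K v) (x : Kˣ) :
    A.valuation ((x : K) : Qb) ≤ 1 ↔ 0 ≤ ordv v x := by
  rw [A.valuation_le_one_iff, hv, valuation_le_one_iff]

theorem val_eq_one_iff' (hv : PrimeUnder A K v) (x : Kˣ) :
    A.valuation ((x : K) : Qb) = 1 ↔ ordv v x = 0 := by
  have h1 := val_le_one_iff' hv x
  have h2 := val_le_one_iff' hv x⁻¹
  rw [ordv_inv] at h2
  have h3 : (((x⁻¹ : Kˣ) : K) : Qb) = ((x : K) : Qb)⁻¹ := by
    rw [Units.val_inv_eq_inv_val]; rfl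
  have hx0 : ((x : K) : Qb) ≠ 0 := by exact_mod_cast x.ne_zero
  have hpos : 0 < A.valuation ((x : K) : Qb) := zero_lt_iff.mpr ((map_ne_zero _).mpr hx0)
  rw [h3, map_inv₀, inv_le_one₀ hpos] at h2
  constructor
  · intro h
    have := h1.mp h.le
    have := h2.mp h.ge
    omega
  · intro h
    exact le_antisymm (h1.mpr (by omega)) (h2.mpr (by omega))

theorem val_div (x y : Kˣ) (n : ℤ) :
    (((x / y ^ n : Kˣ) : K) : Qb) = ((x : K) : Qb) / ((y : K) : Qb) ^ n := by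
  rw [Units.val_div_eq_div_val, Units.val_zpow_eq_zpow_val]
  push_cast
  rfl

/-- a uniformizer -/
theorem exists_unif' (hq : q.Prime) (hA : A.LiesOverPrime q) (hv : PrimeUnder A K v) :
    ∃ ϖ : Kˣ, ordv v ϖ = 1 ∧ ∀ z : Qb, z ≠ 0 → (∀ σ ∈ A.inertiaSubgroupIn ℚ ⊓ K.fixingSubgroup,
      σ z = z) → ∃ n : ℤ, A.valuation z = A.valuation ((ϖ : K) : Qb) ^ n := by
  have hgal := H51.isGalois_Qbar
  obtain ⟨π, hπK, hπ0, hπ1, hπ⟩ := L00.Unr.exists_uniformizer hq hA K
  have hπ0' : (⟨π, hπK⟩ : K) ≠ 0 := fun h => hπ0 (congrArg Subtype.val h)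
  set ϖ : Kˣ := Units.mk0 ⟨π, hπK⟩ hπ0' with hϖ
  obtain ⟨t, ht⟩ := HeightOneSpectrum.valuation_exists_uniformizer K v
  have ht0 : t ≠ 0 := by
    rintro rfl
    rw [map_zero] at ht
    exact zero_ne_coe ht
  set τ : Kˣ := Units.mk0 t ht0 with hτ
  have hτ1 : ordv v τ = 1 := by
    have h1 : v.valuation K t = exp (-(ordv v τ)) := valuation_eq v τ
    rw [ht, exp_inj] at h1
    omega
  obtain ⟨n, hn⟩ := hπ (t : Qb) (by exact_mod_cast ht0) (fun σ hσ =>
    (IntermediateField.mem_fixingSubgroup_iff K σ).mp hσ.2 _ t.2)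
  have hA0 : A.valuation π ≠ 0 := (map_ne_zero _).mpr hπ0
  have h2 : ordv v (τ / ϖ ^ n) = 0 := by
    rw [← val_eq_one_iff' hv, val_div, map_div₀, map_zpow₀]
    change A.valuation (t : Qb) / A.valuation π ^ n = 1
    rw [hn, div_self (zpow_ne_zero _ hA0)]
  rw [ordv_div, ordv_zpow, hτ1] at h2
  have h3 : 0 ≤ ordv v ϖ := (val_le_one_iff' hv ϖ).mp hπ1.le
  have h4 : ordv v ϖ ∣ 1 := ⟨n, by rw [mul_comm]; omega⟩
  refine ⟨ϖ, Int.eq_one_of_dvd_one h3 h4, hπ⟩

/-- Kummer cocycles on inertia -/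
theorem kum_inertia (hq : q.Prime) (hp : p.Prime) (hqp : q ≠ p) (hA : A.LiesOverPrime q)
    (hv : PrimeUnder A K v) {ϖ c : Kˣ} (hϖ : ordv v ϖ = 1) {π b : Qb}
    (hπ : π ^ p = ((ϖ : K) : Qb)) (hb : b ^ p = ((c : K) : Qb)) {σ : GQ}
    (hσ : σ ∈ A.inertiaSubgroupIn ℚ) (hσK : σ ∈ K.fixingSubgroup) :
    σ b / b = (σ π / π) ^ (ordv v c) := by
  have hπ0 : π ≠ 0 := by
    rintro rfl
    rw [zero_pow hp.ne_zero] at hπ
    exact ϖ.ne_zero (Subtype.ext hπ.symm)
  have hb0 : b ≠ 0 := by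
    rintro rfl
    rw [zero_pow hp.ne_zero] at hb
    exact c.ne_zero (Subtype.ext hb.symm)
  set n := ordv v c with hn
  have h1 : ordv v (c / ϖ ^ n) = 0 := by
    rw [ordv_div, ordv_zpow, hϖ, ← hn]; ring
  have h2 := (val_eq_one_iff' hv _).mpr h1
  have h3 : σ (b / π ^ n) = b / π ^ n := by
    refine inertia_root hq hp hqp hA h2 (υ := b / π ^ n) ?_ hσ ?_
    · rw [div_pow, hb, val_div, ← hπ, ← zpow_natCast, ← zpow_mul, ← zpow_natCast, ← zpow_mul,
        mul_comm]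
    · exact (IntermediateField.mem_fixingSubgroup_iff K σ).mp hσK _ (Subtype.mem _)
  rw [map_div₀, map_zpow₀] at h3
  have hσπ : σ π ≠ 0 := (map_ne_zero _).mpr hπ0
  rw [div_eq_div_iff (zpow_ne_zero _ hσπ) (zpow_ne_zero _ hπ0)] at h3
  rw [div_zpow, div_eq_div_iff hb0 (zpow_ne_zero _ hπ0), h3, mul_comm]

theorem val_natCast_lt (v : HeightOneSpectrum (𝓞 K)) (n : ℕ) :
    v.valuation K (n : K) < 1 ↔ (n : 𝓞 K) ∈ v.asIdeal := by
  have h4 : v.valuation K ((n : 𝓞 K) : K) < 1 ↔ (n : 𝓞 K) ∈ v.asIdeal :=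
    v.valuation_lt_one_iff_mem _
  have h3 : ((n : 𝓞 K) : K) = (n : K) := by push_cast; rfl
  rwa [h3] at h4

theorem natCast_mem_iff (hv : PrimeUnder A K v) (n : ℕ) :
    (n : 𝓞 K) ∈ v.asIdeal ↔ (n : Qb) ∈ A.nonunits := by
  have h := H02L.primeUnder_nonunits hv (n : K)
  have h2 : (((n : K)) : Qb) = (n : Qb) := by push_cast; rfl
  rw [h2] at h
  rw [h, val_natCast_lt]

theorem finite_over (n : ℕ) (hn : n ≠ 0) :
    {v : HeightOneSpectrum (𝓞 K) | (n : 𝓞 K) ∈ v.asIdeal}.Finite := by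
  have hn0 : (n : K) ≠ 0 := Nat.cast_ne_zero.mpr hn
  refine (ordv_finite (Units.mk0 (n : K) hn0)).subset ?_
  intro v hv h0
  have hv' : (n : 𝓞 K) ∈ v.asIdeal := hv
  rw [← valuation_eq_one_iff, Units.val_mk0] at h0
  rw [← val_natCast_lt, h0] at hv'
  exact lt_irrefl _ hv'

end Ord

section Theta

variable {G : Type*} [Group G] {M : Type*} [AddCommGroup M] [DistribMulAction G M]
  {f : G → G → M} (hf : IsCocycle2 f) {V : Subgroup G}
  (hV : ∀ g h : G, ∀ s ∈ V, ∀ t ∈ V, f (g * s) (h * t) = f g h)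
  (hVM : ∀ s ∈ V, ∀ m : M, s • m = m) {ψ : G → M} (hψ : ∀ g h, f g h = d1 ψ g h)

include hψ in
theorem psi_one : ψ 1 = f 1 1 := by
  rw [hψ, d1, one_smul, mul_one, sub_self, zero_add]

include hf hV hψ in
theorem psi_mul_right (g s : G) (hs : s ∈ V) : ψ (g * s) = ψ g + g • (ψ s - f 1 1) := by
  have h1 : f g s = g • f 1 1 := by
    have h2 := hf g 1 1
    rw [mul_one, mul_one, add_left_inj] at h2
    have h3 := hV g 1 1 (one_mem _) s hs
    rw [mul_one, one_mul] at h3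
    rw [h3, h2]
  rw [hψ, d1] at h1
  rw [smul_sub, ← h1]
  abel

include hf hV hVM hψ in
theorem psi_mul_left (s g : G) (hs : s ∈ V) : ψ (s * g) = ψ g + (ψ s - f 1 1) := by
  have h1 : f s g = f 1 1 := by
    have h2 := hf 1 1 g
    rw [one_smul, mul_one, one_mul, add_right_inj] at h2
    have h3 := hV 1 g s hs 1 (one_mem _)
    rw [mul_one, one_mul] at h3
    rw [h3, h2]
  rw [← h1, hψ, d1, hVM s hs]
  abel

include hf hV hVM hψ in
theorem theta_mul (s t : G) (hs : s ∈ V) (ht : t ∈ V) :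
    ψ (s * t) - f 1 1 = (ψ s - f 1 1) + (ψ t - f 1 1) := by
  rw [psi_mul_left hf hV hVM hψ s t hs]
  abel

include hf hV hVM hψ in
theorem theta_conj (hn : V.Normal) (g s : G) (hs : s ∈ V) :
    ψ (g * s * g⁻¹) - f 1 1 = g • (ψ s - f 1 1) := by
  have h1 := psi_mul_left hf hV hVM hψ (g * s * g⁻¹) g (hn.conj_mem s hs g)
  have h2 := psi_mul_right hf hV hψ g s hs
  rw [inv_mul_cancel_right, h2, add_right_inj] at h1
  exact h1.symm

end Theta

end Fermat.Agent.CFT
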