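import Fermat.Agent.CFT.Ext

/-!
# Decomposition groups and local degrees
-/

set_option autoImplicit false
set_option linter.unusedSectionVars false
set_option linter.style.haveILetI false
set_option linter.unusedVariables false

open scoped Classical nonZeroDivisors Pointwise

namespace Fermat.Agent.CFT

open Module NumberField IsDedekindDomain WithZero
open Fermat.Agent.CC (Qb GQ CycExt IsLocNorm PrimeUnder)
open Fermat.Agent.LF (DK ZK)

section

variable {K F : IntermediateField ℚ Qb} {p : ℕ} (hC : CycExt p K F)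
  {A : ValuationSubring Qb} {q : ℕ}

theorem primeUnder_unique {K : IntermediateField ℚ Qb} [NumberField K]
    {v v' : HeightOneSpectrum (𝓞 K)} (h : PrimeUnder A K v) (h' : PrimeUnder A K v') : v = v' := by
  apply HeightOneSpectrum.ext
  rw [← H02L.primeOf_of_primeUnder h, ← H02L.primeOf_of_primeUnder h']

theorem primeUnder_under [NumberField K] [NumberField F] [Algebra K F] [IsScalarTower K F Qb]
    {P : HeightOneSpectrum (𝓞 F)} (hP : PrimeUnder A F P) : PrimeUnder A K (under K F P) := by
  intro x
  have h1 := hP (algebraMap K F x)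
  have h2 : ((algebraMap K F x : F) : Qb) = (x : Qb) := by
    have := (IsScalarTower.algebraMap_apply K F Qb x).symm
    exact this
  rw [h2] at h1
  rw [h1]
  by_cases h0 : x = 0
  · subst h0
    simp
  · have h3 := valuation_eq P (incl K F (Units.mk0 x h0))
    rw [incl_coe, Units.val_mk0] at h3
    have h4 := valuation_eq (under K F P) (Units.mk0 x h0)
    rw [Units.val_mk0] at h4
    rw [h3, h4, ← exp_zero, exp_le_exp, exp_le_exp, ordv_incl]
    have h5 : (0 : ℤ) < ramE K P := by exact_mod_cast ramE_pos P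
    constructor
    · intro h
      have : (0 : ℤ) ≤ ramE K P * ordv (under K F P) (Units.mk0 x h0) := by omega
      have := nonneg_of_mul_nonneg_right this h5
      omega
    · intro h
      have : (0 : ℤ) ≤ ramE K P * ordv (under K F P) (Units.mk0 x h0) :=
        mul_nonneg h5.le (by omega)
      omega

theorem act_eq_of_dec (hC : CycExt p K F) {t : GQ} (ht : t ∈ DK A K) :
    letI := algKF hC.le; letI := numK hC; letI := numF hC
    ∀ P : HeightOneSpectrum (𝓞 F), PrimeUnder A F P → act (rs hC ⟨t, ht.2⟩) P = P := by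
  letI := algKF hC.le
  haveI := numK hC
  haveI := numF hC
  haveI := galKF hC
  intro P hP
  refine primeUnder_unique (A := A) ?_ hP
  intro x
  have h1 := val_gact P (rs hC ⟨t, ht.2⟩)⁻¹ x
  rw [inv_inv] at h1
  rw [← h1, ← hP]
  have h2 : (((rs hC ⟨t, ht.2⟩)⁻¹ x : F) : Qb) = t⁻¹ (x : Qb) := by
    rw [← map_inv]
    rfl
  rw [h2]
  have h3 := (LF.mem_dec_iff A t⁻¹).mp (inv_mem ht.1) (x : Qb)
  exact h3.symm

/-- nonsplit places -/
theorem locDeg_of_nonsplit [Fact p.Prime] (hC : CycExt p K F) (hq : q.Prime)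
    (hA : A.LiesOverPrime q) {t : GQ} (ht : t ∈ DK A K) (htF : t ∉ F.fixingSubgroup) :
    letI := algKF hC.le; letI := numK hC; letI := numF hC
    ∀ v : HeightOneSpectrum (𝓞 K), PrimeUnder A K v → locDeg K F v = p := by
  letI := algKF hC.le
  haveI := towKF hC.le
  haveI := numK hC
  haveI := numF hC
  haveI := galKF hC
  intro v hv
  set P := H02L.plc hq hA F with hPdef
  have hP : PrimeUnder A F P := H02L.primeUnder_plc hq hA F
  have huP : under K F P = v := primeUnder_unique (primeUnder_under hP) hv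
  have hact := act_eq_of_dec hC ht P hP
  have hσ := gen_rs hC ⟨t, ht.2⟩ htF
  have hactk : ∀ k : ℕ, act (rs hC ⟨t, ht.2⟩ ^ k) P = P := by
    intro k
    induction k with
    | zero => rw [pow_zero, act_one]
    | succ k ih => rw [pow_succ, act_mul, hact, ih]
  have hfib : under K F ⁻¹' {v} = {P} := by
    ext Q
    constructor
    · intro hQ
      have hQ' : under K F Q = v := hQ
      obtain ⟨k, hk⟩ := exists_pow_act _ hσ P Q (by rw [huP, hQ'])
      rw [hactk] at hk
      exact hk.symm
    · rintro rfl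
      exact huP
  have e2 : (under K F ⁻¹' {v}).ncard = (v.asIdeal.primesOver (𝓞 F)).ncard := by
    rw [← Nat.card_coe_set_eq, ← Nat.card_coe_set_eq]
    exact Nat.card_congr (fiberEquiv K F v)
  rw [locDeg, ← e2, hfib, Set.ncard_singleton, Nat.div_one, finrankKF hC]

/-- split places -/
theorem locDeg_of_split [Fact p.Prime] (hC : CycExt p K F) (hq : q.Prime)
    (hA : A.LiesOverPrime q) (hs : DK A K ≤ F.fixingSubgroup) :
    letI := algKF hC.le; letI := numK hC; letI := numF hC
    ∀ v : HeightOneSpectrum (𝓞 K), PrimeUnder A K v → locDeg K F v = 1 := by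
  have hp : p.Prime := Fact.out
  letI := algKF hC.le
  haveI := towKF hC.le
  haveI := numK hC
  haveI := numF hC
  haveI := galKF hC
  intro v hv
  set P := H02L.plc hq hA F with hPdef
  have hP : PrimeUnder A F P := H02L.primeUnder_plc hq hA F
  have huP : under K F P = v := primeUnder_unique (primeUnder_under hP) hv
  -- an element outside
  obtain ⟨s, hsK, hsF⟩ : ∃ s ∈ K.fixingSubgroup, s ∉ F.fixingSubgroup := by
    by_contra hcon
    push Not at hcon
    have h1 := hC.idx
    rw [Subgroup.relIndex_eq_one.mpr hcon] at h1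
    exact hp.one_lt.ne h1
  have hσ := gen_rs hC ⟨s, hsK⟩ hsF
  set σ := rs hC ⟨s, hsK⟩ with hσdef
  have hord : orderOf σ = p := by rw [orderOf_gen σ hσ, finrankKF hC]
  -- distinct primes
  have hinj : ∀ i < p, ∀ j < p, i ≤ j → act (σ ^ i) P = act (σ ^ j) P → i = j := by
    intro i hi j hj hij h
    have h1 : act (σ ^ (j - i)) P = P := by
      have h2 : σ ^ j = σ ^ i * σ ^ (j - i) := by rw [← pow_add, Nat.add_sub_cancel' hij]
      rw [h2, act_mul] at h
      have h3 := congrArg (act (σ ^ i)⁻¹) h
      rw [← act_mul, inv_mul_cancel, act_one, ← act_mul, inv_mul_cancel, act_one] at h3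
      exact h3.symm
    set g : K.fixingSubgroup := ⟨s, hsK⟩ ^ (j - i) with hg
    have hgσ : rs hC g = σ ^ (j - i) := by rw [hg, map_pow]
    have hPg : PrimeUnder ((g : GQ) • A) F P := by
      intro x
      rw [ValuationSubring.mem_pointwise_smul_iff_inv_smul_mem]
      have h4 : (g : GQ)⁻¹ • (x : Qb) = (((σ ^ (j - i))⁻¹ x : F) : Qb) := by
        rw [← hgσ, ← map_inv]
        rfl
      rw [h4, hP, val_gact, inv_inv, h1]
    obtain ⟨h, hhF, hhA⟩ := H02L.exists_conj hq hA hP hPg
    have h5 : h⁻¹ * (g : GQ) ∈ DK A K := by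
      refine ⟨?_, K.fixingSubgroup.mul_mem (K.fixingSubgroup.inv_mem (fix_le hC.le hhF)) g.2⟩
      change (h⁻¹ * (g : GQ)) • A = A
      rw [mul_smul, ← hhA, inv_smul_smul]
    have h6 : (g : GQ) ∈ F.fixingSubgroup := by
      have := mul_mem hhF (hs h5)
      rwa [mul_inv_cancel_left] at this
    have h7 : σ ^ (j - i) = 1 := by
      rw [← hgσ, ← MonoidHom.mem_ker, ker_rs, Subgroup.mem_subgroupOf]
      exact h6
    have h8 : p ∣ j - i := by rw [← hord]; exact orderOf_dvd_of_pow_eq_one h7
    have h9 : j - i = 0 := Nat.eq_zero_of_dvd_of_lt h8 (by omega)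
    omega
  have hcard : p ≤ (under K F ⁻¹' {v}).ncard := by
    have h1 : ((Finset.range p).image fun i => act (σ ^ i) P).card = p := by
      rw [Finset.card_image_of_injOn, Finset.card_range]
      intro i hi j hj h
      rw [Finset.mem_coe, Finset.mem_range] at hi hj
      rcases le_total i j with h' | h'
      · exact hinj i hi j hj h' h
      · exact (hinj j hj i hi h' h.symm).symm
    rw [← h1, ← Set.ncard_coe_finset]
    refine Set.ncard_le_ncard ?_ (fiber_finite v)
    intro Q hQ
    rw [Finset.mem_coe, Finset.mem_image] at hQ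
    obtain ⟨i, _, rfl⟩ := hQ
    change under K F (act (σ ^ i) P) = v
    rw [under_act, huP]
  have e2 : (under K F ⁻¹' {v}).ncard = (v.asIdeal.primesOver (𝓞 F)).ncard := by
    rw [← Nat.card_coe_set_eq, ← Nat.card_coe_set_eq]
    exact Nat.card_congr (fiberEquiv K F v)
  rw [e2] at hcard
  haveI := v.isPrime
  have hmain := Ideal.ncard_primesOver_mul_ramificationIdxIn_mul_inertiaDegIn
    v.asIdeal (𝓞 F) Gal(F/K)
  rw [IsGalois.card_aut_eq_finrank, finrankKF hC] at hmain
  have h3 : (v.asIdeal.primesOver (𝓞 F)).ncard = p :=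
    le_antisymm (Nat.le_of_dvd hp.pos (Dvd.intro _ hmain)) hcard
  rw [locDeg, h3, finrankKF hC]
  exact Nat.div_self hp.pos

end

end Fermat.Agent.CFT
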