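import Fermat.Agent.CFT.FirstIneq

/-!
# Closures of norm groups
-/

set_option autoImplicit false
set_option linter.unusedSectionVars false
set_option linter.style.haveILetI false
set_option linter.unusedVariables false

open scoped Classical nonZeroDivisors

namespace Fermat.Agent.CFT

open Module NumberField IsDedekindDomain WithZero

theorem index_iInf_of_approx {G ι : Type*} [CommGroup G] [Fintype ι] (L : ι → Subgroup G)
    (h : ∀ a : ι → G, ∃ x, ∀ i, x / a i ∈ L i) : (⨅ i, L i).index = ∏ i, (L i).index := by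
  set f : G →* ((i : ι) → G ⧸ L i) := MonoidHom.pi fun i => QuotientGroup.mk' (L i) with hf
  have hker : f.ker = ⨅ i, L i := by
    ext x
    rw [MonoidHom.mem_ker, Subgroup.mem_iInf]
    constructor
    · intro h i
      exact (QuotientGroup.eq_one_iff x).mp (congrFun h i)
    · intro h
      funext i
      exact (QuotientGroup.eq_one_iff x).mpr (h i)
  have hsurj : Function.Surjective f := by
    intro g
    choose a ha using fun i => QuotientGroup.mk_surjective (g i)
    obtain ⟨x, hx⟩ := h a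
    refine ⟨x, ?_⟩
    funext i
    rw [← ha i]
    change (QuotientGroup.mk x : G ⧸ L i) = QuotientGroup.mk (a i)
    rw [QuotientGroup.eq]
    have h2 := (L i).inv_mem (hx i)
    rwa [inv_div, div_eq_inv_mul] at h2
  rw [← hker]
  refine (Subgroup.index_ker f).trans ?_
  rw [MonoidHom.range_eq_top.mpr hsurj, Subgroup.card_top, Nat.card_pi]
  rfl

section units

variable {K : Type*} [Field K] [NumberField K]

theorem exp_le_one_of (m : ℕ) : exp (-((m : ℤ) + 1)) < (1 : ℤᵐ⁰) := by
  rw [← exp_zero, exp_lt_exp]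
  omega

/-- principal units -/
def Uw (w : HeightOneSpectrum (𝓞 K)) (m : ℕ) : Subgroup Kˣ where
  carrier := {u | w.valuation K ((u : K) - 1) ≤ exp (-((m : ℤ) + 1))}
  one_mem' := by
    change w.valuation K (((1 : Kˣ) : K) - 1) ≤ _
    rw [Units.val_one, sub_self, map_zero]
    exact zero_le
  mul_mem' {a b} ha hb := by
    have ha' : w.valuation K ((a : K) - 1) ≤ exp (-((m : ℤ) + 1)) := ha
    have hb' : w.valuation K ((b : K) - 1) ≤ exp (-((m : ℤ) + 1)) := hb
    have e : ((a * b : Kˣ) : K) - 1 = ((a : K) - 1) * (b : K) + ((b : K) - 1) := by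
      rw [Units.val_mul]
      ring
    have hb1 : w.valuation K (b : K) ≤ 1 := by
      have : (b : K) = ((b : K) - 1) + 1 := by ring
      rw [this]
      refine (Valuation.map_add _ _ _).trans (max_le (hb'.trans (exp_le_one_of m).le) ?_)
      rw [map_one]
    change w.valuation K (((a * b : Kˣ) : K) - 1) ≤ _
    rw [e]
    refine (Valuation.map_add _ _ _).trans (max_le ?_ hb')
    rw [map_mul]
    calc w.valuation K ((a : K) - 1) * w.valuation K (b : K)
        ≤ exp (-((m : ℤ) + 1)) * 1 := mul_le_mul' ha' hb1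
      _ = _ := mul_one _
  inv_mem' {a} ha := by
    have ha' : w.valuation K ((a : K) - 1) ≤ exp (-((m : ℤ) + 1)) := ha
    have ha1 : w.valuation K (a : K) = 1 := by
      have h1 : w.valuation K (((a : K) - 1) + 1) = w.valuation K (1 : K) :=
        Valuation.map_add_eq_of_lt_right _ (by
          rw [map_one]
          exact ha'.trans_lt (exp_le_one_of m))
      rw [map_one, sub_add_cancel] at h1
      exact h1
    have e : ((a⁻¹ : Kˣ) : K) - 1 = -(((a : K) - 1) * (a : K)⁻¹) := by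
      rw [Units.val_inv_eq_inv_val]
      have : (a : K) ≠ 0 := a.ne_zero
      field_simp
      ring
    change w.valuation K (((a⁻¹ : Kˣ) : K) - 1) ≤ _
    rw [e, Valuation.map_neg, map_mul, map_inv₀, ha1, inv_one, mul_one]
    exact ha'

theorem mem_Uw {w : HeightOneSpectrum (𝓞 K)} {m : ℕ} {u : Kˣ} :
    u ∈ Uw w m ↔ w.valuation K ((u : K) - 1) ≤ exp (-((m : ℤ) + 1)) := Iff.rfl

theorem Uw_antitone (w : HeightOneSpectrum (𝓞 K)) {m m' : ℕ} (h : m ≤ m') : Uw w m' ≤ Uw w m := by
  intro u hu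
  rw [mem_Uw] at hu ⊢
  refine hu.trans ?_
  rw [exp_le_exp]
  omega

theorem val_eq_one_of_Uw {w : HeightOneSpectrum (𝓞 K)} {m : ℕ} {u : Kˣ} (h : u ∈ Uw w m) :
    w.valuation K (u : K) = 1 := by
  have h1 : w.valuation K (((u : K) - 1) + 1) = w.valuation K (1 : K) :=
    Valuation.map_add_eq_of_lt_right _ (by
      rw [map_one]
      exact (mem_Uw.mp h).trans_lt (exp_le_one_of m))
  rw [map_one, sub_add_cancel] at h1
  exact h1

theorem ordv_eq_zero_of_Uw {w : HeightOneSpectrum (𝓞 K)} {m : ℕ} {u : Kˣ} (h : u ∈ Uw w m) :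
    ordv w u = 0 := by
  rw [← valuation_eq_one_iff]
  exact val_eq_one_of_Uw h

/-- truncated binomial formula -/
theorem one_add_pow_val (w : HeightOneSpectrum (𝓞 K)) (t : K) (ht : w.valuation K t ≤ 1) (n : ℕ) :
    ∃ r : K, w.valuation K r ≤ 1 ∧ (1 + t) ^ n = 1 + n * t + t ^ 2 * r := by
  induction n with
  | zero => exact ⟨0, by rw [map_zero]; exact zero_le, by simp⟩
  | succ n ih =>
    obtain ⟨r, hr, e⟩ := ih
    refine ⟨n + r + t * r, ?_, ?_⟩
    · have hn : w.valuation K (n : K) ≤ 1 := by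
        have := w.valuation_le_one (K := K) (n : 𝓞 K)
        simpa using this
      refine (Valuation.map_add _ _ _).trans (max_le ((Valuation.map_add _ _ _).trans
        (max_le hn hr)) ?_)
      rw [map_mul]
      exact mul_le_one' ht hr
    · rw [pow_succ, e]
      push_cast
      ring

/-- one step of Newton's iteration -/
theorem Uw_le_sup (w : HeightOneSpectrum (𝓞 K)) (n : ℕ) (hn : n ≠ 0) :
    ∃ k0 : ℕ, ∀ k ≥ k0, Uw w k ≤ (powMonoidHom n : Kˣ →* Kˣ).range ⊔ Uw w (k + 1) := by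
  have hnK : (n : K) ≠ 0 := Nat.cast_ne_zero.mpr hn
  set nu : Kˣ := Units.mk0 (n : K) hnK with hnu
  have he0 : 0 ≤ ordv w nu := ordv_nonneg_of_int w nu (n : 𝓞 K) (by simp [hnu])
  obtain ⟨e, he⟩ := Int.eq_ofNat_of_zero_le he0
  have hval : w.valuation K (n : K) = exp (-(e : ℤ)) := by
    have := valuation_eq w nu
    rw [he] at this
    exact this
  refine ⟨2 * e, fun k hk u hu => ?_⟩
  have hu' := mem_Uw.mp hu
  set t : K := ((u : K) - 1) / n with ht
  have htv : w.valuation K t ≤ exp (-((k : ℤ) + 1 - e)) := by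
    rw [ht, map_div₀, hval, div_le_iff₀ exp_pos, ← exp_add]
    refine hu'.trans ?_
    rw [exp_le_exp]
    omega
  have ht1 : w.valuation K t ≤ 1 := by
    refine htv.trans ?_
    rw [← exp_zero, exp_le_exp]
    omega
  have ht1' : w.valuation K t < 1 := by
    refine htv.trans_lt ?_
    rw [← exp_zero, exp_lt_exp]
    omega
  obtain ⟨r, hr, hexp⟩ := one_add_pow_val w t ht1 n
  have hc1 : w.valuation K (1 + t) = 1 := by
    have h1 : w.valuation K (1 + t) = w.valuation K (1 : K) :=
      Valuation.map_add_eq_of_lt_left _ (by rw [map_one]; exact ht1')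
    rw [h1, map_one]
  have hc0 : 1 + t ≠ 0 := by
    intro h0
    rw [h0, map_zero] at hc1
    exact zero_ne_one hc1
  set c : Kˣ := Units.mk0 (1 + t) hc0 with hc
  have hcn : ((c ^ n : Kˣ) : K) = u + t ^ 2 * r := by
    rw [Units.val_pow_eq_pow_val, hc, Units.val_mk0, hexp, ht]
    field_simp
    ring
  have hmem : (c ^ n)⁻¹ * u ∈ Uw w (k + 1) := by
    have h3 : u⁻¹ * c ^ n ∈ Uw w (k + 1) := by
      rw [mem_Uw, Units.val_mul, hcn, Units.val_inv_eq_inv_val]
      have e2 : (u : K)⁻¹ * (u + t ^ 2 * r) - 1 = (u : K)⁻¹ * (t ^ 2 * r) := by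
        have : (u : K) ≠ 0 := u.ne_zero
        field_simp
        ring
      rw [e2, map_mul, map_inv₀, val_eq_one_of_Uw hu, inv_one, one_mul, map_mul, map_pow]
      refine (mul_le_of_le_one_right' hr).trans ?_
      refine (pow_le_pow_left₀ zero_le htv 2).trans ?_
      rw [← exp_nsmul, exp_le_exp]
      simp only [smul_neg, nsmul_eq_mul]
      push_cast
      omega
    have h4 := (Uw w (k + 1)).inv_mem h3
    rwa [mul_inv, inv_inv, mul_comm] at h4
  have : u = c ^ n * ((c ^ n)⁻¹ * u) := by group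
  rw [this]
  exact Subgroup.mul_mem_sup ⟨c, rfl⟩ hmem

theorem Uw_le_sup' (w : HeightOneSpectrum (𝓞 K)) (n : ℕ) (hn : n ≠ 0) :
    ∃ k0 : ℕ, ∀ m, Uw w k0 ≤ (powMonoidHom n : Kˣ →* Kˣ).range ⊔ Uw w m := by
  obtain ⟨k0, hk0⟩ := Uw_le_sup w n hn
  refine ⟨k0, fun m => ?_⟩
  rcases le_total m k0 with h | h
  · exact (Uw_antitone w h).trans le_sup_right
  · obtain ⟨j, rfl⟩ := Nat.exists_eq_add_of_le h
    induction j with
    | zero => exact le_sup_right
    | succ j ih =>
      refine (ih (by omega)).trans (sup_le le_sup_left ?_)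
      exact hk0 (k0 + j) (by omega)

/-- weak approximation -/
theorem weak_approx (S : Set (HeightOneSpectrum (𝓞 K))) [Fintype S] (a : S → Kˣ) (m : ℕ) :
    ∃ x : Kˣ, ∀ w : S, x / a w ∈ Uw w.1 m := by
  rcases isEmpty_or_nonempty S with hS | ⟨⟨w0⟩⟩
  · exact ⟨1, fun w => hS.elim w⟩
  choose α β y z hα hβ hyz using fun w : S => exists_frac (a w)
  -- common denominators
  set B : Kˣ := ∏ w, z w with hB
  have hγ : ∀ w : S, ∃ γ : 𝓞 K, (γ : K) = ((a w * B : Kˣ) : K) := by
    intro w
    refine ⟨α w * ∏ w' ∈ Finset.univ.erase w, β w', ?_⟩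
    have h1 : a w * B = y w * ∏ w' ∈ Finset.univ.erase w, z w' := by
      rw [hB, ← Finset.mul_prod_erase Finset.univ z (Finset.mem_univ w), hyz w]
      rw [← mul_assoc, div_mul_cancel]
    rw [h1, Units.val_mul, Units.coe_prod, ← hα w]
    have h2 : ∏ w' ∈ Finset.univ.erase w, (z w' : K) =
        ∏ w' ∈ Finset.univ.erase w, ((β w' : 𝓞 K) : K) :=
      Finset.prod_congr rfl fun w' _ => (hβ w').symm
    rw [h2]
    simp only [map_mul, map_prod]
  choose γ hγ using hγ
  have hord : ∀ w : S, 0 ≤ ordv w.1 (a w * B) := fun w => ordv_nonneg_of_int w.1 _ (γ w) (hγ w)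
  obtain ⟨x, hx⟩ := IsDedekindDomain.exists_forall_sub_mem_ideal (s := (Finset.univ : Finset S))
    (fun w => w.1.asIdeal) (fun w => m + 1 + (ordv w.1 (a w * B)).toNat)
    (fun w _ => w.1.prime) (fun w _ w' _ hne h => hne (Subtype.ext (HeightOneSpectrum.ext h)))
    (fun w => γ w.1)
  have hx' : ∀ w : S, w.1.valuation K ((x : K) - γ w) ≤
      exp (-((m : ℤ) + 1 + ordv w.1 (a w * B))) := by
    intro w
    have h1 := hx w (Finset.mem_univ w)
    rw [← HeightOneSpectrum.intValuation_le_pow_iff_mem] at h1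
    have h2 : w.1.valuation K ((x : K) - γ w) = w.1.intValuation (x - γ w) := by
      rw [← map_sub]
      exact w.1.valuation_of_algebraMap (x - γ w)
    rw [h2]
    refine h1.trans ?_
    rw [exp_le_exp]
    have := hord w
    push_cast
    omega
  -- `x ≠ 0`
  have hval : ∀ w : S, w.1.valuation K ((x : K) / γ w - 1) ≤ exp (-((m : ℤ) + 1)) := by
    intro w
    have hγ0 : (γ w : K) ≠ 0 := by rw [hγ w]; exact Units.ne_zero _
    have e1 : (x : K) / γ w - 1 = ((x : K) - γ w) / γ w := by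
      field_simp
    rw [e1, map_div₀, hγ w, valuation_eq, div_le_iff₀ exp_pos, ← exp_add, ← hγ w]
    refine (hx' w).trans ?_
    rw [exp_le_exp]
    omega
  have hx0 : (x : K) ≠ 0 := by
    intro h0
    have h1 := hval w0
    rw [h0, zero_div, zero_sub, Valuation.map_neg, map_one] at h1
    exact absurd (h1.trans_lt (exp_le_one_of m)) (lt_irrefl _)
  refine ⟨Units.mk0 (x : K) hx0 / B, fun w => ?_⟩
  rw [mem_Uw]
  have e2 : ((Units.mk0 (x : K) hx0 / B / a w : Kˣ) : K) = (x : K) / γ w := by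
    rw [hγ w]
    simp only [Units.val_div_eq_div_val, Units.val_mk0, Units.val_mul]
    rw [div_div, mul_comm]
  rw [e2]
  exact hval w

end units

section

variable {K F : Type} [Field K] [NumberField K] [Field F] [NumberField F] [Algebra K F]

/-- The `w`-adic closure of the norm group. -/
noncomputable def LN (F : Type) [Field F] [NumberField F] [Algebra K F]
    (w : HeightOneSpectrum (𝓞 K)) : Subgroup Kˣ := ⨅ m : ℕ, (NK K F).range ⊔ Uw w m

theorem mem_LN_iff {w : HeightOneSpectrum (𝓞 K)} {a : Kˣ} :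
    a ∈ LN F w ↔ ∀ m : ℕ, ∃ b : Fˣ, w.valuation K ((NK K F b : K) / a - 1) ≤ exp (-(m : ℤ)) := by
  rw [LN, Subgroup.mem_iInf]
  constructor
  · intro h m
    obtain ⟨_, ⟨b, rfl⟩, u, hu, hbu⟩ := Subgroup.mem_sup.mp (h m)
    refine ⟨b, ?_⟩
    have h1 : (NK K F b : K) / a = ((u⁻¹ : Kˣ) : K) := by
      rw [← hbu, ← Units.val_div_eq_div_val]
      congr 1
      rw [div_mul_cancel_left]
    rw [h1]
    have h2 := mem_Uw.mp ((Uw w m).inv_mem hu)
    refine h2.trans ?_
    rw [exp_le_exp]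
    omega
  · intro h m
    obtain ⟨b, hb⟩ := h (m + 1)
    have h1 : NK K F b / a ∈ Uw w m := by
      rw [mem_Uw, Units.val_div_eq_div_val]
      refine hb.trans ?_
      rw [exp_le_exp]
      push_cast
      omega
    have h2 := (Uw w m).inv_mem h1
    have e : a = NK K F b * (NK K F b / a)⁻¹ := by
      rw [inv_div, mul_div_cancel]
    rw [e]
    exact Subgroup.mul_mem_sup ⟨b, rfl⟩ h2

theorem NK_mem_LN (w : HeightOneSpectrum (𝓞 K)) (b : Fˣ) : NK K F b ∈ LN F w := by
  rw [LN, Subgroup.mem_iInf]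
  intro m
  exact (le_sup_left : (NK K F).range ≤ _) ⟨b, rfl⟩

/-- `LN w` is open -/
theorem exists_Uw_le_LN (w : HeightOneSpectrum (𝓞 K)) : ∃ m, Uw w m ≤ LN F w := by
  obtain ⟨k0, hk0⟩ := Uw_le_sup' w (finrank K F) (finrank_pos (R := K) (M := F)).ne'
  refine ⟨k0, ?_⟩
  rw [LN]
  refine le_iInf fun m => (hk0 m).trans (sup_le_sup_right ?_ _)
  rintro _ ⟨c, rfl⟩
  exact ⟨incl K F c, NK_incl c⟩

/-- the index of the intersection -/
theorem index_iInf_LN (S : Set (HeightOneSpectrum (𝓞 K))) [Fintype S] :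
    (⨅ w : S, LN F w.1).index = ∏ w : S, (LN F w.1).index := by
  refine index_iInf_of_approx (fun w : S => LN F w.1) fun a => ?_
  choose m hm using fun w : S => exists_Uw_le_LN (F := F) w.1
  obtain ⟨x, hx⟩ := weak_approx S a (∑ w, m w)
  exact ⟨x, fun w => hm w (Uw_antitone w.1 (Finset.single_le_sum (fun _ _ => Nat.zero_le _)
      (Finset.mem_univ w)) (hx w))⟩

end

end Fermat.Agent.CFT
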