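import Fermat.Agent.CFT.IndexCount

/-!
# The Hasse norm theorem for cyclic extensions of prime degree
-/

set_option autoImplicit false
set_option linter.unusedSectionVars false
set_option linter.style.haveILetI false
set_option linter.unusedVariables false

open scoped Classical nonZeroDivisors

namespace Fermat.Agent.CFT

open Module NumberField IsDedekindDomain WithZero

section

variable {K F : Type} [Field K] [NumberField K] [Field F] [NumberField F] [Algebra K F]

theorem exists_ordv_one (w : HeightOneSpectrum (𝓞 K)) : ∃ x : Kˣ, ordv w x = 1 := by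
  obtain ⟨π, hπ⟩ := w.valuation_exists_uniformizer K
  have h0 : π ≠ 0 := by
    rintro rfl
    rw [map_zero] at hπ
    exact (WithZero.coe_ne_zero (a := Multiplicative.ofAdd (-1 : ℤ))) hπ.symm
  refine ⟨Units.mk0 π h0, ?_⟩
  have h1 := valuation_eq w (Units.mk0 π h0)
  rw [Units.val_mk0, hπ] at h1
  have h2 : (exp (-1 : ℤ) : ℤᵐ⁰) = exp (-(ordv w (Units.mk0 π h0))) := h1
  rw [exp_inj] at h2
  omega

theorem ramE_eq_one_of_not_dvd (P : HeightOneSpectrum (𝓞 F))
    (hd : ¬ P.asIdeal ∣ differentIdeal (𝓞 K) (𝓞 F)) : ramE K P = 1 := by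
  have hmax : (under K F P).asIdeal.IsMaximal := (under K F P).isMaximal
  have hmaxw : P.asIdeal.IsMaximal := P.isMaximal
  have hun : Algebra.IsUnramifiedAt (𝓞 K) P.asIdeal := not_dvd_differentIdeal_iff.mp hd
  have he : P.asIdeal.ramificationIdx (𝓞 K) = 1 := Ideal.ramificationIdx_eq_one_of_isUnramifiedAt
  rw [ramE, Ideal.ramificationIdx'_eq_ramificationIdx (under K F P).asIdeal P.asIdeal
    (under K F P).ne_bot]
  exact he

theorem ramified_finite : {P : HeightOneSpectrum (𝓞 F) | ramE K P ≠ 1}.Finite := by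
  refine (finite_ramified K F).subset fun P hP => ?_
  by_contra hd
  exact hP (ramE_eq_one_of_not_dvd P hd)

variable [IsGalois K F] (σ : F ≃ₐ[K] F) (hσ : ∀ τ : F ≃ₐ[K] F, τ ∈ Subgroup.zpowers σ)

include hσ in
/-- local norm index at unramified primes, lower bound -/
theorem locDeg_dvd_index (P : HeightOneSpectrum (𝓞 F)) (hP : ramE K P = 1) :
    locDeg K F (under K F P) ∣ (LN F (under K F P)).index := by
  set w := under K F P with hw
  set f : Kˣ →* Multiplicative (ZMod (locDeg K F w)) :=
    { toFun := fun x => Multiplicative.ofAdd ((ordv w x : ℤ) : ZMod (locDeg K F w))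
      map_one' := by rw [ordv_one, Int.cast_zero]; rfl
      map_mul' := fun x y => by rw [ordv_mul, Int.cast_add]; rfl } with hf
  have hsurj : Function.Surjective f := by
    intro a
    obtain ⟨k, hk⟩ := ZMod.intCast_surjective a.toAdd
    obtain ⟨x, hx⟩ := exists_ordv_one w
    refine ⟨x ^ k, ?_⟩
    change Multiplicative.ofAdd ((ordv w (x ^ k) : ℤ) : ZMod (locDeg K F w)) = a
    rw [ordv_zpow, hx, mul_one, hk]
    rfl
  have hle : LN F w ≤ f.ker := by
    intro a ha
    rw [LN, Subgroup.mem_iInf] at ha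
    obtain ⟨_, ⟨b, rfl⟩, u, hu, rfl⟩ := Subgroup.mem_sup.mp (ha 0)
    change Multiplicative.ofAdd ((ordv w (NK K F b * u) : ℤ) : ZMod (locDeg K F w)) = 1
    have h1 := ram_mul_ordv_NK σ hσ P b
    rw [hP, Nat.cast_one, one_mul] at h1
    rw [ordv_mul, h1, ordv_eq_zero_of_Uw hu, add_zero, Int.cast_mul]
    have : (((locDeg K F w : ℕ) : ℤ) : ZMod (locDeg K F w)) = 0 := by simp
    rw [this, zero_mul]
    rfl
  have h2 := Subgroup.index_dvd_of_le hle
  rwa [Subgroup.index_ker, MonoidHom.range_eq_top.mpr hsurj, Subgroup.card_top,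
    Nat.card_congr Multiplicative.toAdd, Nat.card_zmod] at h2

variable [IsUnramifiedAtInfinitePlaces K F]

include hσ in
/-- **Local indices and the Hasse norm theorem**, for cyclic extensions of prime degree.
The hypothesis `hloc` is the local input at the ramified primes. -/
theorem hasse_norm (p : ℕ) [hp : Fact p.Prime] (hn : finrank K F = p)
    (hloc : ∀ P : HeightOneSpectrum (𝓞 F), ramE K P ≠ 1 → (LN F (under K F P)).index ≠ 0 →
      locDeg K F (under K F P) ≤ (LN F (under K F P)).index) :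
    (∀ w : HeightOneSpectrum (𝓞 K), (LN F w).index = locDeg K F w) ∧
    ∀ a : Kˣ, (∀ w : HeightOneSpectrum (𝓞 K), a ∈ LN F w) → ∃ b : Fˣ, NK K F b = a := by
  have key : ∀ T : Set (HeightOneSpectrum (𝓞 K)), T.Finite → ∃ S : Set (HeightOneSpectrum (𝓞 K)),
      S.Finite ∧ T ⊆ S ∧ (∀ w ∈ S, (LN F w).index = locDeg K F w) ∧
      (⨅ w : S, LN F w.1) ⊓ SU S = (SU (above F S)).map (NK K F) := by
    intro T hT
    obtain ⟨S, hSfin, hTS, hgen, hgenF⟩ := exists_sgen_both K F
      (T ∪ under K F '' {P : HeightOneSpectrum (𝓞 F) | ramE K P ≠ 1})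
      (hT.union (ramified_finite.image _))
    haveI : Finite S := hSfin
    haveI : Fintype S := Fintype.ofFinite _
    have hunr : ∀ P : HeightOneSpectrum (𝓞 F), under K F P ∉ S → ramE K P = 1 := by
      intro P hP
      by_contra h
      exact hP (hTS (Or.inr ⟨P, h, rfl⟩))
    obtain ⟨h1, h2, h3⟩ := prod_index_le σ hσ S p hn hgen hgenF hunr
    have hne : ∀ w : S, (LN F w.1).index ≠ 0 := fun w =>
      Finset.prod_ne_zero_iff.mp h1 w (Finset.mem_univ w)
    have hle : ∀ w : S, locDeg K F w.1 ≤ (LN F w.1).index := by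
      rintro ⟨w, hw⟩
      have hnew := hne ⟨w, hw⟩
      obtain ⟨P, rfl⟩ := under_surjective (F := F) w
      by_cases hr : ramE K P = 1
      · exact Nat.le_of_dvd (Nat.pos_of_ne_zero hnew) (locDeg_dvd_index σ hσ P hr)
      · exact hloc P hr hnew
    have heq : ∀ w : S, (LN F w.1).index = locDeg K F w.1 := by
      intro w
      by_contra hcon
      have hlt : locDeg K F w.1 < (LN F w.1).index := lt_of_le_of_ne (hle w) (Ne.symm hcon)
      have h4 := Finset.prod_lt_prod (s := Finset.univ) (f := fun w : S => locDeg K F w.1)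
        (g := fun w : S => (LN F w.1).index) (fun w _ => locDeg_pos w.1) (fun w _ => hle w)
        ⟨w, Finset.mem_univ w, hlt⟩
      exact absurd h2 (not_le.mpr h4)
    refine ⟨S, hSfin, Set.subset_union_left.trans hTS, fun w hw => heq ⟨w, hw⟩, h3 ?_⟩
    exact Finset.prod_congr rfl fun w _ => heq w
  constructor
  · intro w
    obtain ⟨S, _, hTS, h, _⟩ := key {w} (Set.finite_singleton w)
    exact h w (hTS rfl)
  · intro a ha
    obtain ⟨S, _, hTS, _, h⟩ := key {v | ordv v a ≠ 0} (ordv_finite a)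
    have h1 : a ∈ (⨅ w : S, LN F w.1) ⊓ SU S := by
      rw [Subgroup.mem_inf]
      refine ⟨?_, ?_⟩
      · rw [Subgroup.mem_iInf]
        exact fun w => ha w.1
      · intro v hv
        by_contra hne
        exact hv (hTS hne)
    rw [h] at h1
    obtain ⟨b, _, hb⟩ := h1
    exact ⟨b, hb⟩

end

end Fermat.Agent.CFT
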