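import Fermat.Agent.CFT.SplitSums

/-!
# The second inequality of class field theory (analytic proof)
-/

set_option autoImplicit false
set_option linter.unusedSectionVars false
set_option linter.style.haveILetI false

open scoped Classical nonZeroDivisors Topology

namespace Fermat.Agent.CFT

open NumberField Filter IsDedekindDomain H03 Module

section

variable {K : Type*} [Field K] [NumberField K]

/-- A homomorphism from the ideals of `K` prime to `𝔪` to an additive group, trivial on the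
principal ideals `(x)`, `x ≡ 1 mod 𝔪`. -/
structure IdealHom (𝔪 : Ideal (𝓞 K)) (A : Type*) [AddCommGroup A] where
  toFun : Ideal (𝓞 K) → A
  map_mul : ∀ I J, I ≠ ⊥ → J ≠ ⊥ → IsCoprime I 𝔪 → IsCoprime J 𝔪 →
    toFun (I * J) = toFun I + toFun J
  triv : ∀ x : 𝓞 K, x ≠ 0 → x - 1 ∈ 𝔪 → toFun (Ideal.span {x}) = 0

variable {𝔪 : Ideal (𝓞 K)} {A : Type*} [AddCommGroup A]

theorem isCoprime_top : IsCoprime (⊤ : Ideal (𝓞 K)) 𝔪 :=
  Ideal.isCoprime_iff_sup_eq.mpr (by simp)

theorem IdealHom.map_top (c : IdealHom 𝔪 A) : c.toFun ⊤ = 0 := by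
  have h := c.map_mul ⊤ ⊤ top_ne_bot top_ne_bot isCoprime_top isCoprime_top
  rw [Ideal.top_mul] at h
  exact left_eq_add.mp h

/-- the character attached to a character of `A` -/
noncomputable def IdealHom.char [Finite A] (c : IdealHom 𝔪 A) (ψ : AddChar A ℂ) : HChar 𝔪 where
  ψ :=
    { toFun := fun I => if I ≠ ⊥ ∧ IsCoprime I 𝔪 then ψ (c.toFun I) else 0
      map_zero' := if_neg fun h => h.1 rfl
      map_one' := by
        rw [Ideal.one_eq_top, if_pos ⟨top_ne_bot, isCoprime_top⟩, c.map_top, AddChar.map_zero_eq_one]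
      map_mul' := fun I J => by
        by_cases hI : I ≠ ⊥ ∧ IsCoprime I 𝔪
        · by_cases hJ : J ≠ ⊥ ∧ IsCoprime J 𝔪
          · rw [if_pos hI, if_pos hJ, if_pos ⟨mul_ne_zero hI.1 hJ.1, hI.2.mul_left hJ.2⟩,
              c.map_mul I J hI.1 hJ.1 hI.2 hJ.2, AddChar.map_add_eq_mul]
          · rw [if_neg hJ, mul_zero, if_neg]
            rintro ⟨h1, h2⟩
            exact hJ ⟨right_ne_zero_of_mul h1, h2.of_mul_left_right⟩
        · rw [if_neg hI, zero_mul, if_neg]
          rintro ⟨h1, h2⟩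
          exact hI ⟨left_ne_zero_of_mul h1, h2.of_mul_left_left⟩ }
  supp I hI := if_neg fun h => hI h.2
  norm_one I h0 hI := by
    change ‖(if I ≠ ⊥ ∧ IsCoprime I 𝔪 then ψ (c.toFun I) else 0 : ℂ)‖ = 1
    rw [if_pos ⟨h0, hI⟩]
    exact ψ.norm_apply _
  triv x hx hx1 := by
    change (if Ideal.span {x} ≠ ⊥ ∧ IsCoprime (Ideal.span {x}) 𝔪 then
      ψ (c.toFun (Ideal.span {x})) else 0 : ℂ) = 1
    rw [if_pos ⟨by rwa [Ne, Ideal.span_singleton_eq_bot], HChar.isCoprime_span_iff.mpr ⟨1, by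
      rwa [mul_one]⟩⟩, c.triv x hx hx1, AddChar.map_zero_eq_one]

theorem IdealHom.char_apply [Finite A] (c : IdealHom 𝔪 A) (ψ : AddChar A ℂ) (I : Ideal (𝓞 K)) :
    (c.char ψ).ψ I = if I ≠ ⊥ ∧ IsCoprime I 𝔪 then ψ (c.toFun I) else 0 := rfl

/-- **Key inequality**: the kernel of `c` has density at most `1/|A|`. -/
theorem IdealHom.exists_key [Finite A] (c : IdealHom 𝔪 A) (h𝔪 : 𝔪 ≠ ⊥)
    (hsurj : ∀ a : A, ∃ I : Ideal (𝓞 K), I ≠ ⊥ ∧ IsCoprime I 𝔪 ∧ c.toFun I = a) :
    ∃ C : ℝ, ∀ᶠ s in 𝓝[>] (1 : ℝ),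
      (Nat.card A : ℝ) * psum K s (fun v => IsCoprime v.asIdeal 𝔪 ∧ c.toFun v.asIdeal = 0) ≤
        ell s + C := by
  haveI := Fintype.ofFinite A
  -- individual bounds
  have hb : ∀ ψ : AddChar A ℂ, ∃ C : ℝ, ∀ᶠ s in 𝓝[>] (1 : ℝ),
      ∑' v : HeightOneSpectrum (𝓞 K), ((c.char ψ).ψ v.asIdeal).re * nrm K s v.asIdeal ≤
        (if ψ = 1 then ell s else 0) + C := by
    intro ψ
    by_cases hψ : ψ = 1
    · subst hψ
      obtain ⟨C, hC⟩ := exists_upper K
      refine ⟨C, ?_⟩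
      filter_upwards [hC, eventually_Ioc] with s hs hs1
      rw [if_pos rfl]
      refine le_trans ?_ hs
      have e : ∀ v : HeightOneSpectrum (𝓞 K),
          ((c.char 1).ψ v.asIdeal).re * nrm K s v.asIdeal ≤ nrm K s v.asIdeal := by
        intro v
        refine mul_le_of_le_one_left (nrm_nonneg K s _) ?_
        exact (Complex.re_le_norm _).trans ((c.char 1).norm_le _)
      refine Summable.tsum_le_tsum e ?_ (summable_nrm_prime K hs1.1 hs1.2)
      refine Summable.of_norm_bounded (summable_nrm_prime K hs1.1 hs1.2) fun v => ?_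
      rw [norm_mul, Real.norm_of_nonneg (nrm_nonneg K s _)]
      refine mul_le_of_le_one_left (nrm_nonneg K s _) ?_
      exact (Complex.abs_re_le_norm _).trans ((c.char 1).norm_le _)
    · obtain ⟨a, ha⟩ : ∃ a, ψ a ≠ 1 := by
        by_contra hcon
        push Not at hcon
        exact hψ (DFunLike.ext _ _ fun a => hcon a)
      obtain ⟨J, hJ0, hJc, rfl⟩ := hsurj a
      obtain ⟨C, hC⟩ := exists_char_bound (c.char ψ) h𝔪 ⟨J, hJ0, hJc, by
        rw [c.char_apply, if_pos ⟨hJ0, hJc⟩]; exact ha⟩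
      refine ⟨C, ?_⟩
      filter_upwards [hC] with s hs
      rw [if_neg hψ, zero_add]
      exact hs
  choose C hC using hb
  refine ⟨∑ ψ : AddChar A ℂ, C ψ, ?_⟩
  have hall : ∀ᶠ s in 𝓝[>] (1 : ℝ), ∀ ψ : AddChar A ℂ,
      ∑' v : HeightOneSpectrum (𝓞 K), ((c.char ψ).ψ v.asIdeal).re * nrm K s v.asIdeal ≤
        (if ψ = 1 then ell s else 0) + C ψ := eventually_all.mpr hC
  filter_upwards [hall, eventually_Ioc] with s hs hs1
  have h1 := Finset.sum_le_sum fun ψ (_ : ψ ∈ (Finset.univ : Finset (AddChar A ℂ))) => hs ψ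
  rw [Finset.sum_add_distrib, Finset.sum_ite_eq' Finset.univ (1 : AddChar A ℂ) (fun _ => ell s),
    if_pos (Finset.mem_univ _)] at h1
  refine le_trans (le_of_eq ?_) h1
  have hsum : ∀ ψ : AddChar A ℂ, Summable fun v : HeightOneSpectrum (𝓞 K) =>
      ((c.char ψ).ψ v.asIdeal).re * nrm K s v.asIdeal := by
    intro ψ
    refine Summable.of_norm_bounded (summable_nrm_prime K hs1.1 hs1.2) fun v => ?_
    rw [norm_mul, Real.norm_of_nonneg (nrm_nonneg K s _)]
    refine mul_le_of_le_one_left (nrm_nonneg K s _) ?_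
    exact (Complex.abs_re_le_norm _).trans ((c.char ψ).norm_le _)
  rw [← Summable.tsum_finsetSum fun ψ _ => hsum ψ, psum, ← tsum_mul_left]
  refine tsum_congr fun v => ?_
  rw [← Finset.sum_mul]
  have h2 : ∑ ψ : AddChar A ℂ, ((c.char ψ).ψ v.asIdeal).re =
      if IsCoprime v.asIdeal 𝔪 ∧ c.toFun v.asIdeal = 0 then (Nat.card A : ℝ) else 0 := by
    rw [← Complex.re_sum]
    by_cases hv : IsCoprime v.asIdeal 𝔪
    · have e : ∀ ψ : AddChar A ℂ, (c.char ψ).ψ v.asIdeal = ψ (c.toFun v.asIdeal) := by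
        intro ψ
        rw [c.char_apply, if_pos ⟨v.ne_bot, hv⟩]
      rw [Finset.sum_congr rfl fun ψ _ => e ψ, AddChar.sum_apply_eq_ite]
      by_cases h0 : c.toFun v.asIdeal = 0
      · rw [if_pos h0, if_pos ⟨hv, h0⟩, Nat.card_eq_fintype_card]
        simp
      · rw [if_neg h0, if_neg fun h => h0 h.2]
        simp
    · have e : ∀ ψ : AddChar A ℂ, (c.char ψ).ψ v.asIdeal = 0 := by
        intro ψ
        rw [c.char_apply, if_neg fun h => hv h.2]
      rw [Finset.sum_congr rfl fun ψ _ => e ψ, if_neg fun h => hv h.1]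
      simp
  rw [h2]
  split_ifs <;> simp

theorem nat_le_of_eventually {a b : ℕ} {C : ℝ}
    (h : ∀ᶠ s in 𝓝[>] (1 : ℝ), (a : ℝ) * ell s ≤ (b : ℝ) * ell s + C) : a ≤ b := by
  by_contra hab
  push Not at hab
  have hab' : (b : ℝ) + 1 ≤ a := by exact_mod_cast hab
  have h1 := tendsto_ell.eventually_gt_atTop (max C 0)
  obtain ⟨s, hs, hs2⟩ := (h1.and h).exists
  have h2 : 0 < ell s := (le_max_right _ _).trans_lt hs
  have h3 : C < ell s := (le_max_left _ _).trans_lt hs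
  nlinarith

variable (L : Type*) [Field L] [NumberField L] [Algebra K L]

/-- **The second inequality**: if almost all degree one primes of `K` which split completely in
the Galois extension `L/K` are in the kernel of the ray class character `c` onto `A`, then
`|A| ≤ [L : K]`. -/
theorem second_inequality [IsGalois K L] [Finite A] (c : IdealHom 𝔪 A) (h𝔪 : 𝔪 ≠ ⊥)
    (hsurj : ∀ a : A, ∃ I : Ideal (𝓞 K), I ≠ ⊥ ∧ IsCoprime I 𝔪 ∧ c.toFun I = a)
    (hsplit : {v : HeightOneSpectrum (𝓞 K) | (Ideal.absNorm v.asIdeal).Prime ∧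
      (v.asIdeal.primesOver (𝓞 L)).ncard = finrank K L ∧
      ¬ (IsCoprime v.asIdeal 𝔪 ∧ c.toFun v.asIdeal = 0)}.Finite) :
    Nat.card A ≤ finrank K L := by
  obtain ⟨C1, h1⟩ := c.exists_key h𝔪 hsurj
  obtain ⟨C2, h2⟩ := exists_split_lower K L
  have hfin : {v : HeightOneSpectrum (𝓞 K) | (fun v => Deg1 K v ∧ Spl K L v) v ∧
      ¬ (fun v : HeightOneSpectrum (𝓞 K) =>
        IsCoprime v.asIdeal 𝔪 ∧ c.toFun v.asIdeal = 0) v}.Finite := by
    refine hsplit.subset ?_
    rintro v ⟨⟨h1, h2⟩, h3⟩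
    exact ⟨h1, h2, h3⟩
  refine nat_le_of_eventually (C := finrank K L * (C1 + Nat.card A * hfin.toFinset.card) +
    Nat.card A * C2) ?_
  filter_upwards [h1, h2, eventually_Ioc] with s hs1 hs2 hs
  have h3 := psum_le_add_of_finite K hs.1 hs.2 hfin
  have hn : (0 : ℝ) ≤ finrank K L := Nat.cast_nonneg _
  have ha : (0 : ℝ) ≤ Nat.card A := Nat.cast_nonneg _
  have h4 := mul_le_mul_of_nonneg_left hs2 ha
  have h5 := mul_le_mul_of_nonneg_left h3 (mul_nonneg ha hn)
  have h6 := mul_le_mul_of_nonneg_left hs1 hn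
  nlinarith

end

end Fermat.Agent.CFT
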