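import Fermat.Agent.CFT.LocNorm
import Fermat.Agent.CFT.SecondIneq

/-!
# Index counting: local norm indices and the Hasse norm theorem
-/

set_option autoImplicit false
set_option linter.unusedSectionVars false
set_option linter.style.haveILetI false
set_option linter.unusedVariables false

open scoped Classical nonZeroDivisors

namespace Fermat.Agent.CFT

open Module NumberField IsDedekindDomain WithZero

/-- functoriality of ideal characters -/
def IdealHom.map {K : Type*} [Field K] [NumberField K] {𝔪 : Ideal (𝓞 K)} {A B : Type*}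
    [AddCommGroup A] [AddCommGroup B] (c : IdealHom 𝔪 A) (f : A →+ B) : IdealHom 𝔪 B where
  toFun I := f (c.toFun I)
  map_mul I J hI hJ h1 h2 := by rw [c.map_mul I J hI hJ h1 h2, map_add]
  triv x hx hx1 := by rw [c.triv x hx hx1, map_zero]

theorem finite_of_quotients_aux {A : Type} [AddCommGroup A] (p : ℕ) [hp : Fact p.Prime]
    [Module (ZMod p) A]
    (h : ∀ (B : Type) [AddCommGroup B] [Finite B] (f : A →+ B), Function.Surjective f →
      Nat.card B ≤ p) : Finite A ∧ Nat.card A ≤ p := by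
  by_cases hz : ∀ a : A, a = 0
  · haveI : Subsingleton A := ⟨fun a b => by rw [hz a, hz b]⟩
    haveI : Finite A := inferInstance
    exact ⟨this, h A (AddMonoidHom.id A) Function.surjective_id⟩
  push Not at hz
  obtain ⟨a, ha⟩ := hz
  set W : Submodule (ZMod p) A := Submodule.span (ZMod p) {a} with hW
  by_cases hspan : W = ⊤
  · have hsurj : Function.Surjective (LinearMap.toSpanSingleton (ZMod p) A a) := by
      rw [← LinearMap.range_eq_top, LinearMap.range_toSpanSingleton]
      exact hspan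
    haveI : Finite A := Finite.of_surjective _ hsurj
    exact ⟨this, h A (AddMonoidHom.id A) Function.surjective_id⟩
  exfalso
  obtain ⟨b, hb⟩ : ∃ b, b ∉ W := by
    by_contra hcon
    push Not at hcon
    exact hspan (eq_top_iff.mpr fun b _ => hcon b)
  have hli : LinearIndependent (ZMod p) ![a, b] := by
    rw [LinearIndependent.pair_iff]
    intro s t hst
    have ht : t = 0 := by
      by_contra ht
      apply hb
      rw [hW, Submodule.mem_span_singleton]
      refine ⟨-(t⁻¹ * s), ?_⟩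
      have h1 : b = t⁻¹ • (t • b) := by rw [smul_smul, inv_mul_cancel₀ ht, one_smul]
      rw [h1, eq_neg_of_add_eq_zero_right hst, smul_neg, smul_smul, neg_smul]
    rw [ht, zero_smul, add_zero] at hst
    exact ⟨(smul_eq_zero.mp hst).resolve_right ha, ht⟩
  obtain ⟨g, hg⟩ := LinearMap.exists_leftInverse_of_injective
    (Fintype.linearCombination (ZMod p) ![a, b]) (by
      rw [LinearMap.ker_eq_bot]
      exact (linearIndependent_iff_injective_fintypeLinearCombination.mp hli))
  have hgs : Function.Surjective g := by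
    intro x
    exact ⟨_, LinearMap.congr_fun hg x⟩
  have h2 := h (Fin 2 → ZMod p) g.toAddMonoidHom hgs
  rw [Nat.card_pi] at h2
  simp only [Nat.card_zmod, Finset.prod_const, Finset.card_univ, Fintype.card_fin] at h2
  have h3 := hp.out.one_lt
  nlinarith

theorem finite_of_quotients {A : Type} [AddCommGroup A] (p : ℕ) [hp : Fact p.Prime]
    (hA : ∀ a : A, p • a = 0)
    (h : ∀ (B : Type) [AddCommGroup B] [Finite B] (f : A →+ B), Function.Surjective f →
      Nat.card B ≤ p) : Finite A ∧ Nat.card A ≤ p :=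
  @finite_of_quotients_aux A _ p hp (AddCommGroup.zmodModule hA) h

section

variable {K F : Type} [Field K] [NumberField K] [Field F] [NumberField F] [Algebra K F]

theorem exists_rep {S : Set (HeightOneSpectrum (𝓞 K))} (hS : SGen S) (I : Ideal (𝓞 K)) :
    ∃ c : Kˣ, ∀ v ∉ S, ordv v c = FractionalIdeal.count K v (I : FractionalIdeal (𝓞 K)⁰ K) := by
  have hfin : {v : HeightOneSpectrum (𝓞 K) |
      FractionalIdeal.count K v (I : FractionalIdeal (𝓞 K)⁰ K) ≠ 0}.Finite :=
    FractionalIdeal.finite_factors (I : FractionalIdeal (𝓞 K)⁰ K)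
  obtain ⟨c, hc⟩ := hS (Finsupp.onFinset hfin.toFinset
    (fun v => FractionalIdeal.count K v (I : FractionalIdeal (𝓞 K)⁰ K)) (fun v hv => by
      rw [Set.Finite.mem_toFinset]
      exact hv))
  exact ⟨c, hc⟩

/-- the ideal character attached to a subgroup of `Kˣ` -/
noncomputable def normHom {S : Set (HeightOneSpectrum (𝓞 K))} [Fintype S] (hS : SGen S)
    (m : S → ℕ) (H : Subgroup Kˣ) (hSU : SU S ≤ H)
    (hU : ⨅ w : S, Uw w.1 (m w) ≤ H) :
    IdealHom (∏ w : S, w.1.asIdeal ^ (m w + 1)) (Additive (Kˣ ⧸ H)) where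
  toFun I := Additive.ofMul (QuotientGroup.mk (exists_rep hS I).choose)
  map_mul I J hI hJ _ _ := by
    rw [← ofMul_mul, ← QuotientGroup.mk_mul]
    congr 1
    rw [QuotientGroup.eq]
    apply hSU
    intro v hv
    have h1 := (exists_rep hS I).choose_spec v hv
    have h2 := (exists_rep hS J).choose_spec v hv
    have h3 := (exists_rep hS (I * J)).choose_spec v hv
    have hI' : (I : FractionalIdeal (𝓞 K)⁰ K) ≠ 0 := FractionalIdeal.coeIdeal_ne_zero.mpr hI
    have hJ' : (J : FractionalIdeal (𝓞 K)⁰ K) ≠ 0 := FractionalIdeal.coeIdeal_ne_zero.mpr hJ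
    have h4 : FractionalIdeal.count K v ((I * J : Ideal (𝓞 K)) : FractionalIdeal (𝓞 K)⁰ K) =
        FractionalIdeal.count K v (I : FractionalIdeal (𝓞 K)⁰ K) +
        FractionalIdeal.count K v (J : FractionalIdeal (𝓞 K)⁰ K) := by
      rw [FractionalIdeal.coeIdeal_mul, FractionalIdeal.count_mul K v hI' hJ']
    rw [ordv_mul, ordv_inv, ordv_mul, h1, h2, h3, h4]
    ring
  triv x hx hx1 := by
    have hxK : (x : K) ≠ 0 := by
      intro h
      exact hx (RingOfIntegers.ext h)
    have h0 : (QuotientGroup.mk (exists_rep hS (Ideal.span {x})).choose : Kˣ ⧸ H) =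
        QuotientGroup.mk (Units.mk0 (x : K) hxK) := by
      rw [QuotientGroup.eq]
      apply hSU
      intro v hv
      have h1 := (exists_rep hS (Ideal.span {x})).choose_spec v hv
      rw [ordv_mul, ordv_inv, h1, FractionalIdeal.coeIdeal_span_singleton]
      rw [ordv, Units.val_mk0]
      exact neg_add_cancel _
    rw [h0]
    have h2 : (QuotientGroup.mk (Units.mk0 (x : K) hxK) : Kˣ ⧸ H) = 1 := by
      rw [QuotientGroup.eq_one_iff]
      apply hU
      rw [Subgroup.mem_iInf]
      intro w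
      rw [mem_Uw, Units.val_mk0]
      have h3 : x - 1 ∈ w.1.asIdeal ^ (m w + 1) := by
        have h4 : (∏ w : S, w.1.asIdeal ^ (m w + 1)) ≤ w.1.asIdeal ^ (m w + 1) :=
          Ideal.le_of_dvd (Finset.dvd_prod_of_mem _ (Finset.mem_univ w))
        exact h4 hx1
      rw [← HeightOneSpectrum.intValuation_le_pow_iff_mem] at h3
      have h5 : w.1.valuation K ((x : K) - 1) = w.1.intValuation (x - 1) := by
        have : (x : K) - 1 = algebraMap (𝓞 K) K (x - 1) := by
          rw [map_sub, map_one]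
        rw [this]
        exact w.1.valuation_of_algebraMap (x - 1)
      rw [h5]
      refine h3.trans (le_of_eq ?_)
      push_cast
      rfl
    rw [h2]
    rfl

theorem normHom_apply {S : Set (HeightOneSpectrum (𝓞 K))} [Fintype S] (hS : SGen S)
    (m : S → ℕ) (H : Subgroup Kˣ) (hSU : SU S ≤ H)
    (hU : ⨅ w : S, Uw w.1 (m w) ≤ H) (I : Ideal (𝓞 K)) (c : Kˣ)
    (hc : ∀ v ∉ S, ordv v c = FractionalIdeal.count K v (I : FractionalIdeal (𝓞 K)⁰ K)) :
    (normHom hS m H hSU hU).toFun I = Additive.ofMul (QuotientGroup.mk c) := by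
  change Additive.ofMul (QuotientGroup.mk (exists_rep hS I).choose : Kˣ ⧸ H) = _
  congr 1
  rw [QuotientGroup.eq]
  apply hSU
  intro v hv
  rw [ordv_mul, ordv_inv, (exists_rep hS I).choose_spec v hv, hc v hv]
  ring

theorem modulus_ne_bot (S : Set (HeightOneSpectrum (𝓞 K))) [Fintype S] (m : S → ℕ) :
    (∏ w : S, w.1.asIdeal ^ (m w + 1)) ≠ ⊥ := by
  rw [← Ideal.zero_eq_bot, Finset.prod_ne_zero_iff]
  intro w _
  exact pow_ne_zero _ w.1.ne_bot

theorem coprime_modulus (S : Set (HeightOneSpectrum (𝓞 K))) [Fintype S] (m : S → ℕ)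
    (v : HeightOneSpectrum (𝓞 K)) (hv : v ∉ S) :
    IsCoprime v.asIdeal (∏ w : S, w.1.asIdeal ^ (m w + 1)) := by
  refine IsCoprime.prod_right fun w _ => IsCoprime.pow_right ?_
  haveI := v.isMaximal
  haveI := w.1.isMaximal
  refine Ideal.isCoprime_of_isMaximal fun h => hv ?_
  have : v = w.1 := HeightOneSpectrum.ext h
  rw [this]
  exact w.2

theorem normHom_surj {S : Set (HeightOneSpectrum (𝓞 K))} [Fintype S] (hS : SGen S)
    (m : S → ℕ) (H : Subgroup Kˣ) (hSU : SU S ≤ H)
    (hU : ⨅ w : S, Uw w.1 (m w) ≤ H) (n : ℕ) (hn : n ≠ 0) (hpow : ∀ c : Kˣ, c ^ n ∈ H)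
    (a : Additive (Kˣ ⧸ H)) :
    ∃ I : Ideal (𝓞 K), I ≠ ⊥ ∧ IsCoprime I (∏ w : S, w.1.asIdeal ^ (m w + 1)) ∧
      (normHom hS m H hSU hU).toFun I = a := by
  obtain ⟨c, hc⟩ := QuotientGroup.mk_surjective (s := H) a
  obtain ⟨α, β, y, z, hα, hβ, rfl⟩ := exists_frac c
  -- multiply by `z ^ n`
  have hint : ∀ v : HeightOneSpectrum (𝓞 K), 0 ≤ ordv v (y / z * z ^ n) := by
    intro v
    rw [ordv_mul, ordv_div, ordv_pow]
    have h1 := ordv_nonneg_of_int v y α hα
    have h2 := ordv_nonneg_of_int v z β hβ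
    obtain ⟨k, hk⟩ := Nat.exists_eq_succ_of_ne_zero hn
    rw [hk]
    push_cast
    nlinarith
  set e : HeightOneSpectrum (𝓞 K) → ℕ := fun v => (ordv v (y / z * z ^ n)).toNat with he
  have hfin : {v : HeightOneSpectrum (𝓞 K) | v ∉ S ∧ e v ≠ 0}.Finite := by
    refine (ordv_finite (y / z * z ^ n)).subset ?_
    rintro v ⟨_, h⟩ h0
    apply h
    change (ordv v (y / z * z ^ n)).toNat = 0
    rw [h0]
    rfl
  set I : Ideal (𝓞 K) := ∏ v ∈ hfin.toFinset, v.asIdeal ^ e v with hI
  have hcoeI : (I : FractionalIdeal (𝓞 K)⁰ K) =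
      (Finsupp.onFinset hfin.toFinset (fun v => if v ∉ S ∧ e v ≠ 0 then (e v : ℤ) else 0)
        (fun v hv => by
          rw [Set.Finite.mem_toFinset]
          by_contra hne
          exact hv (if_neg hne))).prod
        (fun v k => (v.asIdeal : FractionalIdeal (𝓞 K)⁰ K) ^ k) := by
    have h0 : (I : FractionalIdeal (𝓞 K)⁰ K) =
        ∏ v ∈ hfin.toFinset, ((v.asIdeal ^ e v : Ideal (𝓞 K)) : FractionalIdeal (𝓞 K)⁰ K) := by
      rw [hI]
      exact map_prod (FractionalIdeal.coeIdealHom (𝓞 K)⁰ K) _ _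
    rw [Finsupp.prod_of_support_subset _ Finsupp.support_onFinset_subset _
      (fun v _ => zpow_zero _), h0]
    refine Finset.prod_congr rfl fun v hv => ?_
    rw [Set.Finite.mem_toFinset] at hv
    rw [Finsupp.onFinset_apply, if_pos (show v ∉ S ∧ e v ≠ 0 from hv), zpow_natCast, FractionalIdeal.coeIdeal_pow]
  refine ⟨I, ?_, ?_, ?_⟩
  · rw [hI, ← Ideal.zero_eq_bot, Finset.prod_ne_zero_iff]
    intro w _
    exact pow_ne_zero _ w.ne_bot
  · refine IsCoprime.prod_left fun v hv => IsCoprime.pow_left ?_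
    rw [Set.Finite.mem_toFinset] at hv
    exact coprime_modulus S m v hv.1
  · rw [normHom_apply hS m H hSU hU I (y / z * z ^ n)]
    · have h1 : (QuotientGroup.mk (y / z * z ^ n) : Kˣ ⧸ H) = QuotientGroup.mk (y / z) := by
        rw [QuotientGroup.eq, mul_inv, mul_comm (y / z)⁻¹, mul_assoc, inv_mul_cancel, mul_one]
        exact H.inv_mem (hpow z)
      exact (congrArg Additive.ofMul h1).trans hc
    · intro v hv
      rw [hcoeI, FractionalIdeal.count_finsuppProd, Finsupp.onFinset_apply]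
      by_cases h0 : e v = 0
      · rw [if_neg fun h => h.2 h0]
        have h1 := hint v
        have h2 : (ordv v (y / z * z ^ n)).toNat = 0 := h0
        omega
      · rw [if_pos ⟨hv, h0⟩]
        exact (Int.toNat_of_nonneg (hint v)).symm

variable [IsGalois K F] (σ : F ≃ₐ[K] F) (hσ : ∀ τ : F ≃ₐ[K] F, τ ∈ Subgroup.zpowers σ)

/-- the basic subgroup -/
noncomputable def HS (F : Type) [Field F] [NumberField F] [Algebra K F]
    (S : Set (HeightOneSpectrum (𝓞 K))) : Subgroup Kˣ := (⨅ w : S, LN F w.1) ⊔ SU S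

theorem pow_mem_HS (S : Set (HeightOneSpectrum (𝓞 K))) (c : Kˣ) : c ^ finrank K F ∈ HS F S := by
  rw [← NK_incl (F := F)]
  refine (le_sup_left : _ ≤ HS F S) ?_
  rw [Subgroup.mem_iInf]
  intro w
  exact NK_mem_LN w.1 _

include hσ in
/-- **Second inequality**, in the form needed. -/
theorem index_HS (S : Set (HeightOneSpectrum (𝓞 K))) [Fintype S] (p : ℕ) [hp : Fact p.Prime]
    (hn : finrank K F = p) (hgen : SGen S) (hgenF : SGen (above F S))
    (hunr : ∀ P : HeightOneSpectrum (𝓞 F), under K F P ∉ S → ramE K P = 1) :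
    (HS F S).index ≠ 0 ∧ (HS F S).index ≤ p := by
  choose m hm using fun w : S => exists_Uw_le_LN (F := F) w.1
  have hSU : SU S ≤ HS F S := le_sup_right
  have hU : ⨅ w : S, Uw w.1 (m w) ≤ HS F S := (iInf_mono hm).trans le_sup_left
  have hp0 : p ≠ 0 := hp.out.ne_zero
  have hpow : ∀ c : Kˣ, c ^ p ∈ HS F S := by
    intro c
    rw [← hn]
    exact pow_mem_HS S c
  set c := normHom hgen m (HS F S) hSU hU with hc
  have hsurj := normHom_surj hgen m (HS F S) hSU hU p hp0 hpow
  have hsplit : ∀ v : HeightOneSpectrum (𝓞 K), v ∉ S → Spl K F v → c.toFun v.asIdeal = 0 := by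
    intro v hv hspl
    obtain ⟨P, rfl⟩ := under_surjective (F := F) v
    obtain ⟨y, hy⟩ := hgenF (Finsupp.single P 1)
    have hy' : ∀ Q, Q ∉ above F S → ordv Q y = if Q = P then 1 else 0 := by
      intro Q hQ
      rw [hy Q hQ]
      by_cases h : Q = P
      · rw [if_pos h, h, Finsupp.single_eq_same]
      · rw [if_neg h, Finsupp.single_eq_of_ne h]
    rw [hc, normHom_apply hgen m (HS F S) hSU hU _ (NK K F y)]
    · have : (QuotientGroup.mk (NK K F y) : Kˣ ⧸ HS F S) = 1 := by
        rw [QuotientGroup.eq_one_iff]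
        refine (le_sup_left : _ ≤ HS F S) ?_
        rw [Subgroup.mem_iInf]
        intro w
        exact NK_mem_LN w.1 _
      rw [this]
      rfl
    · intro v' hv'
      rw [FractionalIdeal.count_maximal]
      obtain ⟨Q, rfl⟩ := under_surjective (F := F) v'
      have h1 := ram_mul_ordv_NK σ hσ Q y
      rw [hunr Q hv', Nat.cast_one, one_mul] at h1
      rw [h1]
      have h2 : ∀ Q' ∈ fib F (under K F Q), ordv Q' y = if Q' = P then 1 else 0 := by
        intro Q' hQ'
        rw [mem_fib] at hQ'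
        exact hy' Q' (by rw [mem_above, hQ']; exact hv')
      rw [Finset.sum_congr rfl h2, Finset.sum_ite_eq']
      by_cases h3 : under K F P = under K F Q
      · rw [if_pos (mem_fib.mpr h3), if_pos h3, ← h3]
        have : locDeg K F (under K F P) = 1 := by
          rw [locDeg, hspl]
          exact Nat.div_self finrank_pos
        rw [this]
        rfl
      · rw [if_neg fun h => h3 (mem_fib.mp h), if_neg h3, mul_zero]
  obtain ⟨h1, h2⟩ := finite_of_quotients (A := Additive (Kˣ ⧸ HS F S)) p (by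
    intro a
    obtain ⟨x, hx⟩ := QuotientGroup.mk_surjective (s := HS F S) a.toMul
    have h3 : (a.toMul) ^ p = 1 := by
      rw [← hx, ← QuotientGroup.mk_pow, QuotientGroup.eq_one_iff]
      exact hpow x
    exact h3) (fun B _ _ f hf => by
      rw [← hn]
      refine second_inequality F (c.map f) (modulus_ne_bot S m) ?_ ?_
      · intro b
        obtain ⟨a, rfl⟩ := hf b
        obtain ⟨I, hI0, hIc, hI⟩ := hsurj a
        exact ⟨I, hI0, hIc, congrArg f hI⟩
      · refine (Set.toFinite S).subset ?_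
        rintro v ⟨_, hv2, hv3⟩
        by_contra hv
        refine hv3 ⟨coprime_modulus S m v hv, ?_⟩
        change f (c.toFun v.asIdeal) = 0
        rw [hsplit v hv hv2, map_zero])
  have h4 : Nat.card (Additive (Kˣ ⧸ HS F S)) = (HS F S).index := rfl
  haveI : Finite (Kˣ ⧸ HS F S) := h1
  rw [h4] at h2
  exact ⟨Subgroup.index_ne_zero_of_finite, h2⟩

variable [IsUnramifiedAtInfinitePlaces K F]

theorem locDeg_pos (v : HeightOneSpectrum (𝓞 K)) : 0 < locDeg K F v := by
  rw [locDeg]
  haveI := v.isPrime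
  have hmain := Ideal.ncard_primesOver_mul_ramificationIdxIn_mul_inertiaDegIn
    v.asIdeal (𝓞 F) Gal(F/K)
  rw [IsGalois.card_aut_eq_finrank] at hmain
  have hp0 : 0 < finrank K F := finrank_pos
  apply Nat.div_pos
  · exact Nat.le_of_dvd hp0 (Dvd.intro _ hmain)
  · rcases Nat.eq_zero_or_pos (v.asIdeal.primesOver (𝓞 F)).ncard with h9 | h9
    · rw [h9, zero_mul] at hmain
      omega
    · exact h9

include hσ in
/-- **Result 1**: `∏_{w ∈ S} [Kˣ : LN w] ≤ ∏_{w ∈ S} n_w`, precisely
`[Kˣ : H_S] [E_S : E_S ∩ ⋂ LN w] = ∏ [Kˣ : LN w]`. -/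
theorem prod_index_LN (S : Set (HeightOneSpectrum (𝓞 K))) [Fintype S] :
    (⨅ w : S, LN F w.1).relIndex (SU S) * (HS F S).index = ∏ w : S, (LN F w.1).index := by
  rw [← index_iInf_LN S]
  have h1 := Subgroup.relIndex_mul_index (show (⨅ w : S, LN F w.1) ≤ HS F S from le_sup_left)
  rw [← h1]
  congr 1
  rw [HS, sup_comm, Subgroup.relIndex_sup_right]

theorem map_NK_le (S : Set (HeightOneSpectrum (𝓞 K))) :
    (SU (above F S)).map (NK K F) ≤ ⨅ w : S, LN F w.1 := by
  rintro _ ⟨y, _, rfl⟩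
  rw [Subgroup.mem_iInf]
  intro w
  exact NK_mem_LN w.1 _

theorem map_NK_le_SU (hσ : ∀ τ : F ≃ₐ[K] F, τ ∈ Subgroup.zpowers σ)
    (S : Set (HeightOneSpectrum (𝓞 K))) :
    (SU (above F S)).map (NK K F) ≤ SU S := by
  rintro _ ⟨y, hy, rfl⟩ v hv
  obtain ⟨P, rfl⟩ := under_surjective (F := F) v
  have h1 := ram_mul_ordv_NK σ hσ P y
  have h2 : ∑ Q ∈ fib F (under K F P), ordv Q y = 0 := by
    refine Finset.sum_eq_zero fun Q hQ => ?_
    rw [mem_fib] at hQ
    exact hy Q (by rw [mem_above, hQ]; exact hv)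
  rw [h2, mul_zero] at h1
  rcases mul_eq_zero.mp h1 with h3 | h3
  · exact absurd h3 (by exact_mod_cast (ramE_pos P).ne')
  · exact h3

include hσ in
theorem prod_index_le (S : Set (HeightOneSpectrum (𝓞 K))) [Fintype S] (p : ℕ) [hp : Fact p.Prime]
    (hn : finrank K F = p) (hgen : SGen S) (hgenF : SGen (above F S))
    (hunr : ∀ P : HeightOneSpectrum (𝓞 F), under K F P ∉ S → ramE K P = 1) :
    ∏ w : S, (LN F w.1).index ≠ 0 ∧
    ∏ w : S, (LN F w.1).index ≤ ∏ w : S, locDeg K F w.1 ∧
    (∏ w : S, (LN F w.1).index = ∏ w : S, locDeg K F w.1 →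
      (⨅ w : S, LN F w.1) ⊓ SU S = (SU (above F S)).map (NK K F)) := by
  have hidx := index_SU σ hσ S p 1 (by rw [hn, pow_one]) hgen hunr
  obtain ⟨h1, h2⟩ := index_HS σ hσ S p hn hgen hgenF hunr
  have h3 := prod_index_LN (F := F) σ hσ S
  have h4 : (⨅ w : S, LN F w.1).relIndex (SU S) ∣
      ((SU (above F S)).map (NK K F)).relIndex (SU S) :=
    Subgroup.relIndex_dvd_of_le_left _ (map_NK_le S)
  have hprodpos : 0 < ∏ w : S, locDeg K F w.1 := Finset.prod_pos fun w _ => locDeg_pos w.1
  have h5 : 0 < ((SU (above F S)).map (NK K F)).relIndex (SU S) := by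
    rcases Nat.eq_zero_or_pos (((SU (above F S)).map (NK K F)).relIndex (SU S)) with h | h
    · rw [h, zero_mul] at hidx
      omega
    · exact h
  have h6 : 0 < (⨅ w : S, LN F w.1).relIndex (SU S) := Nat.pos_of_dvd_of_pos h4 h5
  have h7 := Nat.le_of_dvd h5 h4
  rw [hn] at hidx
  refine ⟨?_, ?_, ?_⟩
  · rw [← h3]
    exact mul_ne_zero h6.ne' h1
  · rw [← h3, ← hidx]
    exact Nat.mul_le_mul h7 h2
  · intro heq
    rw [← h3, ← hidx] at heq
    -- equality of relative indices
    have h8 : ((SU (above F S)).map (NK K F)).relIndex (SU S) ≤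
        (⨅ w : S, LN F w.1).relIndex (SU S) := by
      have h9 : ((SU (above F S)).map (NK K F)).relIndex (SU S) * p ≤
          (⨅ w : S, LN F w.1).relIndex (SU S) * p := by
        rw [← heq]
        exact Nat.mul_le_mul_left _ h2
      exact Nat.le_of_mul_le_mul_right h9 hp.out.pos
    have h10 := le_antisymm h7 h8
    have h11 : (SU (above F S)).map (NK K F) ≤ (⨅ w : S, LN F w.1) ⊓ SU S :=
      le_inf (map_NK_le S) (map_NK_le_SU σ hσ S)
    have h12 := Subgroup.relIndex_mul_relIndex _ _ _ h11 inf_le_right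
    rw [Subgroup.inf_relIndex_right, h10] at h12
    have h13 : ((SU (above F S)).map (NK K F)).relIndex ((⨅ w : S, LN F w.1) ⊓ SU S) = 1 := by
      have : ((SU (above F S)).map (NK K F)).relIndex ((⨅ w : S, LN F w.1) ⊓ SU S) *
          ((SU (above F S)).map (NK K F)).relIndex (SU S) =
          1 * ((SU (above F S)).map (NK K F)).relIndex (SU S) := by rw [h12, one_mul]
      exact Nat.eq_of_mul_eq_mul_right h5 this
    rw [Subgroup.relIndex_eq_one] at h13
    exact le_antisymm h13 h11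

end

end Fermat.Agent.CFT
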