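import Fermat.Agent.CFT.Iface2Pf
import Fermat.Agent.CC.LocLCF

/-!
# The Hasse principle for `H²(G_K, μ_p)`
-/

set_option autoImplicit false
set_option linter.unusedSectionVars false
set_option linter.style.haveILetI false
set_option linter.unusedVariables false
set_option maxHeartbeats 400000

open scoped Classical Pointwise

noncomputable section

namespace Fermat.Agent.CFT

open Module NumberField IsDedekindDomain
open Fermat.Agent.CC
open Fermat.Agent.LF (DK ZK)

/-- triviality at all places -/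
def LocZ (p : ℕ) {G : Type} [Group G] [MulSemiringAction G Qb] (𝓛 : Lev G) (φ : G →* GQ)
    (x : H2 𝓛 (TorP p (UL Qb))) : Prop :=
  ∀ (A : ValuationSubring Qb) (q : ℕ), q.Prime → A.LiesOverPrime q →
    resH2 𝓛 ((A.decompositionSubgroup ℚ).comap φ) (TorP p (UL Qb)) x = 0

theorem LocZ.sub {p : ℕ} {G : Type} [Group G] [MulSemiringAction G Qb] {𝓛 : Lev G} {φ : G →* GQ}
    {x : H2 𝓛 (TorP p (UL Qb))} (hx : LocZ p 𝓛 φ x) (H : Subgroup G) :
    LocZ p (𝓛.sub H) (φ.comp H.subtype) (resH2 𝓛 H _ x) := by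
  intro A q hq hA
  let ψ : ((A.decompositionSubgroup ℚ).comap (φ.comp H.subtype)) →*
      (A.decompositionSubgroup ℚ).comap φ :=
    { toFun := fun g => ⟨(g : H), g.2⟩
      map_one' := rfl
      map_mul' := fun _ _ => rfl }
  have hψ : Lev.Cont ψ ((𝓛.sub H).sub ((A.decompositionSubgroup ℚ).comap (φ.comp H.subtype)))
      (𝓛.sub ((A.decompositionSubgroup ℚ).comap φ)) := by
    rintro U ⟨V, hV, hVU⟩
    refine ⟨V.comap H.subtype, ⟨V, hV, le_rfl⟩, fun u hu => ?_⟩
    exact hVU (x := ψ u) hu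
  have h1 : resH2 (𝓛.sub H) ((A.decompositionSubgroup ℚ).comap (φ.comp H.subtype))
      (TorP p (UL Qb)) (resH2 𝓛 H _ x) =
      H2map ψ hψ (AddMonoidHom.id _) (fun _ _ => rfl)
        (resH2 𝓛 ((A.decompositionSubgroup ℚ).comap φ) _ x) := by
    obtain ⟨f, rfl⟩ := H2.mk_surjective x
    rfl
  rw [h1, hx A q hq hA, map_zero]

section

variable {K : IntermediateField ℚ Qb} {G : Type} [Group G] [MulSemiringAction G Qb] {𝓛 : Lev G}
    {φ : G →* GQ}

/-- open subgroups correspond to number fields -/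
theorem exists_field_sub (h : Act K.fixingSubgroup G 𝓛 φ) (hK : FiniteDimensional ℚ K)
    {H : Subgroup G} (hH : 𝓛.isOpen H) :
    ∃ K' : IntermediateField ℚ Qb, FiniteDimensional ℚ K' ∧ K ≤ K' ∧
      H.map φ = K'.fixingSubgroup := by
  have hH' := hH
  rw [h.levEq] at hH'
  obtain ⟨W, hW, hWH⟩ := hH'
  have h1 : W ⊓ K.fixingSubgroup ≤ H.map φ := by
    rintro g ⟨hgW, hgK⟩
    have hgK' : g ∈ φ.range := by rw [h.range]; exact hgK
    obtain ⟨g, rfl⟩ := hgK'
    exact ⟨g, hWH hgW, rfl⟩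
  have h2 : lev.isOpen (H.map φ) := lev.mono _ _ (lev.inf _ _ hW ⟨K, hK, le_rfl⟩) h1
  obtain ⟨K', hK', hKf⟩ := exists_field_of_open h2
  refine ⟨K', hK', ?_, hKf.symm⟩
  have h3 : K'.fixingSubgroup ≤ K.fixingSubgroup := by
    rw [hKf, ← h.range]
    exact Subgroup.map_le_range φ H
  intro x hx
  refine LF.mem_of_fixed K' fun σ hσ => ?_
  have := h3 hσ
  rw [IntermediateField.mem_fixingSubgroup_iff] at this
  exact this x hx

theorem cycExt_of_chi {p : ℕ} [Fact p.Prime] (h : Act K.fixingSubgroup G 𝓛 φ)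
    (hK : FiniteDimensional ℚ K)
    (χ : G → ZMod p) (hχ : ∀ g h, χ (g * h) = χ g + χ h) (hc : 𝓛.Const1 χ) (t : G) (ht : χ t = 1) :
    ∃ F : IntermediateField ℚ Qb, CycExt p K F ∧ F.fixingSubgroup = (chiKer χ hχ).map φ := by
  obtain ⟨F, hF, hKF, hFf⟩ := exists_field_sub h hK (chiKer_open χ hχ hc)
  refine ⟨F, ⟨hK, hF, hKF, ?_, ?_⟩, hFf.symm⟩
  · refine normal_subgroupOf_of_conj fun m hm n hn => ?_
    rw [← hFf] at hn ⊢
    rw [← h.range] at hm
    obtain ⟨m, rfl⟩ := hm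
    obtain ⟨n, hn, rfl⟩ := hn
    exact ⟨m * n * m⁻¹, (chiKer_normal χ hχ).conj_mem n hn m, by simp⟩
  · -- index
    have h1 : F.fixingSubgroup.relIndex K.fixingSubgroup = (chiKer χ hχ).index := by
      rw [← hFf, ← h.range, MonoidHom.range_eq_map, Subgroup.relIndex_map_map]
      rw [(MonoidHom.ker_eq_bot_iff φ).mpr h.inj, sup_bot_eq, sup_bot_eq, Subgroup.relIndex_top_right]
    rw [h1]
    have h2 := Nat.card_congr (Equiv.ofBijective _ (quot_bij χ hχ t ht))
    rw [Nat.card_zmod] at h2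
    exact h2.symm

theorem isLocNorm_indep {p : ℕ} [Fact p.Prime] {F : IntermediateField ℚ Qb} (hC : CycExt p K F)
    {A : ValuationSubring Qb} {s t : GQ} (hs : s ∈ DK A K) (hsF : s ∉ F.fixingSubgroup)
    (ht : t ∈ DK A K) (htF : t ∉ F.fixingSubgroup) (a : Qb) (h : IsLocNorm p A F s a) :
    IsLocNorm p A F t a := by
  rw [isLocNorm_iff hC hs hsF] at h
  rw [isLocNorm_iff hC ht htF]
  exact h

/-- restriction of the group to a decomposition group -/
theorem Act.dec (h : Act K.fixingSubgroup G 𝓛 φ) (A : ValuationSubring Qb) :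
    Act (DK A K) ((A.decompositionSubgroup ℚ).comap φ)
      (𝓛.sub ((A.decompositionSubgroup ℚ).comap φ))
      (φ.comp ((A.decompositionSubgroup ℚ).comap φ).subtype) := by
  have h1 := h.sub ((A.decompositionSubgroup ℚ).comap φ)
  have h2 : ((A.decompositionSubgroup ℚ).comap φ).map φ = DK A K := by
    rw [Subgroup.map_comap_eq, h.range, inf_comm]
    rfl
  rwa [h2] at h1

/-- the cup product step -/
theorem hasse_step {p : ℕ} [hp : Fact p.Prime] (hHN : HasseNorm p)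
    (h : Act K.fixingSubgroup G 𝓛 φ) (hK : FiniteDimensional ℚ K)
    (χ : G → ZMod p) (hχ : ∀ g h, χ (g * h) = χ g + χ h) (hc : 𝓛.Const1 χ) (t : G) (ht : χ t = 1)
    (x : H2 𝓛 (TorP p (UL Qb))) (hx : LocZ p 𝓛 φ x)
    (hres : resH2 𝓛 (chiKer χ hχ) _ x = 0) : x = 0 := by
  have hdiv := UL.divisible (p := p) hp.out.ne_zero
  have hH := chiKer_open χ hχ hc
  have hsub := h.sub (chiKer χ hχ)
  haveI := CC.finite_quot hH
  obtain ⟨F, hC, hFf⟩ := cycExt_of_chi h hK χ hχ hc t ht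
  obtain ⟨a, ha⟩ := exists_cup_kap h.smooth hdiv χ hχ hc t ht h.h90 hsub.h90 x hres
  have haK : a.1.val ∈ K := LF.mem_of_fixed K (h.mem_H0.mp a.2)
  rw [ha, cup_kap_eq_zero_iff h.smooth hdiv χ hχ hc t ht h.h90 hsub.h90 a]
  -- local norms
  have hloc : ∀ (A : ValuationSubring Qb) (q : ℕ), q.Prime → A.LiesOverPrime q → ∀ s ∈ DK A K,
      s ∉ F.fixingSubgroup → IsLocNorm p A F s a.1.val := by
    intro A q hq hA s hs hsF
    have hs2 := hs.2
    rw [← h.range] at hs2
    obtain ⟨g, rfl⟩ := hs2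
    have hg : χ g ≠ 0 := by
      intro h0
      apply hsF
      rw [hFf]
      exact ⟨g, h0, rfl⟩
    -- normalise
    set n : ℕ := ((χ g)⁻¹).val with hn
    have hgn : χ (g ^ n) = 1 := by
      rw [chi_pow χ hχ, hn]
      simp [hg]
    set D := (A.decompositionSubgroup ℚ).comap φ with hD
    have hgD : g ^ n ∈ D := by
      change φ (g ^ n) ∈ A.decompositionSubgroup ℚ
      rw [map_pow]
      exact pow_mem hs.1 n
    have hact := Act.dec h A
    set χD : D → ZMod p := fun d => χ d with hχD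
    have hχD' : ∀ d e : D, χD (d * e) = χD d + χD e := fun d e => hχ d e
    have hcD : (𝓛.sub D).Const1 χD := hc.precomp (𝓛.cont_subtype D)
    have htD : χD ⟨g ^ n, hgD⟩ = 1 := hgn
    have hHD := chiKer_open χD hχD' hcD
    have hsubD := hact.sub (chiKer χD hχD')
    haveI := CC.finite_quot hHD
    -- the restricted cup product vanishes
    set aD : H0 D (UL Qb) := ⟨a.1, fun d => a.2 d⟩ with haD
    have hz : cup11 (scPair (TorP.killed (p := p) (M := UL Qb)))
        (scPair_eq (G := D) (TorP.killed (p := p) (M := UL Qb))) (Fp.smooth (𝓛.sub D))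
        (kap hact.smooth hdiv aD) (H1.mk _ _ (chiZ χD hχD' hcD)) = 0 := by
      have h1 := hx A q hq hA
      rw [ha] at h1
      rw [← h1]
      obtain ⟨b, f, hb, hf, hk⟩ := exists_kap (𝓛 := 𝓛) h.smooth hdiv a
      rw [hk]
      have h2 : kap hact.smooth hdiv aD = H1.mk _ _ (Z1map D.subtype (𝓛.cont_subtype D)
          (AddMonoidHom.id (TorP p (UL Qb))) (fun _ _ => rfl) f) := by
        refine kap_eq hact.smooth hdiv (b := b) hb fun d => ?_
        exact hf d
      rw [h2, cup11_mk, cup11_mk]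
      rfl
    rw [cup_kap_eq_zero_iff hact.smooth hdiv χD hχD' hcD ⟨g ^ n, hgD⟩ htD hact.h90 hsubD.h90
      aD] at hz
    have hDF : DK A F = (chiKer χD hχD').map (φ.comp D.subtype) := by
      ext σ
      constructor
      · rintro ⟨hσA, hσF⟩
        change σ ∈ F.fixingSubgroup at hσF
        rw [hFf] at hσF
        obtain ⟨τ, hτ, rfl⟩ := hσF
        exact ⟨⟨τ, hσA⟩, hτ, rfl⟩
      · rintro ⟨τ, hτ, rfl⟩
        refine ⟨τ.2, ?_⟩
        change φ τ ∈ F.fixingSubgroup
        rw [hFf]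
        exact ⟨τ, hτ, rfl⟩
    have h3 := (mem_range_cores0h hact χD hχD' ⟨g ^ n, hgD⟩ htD hDF aD).mp (by
      obtain ⟨b, hb⟩ := hz
      exact ⟨b, hb⟩)
    have h4 : φ (g ^ n) ∈ DK A K := ⟨hgD, by
      have : φ (g ^ n) ∈ φ.range := ⟨_, rfl⟩
      rwa [h.range] at this⟩
    have h5 : φ (g ^ n) ∉ F.fixingSubgroup := by
      rw [hFf]
      rintro ⟨e, he, hee⟩
      have := h.inj hee
      rw [this] at he
      have h6 : χ (g ^ n) = 0 := he
      rw [hgn] at h6
      exact one_ne_zero h6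
    exact isLocNorm_indep hC h4 h5 hs hsF _ h3
  -- the global norm
  have htK : φ t ∈ K.fixingSubgroup := by
    rw [← h.range]; exact ⟨t, rfl⟩
  have htF : φ t ∉ F.fixingSubgroup := by
    rw [hFf]
    rintro ⟨e, he, hee⟩
    have := h.inj hee
    rw [this] at he
    have h6 : χ t = 0 := he
    rw [ht] at h6
    exact one_ne_zero h6
  obtain ⟨b, hbF, hb0, hab⟩ := hHN K F hC a.1.val haK a.1.val_ne_zero hloc (φ t) htK htF
  refine ⟨⟨UL.mk b hb0, hsub.mem_H0.mpr ?_⟩, ?_⟩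
  · rw [UL.val_mk, ← hFf]
    intro σ hσ
    exact (IntermediateField.mem_fixingSubgroup_iff F σ).mp hσ b hbF
  · apply Subtype.ext
    apply UL.ext
    rw [cores0_eq χ hχ t ht, UL.val_sum, hab]
    refine Finset.prod_congr rfl fun i _ => ?_
    rw [UL.val_smul, h.act, map_pow]
    rfl

end

/-- tower argument -/
theorem hasse_tower {p : ℕ} [hp : Fact p.Prime] (hHN : HasseNorm p) (n : ℕ) :
    ∀ (K : IntermediateField ℚ Qb) (_ : FiniteDimensional ℚ K)
      (G : Type) [Group G] [MulSemiringAction G Qb] (𝓛 : Lev G) (φ : G →* GQ)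
      (_ : Act K.fixingSubgroup G 𝓛 φ) (N : Subgroup G) (_ : 𝓛.isOpen N) (_ : N.Normal)
      (_ : N.index = p ^ n) (x : H2 𝓛 (TorP p (UL Qb))) (_ : resH2 𝓛 N _ x = 0)
      (_ : LocZ p 𝓛 φ x), x = 0 := by
  induction n with
  | zero =>
    intro K hK G _ _ 𝓛 φ h N hN hn hidx x hx _
    have htop : N = ⊤ := Subgroup.index_eq_one.mp (by rw [hidx, pow_zero])
    subst htop
    exact resH2_top x hx
  | succ n ih =>
    intro K hK G _ _ 𝓛 φ h N hN hn hidx x hx hloc
    obtain ⟨H, hNH, hHn, hHi, hrel⟩ := exists_index_p N hidx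
    have hH : 𝓛.isOpen H := 𝓛.mono _ _ hN hNH
    obtain ⟨K', hK', hKK, hHK⟩ := exists_field_sub h hK hH
    have hsub := h.sub H
    rw [hHK] at hsub
    have h1 : resH2 𝓛 H _ x = 0 :=
      ih K' hK' H (𝓛.sub H) _ hsub (N.subgroupOf H) ⟨N, hN, le_rfl⟩ inferInstance hrel _
        (resH2_subgroupOf hNH x hx) (hloc.sub H)
    obtain ⟨χ, hχ, t, hc, ht, rfl⟩ := exists_chi hH hHn hHi
    exact hasse_step hHN h hK χ hχ hc t ht x hloc h1

/-- **The Hasse principle** for `H²(G_K, μ_p)`. -/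
theorem hasse_principle {p : ℕ} [hp : Fact p.Prime] (hHN : HasseNorm p)
    {K : IntermediateField ℚ Qb} (hK : FiniteDimensional ℚ K)
    {G : Type} [Group G] [MulSemiringAction G Qb] {𝓛 : Lev G} {φ : G →* GQ}
    (h : Act K.fixingSubgroup G 𝓛 φ) (x : H2 𝓛 (TorP p (UL Qb))) (hx : LocZ p 𝓛 φ x) : x = 0 := by
  obtain ⟨N, hN, hn, hx0⟩ := kill2 (TorP.smooth h.smooth) x
  haveI := 𝓛.fin N hN
  obtain ⟨H, n, hNH, hidx, hrel⟩ := exists_sylow_level (p := p) N
  have hH : 𝓛.isOpen H := 𝓛.mono _ _ hN hNH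
  have hinj := resH2_injective (A := TorP p (UL Qb)) hH (p := p) TorP.killed hidx
  apply hinj
  rw [map_zero]
  obtain ⟨K', hK', hKK, hHK⟩ := exists_field_sub h hK hH
  have hsub := h.sub H
  rw [hHK] at hsub
  exact hasse_tower hHN n K' hK' H (𝓛.sub H) _ hsub (N.subgroupOf H) ⟨N, hN, le_rfl⟩
    inferInstance hrel _ (resH2_subgroupOf hNH x hx0) (hx.sub H)

end Fermat.Agent.CFT
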