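import Fermat.Agent.CFT.Ext2
import Fermat.Agent.H02L.LocNorm2

/-!
# The interface `CC/Iface2`
-/

set_option autoImplicit false
set_option linter.unusedSectionVars false
set_option linter.style.haveILetI false
set_option linter.unusedVariables false

open scoped Classical nonZeroDivisors Pointwise

namespace Fermat.Agent.CFT

open Module NumberField IsDedekindDomain WithZero
open Fermat.Agent.CC (Qb GQ CycExt IsLocNorm PrimeUnder)
open Fermat.Agent.LF (DK ZK)
open Fermat.Agent.H02L (rho DG nrm)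
open Fermat.Agent.TW (NVal)

section

variable {K F : IntermediateField ℚ Qb} {p : ℕ} {A : ValuationSubring Qb} {q : ℕ}

theorem rs_pow_t (t : GQ) (n : ℕ) (x : Qb) (ht : t ∈ DK A K) :
    (((⟨t, ht⟩ : DK A K) ^ n : DK A K) : GQ) x = (t ^ n) x := rfl

theorem isLocNorm_iff [Fact p.Prime] (hC : CycExt p K F) {t : GQ} (ht : t ∈ DK A K)
    (htF : t ∉ F.fixingSubgroup) :
    letI := algKF hC.le; letI := numK hC; letI := numF hC
    letI := towKF hC.le; letI := galKF hC
    ∀ a : Qb, IsLocNorm p A F t a ↔ ∃ b ∈ ZK A F, b ≠ 0 ∧ a = nrm A K F b := by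
  have hp : p.Prime := Fact.out
  letI := algKF hC.le
  haveI := towKF hC.le
  haveI := numK hC
  haveI := numF hC
  haveI := galKF hC
  intro a
  have hcard : Nat.card (F ≃ₐ[K] F) = p := by
    rw [IsGalois.card_aut_eq_finrank, finrankKF hC]
  set g : DK A K := ⟨t, ht⟩ with hg
  have hg1 : rho K F A g ≠ 1 := by
    rw [Ne, H02L.rho_eq_one_iff]
    intro h
    exact htF h.2
  have hord : orderOf (rho K F A g) = p := by
    refine orderOf_eq_prime ?_ hg1
    rw [← hcard]
    exact pow_card_eq_one'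
  have hbij : Function.Bijective fun i : Fin p =>
      (⟨rho K F A (g ^ (i : ℕ)), ⟨g ^ (i : ℕ), rfl⟩⟩ : DG A K F) := by
    constructor
    · intro i j hij
      have h1 : rho K F A (g ^ (i : ℕ)) = rho K F A (g ^ (j : ℕ)) := congrArg Subtype.val hij
      rw [map_pow, map_pow] at h1
      have hi : (i : ℕ) < orderOf (rho K F A g) := by rw [hord]; exact i.2
      have hj : (j : ℕ) < orderOf (rho K F A g) := by rw [hord]; exact j.2
      exact Fin.ext (pow_injOn_Iio_orderOf hi hj h1)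
    · rintro ⟨τ, hτ⟩
      have h1 : τ ∈ Subgroup.zpowers (rho K F A g) := mem_zpowers_of_prime_card hcard hg1
      rw [mem_zpowers_iff_mem_range_orderOf] at h1
      obtain ⟨i, hi, rfl⟩ := Finset.mem_image.mp h1
      rw [hord, Finset.mem_range] at hi
      refine ⟨⟨i, hi⟩, Subtype.ext ?_⟩
      exact map_pow _ _ _
  have hprod : ∀ b ∈ ZK A F, nrm A K F b = ∏ i ∈ Finset.range p, (t ^ i) b := by
    intro b hb
    rw [H02L.nrm_eq_prod hb (fun i : Fin p => g ^ (i : ℕ)) hbij, Finset.prod_range]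
    rfl
  constructor
  · rintro ⟨b, hb0, hb, hab⟩
    have hb' : b ∈ ZK A F := LF.mem_ZK.mpr hb
    exact ⟨b, hb', hb0, by rw [hprod b hb']; exact hab⟩
  · rintro ⟨b, hb, hb0, hab⟩
    exact ⟨b, hb0, LF.mem_ZK.mp hb, by rw [← hprod b hb]; exact hab⟩

theorem index_LN_p [Fact p.Prime] (hodd : Odd p) (hC : CycExt p K F) :
    letI := algKF hC.le; letI := numK hC; letI := numF hC
    ∀ v : HeightOneSpectrum (𝓞 K), (LN F v).index = locDeg K F v := by
  have hp : p.Prime := Fact.out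
  letI := algKF hC.le
  haveI := towKF hC.le
  haveI := numK hC
  haveI := numF hC
  haveI := galKF hC
  haveI := unrInf hC hodd
  intro v
  obtain ⟨s, hsK, hsF⟩ : ∃ s ∈ K.fixingSubgroup, s ∉ F.fixingSubgroup := by
    by_contra hcon
    push Not at hcon
    have h1 := hC.idx
    rw [Subgroup.relIndex_eq_one.mpr hcon] at h1
    exact hp.one_lt.ne h1
  exact index_LN _ (gen_rs hC ⟨s, hsK⟩ hsF) p (finrankKF hC) v

theorem odd_of_ne_two (hp : p.Prime) (h2 : p ≠ 2) : Odd p := hp.odd_of_ne_two h2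

/-- **`NormIndexLe`** -/
theorem normIndexLe (hp : p.Prime) (h2 : p ≠ 2) : Fermat.Agent.CC.NormIndexLe p := by
  intro A q hq hA K F hC t ht htF
  haveI : Fact p.Prime := ⟨hp⟩
  letI := algKF hC.le
  haveI := towKF hC.le
  haveI := numK hC
  haveI := numF hC
  haveI := galKF hC
  obtain ⟨w, hw⟩ := TW.exists_NVal hq hA
  set v := H02L.plc hq hA K with hv
  have hPv : PrimeUnder A K v := H02L.primeUnder_plc hq hA K
  have hidx : (LN F v).index = p := by
    rw [index_LN_p (hp.odd_of_ne_two h2) hC v]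
    exact locDeg_of_nonsplit hC hq hA ht htF v hPv
  have hcard : Nat.card (Kˣ ⧸ LN F v) = p := hidx
  obtain ⟨s, hs⟩ : ∃ s : Kˣ, s ∉ LN F v := by
    by_contra hcon
    push Not at hcon
    have : LN F v = ⊤ := eq_top_iff.mpr fun x _ => hcon x
    rw [this, Subgroup.index_top] at hidx
    exact hp.one_lt.ne hidx
  have hs0 : ((s : K) : Qb) ≠ 0 := by exact_mod_cast s.ne_zero
  refine ⟨((s : K) : Qb), (s : K).2, hs0, fun a ha0 ha => ?_⟩
  obtain ⟨a0, b, hb, hb0, hab⟩ := H02L.exists_mul_nrm (F := F) hq hA hw (LF.mem_ZK.mpr ha) ha0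
  -- powers of `s` represent all classes
  have hs1 : (QuotientGroup.mk s : Kˣ ⧸ LN F v) ≠ 1 := by
    rw [Ne, QuotientGroup.eq_one_iff]
    exact hs
  have hord : orderOf (QuotientGroup.mk s : Kˣ ⧸ LN F v) = p := by
    refine orderOf_eq_prime ?_ hs1
    rw [← hcard]
    exact pow_card_eq_one'
  have h3 : (QuotientGroup.mk a0⁻¹ : Kˣ ⧸ LN F v) ∈ Subgroup.zpowers (QuotientGroup.mk s) :=
    mem_zpowers_of_prime_card hcard hs1
  haveI : Finite (Kˣ ⧸ LN F v) := Nat.finite_of_card_ne_zero (by rw [hcard]; exact hp.ne_zero)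
  rw [mem_zpowers_iff_mem_range_orderOf] at h3
  obtain ⟨i, hi, hia⟩ := Finset.mem_image.mp h3
  rw [hord, Finset.mem_range] at hi
  refine ⟨i, hi, ?_⟩
  rw [isLocNorm_iff hC ht htF]
  have h4 : a0 * s ^ i ∈ LN F v := by
    have h5 : (QuotientGroup.mk (s ^ i) : Kˣ ⧸ LN F v) = QuotientGroup.mk a0⁻¹ := hia
    have h6 := QuotientGroup.eq.mp h5.symm
    rwa [inv_inv] at h6
  rw [H02L.mem_LN_iff_nrm hq hA hw hPv] at h4
  obtain ⟨b', hb', hb'0, h7⟩ := h4
  refine ⟨b * b', mul_mem (LF.ZK_mono hC.le hb) hb', mul_ne_zero hb0 hb'0, ?_⟩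
  rw [H02L.nrm_mul, ← h7, hab]
  push_cast
  ring

/-- **`NormIndexGe`** -/
theorem normIndexGe (hp : p.Prime) (h2 : p ≠ 2) : Fermat.Agent.CC.NormIndexGe p := by
  intro A q hq hA K F hC t ht htF
  haveI : Fact p.Prime := ⟨hp⟩
  letI := algKF hC.le
  haveI := towKF hC.le
  haveI := numK hC
  haveI := numF hC
  haveI := galKF hC
  obtain ⟨w, hw⟩ := TW.exists_NVal hq hA
  set v := H02L.plc hq hA K with hv
  have hPv : PrimeUnder A K v := H02L.primeUnder_plc hq hA K
  have hidx : (LN F v).index = p := by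
    rw [index_LN_p (hp.odd_of_ne_two h2) hC v]
    exact locDeg_of_nonsplit hC hq hA ht htF v hPv
  obtain ⟨s, hs⟩ : ∃ s : Kˣ, s ∉ LN F v := by
    by_contra hcon
    push Not at hcon
    have : LN F v = ⊤ := eq_top_iff.mpr fun x _ => hcon x
    rw [this, Subgroup.index_top] at hidx
    exact hp.one_lt.ne hidx
  have hs0 : ((s : K) : Qb) ≠ 0 := by exact_mod_cast s.ne_zero
  refine ⟨((s : K) : Qb), (s : K).2, hs0, fun h => hs ?_⟩
  rw [isLocNorm_iff hC ht htF] at h
  exact (H02L.mem_LN_iff_nrm hq hA hw hPv s).mpr h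

/-- **`HasseNorm`** -/
theorem hasseNorm (hp : p.Prime) (h2 : p ≠ 2) : Fermat.Agent.CC.HasseNorm p := by
  intro K F hC a haK ha0 hloc s hsK hsF
  haveI : Fact p.Prime := ⟨hp⟩
  letI := algKF hC.le
  haveI := towKF hC.le
  haveI := numK hC
  haveI := numF hC
  haveI := galKF hC
  haveI := unrInf hC (hp.odd_of_ne_two h2)
  have hσ := gen_rs hC ⟨s, hsK⟩ hsF
  set σ := rs hC ⟨s, hsK⟩ with hσdef
  have haK0 : (⟨a, haK⟩ : K) ≠ 0 := fun h => ha0 (congrArg Subtype.val h)
  set a' : Kˣ := Units.mk0 ⟨a, haK⟩ haK0 with ha'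
  obtain ⟨b, hb⟩ := hasse_norm' σ hσ p (finrankKF hC) a' fun v => by
    obtain ⟨q, A, hq, hA, hPv⟩ := H02L.exists_place_over v
    obtain ⟨w, hw⟩ := TW.exists_NVal hq hA
    by_cases hsplit : DK A K ≤ F.fixingSubgroup
    · have h1 : (LN F v).index = 1 := by
        rw [index_LN_p (hp.odd_of_ne_two h2) hC v]
        exact locDeg_of_split hC hq hA hsplit v hPv
      rw [Subgroup.index_eq_one] at h1
      rw [h1]
      exact Subgroup.mem_top _
    · obtain ⟨t, ht, htF⟩ := SetLike.not_le_iff_exists.mp hsplit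
      have h1 := hloc A q hq hA t ht htF
      rw [isLocNorm_iff hC ht htF] at h1
      exact (H02L.mem_LN_iff_nrm hq hA hw hPv a').mpr h1
  refine ⟨((b : F) : Qb), (b : F).2, ?_, ?_⟩
  · have := b.ne_zero
    exact_mod_cast this
  · have h1 := incl_NK σ hσ b
    rw [hb, finrankKF hC] at h1
    have h2 := congrArg (fun x : Fˣ => ((x : F) : Qb)) h1
    have h3 : (((incl K F a' : Fˣ) : F) : Qb) = a := rfl
    have h4 : (((∏ i ∈ Finset.range p, gact (σ ^ i) b : Fˣ) : F) : Qb) =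
        ∏ i ∈ Finset.range p, (s ^ i) ((b : F) : Qb) := by
      rw [Units.coe_prod]
      have h5 : ((∏ i ∈ Finset.range p, ((gact (σ ^ i) b : Fˣ) : F) : F) : Qb) =
          ∏ i ∈ Finset.range p, (((gact (σ ^ i) b : Fˣ) : F) : Qb) := map_prod F.val _ _
      rw [h5]
      refine Finset.prod_congr rfl fun i _ => ?_
      rw [gact_coe, hσdef, ← map_pow]
      rfl
    beta_reduce at h2
    rw [h3, h4] at h2
    exact h2

end

end Fermat.Agent.CFT
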