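import Fermat.Agent.CFT.HasseS2
import Fermat.Agent.CC.Iface3

/-!
# The Hasse principle and the vanishing of `Ш²` : interface form
-/

set_option autoImplicit false

noncomputable section

namespace Fermat.Agent.CFT

open Module NumberField IsDedekindDomain
open Fermat.Agent.CC
open Fermat.Agent.LF (DK)

theorem hassePrinciple {p : ℕ} [hp : Fact p.Prime] (h2 : p ≠ 2) : CC.HassePrinciple p := by
  intro K hK x hx
  refine hasse_principle (hasseNorm hp.out h2) hK (Act.self K.fixingSubgroup) x ?_
  intro A q hq hA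
  let e : (A.decompositionSubgroup ℚ).comap K.fixingSubgroup.subtype →* DK A K :=
    { toFun := fun d => ⟨((d : K.fixingSubgroup) : GQ), d.2, d.1.2⟩
      map_one' := rfl
      map_mul' := fun _ _ => rfl }
  have he : Lev.Cont e ((lev.sub K.fixingSubgroup).sub
      ((A.decompositionSubgroup ℚ).comap K.fixingSubgroup.subtype)) (lev.sub (DK A K)) := by
    rintro U ⟨V, hV, hVU⟩
    exact ⟨V.comap K.fixingSubgroup.subtype, ⟨V, hV, le_rfl⟩, fun u hu => hVU (x := e u) hu⟩
  have h1 : resH2 (lev.sub K.fixingSubgroup)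
      ((A.decompositionSubgroup ℚ).comap K.fixingSubgroup.subtype) (TorP p (UL Qb)) x =
      H2map e he (AddMonoidHom.id _) (fun _ _ => rfl) (res2Q (Mu p) A K x) := by
    obtain ⟨f, rfl⟩ := H2.mk_surjective x
    rfl
  rw [h1, hx A q hq hA, map_zero]

theorem sha2Van {p : ℕ} [hp : Fact p.Prime] (h2 : p ≠ 2) : CC.Sha2Van p := by
  intro S K hSK hcl x hx
  haveI := hSK.unr.1
  haveI : NumberField K := ⟨⟩
  exact hasse_S (hasseNorm hp.out h2) hSK.unr hSK.pS (fun m => hcl inferInstance m) x hx

end Fermat.Agent.CFT
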