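import Mathlib

/-!
# The Euler product inequality for completely multiplicative functions on ideals
-/

set_option autoImplicit false
set_option linter.unusedSectionVars false

open scoped Classical nonZeroDivisors Topology

namespace Fermat.Agent.CFT

open NumberField Filter IsDedekindDomain

section

variable {K : Type*} [Field K] [NumberField K]

/-- the sum over ideals prime to `S` -/
noncomputable def T (f : Ideal (𝓞 K) →*₀ ℂ) (S : Finset (HeightOneSpectrum (𝓞 K))) : ℂ :=
  ∑' I : Ideal (𝓞 K), if ∀ v ∈ S, ¬ v.asIdeal ∣ I then f I else 0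

theorem T_empty (f : Ideal (𝓞 K) →*₀ ℂ) : T f ∅ = ∑' I : Ideal (𝓞 K), f I := by
  unfold T
  exact tsum_congr fun I => if_pos (by simp)

theorem T_insert {f : Ideal (𝓞 K) →*₀ ℂ} (hf : Summable fun I => ‖f I‖)
    {S : Finset (HeightOneSpectrum (𝓞 K))} {v : HeightOneSpectrum (𝓞 K)} (hv : v ∉ S) :
    T f (insert v S) = (1 - f v.asIdeal) * T f S := by
  set g : Ideal (𝓞 K) → ℂ := fun I => if ∀ w ∈ S, ¬ w.asIdeal ∣ I then f I else 0 with hg
  have h1 : T f S = T f (insert v S) + ∑' I : Ideal (𝓞 K), if v.asIdeal ∣ I then g I else 0 := by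
    unfold T
    have hs2 : Summable fun I : Ideal (𝓞 K) => if v.asIdeal ∣ I then g I else 0 := by
      refine Summable.of_norm_bounded hf fun I => ?_
      simp only [hg]
      split_ifs
      · exact le_rfl
      · simp
      · simp
    have hs1 : Summable fun I : Ideal (𝓞 K) =>
        if ∀ w ∈ insert v S, ¬ w.asIdeal ∣ I then f I else 0 := by
      refine Summable.of_norm_bounded hf fun I => ?_
      split_ifs
      · exact le_rfl
      · simp
    rw [← hs1.tsum_add hs2]
    · refine tsum_congr fun I => ?_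
      by_cases h : v.asIdeal ∣ I
      · rw [if_pos h, if_neg (show ¬ ∀ w ∈ insert v S, ¬ w.asIdeal ∣ I from
          fun h' => h' v (Finset.mem_insert_self v S) h), zero_add]
      · rw [if_neg h, add_zero]
        refine if_congr ⟨fun h' w hw => ?_, fun h' w hw => h' w (Finset.mem_insert_of_mem hw)⟩ rfl rfl
        rcases Finset.mem_insert.mp hw with rfl | hw
        · exact h
        · exact h' w hw
  have h2 : ∑' I : Ideal (𝓞 K), (if v.asIdeal ∣ I then g I else 0) = f v.asIdeal * T f S := by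
    have inj : Function.Injective (fun J : Ideal (𝓞 K) => v.asIdeal * J) := fun a b hab =>
      mul_left_cancel₀ v.ne_bot hab
    rw [← inj.tsum_eq]
    · unfold T
      rw [← tsum_mul_left]
      refine tsum_congr fun J => ?_
      rw [if_pos (Dvd.intro _ rfl)]
      simp only [hg]
      rw [mul_ite, mul_zero, map_mul]
      refine if_congr ?_ rfl rfl
      constructor
      · intro h w hw hd
        exact h w hw (hd.mul_left _)
      · intro h w hw hd
        rcases (Ideal.isPrime_iff_bot_or_prime.mp w.isPrime) with h0 | h0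
        · exact w.ne_bot h0
        rcases h0.dvd_or_dvd hd with h1 | h1
        · refine hv ?_
          have : w = v := by
            apply HeightOneSpectrum.ext
            rw [Ideal.dvd_iff_le] at h1
            exact (v.isMaximal.eq_of_le w.isPrime.ne_top h1).symm
          exact this ▸ hw
        · exact h w hw h1
    · intro I hI
      rw [Function.mem_support] at hI
      by_contra hcon
      refine hI (if_neg ?_)
      rintro ⟨c, rfl⟩
      exact hcon ⟨c, rfl⟩
  rw [h2] at h1
  linear_combination -h1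

theorem T_eq {f : Ideal (𝓞 K) →*₀ ℂ} (hf : Summable fun I => ‖f I‖)
    (S : Finset (HeightOneSpectrum (𝓞 K))) :
    T f S = (∏ v ∈ S, (1 - f v.asIdeal)) * ∑' I : Ideal (𝓞 K), f I := by
  induction S using Finset.induction_on with
  | empty => rw [T_empty, Finset.prod_empty, one_mul]
  | insert v S hv ih => rw [T_insert hf hv, ih, Finset.prod_insert hv, mul_assoc]

theorem tendsto_T {f : Ideal (𝓞 K) →*₀ ℂ} (hf : Summable fun I => ‖f I‖) :
    Tendsto (T f) atTop (𝓝 1) := by
  have h1 : (1 : ℂ) = ∑' I : Ideal (𝓞 K), if I = 1 then (1 : ℂ) else 0 := by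
    rw [tsum_ite_eq]
  rw [h1]
  refine tendsto_tsum_of_dominated_convergence hf (fun I => ?_) (Eventually.of_forall fun S I => ?_)
  · by_cases hI : I = 1
    · subst hI
      rw [if_pos rfl]
      refine tendsto_const_nhds.congr fun S => ?_
      rw [if_pos, map_one]
      intro v _ hd
      exact v.isPrime.ne_top (by rw [← Ideal.one_eq_top]; exact (isUnit_of_dvd_one hd |> Ideal.isUnit_iff.mp).trans Ideal.one_eq_top.symm)
    · rw [if_neg hI]
      by_cases h0 : I = 0
      · subst h0
        refine tendsto_const_nhds.congr fun S => ?_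
        rw [map_zero, ite_self]
      · obtain ⟨P, hP, hPI⟩ := Ideal.exists_le_maximal I (fun h => hI (h.trans Ideal.one_eq_top.symm))
        have hP0 : P ≠ ⊥ := fun h => h0 (by rw [h, le_bot_iff] at hPI; exact hPI)
        refine tendsto_const_nhds.congr' ?_
        filter_upwards [eventually_ge_atTop {(⟨P, hP.isPrime, hP0⟩ : HeightOneSpectrum (𝓞 K))}]
          with S hS
        rw [if_neg]
        intro h
        exact h _ (hS (Finset.mem_singleton_self _)) (Ideal.dvd_iff_le.mpr hPI)
  · split_ifs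
    · exact le_rfl
    · simp

theorem norm_one_sub_le (z : ℂ) : ‖1 - z‖ ≤ Real.exp (-z.re + ‖z‖ ^ 2 / 2) := by
  have h1 : ‖1 - z‖ ^ 2 = 1 - 2 * z.re + ‖z‖ ^ 2 := by
    rw [← Complex.normSq_eq_norm_sq, ← Complex.normSq_eq_norm_sq, Complex.normSq_apply,
      Complex.normSq_apply]
    simp
    ring
  have h2 : ‖1 - z‖ ^ 2 ≤ Real.exp (-z.re + ‖z‖ ^ 2 / 2) ^ 2 := by
    rw [h1, ← Real.exp_nat_mul]
    have := Real.add_one_le_exp ((2 : ℕ) * (-z.re + ‖z‖ ^ 2 / 2))
    push_cast at this ⊢
    linarith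
  exact le_of_sq_le_sq h2 (Real.exp_pos _).le

/-- **Euler inequality**. -/
theorem tsum_re_le {f : Ideal (𝓞 K) →*₀ ℂ} (hf : Summable fun I => ‖f I‖) {M : ℝ}
    (hM : ‖∑' I : Ideal (𝓞 K), f I‖ ≤ M) :
    0 < M ∧ ∑' v : HeightOneSpectrum (𝓞 K), (f v.asIdeal).re ≤
      Real.log M + (∑' v : HeightOneSpectrum (𝓞 K), ‖f v.asIdeal‖ ^ 2) / 2 := by
  have inj : Function.Injective (fun v : HeightOneSpectrum (𝓞 K) => v.asIdeal) := fun v w h =>
    HeightOneSpectrum.ext h
  have s1 : Summable fun v : HeightOneSpectrum (𝓞 K) => ‖f v.asIdeal‖ := hf.comp_injective inj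
  have s2 : Summable fun v : HeightOneSpectrum (𝓞 K) => (f v.asIdeal).re :=
    Summable.of_norm_bounded s1 fun v => by
      rw [Real.norm_eq_abs]; exact Complex.abs_re_le_norm _
  have s3 : Summable fun v : HeightOneSpectrum (𝓞 K) => ‖f v.asIdeal‖ ^ 2 := by
    have h := s1.tendsto_cofinite_zero.eventually (Iio_mem_nhds (zero_lt_one (α := ℝ)))
    refine Summable.of_norm_bounded_eventually s1 ?_
    filter_upwards [h] with v hv
    have hv1 : ‖f v.asIdeal‖ ≤ 1 := le_of_lt hv
    have h0 := norm_nonneg (f v.asIdeal)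
    rw [Real.norm_of_nonneg (by positivity)]
    nlinarith
  set A := ∑' v : HeightOneSpectrum (𝓞 K), (f v.asIdeal).re with hA
  set B := ∑' v : HeightOneSpectrum (𝓞 K), ‖f v.asIdeal‖ ^ 2 with hB
  have hM0 : 0 ≤ M := (norm_nonneg _).trans hM
  have h1 : ∀ S : Finset (HeightOneSpectrum (𝓞 K)), ‖T f S‖ ≤
      M * Real.exp (-(∑ v ∈ S, (f v.asIdeal).re) + (∑ v ∈ S, ‖f v.asIdeal‖ ^ 2) / 2) := by
    intro S
    rw [T_eq hf, norm_mul, norm_prod, mul_comm]
    refine mul_le_mul hM ?_ (Finset.prod_nonneg fun _ _ => norm_nonneg _) hM0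
    rw [← Finset.sum_neg_distrib, Finset.sum_div, ← Finset.sum_add_distrib, Real.exp_sum]
    exact Finset.prod_le_prod (fun _ _ => norm_nonneg _) fun v _ => norm_one_sub_le _
  have h2 : Tendsto (fun S : Finset (HeightOneSpectrum (𝓞 K)) =>
      M * Real.exp (-(∑ v ∈ S, (f v.asIdeal).re) + (∑ v ∈ S, ‖f v.asIdeal‖ ^ 2) / 2)) atTop
      (𝓝 (M * Real.exp (-A + B / 2))) := by
    refine Tendsto.const_mul _ ((Real.continuous_exp.tendsto _).comp ?_)
    refine Tendsto.add (Tendsto.neg ?_) (Tendsto.div_const ?_ 2)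
    · exact s2.hasSum
    · exact s3.hasSum
  have h3 : Tendsto (fun S => ‖T f S‖) atTop (𝓝 1) := by
    have := (tendsto_T hf).norm
    rwa [norm_one] at this
  have h4 : 1 ≤ M * Real.exp (-A + B / 2) := le_of_tendsto_of_tendsto' h3 h2 h1
  have hMpos : 0 < M := by
    rcases hM0.lt_or_eq with h | h
    · exact h
    · rw [← h, zero_mul] at h4
      exact absurd h4 (by norm_num)
  refine ⟨hMpos, ?_⟩
  have h5 := Real.log_le_log one_pos h4
  rw [Real.log_one, Real.log_mul hMpos.ne' (Real.exp_pos _).ne', Real.log_exp] at h5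
  linarith

end

end Fermat.Agent.CFT
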