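import Fermat.Agent.CFT.LocHerb
import Fermat.Agent.CC.Iface2
import Fermat.Agent.H02L.Place

/-!
# Cyclic extensions inside `ℚbar`
-/

set_option autoImplicit false
set_option linter.unusedSectionVars false
set_option linter.style.haveILetI false
set_option linter.unusedVariables false

open scoped Classical nonZeroDivisors Pointwise

namespace Fermat.Agent.CFT

open Module NumberField IsDedekindDomain WithZero
open Fermat.Agent.CC (Qb GQ CycExt IsLocNorm PrimeUnder)
open Fermat.Agent.LF (DK ZK)

section

variable {K F : IntermediateField ℚ Qb} {p : ℕ}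

/-- the algebra structure -/
@[reducible] noncomputable def algKF (h : K ≤ F) : Algebra K F :=
  (IntermediateField.inclusion h).toRingHom.toAlgebra

theorem towKF (h : K ≤ F) : letI := algKF h; IsScalarTower K F Qb := by
  letI := algKF h
  exact IsScalarTower.of_algebraMap_eq fun x => rfl

theorem towQKF (h : K ≤ F) : letI := algKF h; IsScalarTower ℚ K F := by
  letI := algKF h
  exact IsScalarTower.of_algebraMap_eq fun x => rfl

theorem fix_le (h : K ≤ F) : F.fixingSubgroup ≤ K.fixingSubgroup :=
  IntermediateField.fixingSubgroup_antitone h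

theorem map_mem_of_normal (hn : (F.fixingSubgroup.subgroupOf K.fixingSubgroup).Normal)
    (hle : F.fixingSubgroup ≤ K.fixingSubgroup)
    {g : GQ} (hg : g ∈ K.fixingSubgroup) {x : Qb} (hx : x ∈ F) : g x ∈ F := by
  refine LF.mem_of_fixed F fun h hh => ?_
  have h1 := hn.conj_mem ⟨h, hle hh⟩ hh ⟨g⁻¹, inv_mem hg⟩
  have h2 : g⁻¹ * h * g ∈ F.fixingSubgroup := by
    have h3 := Subgroup.mem_subgroupOf.mp h1
    have h4 : (((⟨g⁻¹, inv_mem hg⟩ * ⟨h, hle hh⟩ * (⟨g⁻¹, inv_mem hg⟩)⁻¹ : K.fixingSubgroup)) : GQ) =
        g⁻¹ * h * g := by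
      simp
    rwa [h4] at h3
  have h5 := (IntermediateField.mem_fixingSubgroup_iff F _).mp h2 x hx
  have h6 : (g * (g⁻¹ * h * g)) x = g x := by rw [AlgEquiv.mul_apply, h5]
  have h7 : g * (g⁻¹ * h * g) = h * g := by group
  rw [h7, AlgEquiv.mul_apply] at h6
  exact h6

variable (hC : CycExt p K F)

theorem numK (hC : CycExt p K F) : NumberField K := haveI := hC.fK; ⟨⟩

theorem numF (hC : CycExt p K F) : NumberField F := haveI := hC.fF; ⟨⟩

/-- restriction to `F` -/
noncomputable def rsHom (hC : CycExt p K F) (g : K.fixingSubgroup) :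
    letI := algKF hC.le; F →ₐ[K] F :=
  letI := algKF hC.le
  { toFun := fun x => ⟨(g : GQ) x, map_mem_of_normal hC.nor (fix_le hC.le) g.2 x.2⟩
    map_one' := Subtype.ext (map_one _)
    map_mul' := fun x y => Subtype.ext (map_mul _ _ _)
    map_zero' := Subtype.ext (map_zero _)
    map_add' := fun x y => Subtype.ext (map_add _ _ _)
    commutes' := fun x => Subtype.ext ((IntermediateField.mem_fixingSubgroup_iff K _).mp g.2 x x.2) }

theorem finKF (hC : CycExt p K F) : letI := algKF hC.le; FiniteDimensional K F := by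
  letI := algKF hC.le
  haveI := towQKF hC.le
  haveI := hC.fF
  exact FiniteDimensional.right ℚ K F

theorem algebraicKF (hC : CycExt p K F) : letI := algKF hC.le; Algebra.IsAlgebraic K F := by
  letI := algKF hC.le
  haveI := finKF hC
  infer_instance

/-- restriction to `F` -/
noncomputable def rs (hC : CycExt p K F) : letI := algKF hC.le; K.fixingSubgroup →* (F ≃ₐ[K] F) :=
  letI := algKF hC.le
  haveI := algebraicKF hC
  { toFun := fun g => AlgEquiv.ofBijective (rsHom hC g) (Algebra.IsAlgebraic.algHom_bijective _)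
    map_one' := by
      ext x
      rfl
    map_mul' := fun g h => by
      ext x
      rfl }

theorem rs_coe (hC : CycExt p K F) (g : K.fixingSubgroup) (x : F) :
    letI := algKF hC.le; ((rs hC g x : F) : Qb) = (g : GQ) x := rfl

theorem ker_rs (hC : CycExt p K F) :
    letI := algKF hC.le; (rs hC).ker = F.fixingSubgroup.subgroupOf K.fixingSubgroup := by
  letI := algKF hC.le
  ext g
  rw [MonoidHom.mem_ker, Subgroup.mem_subgroupOf, IntermediateField.mem_fixingSubgroup_iff]
  constructor
  · intro h x hx
    have h1 := congrArg (fun τ : F ≃ₐ[K] F => ((τ ⟨x, hx⟩ : F) : Qb)) h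
    exact h1
  · intro h
    ext x
    exact h x x.2

theorem galKF (hC : CycExt p K F) : letI := algKF hC.le; IsGalois K F := by
  letI := algKF hC.le
  haveI := finKF hC
  refine IsGalois.of_fixedField_eq_bot K F ?_
  rw [eq_bot_iff]
  intro x hx
  rw [IntermediateField.mem_fixedField_iff] at hx
  have h1 : (x : Qb) ∈ K := LF.mem_of_fixed K fun σ hσ => by
    have := hx (rs hC ⟨σ, hσ⟩) (Subgroup.mem_top _)
    exact congrArg Subtype.val this
  exact IntermediateField.mem_bot.mpr ⟨⟨x, h1⟩, Subtype.ext rfl⟩

theorem card_le_gal (hC : CycExt p K F) : letI := algKF hC.le; Nat.card (rs hC).range = p := by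
  letI := algKF hC.le
  have h1 : (rs hC).ker.index = Nat.card (rs hC).range := Subgroup.index_ker _
  rw [← h1, ker_rs]
  exact hC.idx

theorem range_rs (hC : CycExt p K F) : letI := algKF hC.le; (rs hC).range = ⊤ := by
  letI := algKF hC.le
  haveI := finKF hC
  haveI := galKF hC
  have h1 : IntermediateField.fixedField (rs hC).range = ⊥ := by
    rw [eq_bot_iff]
    intro x hx
    rw [IntermediateField.mem_fixedField_iff] at hx
    have h1 : (x : Qb) ∈ K := LF.mem_of_fixed K fun σ hσ => by
      have := hx (rs hC ⟨σ, hσ⟩) ⟨_, rfl⟩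
      exact congrArg Subtype.val this
    exact IntermediateField.mem_bot.mpr ⟨⟨x, h1⟩, Subtype.ext rfl⟩
  have h2 := congrArg IntermediateField.fixingSubgroup h1
  rwa [IntermediateField.fixingSubgroup_fixedField, IntermediateField.fixingSubgroup_bot] at h2

theorem finrankKF (hC : CycExt p K F) : letI := algKF hC.le; finrank K F = p := by
  letI := algKF hC.le
  haveI := finKF hC
  haveI := galKF hC
  have h1 := card_le_gal hC
  rw [range_rs hC, Subgroup.card_top] at h1
  rw [← IsGalois.card_aut_eq_finrank]
  exact h1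

theorem gen_rs (hC : CycExt p K F) [Fact p.Prime] (g : K.fixingSubgroup)
    (hg : (g : GQ) ∉ F.fixingSubgroup) :
    letI := algKF hC.le; ∀ τ : F ≃ₐ[K] F, τ ∈ Subgroup.zpowers (rs hC g) := by
  letI := algKF hC.le
  haveI := finKF hC
  haveI := galKF hC
  intro τ
  have hcard : Nat.card (F ≃ₐ[K] F) = p := by
    rw [IsGalois.card_aut_eq_finrank, finrankKF hC]
  refine mem_zpowers_of_prime_card hcard ?_
  intro h
  apply hg
  have : g ∈ (rs hC).ker := h
  rw [ker_rs, Subgroup.mem_subgroupOf] at this
  exact this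

theorem unrInf (hC : CycExt p K F) (hp : Odd p) :
    letI := algKF hC.le; IsUnramifiedAtInfinitePlaces K F := by
  letI := algKF hC.le
  haveI := numK hC
  haveI := numF hC
  haveI := galKF hC
  apply IsUnramifiedAtInfinitePlaces_of_odd_finrank
  rw [finrankKF hC]
  exact hp

end

end Fermat.Agent.CFT
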