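import Fermat.Agent.CFT.SUnits2

/-!
# The first inequality for unramified cyclic extensions of prime power degree
-/

set_option autoImplicit false
set_option linter.unusedSectionVars false
set_option linter.style.haveILetI false
set_option linter.unusedVariables false

open scoped Classical nonZeroDivisors

namespace Fermat.Agent.CFT

open Module NumberField IsDedekindDomain FractionalIdeal

section classes

variable {K : Type*} [Field K] [NumberField K]

/-- the fractional ideal of a prime, as a unit -/
noncomputable def uI (v : HeightOneSpectrum (𝓞 K)) : (FractionalIdeal (𝓞 K)⁰ K)ˣ :=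
  Units.mk0 (v.asIdeal : FractionalIdeal (𝓞 K)⁰ K) (coeIdeal_ne_zero.mpr v.ne_bot)

/-- the fractional ideal with given exponents -/
noncomputable def idHom (K : Type*) [Field K] [NumberField K] :
    Multiplicative (HeightOneSpectrum (𝓞 K) →₀ ℤ) →* (FractionalIdeal (𝓞 K)⁰ K)ˣ where
  toFun m := m.toAdd.prod fun v n => uI v ^ n
  map_one' := Finsupp.prod_zero_index
  map_mul' a b := Finsupp.prod_add_index' (fun v => zpow_zero _) (fun v m n => zpow_add _ m n)

theorem count_idHom (m : HeightOneSpectrum (𝓞 K) →₀ ℤ) (v : HeightOneSpectrum (𝓞 K)) :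
    FractionalIdeal.count K v (idHom K (Multiplicative.ofAdd m) : FractionalIdeal (𝓞 K)⁰ K) = m v := by
  rw [← count_finsuppProd K v m]
  congr 1
  change ((m.prod fun v n => uI v ^ n : (FractionalIdeal (𝓞 K)⁰ K)ˣ) : FractionalIdeal (𝓞 K)⁰ K) = _
  rw [Finsupp.prod, Finsupp.prod, Units.coe_prod]
  refine Finset.prod_congr rfl fun w _ => ?_
  rw [Units.val_zpow_eq_zpow_val]
  rfl

/-- the ideal class with given exponents -/
noncomputable def clOf (K : Type*) [Field K] [NumberField K] :
    Multiplicative (HeightOneSpectrum (𝓞 K) →₀ ℤ) →* ClassGroup (𝓞 K) :=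
  ((ClassGroup.equiv (R := 𝓞 K) K).symm.toMonoidHom.comp (QuotientGroup.mk' _)).comp (idHom K)

theorem exists_of_clOf_eq_one (m : HeightOneSpectrum (𝓞 K) →₀ ℤ)
    (h : clOf K (Multiplicative.ofAdd m) = 1) : ∃ x : Kˣ, ∀ v, ordv v x = m v := by
  have h1 : (QuotientGroup.mk (idHom K (Multiplicative.ofAdd m)) :
      (FractionalIdeal (𝓞 K)⁰ K)ˣ ⧸ (toPrincipalIdeal (𝓞 K) K).range) = 1 := by
    have := congrArg (ClassGroup.equiv (R := 𝓞 K) K) h
    rw [map_one] at this
    rw [← this]
    exact ((ClassGroup.equiv (R := 𝓞 K) K).apply_symm_apply _).symm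
  rw [QuotientGroup.eq_one_iff] at h1
  obtain ⟨c, hc⟩ := h1
  refine ⟨c, fun v => ?_⟩
  have h2 : toPrincipalIdeal (𝓞 K) K c = idHom K (Multiplicative.ofAdd m) / 1 := by
    rw [_root_.div_one, hc]
  rw [ordv_eq_of_principal h2, count_idHom, Units.val_one, count_one, sub_zero]

theorem clOf_single (v : HeightOneSpectrum (𝓞 K)) :
    clOf K (Multiplicative.ofAdd (Finsupp.single v 1)) =
      ClassGroup.mk0 ⟨v.asIdeal, mem_nonZeroDivisors_of_ne_zero v.ne_bot⟩ := by
  apply (ClassGroup.equiv (R := 𝓞 K) K).injective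
  rw [ClassGroup.equiv_mk0]
  have h1 : idHom K (Multiplicative.ofAdd (Finsupp.single v 1)) =
      FractionalIdeal.mk0 K ⟨v.asIdeal, mem_nonZeroDivisors_of_ne_zero v.ne_bot⟩ := by
    change (Finsupp.single v (1 : ℤ)).prod (fun v n => uI v ^ n) = _
    rw [Finsupp.prod_single_index (zpow_zero _), zpow_one]
    apply Units.ext
    rfl
  rw [← h1]
  exact (ClassGroup.equiv (R := 𝓞 K) K).apply_symm_apply _

theorem ideal_ext {I J : (FractionalIdeal (𝓞 K)⁰ K)ˣ}
    (h : ∀ v : HeightOneSpectrum (𝓞 K), FractionalIdeal.count K v (I : FractionalIdeal (𝓞 K)⁰ K) =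
      FractionalIdeal.count K v (J : FractionalIdeal (𝓞 K)⁰ K)) : I = J := by
  apply Units.ext
  rw [← finprod_heightOneSpectrum_factorization' K I.ne_zero,
    ← finprod_heightOneSpectrum_factorization' K J.ne_zero]
  exact finprod_congr fun v => by rw [h v]

theorem idHom_surjective : Function.Surjective (idHom K) := by
  intro I
  have hfin : {v : HeightOneSpectrum (𝓞 K) |
      FractionalIdeal.count K v (I : FractionalIdeal (𝓞 K)⁰ K) ≠ 0}.Finite :=
    finite_factors (I : FractionalIdeal (𝓞 K)⁰ K)
  refine ⟨Multiplicative.ofAdd (Finsupp.onFinset hfin.toFinset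
    (fun v => FractionalIdeal.count K v (I : FractionalIdeal (𝓞 K)⁰ K)) (fun v hv => by
      rw [Set.Finite.mem_toFinset]
      exact hv)), ?_⟩
  apply ideal_ext
  intro v
  rw [count_idHom]
  rfl

theorem clOf_surjective : Function.Surjective (clOf K) := by
  intro x
  obtain ⟨I, hI⟩ := QuotientGroup.mk_surjective (ClassGroup.equiv (R := 𝓞 K) K x)
  obtain ⟨m, hm⟩ := idHom_surjective I
  refine ⟨m, ?_⟩
  apply (ClassGroup.equiv (R := 𝓞 K) K).injective
  rw [← hI, ← hm]
  exact (ClassGroup.equiv (R := 𝓞 K) K).apply_symm_apply _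

theorem clOf_ord (x : Kˣ) (m : HeightOneSpectrum (𝓞 K) →₀ ℤ) (h : ∀ v, ordv v x = m v) :
    clOf K (Multiplicative.ofAdd m) = 1 := by
  apply (ClassGroup.equiv (R := 𝓞 K) K).injective
  rw [map_one]
  have h1 : idHom K (Multiplicative.ofAdd m) = toPrincipalIdeal (𝓞 K) K x := by
    apply Units.ext
    rw [← finprod_heightOneSpectrum_factorization' K (idHom K _).ne_zero,
      ← finprod_heightOneSpectrum_factorization' K (toPrincipalIdeal (𝓞 K) K x).ne_zero]
    refine finprod_congr fun v => ?_
    rw [count_idHom, coe_toPrincipalIdeal, ← h v]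
    rfl
  have h2 : (QuotientGroup.mk (idHom K (Multiplicative.ofAdd m)) :
      (FractionalIdeal (𝓞 K)⁰ K)ˣ ⧸ (toPrincipalIdeal (𝓞 K) K).range) = 1 := by
    rw [QuotientGroup.eq_one_iff, h1]
    exact ⟨x, rfl⟩
  rw [← h2]
  exact (ClassGroup.equiv (R := 𝓞 K) K).apply_symm_apply _

end classes

section

variable {K F : Type} [Field K] [NumberField K] [Field F] [NumberField F] [Algebra K F]

/-- The subgroup of exponents divisible by the local degrees. -/
def NDv (K F : Type) [Field K] [NumberField K] [Field F] [NumberField F] [Algebra K F] :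
    Subgroup (Multiplicative (HeightOneSpectrum (𝓞 K) →₀ ℤ)) where
  carrier := {m | ∀ v, (locDeg K F v : ℤ) ∣ m.toAdd v}
  one_mem' v := dvd_zero _
  mul_mem' {a b} ha hb v := dvd_add (ha v) (hb v)
  inv_mem' {a} ha v := (dvd_neg).mpr (ha v)

/-- The norm group in the class group (for unramified extensions): it is generated by the
`[v]^{n_v}`, `n_v` the local degree. -/
noncomputable def NCl (K F : Type) [Field K] [NumberField K] [Field F] [NumberField F]
    [Algebra K F] : Subgroup (ClassGroup (𝓞 K)) := (NDv K F).map (clOf K)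

/-- completely split primes are in the norm group -/
theorem mem_NCl_of_spl (v : HeightOneSpectrum (𝓞 K)) (hv : Spl K F v) :
    ClassGroup.mk0 ⟨v.asIdeal, mem_nonZeroDivisors_of_ne_zero v.ne_bot⟩ ∈ NCl K F := by
  rw [← clOf_single]
  refine ⟨_, ?_, rfl⟩
  intro w
  by_cases hw : w = v
  · subst hw
    have : locDeg K F w = 1 := by
      rw [locDeg, hv]
      exact Nat.div_self finrank_pos
    rw [this, Nat.cast_one]
    exact one_dvd _
  · change (locDeg K F w : ℤ) ∣ (Finsupp.single v (1 : ℤ)) w
    rw [Finsupp.single_eq_of_ne hw]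
    exact dvd_zero _

variable [IsGalois K F] (σ : F ≃ₐ[K] F) (hσ : ∀ τ : F ≃ₐ[K] F, τ ∈ Subgroup.zpowers σ)

/-- fibres of `under`, as a finset -/
noncomputable def fib (F : Type) [Field F] [NumberField F] [Algebra K F]
    (v : HeightOneSpectrum (𝓞 K)) : Finset (HeightOneSpectrum (𝓞 F)) := (fiber_finite v).toFinset

theorem mem_fib {v : HeightOneSpectrum (𝓞 K)} {P : HeightOneSpectrum (𝓞 F)} :
    P ∈ fib F v ↔ under K F P = v := by
  rw [fib, Set.Finite.mem_toFinset]
  rfl

include hσ in
theorem ram_mul_ordv_NK (P : HeightOneSpectrum (𝓞 F)) (y : Fˣ) :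
    (ramE K P : ℤ) * ordv (under K F P) (NK K F y) =
      locDeg K F (under K F P) * ∑ Q ∈ fib F (under K F P), ordv Q y := by
  set v := under K F P with hv
  set S : Set (HeightOneSpectrum (𝓞 K)) := {v} with hS
  haveI : Fintype S := Fintype.ofFinite _
  haveI : Finite (above F S) := above_finite (Set.toFinite S)
  haveI : Fintype (above F S) := Fintype.ofFinite _
  have hord : orderOf σ = finrank K F := orderOf_gen σ hσ
  have htn : tS σ S ^ (finrank K F) = 1 := by
    ext P
    rw [tS_pow_coe, ← hord, pow_orderOf_eq_one, act_one]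
    rfl
  have hπt : ∀ P, piS K F S (tS σ S P) = piS K F S P := by
    intro P
    apply Subtype.ext
    exact under_act σ P.1
  have htr : ∀ P Q, piS K F S P = piS K F S Q → ∃ k : ℕ, (tS σ S ^ k) P = Q := by
    intro P Q h
    obtain ⟨k, hk⟩ := exists_pow_act σ hσ P.1 Q.1 (congrArg Subtype.val h)
    refine ⟨k, ?_⟩
    apply Subtype.ext
    rw [tS_pow_coe, hk]
  have hPS : P ∈ above F S := rfl
  have key := nm_eq (piS_surjective S) hπt htr htn (finrank_pos) (fun Q : above F S => ordv Q.1 y)
    ⟨P, hPS⟩
  have e1 : nm (sX (tS σ S)) (finrank K F) (fun Q : above F S => ordv Q.1 y) ⟨P, hPS⟩ =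
      ordv P (incl K F (NK K F y)) := by
    rw [nm_sX_apply, incl_NK σ hσ, ordv_prod]
    refine Finset.sum_congr rfl fun i _ => ?_
    have h2 : ((tS σ S ^ i).symm ⟨P, hPS⟩).1 = act (σ ^ i)⁻¹ P := by
      have h3 := tS_pow_coe σ S i ((tS σ S ^ i).symm ⟨P, hPS⟩)
      rw [Equiv.apply_symm_apply] at h3
      have h4 : P = act (σ ^ i) ((tS σ S ^ i).symm ⟨P, hPS⟩).1 := h3
      conv_rhs => rw [h4]
      rw [← act_mul, inv_mul_cancel, act_one]
    rw [h2, ordv_gact]
  rw [e1, ordv_incl] at key
  rw [key]
  have hfeq : (Finset.univ.filter fun Q : above F S => piS K F S Q = piS K F S ⟨P, hPS⟩) =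
      Finset.univ := by
    rw [Finset.filter_eq_self]
    intro Q _
    apply Subtype.ext
    have h1 : under K F Q.1 = v := Q.2
    exact h1
  have hmap : (Finset.univ : Finset (above F S)).map (Function.Embedding.subtype _) = fib F v := by
    ext Q
    rw [Finset.mem_map, mem_fib]
    constructor
    · rintro ⟨Q, _, rfl⟩
      exact Q.2
    · intro h
      exact ⟨⟨Q, h⟩, Finset.mem_univ _, rfl⟩
  have hcard : (fib F v).card = (v.asIdeal.primesOver (𝓞 F)).ncard := by
    rw [← Set.ncard_coe_finset, fib, Set.Finite.coe_toFinset, ← Nat.card_coe_set_eq,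
      ← Nat.card_coe_set_eq]
    exact Nat.card_congr (fiberEquiv K F v)
  congr 1
  · rw [mult, locDeg, ← hcard, ← hmap, Finset.card_map]
    congr 3
    convert hfeq
  · rw [fsum, ← hmap, Finset.sum_map]
    refine Finset.sum_congr ?_ fun Q _ => rfl
    convert hfeq

variable [IsUnramifiedAtInfinitePlaces K F]

/-- the reduction of orders modulo local degrees -/
noncomputable def delta (F : Type) [Field F] [NumberField F] [Algebra K F]
    (S : Set (HeightOneSpectrum (𝓞 K))) :
    Kˣ →* Multiplicative ((v : S) → ZMod (locDeg K F v.1)) where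
  toFun x := Multiplicative.ofAdd fun v => ((ordv v.1 x : ℤ) : ZMod (locDeg K F v.1))
  map_one' := by
    change Multiplicative.ofAdd _ = Multiplicative.ofAdd 0
    congr 1
    ext v
    rw [ordv_one, Int.cast_zero]
    rfl
  map_mul' x y := by
    rw [← ofAdd_add]
    congr 1
    ext v
    rw [ordv_mul, Int.cast_add]
    rfl

/-- the reduction of exponents -/
noncomputable def redS (F : Type) [Field F] [NumberField F] [Algebra K F]
    (S : Set (HeightOneSpectrum (𝓞 K))) :
    Multiplicative (S → ℤ) →* Multiplicative ((v : S) → ZMod (locDeg K F v.1)) where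
  toFun x := Multiplicative.ofAdd fun v => ((x.toAdd v : ℤ) : ZMod (locDeg K F v.1))
  map_one' := by
    change Multiplicative.ofAdd _ = Multiplicative.ofAdd 0
    congr 1
    ext v
    exact Int.cast_zero
  map_mul' x y := by
    rw [← ofAdd_add]
    congr 1
    ext v
    exact Int.cast_add _ _

theorem redS_surjective (S : Set (HeightOneSpectrum (𝓞 K))) :
    Function.Surjective (redS F S) := by
  intro g
  choose f hf using fun v => ZMod.intCast_surjective (g.toAdd v)
  exact ⟨Multiplicative.ofAdd f, congrArg Multiplicative.ofAdd (funext hf)⟩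

/-- extension by zero -/
noncomputable def extS (S : Set (HeightOneSpectrum (𝓞 K))) [Fintype S] :
    Multiplicative (S → ℤ) →* Multiplicative (HeightOneSpectrum (𝓞 K) →₀ ℤ) where
  toFun m := Multiplicative.ofAdd (∑ v : S, Finsupp.single v.1 (m.toAdd v))
  map_one' := by
    change Multiplicative.ofAdd _ = Multiplicative.ofAdd 0
    congr 1
    exact Finset.sum_eq_zero fun v _ => Finsupp.single_zero _
  map_mul' a b := by
    rw [← ofAdd_add, ← Finset.sum_add_distrib]
    congr 1
    exact Finset.sum_congr rfl fun v _ => Finsupp.single_add _ _ _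

theorem extS_apply_mem (S : Set (HeightOneSpectrum (𝓞 K))) [Fintype S] (m : S → ℤ) (v : S) :
    (extS S (Multiplicative.ofAdd m)).toAdd v.1 = m v := by
  change (∑ w : S, Finsupp.single w.1 (m w)) v.1 = m v
  rw [Finsupp.finsetSum_apply, Finset.sum_eq_single v]
  · exact Finsupp.single_eq_same
  · intro w _ hw
    exact Finsupp.single_eq_of_ne fun h => hw (Subtype.ext h.symm)
  · intro h
    exact absurd (Finset.mem_univ _) h

theorem extS_apply_notMem (S : Set (HeightOneSpectrum (𝓞 K))) [Fintype S] (m : S → ℤ)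
    (v : HeightOneSpectrum (𝓞 K)) (hv : v ∉ S) : (extS S (Multiplicative.ofAdd m)).toAdd v = 0 := by
  change (∑ w : S, Finsupp.single w.1 (m w)) v = 0
  rw [Finsupp.finsetSum_apply]
  refine Finset.sum_eq_zero fun w _ => Finsupp.single_eq_of_ne ?_
  rintro rfl
  exact hv w.2

theorem exists_sgen_both (K F : Type) [Field K] [NumberField K] [Field F] [NumberField F]
    [Algebra K F] (T : Set (HeightOneSpectrum (𝓞 K))) (hT : T.Finite) :
    ∃ S : Set (HeightOneSpectrum (𝓞 K)), S.Finite ∧ T ⊆ S ∧ SGen S ∧ SGen (above F S) := by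
  obtain ⟨S, hSfin, hgen⟩ := exists_sgen K
  obtain ⟨S', hSfin', hgen'⟩ := exists_sgen F
  refine ⟨(S ∪ under K F '' S') ∪ T, (hSfin.union (hSfin'.image _)).union hT,
    Set.subset_union_right, hgen.mono ?_, hgen'.mono ?_⟩
  · intro v hv
    exact Or.inl (Or.inl hv)
  · intro P hP
    exact Or.inl (Or.inr ⟨P, hP, rfl⟩)

include hσ in
/-- **The first inequality** for unramified cyclic extensions of prime power degree. -/
theorem first_inequality (p r : ℕ) [hp : Fact p.Prime] (hn : finrank K F = p ^ r)
    (hunr : ∀ P : HeightOneSpectrum (𝓞 F), ramE K P = 1) :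
    finrank K F ∣ (NCl K F).index := by
  obtain ⟨S, hSfin, -, hgen, hgenF⟩ := exists_sgen_both K F ∅ Set.finite_empty
  haveI : Finite S := hSfin
  haveI : Fintype S := Fintype.ofFinite _
  have hidx := index_SU σ hσ S p r hn hgen (fun P _ => hunr P)
  -- orders of norms
  have hnorm : ∀ (P : HeightOneSpectrum (𝓞 F)) (y : Fˣ), ordv (under K F P) (NK K F y) =
      locDeg K F (under K F P) * ∑ Q ∈ fib F (under K F P), ordv Q y := by
    intro P y
    rw [← ram_mul_ordv_NK σ hσ P y, hunr P, Nat.cast_one, one_mul]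
  have hnorm' : ∀ (v : HeightOneSpectrum (𝓞 K)) (y : Fˣ), ordv v (NK K F y) =
      locDeg K F v * ∑ Q ∈ fib F v, ordv Q y := by
    intro v y
    obtain ⟨P, rfl⟩ := under_surjective (F := F) v
    exact hnorm P y
  set T := ((SU S).map (delta F S)).comap (redS F S) with hT
  set φ : Multiplicative (S → ℤ) →* ClassGroup (𝓞 K) ⧸ NCl K F :=
    (QuotientGroup.mk' (NCl K F)).comp ((clOf K).comp (extS S)) with hφ
  -- the kernel of `φ`
  have hker : φ.ker ≤ T := by
    intro m hm
    have h1 : (QuotientGroup.mk (clOf K (extS S m)) : ClassGroup (𝓞 K) ⧸ NCl K F) = 1 := hm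
    rw [QuotientGroup.eq_one_iff] at h1
    obtain ⟨k, hk, hk2⟩ := h1
    have h2 : clOf K (extS S m / k) = 1 := by rw [map_div, hk2, div_self']
    obtain ⟨x, hx⟩ := exists_of_clOf_eq_one _ h2
    have hx' : ∀ v, ordv v x = (extS S m).toAdd v - k.toAdd v := hx
    have hk' : ∀ v, (locDeg K F v : ℤ) ∣ k.toAdd v := hk
    choose l hl using hk'
    -- `l` is finitely supported off the zeros of `locDeg`
    set sec : HeightOneSpectrum (𝓞 K) → HeightOneSpectrum (𝓞 F) :=
      Function.surjInv (under_surjective (K := K) (F := F)) with hsec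
    have hsecu : ∀ v, under K F (sec v) = v := fun v => Function.surjInv_eq _ v
    have hfin : {P : HeightOneSpectrum (𝓞 F) | P = sec (under K F P) ∧
        k.toAdd (under K F P) ≠ 0}.Finite := by
      refine (k.toAdd.support.finite_toSet.image sec).subset ?_
      rintro P ⟨h1, h2⟩
      exact ⟨under K F P, Finsupp.mem_support_iff.mpr h2, h1.symm⟩
    obtain ⟨y, hy⟩ := hgenF (Finsupp.onFinset hfin.toFinset
      (fun P => if P = sec (under K F P) ∧ k.toAdd (under K F P) ≠ 0 then l (under K F P) else 0)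
      (fun P hP => by
        rw [Set.Finite.mem_toFinset]
        by_contra hne
        exact hP (if_neg hne)))
    have hsum : ∀ v ∉ S, (locDeg K F v : ℤ) * ∑ Q ∈ fib F v, ordv Q y = k.toAdd v := by
      intro v hv
      have h3 : ∀ Q ∈ fib F v, ordv Q y = if Q = sec v ∧ k.toAdd v ≠ 0 then l v else 0 := by
        intro Q hQ
        rw [mem_fib] at hQ
        rw [hy Q (by rw [mem_above, hQ]; exact hv), Finsupp.onFinset_apply, hQ]
      rw [Finset.sum_congr rfl h3]
      by_cases hk0 : k.toAdd v = 0
      · simp [hk0]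
      · rw [Finset.sum_eq_single (sec v)]
        · rw [if_pos ⟨rfl, hk0⟩, ← hl]
        · intro Q _ hQ
          exact if_neg fun h => hQ h.1
        · intro h
          exact absurd (mem_fib.mpr (hsecu v)) h
    have hz : x * NK K F y ∈ SU S := by
      intro v hv
      have h4 : (extS S m).toAdd v = 0 := extS_apply_notMem S m.toAdd v hv
      rw [ordv_mul, hx', hnorm', hsum v hv, h4]
      ring
    rw [hT, Subgroup.mem_comap]
    refine ⟨x * NK K F y, hz, ?_⟩
    apply congrArg Multiplicative.ofAdd
    funext v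
    have h5 : (extS S m).toAdd v.1 = m.toAdd v := extS_apply_mem S m.toAdd v
    rw [ordv_mul, hx', hnorm', h5, hl v.1]
    push_cast
    simp
  -- counting
  have hXcard : Nat.card (Multiplicative ((v : S) → ZMod (locDeg K F v.1))) =
      ∏ v : S, locDeg K F v.1 := by
    rw [Nat.card_congr Multiplicative.toAdd, Nat.card_pi]
    exact Finset.prod_congr rfl fun v _ => Nat.card_zmod _
  have hTidx : T.index = ((SU S).map (delta F S)).index :=
    Subgroup.index_comap_of_surjective _ (redS_surjective S)
  have hdiv : Nat.card ((SU S).map (delta F S)) ∣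
      ((SU (above F S)).map (NK K F)).relIndex (SU S) := by
    rw [← Subgroup.relIndex_ker]
    apply Subgroup.relIndex_dvd_of_le_left
    rintro _ ⟨y, hy, rfl⟩
    rw [MonoidHom.mem_ker]
    apply congrArg Multiplicative.ofAdd
    funext v
    rw [hnorm']
    push_cast
    simp
  have hprod := Subgroup.card_mul_index ((SU S).map (delta F S))
  rw [hXcard, ← hidx] at hprod
  obtain ⟨q, hq⟩ := hdiv
  have hpos : 0 < Nat.card ((SU S).map (delta F S)) := by
    have h6 : ((SU (above F S)).map (NK K F)).relIndex (SU S) ≠ 0 := by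
      intro h0
      rw [h0, zero_mul] at hidx
      have h7 : ∀ v : S, locDeg K F v.1 ≠ 0 := by
        intro v h8
        rw [locDeg, Nat.div_eq_zero_iff] at h8
        have hle : (v.1.asIdeal.primesOver (𝓞 F)).ncard ≤ finrank K F ∧
            0 < (v.1.asIdeal.primesOver (𝓞 F)).ncard := by
          haveI := v.1.isPrime
          have hmain := Ideal.ncard_primesOver_mul_ramificationIdxIn_mul_inertiaDegIn
            v.1.asIdeal (𝓞 F) Gal(F/K)
          rw [IsGalois.card_aut_eq_finrank] at hmain
          have hp0 : 0 < finrank K F := finrank_pos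
          constructor
          · exact Nat.le_of_dvd hp0 (Dvd.intro _ hmain)
          · rcases Nat.eq_zero_or_pos (v.1.asIdeal.primesOver (𝓞 F)).ncard with h9 | h9
            · rw [h9, zero_mul] at hmain
              omega
            · exact h9
        omega
      exact (Finset.prod_ne_zero_iff.mpr fun v _ => h7 v) hidx.symm
    rcases Nat.eq_zero_or_pos (Nat.card ((SU S).map (delta F S))) with h8 | h8
    · rw [h8, zero_mul] at hq
      exact absurd hq h6
    · exact h8
  rw [hq, mul_assoc] at hprod
  have hT2 : T.index = q * finrank K F := by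
    rw [hTidx]
    exact Nat.eq_of_mul_eq_mul_left hpos hprod
  have h9 : T.index ∣ φ.ker.index := Subgroup.index_dvd_of_le hker
  have h10 : φ.ker.index ∣ (NCl K F).index := by
    rw [Subgroup.index_ker]
    exact Subgroup.card_subgroup_dvd_card φ.range
  exact (Dvd.intro_left q hT2.symm).trans (h9.trans h10)

end

end Fermat.Agent.CFT
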