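import Fermat.Agent.CFT.FirstIneq
import Fermat.Agent.CFT.S14Input

/-!
# The norm group of an unramified cyclic extension has index the degree
-/

set_option autoImplicit false
set_option linter.unusedSectionVars false
set_option linter.style.haveILetI false

open scoped Classical nonZeroDivisors

namespace Fermat.Agent.CFT

open Module NumberField IsDedekindDomain

section

variable {K F : Type} [Field K] [NumberField K] [Field F] [NumberField F] [Algebra K F]

/-- A subgroup of the class group containing the classes of (almost all) degree one primes which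
split completely in the Galois extension `F` has index at most `[F : K]`. -/
theorem index_le_finrank [IsGalois K F] (H : Subgroup (ClassGroup (𝓞 K)))
    (hH : {v : HeightOneSpectrum (𝓞 K) | (Ideal.absNorm v.asIdeal).Prime ∧ Spl K F v ∧
      ClassGroup.mk0 ⟨v.asIdeal, mem_nonZeroDivisors_of_ne_zero v.ne_bot⟩ ∉ H}.Finite) :
    H.index ≤ finrank K F := by
  set A := Additive (ClassGroup (𝓞 K) ⧸ H) with hA
  set ρ : ClassGroup (𝓞 K) →* Multiplicative A := QuotientGroup.mk' H with hρ
  set c := clHom ρ with hc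
  have hsurj : ∀ a : A, ∃ I : Ideal (𝓞 K), I ≠ ⊥ ∧ IsCoprime I ⊤ ∧ c.toFun I = a := by
    intro a
    obtain ⟨x, hx⟩ := QuotientGroup.mk_surjective (s := H) a
    obtain ⟨⟨I, hI⟩, rfl⟩ := ClassGroup.mk0_surjective x
    refine ⟨I, ne_bot_iff_mem.mpr hI, isCoprime_top.symm, ?_⟩
    rw [hc, clHom_apply ρ hI]
    exact hx
  have hker : ∀ v : HeightOneSpectrum (𝓞 K), (IsCoprime v.asIdeal ⊤ ∧ c.toFun v.asIdeal = 0) ↔
      ClassGroup.mk0 ⟨v.asIdeal, mem_nonZeroDivisors_of_ne_zero v.ne_bot⟩ ∈ H := by
    intro v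
    rw [hc, clHom_apply ρ (mem_nonZeroDivisors_of_ne_zero v.ne_bot), ← QuotientGroup.eq_one_iff]
    exact ⟨fun h => h.2, fun h => ⟨isCoprime_top.symm, h⟩⟩
  have h := second_inequality F c top_ne_bot hsurj (by
    refine hH.subset ?_
    rintro v ⟨h1, h2, h3⟩
    exact ⟨h1, h2, fun h => h3 ((hker v).mpr h)⟩)
  exact h

variable [IsGalois K F] [IsUnramifiedAtInfinitePlaces K F] (σ : F ≃ₐ[K] F)
  (hσ : ∀ τ : F ≃ₐ[K] F, τ ∈ Subgroup.zpowers σ)

include hσ in
/-- **The norm group of an unramified cyclic extension of prime power degree** has index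
`[F : K]`. -/
theorem index_NCl (p r : ℕ) [hp : Fact p.Prime] (hn : finrank K F = p ^ r)
    (hunr : ∀ P : HeightOneSpectrum (𝓞 F), ramE K P = 1) :
    (NCl K F).index = finrank K F := by
  have h1 := first_inequality σ hσ p r hn hunr
  have h2 := index_le_finrank (F := F) (NCl K F) (by
    refine Set.finite_empty.subset ?_
    rintro v ⟨_, h, h3⟩
    exact h3 (mem_NCl_of_spl v h))
  have h3 : (NCl K F).index ≠ 0 := Subgroup.index_ne_zero_of_finite
  exact le_antisymm h2 (Nat.le_of_dvd (Nat.pos_of_ne_zero h3) h1)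

end

end Fermat.Agent.CFT
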