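import Fermat.Agent.CFT.HasseS

/-!
# The Hasse principle for `H²(G_{K,S}, μ_p)`: conclusion
-/

set_option autoImplicit false
set_option linter.unusedSectionVars false
set_option linter.style.haveILetI false
set_option linter.unusedVariables false
set_option maxHeartbeats 400000

open scoped Classical Pointwise

noncomputable section

namespace Fermat.Agent.CFT

open Module NumberField IsDedekindDomain WithZero
open Fermat.Agent.CC
open Fermat.Agent.LF (DK ZK)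

variable {K : IntermediateField ℚ Qb} {p : ℕ} {S : Finset Nat.Primes}

/-- levels unramified outside `S` are levels -/
theorem contInf (S : Finset Nat.Primes) (K : IntermediateField ℚ Qb) :
    Lev.Cont (MonoidHom.id K.fixingSubgroup) (lev.sub K.fixingSubgroup)
      ((levS S).sub K.fixingSubgroup) := by
  rintro U ⟨V, hV, hVU⟩
  exact ⟨V, lev_isOpen_of_levS hV, fun x hx => hVU hx⟩

/-- inflation from `G_{K,S}` to `G_K` -/
def infS (p : ℕ) (S : Finset Nat.Primes) (K : IntermediateField ℚ Qb) :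
    H2 ((levS S).sub K.fixingSubgroup) (TorP p (UL Qb)) →+
      H2 (lev.sub K.fixingSubgroup) (TorP p (UL Qb)) :=
  H2map (MonoidHom.id _) (contInf S K) (AddMonoidHom.id _) (fun _ _ => rfl)

theorem inertia_le_levS {V : Subgroup GQ} (hV : (levS S).isOpen V) {A : ValuationSubring Qb}
    {q : ℕ} (hq : q.Prime) (hqS : (⟨q, hq⟩ : Nat.Primes) ∉ S) (hA : A.LiesOverPrime q) :
    A.inertiaSubgroupIn ℚ ≤ V := by
  obtain ⟨F, hF, hFV⟩ := hV
  exact (hF.2 ⟨q, hq⟩ hqS A hA).trans hFV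

/-- classes unramified outside `S` are locally trivial outside `S` -/
theorem unr_loc_zero [hp : Fact p.Prime] (hK : FiniteDimensional ℚ K)
    (hpS : (⟨p, hp.out⟩ : Nat.Primes) ∈ S)
    (x : H2 ((levS S).sub K.fixingSubgroup) (TorP p (UL Qb)))
    {A : ValuationSubring Qb} {q : ℕ} (hq : q.Prime) (hqS : (⟨q, hq⟩ : Nat.Primes) ∉ S)
    (hA : A.LiesOverPrime q) : locS p S A K x = 0 := by
  have hqp : q ≠ p := by
    rintro rfl
    exact hqS hpS
  obtain ⟨f, rfl⟩ := H2.mk_surjective x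
  obtain ⟨φ, P⟩ := exists_procyc hq hA K
  haveI : Finite (TorP p (UL Qb)) := Finite.of_equiv _ (tauT p).symm.toEquiv
  have hI : ∀ i ∈ (IK A K).subgroupOf (DK A K), ∀ m : TorP p (UL Qb), i • m = m := by
    intro i hi m
    exact inertia_smul hq hp.out hqp hA (Subgroup.mem_subgroupOf.mp hi).1 m
  obtain ⟨U, ⟨V, hV, hVU⟩, hfU⟩ := f.2.1
  obtain ⟨ψ, hψ, -, h⟩ := P.ur2 (p := p) hp.out.pos (fun m => TorP.killed m)
    (TorP.smooth (Act.self (DK A K)).smooth) hI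
    (Z2map (Subgroup.inclusion (DK_le_fix A K)) (contLocS S A K) (AddMonoidHom.id _)
      (fun _ _ => rfl) f) (by
    intro g h i hi j hj
    have hi' : Subgroup.inclusion (DK_le_fix A K) i ∈ U := hVU (x := Subgroup.inclusion (DK_le_fix A K) i)
      (inertia_le_levS hV hq hqS hA (Subgroup.mem_subgroupOf.mp hi).1)
    have hj' : Subgroup.inclusion (DK_le_fix A K) j ∈ U := hVU (x := Subgroup.inclusion (DK_le_fix A K) j)
      (inertia_le_levS hV hq hqS hA (Subgroup.mem_subgroupOf.mp hj).1)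
    exact hfU (Subgroup.inclusion (DK_le_fix A K) g) (Subgroup.inclusion (DK_le_fix A K) h) _ hi'
      _ hj')
  exact H2.mk_eq_zero.mpr ⟨ψ, hψ, h⟩

/-- local triviality of the inflation -/
theorem locZ_infS [hp : Fact p.Prime] (hK : FiniteDimensional ℚ K)
    (hpS : (⟨p, hp.out⟩ : Nat.Primes) ∈ S)
    (x : H2 ((levS S).sub K.fixingSubgroup) (TorP p (UL Qb)))
    (hx : ∀ (A : ValuationSubring Qb) (q : Nat.Primes), q ∈ S → A.LiesOverPrime (q : ℕ) →
      locS p S A K x = 0) :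
    LocZ p (lev.sub K.fixingSubgroup) K.fixingSubgroup.subtype (infS p S K x) := by
  intro A q hq hA
  have h0 : locS p S A K x = 0 := by
    by_cases hqS : (⟨q, hq⟩ : Nat.Primes) ∈ S
    · exact hx A ⟨q, hq⟩ hqS hA
    · exact unr_loc_zero hK hpS x hq hqS hA
  set D := (A.decompositionSubgroup ℚ).comap K.fixingSubgroup.subtype with hD
  let e : D →* DK A K :=
    { toFun := fun d => ⟨((d : K.fixingSubgroup) : GQ), d.2, d.1.2⟩
      map_one' := rfl
      map_mul' := fun _ _ => rfl }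
  have he : Lev.Cont e ((lev.sub K.fixingSubgroup).sub D) (lev.sub (DK A K)) := by
    rintro U ⟨V, hV, hVU⟩
    exact ⟨V.comap K.fixingSubgroup.subtype, ⟨V, hV, le_rfl⟩, fun u hu => hVU (x := e u) hu⟩
  have h1 : resH2 (lev.sub K.fixingSubgroup) D (TorP p (UL Qb)) (infS p S K x) =
      H2map e he (AddMonoidHom.id _) (fun _ _ => rfl) (locS p S A K x) := by
    obtain ⟨f, rfl⟩ := H2.mk_surjective x
    rfl
  rw [h1, h0, map_zero]

/-- constancy along a stabiliser -/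
theorem const1_levS (hK : K.IsUnramifiedOutside S) {X : Type*} (ψ : K.fixingSubgroup → X)
    (hψ : (lev.sub K.fixingSubgroup).Const1 ψ)
    (h : ∀ (A : ValuationSubring Qb) (q : Nat.Primes), q ∉ S → A.LiesOverPrime (q : ℕ) →
      ∀ σ : K.fixingSubgroup, (σ : GQ) ∈ A.inertiaSubgroupIn ℚ → ∀ g, ψ (g * σ) = ψ g) :
    ((levS S).sub K.fixingSubgroup).Const1 ψ := by
  let U : Subgroup K.fixingSubgroup :=
    { carrier := {s | ∀ g, ψ (g * s) = ψ g}
      one_mem' := fun g => by rw [mul_one]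
      mul_mem' := by
        intro s t hs ht g
        rw [← mul_assoc, ht, hs]
      inv_mem' := by
        intro s hs g
        have := hs (g * s⁻¹)
        rw [inv_mul_cancel_right] at this
        exact this.symm }
  obtain ⟨W, ⟨W', hW', hWW⟩, hψW⟩ := hψ
  have hX : lev.isOpen (U.map K.fixingSubgroup.subtype) := by
    refine lev.mono _ _ (lev.inf _ _ hW' ⟨K, hK.1, le_rfl⟩) ?_
    rintro σ ⟨hσ, hσK⟩
    exact ⟨⟨σ, hσK⟩, fun g => hψW g _ (hWW hσ), rfl⟩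
  obtain ⟨L, hL, hLX⟩ := exists_field_of_open hX
  refine ⟨U, ⟨L.fixingSubgroup, ⟨L, ⟨hL, fun q hq A hA σ hσ => ?_⟩, le_rfl⟩, ?_⟩, fun g s hs => hs g⟩
  · rw [hLX]
    exact ⟨⟨σ, hK.2 q hq A hA hσ⟩, h A q hq hA _ hσ, rfl⟩
  · rw [hLX, Subgroup.comap_map_eq_self_of_injective K.fixingSubgroup.subtype_injective]

/-- the tame character as a power of the Kummer character -/
theorem exists_tame_exp [hp : Fact p.Prime] [NumberField K] {A : ValuationSubring Qb} {q : ℕ}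
    (hq : q.Prime) (hqp : q ≠ p) (hA : A.LiesOverPrime q) {ϖ : Kˣ}
    (hϖ : ∀ z : Qb, z ≠ 0 → (∀ σ ∈ A.inertiaSubgroupIn ℚ ⊓ K.fixingSubgroup,
      σ z = z) → ∃ n : ℤ, A.valuation z = A.valuation ((ϖ : K) : Qb) ^ n)
    {π : Qb} (hπ : π ^ p = ((ϖ : K) : Qb)) (θ : K.fixingSubgroup → TorP p (UL Qb))
    (hθ : ∀ σ τ : K.fixingSubgroup, (σ : GQ) ∈ A.inertiaSubgroupIn ℚ →
      (τ : GQ) ∈ A.inertiaSubgroupIn ℚ → θ (σ * τ) = θ σ + θ τ) (h1 : θ 1 = 0)
    (hc : (lev.sub K.fixingSubgroup).Const1 θ) :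
    ∃ n : ℤ, ∀ σ : K.fixingSubgroup, (σ : GQ) ∈ A.inertiaSubgroupIn ℚ →
      vl (θ σ) = ((σ : GQ) π / π) ^ n := by
  have hgal := H51.isGalois_Qbar
  obtain ⟨U, ⟨W, ⟨E, hE, hEW⟩, hWU⟩, hθU⟩ := hc
  let f' : GQ → Qb := fun σ => if h : σ ∈ K.fixingSubgroup then vl (θ ⟨σ, h⟩) else 1
  have hf' : ∀ σ (h : σ ∈ K.fixingSubgroup), f' σ = vl (θ ⟨σ, h⟩) := fun σ h => dif_pos h
  obtain ⟨n, hn⟩ := L00.Unr.inertia_char_eq hq hA K (not_dvd_of_ne hq hp.out hqp)
    ((ϖ : K) : Qb) (ϖ : K).2 (by exact_mod_cast ϖ.ne_zero) hϖ π hπ f'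
    (fun σ hσ => by rw [hf' σ hσ.2, vl_pow])
    (fun σ hσ τ hτ => by
      rw [hf' σ hσ.2, hf' τ hτ.2, hf' (σ * τ) (mul_mem hσ.2 hτ.2), ← vl_add]
      exact congrArg vl (hθ ⟨σ, hσ.2⟩ ⟨τ, hτ.2⟩ hσ.1 hτ.1))
    E.fixingSubgroup E.fixingSubgroup_isOpen
    (fun σ hσ hσE => by
      rw [hf' σ hσ.2]
      have h2 := hθU 1 ⟨σ, hσ.2⟩ (hWU (x := ⟨σ, hσ.2⟩) (hEW hσE))
      rw [one_mul, h1] at h2
      rw [h2, vl_zero])
  refine ⟨n, fun σ hσ => ?_⟩
  have := hn σ ⟨hσ, σ.2⟩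
  rwa [hf' σ σ.2] at this

/-- **N3** : the Hasse principle for classes unramified outside `S`, when `S` generates the
class group modulo `p` -/
theorem hasse_S [hp : Fact p.Prime] (hHN : HasseNorm p) [NumberField K]
    (hK : K.IsUnramifiedOutside S) (hpS : (⟨p, hp.out⟩ : Nat.Primes) ∈ S)
    (hcl : ∀ m : HeightOneSpectrum (𝓞 K) →₀ ℤ, ∃ c : Kˣ, ∀ v : HeightOneSpectrum (𝓞 K),
      (∀ q ∈ S, ((q : ℕ) : 𝓞 K) ∉ v.asIdeal) → (p : ℤ) ∣ ordv v c - m v)
    (x : H2 ((levS S).sub K.fixingSubgroup) (TorP p (UL Qb)))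
    (hx : ∀ (A : ValuationSubring Qb) (q : Nat.Primes), q ∈ S → A.LiesOverPrime (q : ℕ) →
      locS p S A K x = 0) : x = 0 := by
  have hact := Act.self K.fixingSubgroup
  have hinf : infS p S K x = 0 := hasse_principle hHN hK.1 hact _ (locZ_infS hK.1 hpS x hx)
  obtain ⟨f, rfl⟩ := H2.mk_surjective x
  obtain ⟨ψ, hψc, hψ⟩ := H2.mk_eq_zero.mp hinf
  change (lev.sub K.fixingSubgroup).Const1 ψ at hψc
  have hψc' := hψc
  replace hψ : ∀ g h, f.1 g h = d1 ψ g h := hψ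
  haveI : Finite (TorP p (UL Qb)) := Finite.of_equiv _ (tauT p).symm.toEquiv
  -- the normal subgroup
  obtain ⟨U₁, ⟨V₁, hV₁, hVU₁⟩, hfU₁⟩ := f.2.1
  obtain ⟨V₂, hV₂, hV₂M⟩ := (smooth_levS hp.out S hpS).finite
    (Set.toFinite (Set.univ : Set (TorP p (UL Qb))))
  obtain ⟨V, hVn, hVo, hVV₁, hVV₂⟩ := (levS S).exists_normal_le hV₁ hV₂
  set V' : Subgroup K.fixingSubgroup := V.comap K.fixingSubgroup.subtype with hV'
  have hV'n : V'.Normal := hVn.comap _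
  have hfV : ∀ g h : K.fixingSubgroup, ∀ s ∈ V', ∀ t ∈ V', f.1 (g * s) (h * t) = f.1 g h :=
    fun g h s hs t ht => hfU₁ g h s (hVU₁ (hVV₁ hs)) t (hVU₁ (hVV₁ ht))
  have hMV : ∀ s ∈ V', ∀ m : TorP p (UL Qb), s • m = m := fun s hs m =>
    hV₂M m trivial s (hVV₂ hs)
  -- the level field
  obtain ⟨W, ⟨W', ⟨E, hE, hEW⟩, hWW⟩, hψW⟩ := hψc
  obtain ⟨SL, hSL⟩ := exists_unramifiedOutside E
  have hin : ∀ (A : ValuationSubring Qb) (q : Nat.Primes), q ∉ S → A.LiesOverPrime (q : ℕ) →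
      ∀ σ : K.fixingSubgroup, (σ : GQ) ∈ A.inertiaSubgroupIn ℚ → σ ∈ V' := by
    intro A q hq hA σ hσ
    exact inertia_le_levS hVo q.2 hq hA hσ
  -- the residue characteristic
  have hres : ∀ (A : ValuationSubring Qb) (q : ℕ) (hq : q.Prime) (v : HeightOneSpectrum (𝓞 K)),
      A.LiesOverPrime q → PrimeUnder A K v → (∀ q ∈ S, ((q : ℕ) : 𝓞 K) ∉ v.asIdeal) →
      (⟨q, hq⟩ : Nat.Primes) ∉ S := by
    intro A q hq v hA hv hS h
    exact hS _ h ((natCast_mem_iff hv q).mpr hA)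
  -- local data
  have hloc : ∀ v : HeightOneSpectrum (𝓞 K), ∃ (q : ℕ) (A : ValuationSubring Qb) (n : ℤ) (ϖ : Kˣ)
      (π : Qb), q.Prime ∧ A.LiesOverPrime q ∧ PrimeUnder A K v ∧ ordv v ϖ = 1 ∧
        π ^ p = ((ϖ : K) : Qb) ∧
        ((∀ q ∈ S, ((q : ℕ) : 𝓞 K) ∉ v.asIdeal) → ∀ σ : K.fixingSubgroup,
          (σ : GQ) ∈ A.inertiaSubgroupIn ℚ → vl (ψ σ - f.1 1 1) = ((σ : GQ) π / π) ^ n) ∧
        (n ≠ 0 → ∃ q ∈ SL, ((q : ℕ) : 𝓞 K) ∈ v.asIdeal) := by
    intro v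
    obtain ⟨q, A, hq, hA, hv⟩ := H02L.exists_place_over v
    obtain ⟨ϖ, hϖ, hϖ'⟩ := exists_unif' hq hA hv
    obtain ⟨π, hπ⟩ := IsAlgClosed.exists_pow_nat_eq ((ϖ : K) : Qb) hp.out.pos
    by_cases hS : ∀ q ∈ S, ((q : ℕ) : 𝓞 K) ∉ v.asIdeal
    · have hqS := hres A q hq v hA hv hS
      have hqp : q ≠ p := by
        rintro rfl
        exact hqS hpS
      by_cases hqL : (⟨q, hq⟩ : Nat.Primes) ∈ SL
      · obtain ⟨n, hn⟩ := exists_tame_exp hq hqp hA hϖ' hπ (fun σ => ψ σ - f.1 1 1)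
          (fun σ τ hσ hτ => theta_mul f.2.2 hfV hMV hψ σ τ (hin A _ hqS hA σ hσ)
            (hin A _ hqS hA τ hτ))
          (by rw [psi_one hψ, sub_self])
          (Lev.Const1.comp hψc' (fun m => m - f.1 1 1))
        exact ⟨q, A, n, ϖ, π, hq, hA, hv, hϖ, hπ, fun _ => hn, fun _ =>
          ⟨_, hqL, (natCast_mem_iff hv q).mpr hA⟩⟩
      · refine ⟨q, A, 0, ϖ, π, hq, hA, hv, hϖ, hπ, fun _ σ hσ => ?_, fun h => absurd rfl h⟩
        have h1 : (σ : GQ) ∈ W' := hEW (hSL.2 ⟨q, hq⟩ hqL A hA hσ)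
        have h2 := hψW 1 σ (hWW h1)
        rw [one_mul, psi_one hψ] at h2
        rw [h2, sub_self, vl_zero, zpow_zero]
    · exact ⟨q, A, 0, ϖ, π, hq, hA, hv, hϖ, hπ, fun h => absurd h hS, fun h => absurd rfl h⟩
  choose q A n ϖ π hq hA hv hϖ hπ hn hn0 using hloc
  -- the idele
  have hfin : (Function.support fun v => -n v).Finite := by
    have h1 : (⋃ q' ∈ SL, {v : HeightOneSpectrum (𝓞 K) | ((q' : ℕ) : 𝓞 K) ∈ v.asIdeal}).Finite :=
      SL.finite_toSet.biUnion fun q' _ => finite_over _ q'.2.ne_zero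
    refine h1.subset fun v hv => ?_
    obtain ⟨q', hq', h⟩ := hn0 v (fun h => hv (by simp [h]))
    exact Set.mem_biUnion hq' h
  obtain ⟨c, hc⟩ := hcl (Finsupp.ofSupportFinite _ hfin)
  -- the Kummer cocycle
  have hcQ : ((c : K) : Qb) ≠ 0 := by exact_mod_cast c.ne_zero
  have hcH : UL.mk ((c : K) : Qb) hcQ ∈ H0 K.fixingSubgroup (UL Qb) := by
    rw [hact.mem_H0]
    intro σ hσ
    exact (IntermediateField.mem_fixingSubgroup_iff K σ).mp hσ _ (Subtype.mem _)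
  obtain ⟨b, κ, hb, hκ, -⟩ := exists_kap (𝓛 := lev.sub K.fixingSubgroup) hact.smooth
    (UL.divisible (p := p) hp.out.ne_zero) ⟨_, hcH⟩
  have hb' : b.val ^ p = ((c : K) : Qb) := by
    have := congrArg UL.val hb
    rwa [UL.val_nsmul] at this
  have hκ' : ∀ g : K.fixingSubgroup, vl (κ.1 g) = (g : GQ) b.val / b.val := by
    intro g
    have := congrArg UL.val (hκ g)
    rwa [UL.val_sub] at this
  set ψ' : K.fixingSubgroup → TorP p (UL Qb) := ψ + κ.1 with hψ'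
  have hψ'f : ∀ g h, f.1 g h = d1 ψ' g h := by
    intro g h
    rw [hψ, hψ']
    simp only [d1, Pi.add_apply, smul_add]
    rw [κ.2.2 g h]
    abel
  have hψ'c : (lev.sub K.fixingSubgroup).Const1 ψ' :=
    Lev.Const1.comp₂ hψc' κ.2.1 (· + ·)
  -- vanishing on the chosen inertia groups
  have hvan : ∀ v : HeightOneSpectrum (𝓞 K), (∀ q ∈ S, ((q : ℕ) : 𝓞 K) ∉ v.asIdeal) →
      ∀ σ : K.fixingSubgroup, (σ : GQ) ∈ (A v).inertiaSubgroupIn ℚ → ψ' σ - f.1 1 1 = 0 := by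
    intro v hS σ hσ
    have hqS := hres (A v) (q v) (hq v) v (hA v) (hv v) hS
    have hqp : q v ≠ p := by
      intro h
      apply hqS
      have : (⟨q v, hq v⟩ : Nat.Primes) = ⟨p, hp.out⟩ := Subtype.ext h
      rw [this]
      exact hpS
    apply vl_inj
    have h1 : ψ' σ - f.1 1 1 = (ψ σ - f.1 1 1) + κ.1 σ := by
      rw [hψ', Pi.add_apply]; abel
    have hπ0 : π v ≠ 0 := by
      intro h0
      have h2 := hπ v
      rw [h0, zero_pow hp.out.ne_zero] at h2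
      exact (ϖ v).ne_zero (Subtype.ext h2.symm)
    have hσπ : (σ : GQ) (π v) / π v ≠ 0 := div_ne_zero ((map_ne_zero _).mpr hπ0) hπ0
    have hσp : ((σ : GQ) (π v) / π v) ^ p = 1 := by
      rw [div_pow, ← map_pow, hπ v]
      rw [(IntermediateField.mem_fixingSubgroup_iff K _).mp σ.2 _ (Subtype.mem _)]
      exact div_self (by exact_mod_cast (ϖ v).ne_zero)
    rw [h1, vl_add, hn v hS σ hσ, hκ', kum_inertia (hq v) hp.out hqp (hA v) (hv v) (hϖ v) (hπ v) hb'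
      hσ σ.2, ← zpow_add₀ hσπ, vl_zero]
    obtain ⟨k, hk⟩ := hc v hS
    have h2 : n v + ordv v c = (p : ℤ) * k := by
      rw [← hk]
      change n v + ordv v c = ordv v c - -n v
      ring
    rw [h2, zpow_mul, zpow_natCast, hσp, one_zpow]
  -- conclusion
  refine H2.mk_eq_zero.mpr ⟨ψ', const1_levS hK ψ' hψ'c ?_, hψ'f⟩
  intro B r hr hB σ hσ g
  set v := H02L.plc r.2 hB K with hvdef
  have hBv : PrimeUnder B K v := H02L.primeUnder_plc r.2 hB K
  have hS : ∀ q ∈ S, ((q : ℕ) : 𝓞 K) ∉ v.asIdeal := by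
    intro q hqS hqv
    rw [natCast_mem_iff hBv] at hqv
    have hqr : ¬ ((r : ℕ) : ℤ) ∣ ((q : ℕ) : ℤ) := by
      intro h
      have h1 : (r : ℕ) ∣ (q : ℕ) := by exact_mod_cast h
      have h2 : (r : ℕ) = q := (Nat.prime_dvd_prime_iff_eq r.2 q.2).mp h1
      have h3 : r = q := Subtype.ext h2
      rw [h3] at hr
      exact hr hqS
    have := H05.natCast_not_mem_nonunits r.2 hB hqr
    apply this
    exact_mod_cast hqv
  obtain ⟨γ, hγK, hγ⟩ := H02L.exists_conj (hq v) (hA v) (hv v) hBv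
  have hσV := hin B r hr hB σ hσ
  have h1 : ψ' σ - f.1 1 1 = 0 := by
    set γ' : K.fixingSubgroup := ⟨γ, hγK⟩ with hγ'
    have h2 : ((γ'⁻¹ * σ * γ' : K.fixingSubgroup) : GQ) ∈ (A v).inertiaSubgroupIn ℚ := by
      have := H09.inertia_conj (A := A v) (g := γ) (σ := σ) (by rw [hγ]; exact hσ)
      exact this
    have h3 := theta_conj f.2.2 hfV hMV hψ'f hV'n γ' (γ'⁻¹ * σ * γ')
      (by
        have := hV'n.conj_mem σ hσV γ'⁻¹
        rwa [inv_inv] at this)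
    rw [hvan v hS _ h2, smul_zero] at h3
    have h4 : γ' * (γ'⁻¹ * σ * γ') * γ'⁻¹ = σ := by group
    rwa [h4] at h3
  rw [psi_mul_right f.2.2 hfV hψ'f g σ hσV, h1, smul_zero, add_zero]

/-- primes of `K` over `S` -/
def placesOver (K : IntermediateField ℚ Qb) [NumberField K] (S : Finset Nat.Primes) :
    Set (HeightOneSpectrum (𝓞 K)) :=
  {v | ∃ q ∈ S, ((q : ℕ) : 𝓞 K) ∈ v.asIdeal}

/-- N3 when the primes over `S` generate the class group -/
theorem hasse_S_of_sgen [hp : Fact p.Prime] (hHN : HasseNorm p) [NumberField K]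
    (hK : K.IsUnramifiedOutside S) (hpS : (⟨p, hp.out⟩ : Nat.Primes) ∈ S)
    (hcl : SGen (placesOver K S))
    (x : H2 ((levS S).sub K.fixingSubgroup) (TorP p (UL Qb)))
    (hx : ∀ (A : ValuationSubring Qb) (q : Nat.Primes), q ∈ S → A.LiesOverPrime (q : ℕ) →
      locS p S A K x = 0) : x = 0 := by
  refine hasse_S hHN hK hpS (fun m => ?_) x hx
  obtain ⟨c, hc⟩ := hcl m
  refine ⟨c, fun v hv => ?_⟩
  rw [hc v (fun ⟨q, hq, h⟩ => hv q hq h), sub_self]
  exact dvd_zero _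

/-- every number field has a finite set of rational primes over which the primes generate the
class group -/
theorem exists_sgen_over (K : IntermediateField ℚ Qb) [NumberField K] :
    ∃ S₀ : Finset Nat.Primes, ∀ S, S₀ ⊆ S → SGen (placesOver K S) := by
  obtain ⟨T, hT, hTg⟩ := exists_sgen K
  have h1 : ∀ v : HeightOneSpectrum (𝓞 K), ∃ q : Nat.Primes, ((q : ℕ) : 𝓞 K) ∈ v.asIdeal := by
    intro v
    obtain ⟨q, A, hq, hA, hv⟩ := H02L.exists_place_over v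
    exact ⟨⟨q, hq⟩, (natCast_mem_iff hv q).mpr hA⟩
  choose r hr using h1
  refine ⟨hT.toFinset.image r, fun S hS => hTg.mono fun v hv => ?_⟩
  exact ⟨r v, hS (Finset.mem_image_of_mem r (hT.mem_toFinset.mpr hv)), hr v⟩

end Fermat.Agent.CFT
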