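import Mathlib

/-!
# Herbrand quotients (elementary index calculus)
-/

set_option autoImplicit false
set_option linter.unusedSectionVars false

open scoped Classical

namespace Fermat.Agent.CFT

open Module

section index

variable {B C : Type*} [AddCommGroup B] [AddCommGroup C]

/-- `[L : H] = [π L : π H] [L ∩ ker π : H ∩ ker π]` -/
theorem relIndex_split (π : B →+ C) (H L : AddSubgroup B) (h : H ≤ L) :
    H.relIndex L = (H.map π).relIndex (L.map π) * (H ⊓ π.ker).relIndex (L ⊓ π.ker) := by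
  have h1 : H ≤ H ⊔ (π.ker ⊓ L) := le_sup_left
  have h2 : H ⊔ (π.ker ⊓ L) ≤ L := sup_le h inf_le_right
  rw [← AddSubgroup.relIndex_mul_relIndex H _ L h1 h2]
  have e1 : H.relIndex (H ⊔ (π.ker ⊓ L)) = (H ⊓ π.ker).relIndex (L ⊓ π.ker) := by
    rw [sup_comm, AddSubgroup.relIndex_sup_right, ← AddSubgroup.inf_relIndex_right,
      inf_comm π.ker L]
    congr 1
    apply le_antisymm
    · rintro x ⟨hx, hx2⟩
      exact ⟨hx, hx2.2⟩
    · rintro x ⟨hx, hx2⟩
      exact ⟨hx, h hx, hx2⟩
  have e2 : (H ⊔ (π.ker ⊓ L)).relIndex L = (H.map π).relIndex (L.map π) := by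
    rw [AddSubgroup.relIndex_map_map]
    have e3 : L ⊔ π.ker = L ⊔ (H ⊔ π.ker) := by
      rw [← sup_assoc, sup_eq_left.mpr h]
    rw [e3, AddSubgroup.relIndex_sup_right, ← AddSubgroup.inf_relIndex_right (H ⊔ π.ker) L,
      sup_inf_assoc_of_le _ h]
  rw [e1, e2, mul_comm]

end index

section pair

variable {M : Type*} [AddCommGroup M]

/-- `[ker f : im g]` -/
noncomputable def hq (f g : M →+ M) : ℕ := g.range.relIndex f.ker

variable {A B C : Type*} [AddCommGroup A] [AddCommGroup B] [AddCommGroup C]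

/-- the correction term -/
noncomputable def hcorr (i : A →+ B) (f : B →+ B) : ℕ := (i.range.map f).relIndex (f.range ⊓ i.range)

theorem snake_index (i : A →+ B) (π : B →+ C) (hπ : Function.Surjective π)
    (hex : π.ker = i.range) (f : B →+ B) (fC : C →+ C)
    (hfA : i.range.map f ≤ i.range) (hfC : ∀ b, fC (π b) = π (f b)) :
    (f.ker.map π).relIndex fC.ker = hcorr i f := by
  have hT : fC.ker = (i.range.comap f).map π := by
    ext c
    constructor
    · intro hc
      obtain ⟨b, rfl⟩ := hπ c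
      refine ⟨b, ?_, rfl⟩
      change f b ∈ i.range
      rw [← hex]
      change π (f b) = 0
      rw [← hfC]
      exact hc
    · rintro ⟨b, hb, rfl⟩
      change fC (π b) = 0
      rw [hfC]
      have : f b ∈ π.ker := by rw [hex]; exact hb
      exact this
  have hA : i.range ≤ i.range.comap f := by
    intro x hx
    exact hfA ⟨x, hx, rfl⟩
  have hK : f.ker ≤ i.range.comap f := by
    intro x hx
    change f x ∈ i.range
    rw [show f x = 0 from hx]
    exact zero_mem _
  rw [hT, AddSubgroup.relIndex_map_map, hex, sup_eq_left.mpr hA, hcorr]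
  have h2 : f.range ⊓ i.range = (i.range.comap f).map f := by
    ext b
    constructor
    · rintro ⟨⟨x, rfl⟩, hx⟩
      exact ⟨x, hx, rfl⟩
    · rintro ⟨x, hx, rfl⟩
      exact ⟨⟨x, rfl⟩, hx⟩
  rw [h2, AddSubgroup.relIndex_map_map, sup_eq_left.mpr hK, sup_comm]

theorem hq_exact_aux (i : A →+ B) (hi : Function.Injective i) (π : B →+ C)
    (hπ : Function.Surjective π) (hex : π.ker = i.range) (f g : B →+ B) (fA gA : A →+ A)
    (fC gC : C →+ C) (hfA : ∀ a, i (fA a) = f (i a)) (hgA : ∀ a, i (gA a) = g (i a))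
    (hfC : ∀ b, fC (π b) = π (f b)) (hgC : ∀ b, gC (π b) = π (g b)) (hfg : ∀ b, f (g b) = 0) :
    hq fA gA * hq fC gC = hq f g * (hcorr i f * hcorr i g) := by
  have hfA' : i.range.map f ≤ i.range := by
    rintro _ ⟨_, ⟨a, rfl⟩, rfl⟩
    exact ⟨fA a, hfA a⟩
  have hle : g.range ≤ f.ker := by
    rintro _ ⟨b, rfl⟩
    exact hfg b
  -- the middle
  have h1 : hq f g = (g.range.map π).relIndex (f.ker.map π) *
      (g.range ⊓ i.range).relIndex (f.ker ⊓ i.range) := by
    rw [hq, relIndex_split π _ _ hle, hex]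
  -- the quotient
  have h2 : hq fC gC = hcorr i f * (g.range.map π).relIndex (f.ker.map π) := by
    have e1 : gC.range = g.range.map π := by
      ext c
      constructor
      · rintro ⟨c, rfl⟩
        obtain ⟨b, rfl⟩ := hπ c
        exact ⟨g b, ⟨b, rfl⟩, (hgC b).symm⟩
      · rintro ⟨_, ⟨b, rfl⟩, rfl⟩
        exact ⟨π b, hgC b⟩
    have e2 : g.range.map π ≤ f.ker.map π := AddSubgroup.map_mono hle
    have e3 : f.ker.map π ≤ fC.ker := by
      rintro _ ⟨b, hb, rfl⟩
      change fC (π b) = 0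
      rw [hfC, show f b = 0 from hb, map_zero]
    rw [hq, e1, ← AddSubgroup.relIndex_mul_relIndex _ _ _ e2 e3,
      snake_index i π hπ hex f fC hfA' hfC, mul_comm]
  -- the sub
  have h3 : hq fA gA = hcorr i g * (g.range ⊓ i.range).relIndex (f.ker ⊓ i.range) := by
    have e1 : gA.range.map i = i.range.map g := by
      ext b
      constructor
      · rintro ⟨_, ⟨a, rfl⟩, rfl⟩
        exact ⟨i a, ⟨a, rfl⟩, (hgA a).symm⟩
      · rintro ⟨_, ⟨a, rfl⟩, rfl⟩
        exact ⟨gA a, ⟨a, rfl⟩, hgA a⟩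
    have e2 : fA.ker.map i = f.ker ⊓ i.range := by
      ext b
      constructor
      · rintro ⟨a, ha, rfl⟩
        refine ⟨?_, ⟨a, rfl⟩⟩
        change f (i a) = 0
        rw [← hfA, show fA a = 0 from ha, map_zero]
      · rintro ⟨hb, ⟨a, rfl⟩⟩
        refine ⟨a, ?_, rfl⟩
        apply hi
        rw [hfA, map_zero]
        exact hb
    have e3 : i.range.map g ≤ g.range ⊓ i.range := by
      rintro _ ⟨_, ⟨a, rfl⟩, rfl⟩
      exact ⟨⟨i a, rfl⟩, ⟨gA a, hgA a⟩⟩
    have e4 : g.range ⊓ i.range ≤ f.ker ⊓ i.range := inf_le_inf_right _ hle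
    rw [hq, ← AddSubgroup.relIndex_map_map_of_injective _ _ hi, e1, e2,
      ← AddSubgroup.relIndex_mul_relIndex _ _ _ e3 e4, hcorr]
  rw [h1, h2, h3]
  ring

/-- **Multiplicativity of the Herbrand quotient.** -/
theorem hq_exact (i : A →+ B) (hi : Function.Injective i) (π : B →+ C)
    (hπ : Function.Surjective π) (hex : π.ker = i.range) (f g : B →+ B) (fA gA : A →+ A)
    (fC gC : C →+ C) (hfA : ∀ a, i (fA a) = f (i a)) (hgA : ∀ a, i (gA a) = g (i a))
    (hfC : ∀ b, fC (π b) = π (f b)) (hgC : ∀ b, gC (π b) = π (g b)) (hfg : ∀ b, f (g b) = 0)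
    (hgf : ∀ b, g (f b) = 0) :
    hq fA gA * hq fC gC * hq g f = hq gA fA * hq gC fC * hq f g := by
  rw [hq_exact_aux i hi π hπ hex f g fA gA fC gC hfA hgA hfC hgC hfg,
    hq_exact_aux i hi π hπ hex g f gA fA gC fC hgA hfA hgC hfC hgf]
  ring

/-- finiteness for the middle term -/
theorem hq_exact_ne_zero (i : A →+ B) (hi : Function.Injective i) (π : B →+ C)
    (hπ : Function.Surjective π) (hex : π.ker = i.range) (f g : B →+ B) (fA gA : A →+ A)
    (fC gC : C →+ C) (hfA : ∀ a, i (fA a) = f (i a)) (hgA : ∀ a, i (gA a) = g (i a))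
    (hfC : ∀ b, fC (π b) = π (f b)) (hgC : ∀ b, gC (π b) = π (g b)) (hfg : ∀ b, f (g b) = 0)
    (h1 : hq fA gA ≠ 0) (h2 : hq fC gC ≠ 0) : hq f g ≠ 0 := by
  have h := hq_exact_aux i hi π hπ hex f g fA gA fC gC hfA hgA hfC hgC hfg
  intro h0
  rw [h0, zero_mul] at h
  exact mul_ne_zero h1 h2 h

theorem hq_finite [Finite M] (f g : M →+ M) (hfg : ∀ b, f (g b) = 0) (hgf : ∀ b, g (f b) = 0) :
    hq f g = hq g f := by
  have key : ∀ f g : M →+ M, (∀ b, f (g b) = 0) →
      hq f g * Nat.card g.range = Nat.card f.ker := by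
    intro f g hfg
    have hle : g.range ≤ f.ker := by
      rintro _ ⟨b, rfl⟩
      exact hfg b
    rw [hq, ← AddSubgroup.relIndex_bot_left, ← AddSubgroup.relIndex_bot_left, mul_comm]
    exact AddSubgroup.relIndex_mul_relIndex _ _ _ bot_le hle
  have hcard : ∀ f : M →+ M, Nat.card f.ker * Nat.card f.range = Nat.card M := by
    intro f
    rw [← AddSubgroup.card_mul_index f.ker, AddSubgroup.index_ker]
  have h1 := key f g hfg
  have h2 := key g f hgf
  have h3 := hcard f
  have h4 := hcard g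
  have p1 : 0 < Nat.card f.range := Nat.card_pos
  have p2 : 0 < Nat.card g.range := Nat.card_pos
  have : hq f g * (Nat.card g.range * Nat.card f.range) =
      hq g f * (Nat.card g.range * Nat.card f.range) := by
    calc hq f g * (Nat.card g.range * Nat.card f.range)
        = (hq f g * Nat.card g.range) * Nat.card f.range := by ring
      _ = Nat.card M := by rw [h1, h3]
      _ = (hq g f * Nat.card f.range) * Nat.card g.range := by rw [h2, h4]
      _ = _ := by ring
  exact Nat.eq_of_mul_eq_mul_right (Nat.mul_pos p2 p1) this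

theorem hq_finite_ne_zero [Finite M] (f g : M →+ M) : hq f g ≠ 0 :=
  AddSubgroup.FiniteIndex.index_ne_zero

end pair

end Fermat.Agent.CFT
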