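import Fermat.Agent.CFT.Herbrand

/-!
# The Herbrand quotient of a finitely generated module under a cyclic group of prime power order
-/

set_option autoImplicit false
set_option linter.unusedSectionVars false

open scoped Classical

namespace Fermat.Agent.CFT

open Module Polynomial NumberField

theorem exists_cyc_poly_aux (p k : ℕ) [hp : Fact p.Prime] (K : Type) [Field K] [NumberField K]
    [IsCyclotomicExtension {p ^ (k + 1)} ℚ K] {ζ : K} (hζ : IsPrimitiveRoot ζ (p ^ (k + 1))) :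
    ∃ U V Q1 Q2 : ℤ[X],
    (X - 1 : ℤ[X]) ^ Nat.totient (p ^ (k + 1)) =
      Polynomial.C (p : ℤ) * U + cyclotomic (p ^ (k + 1)) ℤ * Q1 ∧
    U * V = 1 + cyclotomic (p ^ (k + 1)) ℤ * Q2 := by
  have hne : NeZero (p ^ (k + 1)) := ⟨pow_ne_zero _ hp.out.ne_zero⟩
  have hpos : 0 < p ^ (k + 1) := Nat.pos_of_ne_zero (NeZero.ne _)
  have hint : IsIntegral ℤ ζ := hζ.isIntegral hpos
  have hdvd : ∀ P : ℤ[X], aeval ζ P = 0 → ∃ Q, P = cyclotomic (p ^ (k + 1)) ℤ * Q := by
    intro P hP
    rw [cyclotomic_eq_minpoly hζ hpos]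
    exact minpoly.isIntegrallyClosed_dvd hint hP
  have hrep : ∀ y : 𝓞 K, ∃ P : ℤ[X], aeval ζ P = (y : K) := by
    intro y
    obtain ⟨P, hP⟩ := hζ.integralPowerBasisOfPrimePow.exists_eq_aeval' y
    refine ⟨P, ?_⟩
    rw [hP, hζ.integralPowerBasisOfPrimePow_gen]
    exact aeval_algebraMap_apply K hζ.toInteger P
  have hideal := IsCyclotomicExtension.Rat.map_eq_span_zeta_sub_one_pow p k hζ
  rw [Ideal.map_span, Set.image_singleton, Ideal.span_singleton_pow,
    Ideal.span_singleton_eq_span_singleton] at hideal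
  obtain ⟨u, hu⟩ := hideal
  have hfr : finrank ℚ K = Nat.totient (p ^ (k + 1)) :=
    IsCyclotomicExtension.finrank K (cyclotomic.irreducible_rat hpos)
  rw [hfr] at hu
  obtain ⟨U, hU⟩ := hrep u
  obtain ⟨V, hV⟩ := hrep ((u⁻¹ : (𝓞 K)ˣ) : 𝓞 K)
  obtain ⟨Q1, hQ1⟩ := hdvd ((X - 1 : ℤ[X]) ^ Nat.totient (p ^ (k + 1)) -
      Polynomial.C (p : ℤ) * U) (by
    have h := congrArg (algebraMap (𝓞 K) K) hu
    rw [map_mul, map_pow, map_sub, map_one] at h
    simp only [map_sub, map_pow, aeval_X, map_one, map_mul, hU]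
    rw [sub_eq_zero]
    refine Eq.trans h.symm ?_
    congr 1
    simp)
  obtain ⟨Q2, hQ2⟩ := hdvd (U * V - 1) (by
    simp only [map_sub, map_one, map_mul, hU, hV]
    rw [sub_eq_zero, ← map_mul, ← Units.val_mul, mul_inv_cancel]
    simp)
  exact ⟨U, V, Q1, Q2, by rw [← hQ1]; ring, by rw [← hQ2]; ring⟩

theorem exists_cyc_poly (p k : ℕ) [hp : Fact p.Prime] : ∃ U V Q1 Q2 : ℤ[X],
    (X - 1 : ℤ[X]) ^ Nat.totient (p ^ (k + 1)) =
      Polynomial.C (p : ℤ) * U + cyclotomic (p ^ (k + 1)) ℤ * Q1 ∧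
    U * V = 1 + cyclotomic (p ^ (k + 1)) ℤ * Q2 := by
  have hne : NeZero (p ^ (k + 1)) := ⟨pow_ne_zero _ hp.out.ne_zero⟩
  have hcyc : @IsCyclotomicExtension {p ^ (k + 1)} ℚ (CyclotomicField (p ^ (k + 1)) ℚ) _ _
      DivisionRing.toRatAlgebra := by
    have h : @IsCyclotomicExtension {p ^ (k + 1)} ℚ (CyclotomicField (p ^ (k + 1)) ℚ) _ _
      (CyclotomicField.algebra (p ^ (k + 1)) ℚ) := inferInstance
    have e : (DivisionRing.toRatAlgebra : Algebra ℚ (CyclotomicField (p ^ (k + 1)) ℚ)) =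
      CyclotomicField.algebra (p ^ (k + 1)) ℚ := Subsingleton.elim _ _
    rw [e]
    exact h
  exact exists_cyc_poly_aux p k (CyclotomicField (p ^ (k + 1)) ℚ)
    (IsCyclotomicExtension.zeta_spec (p ^ (k + 1)) ℚ (CyclotomicField (p ^ (k + 1)) ℚ))

section endo

variable {M : Type*} [AddCommGroup M]

/-- index of the image -/
noncomputable def idx (f : Module.End ℤ M) : ℕ := (LinearMap.range f).toAddSubgroup.index

theorem idx_mul (f g : Module.End ℤ M) (hf : Function.Injective f) :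
    idx (f * g) = idx f * idx g := by
  have h1 : (LinearMap.range (f * g)).toAddSubgroup =
      (LinearMap.range g).toAddSubgroup.map f.toAddMonoidHom := by
    ext x
    constructor
    · rintro ⟨y, rfl⟩
      exact ⟨g y, ⟨y, rfl⟩, rfl⟩
    · rintro ⟨_, ⟨y, rfl⟩, rfl⟩
      exact ⟨y, rfl⟩
  have h2 : (LinearMap.range f).toAddSubgroup = (⊤ : AddSubgroup M).map f.toAddMonoidHom := by
    ext x
    constructor
    · rintro ⟨y, rfl⟩
      exact ⟨y, trivial, rfl⟩
    · rintro ⟨y, _, rfl⟩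
      exact ⟨y, rfl⟩
  have h3 : (LinearMap.range g).toAddSubgroup.map f.toAddMonoidHom ≤
      (LinearMap.range f).toAddSubgroup := by
    rintro _ ⟨y, _, rfl⟩
    exact ⟨y, rfl⟩
  rw [idx, idx, idx, h1, ← AddSubgroup.relIndex_mul_index h3]
  conv_lhs => rw [h2, AddSubgroup.relIndex_map_map_of_injective _ _ hf,
    AddSubgroup.relIndex_top_right]
  rw [mul_comm, ← h2]

theorem idx_one : idx (1 : Module.End ℤ M) = 1 := by
  have : (LinearMap.range (1 : Module.End ℤ M)).toAddSubgroup = ⊤ := by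
    ext x
    exact ⟨fun _ => trivial, fun _ => ⟨x, rfl⟩⟩
  rw [idx, this, AddSubgroup.index_top]

theorem idx_pow (f : Module.End ℤ M) (hf : Function.Injective f) (n : ℕ) :
    idx (f ^ n) = idx f ^ n := by
  induction n with
  | zero => rw [pow_zero, pow_zero, idx_one]
  | succ n ih => rw [pow_succ', idx_mul _ _ hf, ih, pow_succ']

theorem idx_natCast [Module.Free ℤ M] [Module.Finite ℤ M] (n : ℕ) :
    idx (n : Module.End ℤ M) = n ^ finrank ℤ M := by
  rw [← AddSubgroup.index_range_nsmul M n, idx]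
  congr 1

theorem cyc_index (p k : ℕ) [hp : Fact p.Prime] [Module.Free ℤ M] [Module.Finite ℤ M]
    (c : Module.End ℤ M) (hc : aeval c (cyclotomic (p ^ (k + 1)) ℤ) = 0) :
    Function.Injective (c - 1 : Module.End ℤ M) ∧
      idx (c - 1) ^ Nat.totient (p ^ (k + 1)) = p ^ finrank ℤ M := by
  obtain ⟨U, V, Q1, Q2, h1, h2⟩ := exists_cyc_poly p k
  have e1 : (c - 1) ^ Nat.totient (p ^ (k + 1)) = (p : Module.End ℤ M) * aeval c U := by
    have h := congrArg (aeval c) h1
    rw [map_add, map_mul, map_mul, hc, zero_mul, add_zero, map_pow, map_sub, aeval_X, map_one,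
      aeval_C] at h
    rw [h]
    simp
  have e2 : aeval c U * aeval c V = 1 := by
    have h := congrArg (aeval c) h2
    rwa [map_add, map_mul, map_mul, hc, zero_mul, add_zero, map_one] at h
  have e2' : aeval c V * aeval c U = 1 := by
    rw [← map_mul, mul_comm, map_mul, e2]
  have hpinj : Function.Injective (p : Module.End ℤ M) := by
    intro x y hxy
    have h3 : (p : ℤ) • x = (p : ℤ) • y := by
      simpa using hxy
    exact smul_right_injective M (Int.natCast_ne_zero.mpr hp.out.ne_zero) h3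
  have hUinj : Function.Injective (aeval c U : Module.End ℤ M) := by
    intro x y hxy
    have h3 := congrArg (aeval c V : Module.End ℤ M) hxy
    have h4 : ∀ z, (aeval c V : Module.End ℤ M) ((aeval c U : Module.End ℤ M) z) = z := by
      intro z
      exact LinearMap.congr_fun e2' z
    rwa [h4, h4] at h3
  have hUsurj : idx (aeval c U : Module.End ℤ M) = 1 := by
    have : (LinearMap.range (aeval c U : Module.End ℤ M)).toAddSubgroup = ⊤ := by
      rw [eq_top_iff]
      intro z _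
      exact ⟨(aeval c V : Module.End ℤ M) z, LinearMap.congr_fun e2 z⟩
    rw [idx, this, AddSubgroup.index_top]
  have hφ : Nat.totient (p ^ (k + 1)) ≠ 0 :=
    (Nat.totient_pos.mpr (Nat.pos_of_ne_zero (pow_ne_zero _ hp.out.ne_zero))).ne'
  have hinj : Function.Injective (c - 1 : Module.End ℤ M) := by
    obtain ⟨n, hn⟩ := Nat.exists_eq_succ_of_ne_zero hφ
    have h3 : Function.Injective ((c - 1) ^ Nat.totient (p ^ (k + 1)) : Module.End ℤ M) := by
      rw [e1]
      exact hpinj.comp hUinj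
    rw [hn, pow_succ] at h3
    intro x y hxy
    apply h3
    change ((c - 1) ^ n) ((c - 1) x) = ((c - 1) ^ n) ((c - 1) y)
    rw [hxy]
  refine ⟨hinj, ?_⟩
  rw [← idx_pow _ hinj, e1, idx_mul _ _ hpinj, hUsurj, mul_one, idx_natCast]

end endo

end Fermat.Agent.CFT
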