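import Fermat.Agent.CFT.Herbrand2

/-!
# The Herbrand quotient of a lattice under a cyclic group of prime power order
-/

set_option autoImplicit false
set_option linter.unusedSectionVars false
set_option linter.style.haveILetI false

open scoped Classical

namespace Fermat.Agent.CFT

open Module Polynomial

universe u

section endo

variable {M : Type u} [AddCommGroup M]

/-- the norm endomorphism `∑_{i<n} s^i` -/
noncomputable def nm (s : Module.End ℤ M) (n : ℕ) : Module.End ℤ M := ∑ i ∈ Finset.range n, s ^ i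

/-- `[ker f : im g]` for endomorphisms -/
noncomputable def hE (f g : Module.End ℤ M) : ℕ := hq f.toAddMonoidHom g.toAddMonoidHom

theorem nm_mul_sub (s : Module.End ℤ M) (n : ℕ) : nm s n * (s - 1) = s ^ n - 1 :=
  geom_sum_mul s n

theorem sub_mul_nm (s : Module.End ℤ M) (n : ℕ) : (s - 1) * nm s n = s ^ n - 1 :=
  mul_geom_sum s n

theorem nm_mul (s : Module.End ℤ M) (m k : ℕ) : nm s (m * k) = nm (s ^ m) k * nm s m := by
  induction k with
  | zero => simp [nm]
  | succ k ih =>
    have h1 : nm s (m * (k + 1)) = nm s (m * k) + s ^ (m * k) * nm s m := by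
      rw [nm, nm, nm, mul_add, mul_one, Finset.sum_range_add, Finset.mul_sum]
      congr 1
      refine Finset.sum_congr rfl fun i _ => ?_
      rw [pow_add]
    rw [h1, ih]
    have h2 : nm (s ^ m) (k + 1) = nm (s ^ m) k + s ^ (m * k) := by
      rw [nm, nm, Finset.sum_range_succ, pow_mul]
    rw [h2, add_mul]

theorem nm_one (n : ℕ) : nm (1 : Module.End ℤ M) n = (n : Module.End ℤ M) := by
  simp [nm]

end endo

theorem finrank_range_add_ker {M N : Type*} [AddCommGroup M] [AddCommGroup N] [Module.Finite ℤ M]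
    (f : M →ₗ[ℤ] N) :
    finrank ℤ (LinearMap.range f) + finrank ℤ (LinearMap.ker f) = finrank ℤ M := by
  rw [← f.quotKerEquivRange.finrank_eq]
  exact Submodule.finrank_quotient_add_finrank _

/-- ranks of fixed submodules -/
noncomputable def rkFix {M : Type u} [AddCommGroup M] (s : Module.End ℤ M) (m : ℕ) : ℕ :=
  finrank ℤ (LinearMap.ker (s ^ m - 1))

theorem ker_nsmul_mul {M : Type u} [AddCommGroup M] [Module.Free ℤ M] (p : ℕ) (hp : p ≠ 0)
    (g : Module.End ℤ M) : LinearMap.ker ((p : Module.End ℤ M) * g) = LinearMap.ker g := by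
  ext x
  constructor
  · intro hx
    have h1 : (p : ℤ) • g x = 0 := by
      have : ((p : Module.End ℤ M) * g) x = 0 := hx
      simpa using this
    exact (smul_eq_zero.mp h1).resolve_left (Int.natCast_ne_zero.mpr hp)
  · intro hx
    change ((p : Module.End ℤ M) * g) x = 0
    rw [Module.End.mul_apply, show g x = 0 from hx, map_zero]

theorem restrict_pow_apply {M : Type u} [AddCommGroup M] (s : Module.End ℤ M) (A : Submodule ℤ M)
    (hA : ∀ x ∈ A, s x ∈ A) (n : ℕ) (x : A) : (((s.restrict hA) ^ n) x : M) = (s ^ n) (x : M) := by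
  induction n generalizing x with
  | zero => rfl
  | succ n ih =>
    rw [pow_succ, pow_succ, Module.End.mul_apply, Module.End.mul_apply, ih]
    rfl

theorem restrict_nm_apply {M : Type u} [AddCommGroup M] (s : Module.End ℤ M) (A : Submodule ℤ M)
    (hA : ∀ x ∈ A, s x ∈ A) (n : ℕ) (x : A) : ((nm (s.restrict hA) n) x : M) = (nm s n) (x : M) := by
  rw [nm, nm, LinearMap.sum_apply, LinearMap.sum_apply, AddSubmonoidClass.coe_finsetSum]
  exact Finset.sum_congr rfl fun i _ => restrict_pow_apply s A hA i x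

theorem free_case (p : ℕ) [hp : Fact p.Prime] (r : ℕ) : ∀ (M : Type u) [AddCommGroup M]
    [Module.Free ℤ M] [Module.Finite ℤ M] (s : Module.End ℤ M) (_ : s ^ (p ^ r) = 1)
    (a : ℕ → ℕ) (_ : ∀ j < r, rkFix s (p ^ (j + 1)) = rkFix s (p ^ j) +
      a j * Nat.totient (p ^ (j + 1))),
    hE (s - 1) (nm s (p ^ r)) * p ^ (∑ j ∈ Finset.range r, a j) =
      hE (nm s (p ^ r)) (s - 1) * p ^ (r * rkFix s 1) ∧
    hE (s - 1) (nm s (p ^ r)) ≠ 0 ∧ hE (nm s (p ^ r)) (s - 1) ≠ 0 := by
  induction r with
  | zero =>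
    intro M _ _ _ s hs a _
    rw [pow_zero, pow_one] at hs
    subst hs
    have h1 : hE ((1 : Module.End ℤ M) - 1) (nm 1 (p ^ 0)) = 1 := by
      rw [hE, hq, AddSubgroup.relIndex_eq_one]
      intro x _
      exact ⟨x, by simp [nm]⟩
    have h2 : hE (nm 1 (p ^ 0)) ((1 : Module.End ℤ M) - 1) = 1 := by
      rw [hE, hq, AddSubgroup.relIndex_eq_one]
      intro x hx
      have hx' : nm (1 : Module.End ℤ M) (p ^ 0) x = 0 := hx
      have : x = 0 := by simpa [nm] using hx'
      rw [this]
      exact zero_mem _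
    rw [h1, h2]
    simp
  | succ r ih =>
    intro M _ _ _ s hs a ha
    have hp0 := hp.out.ne_zero
    -- the submodule `A`
    set A : Submodule ℤ M := LinearMap.ker (s ^ (p ^ r) - 1) with hAdef
    have hmemA : ∀ x, x ∈ A ↔ (s ^ (p ^ r)) x = x := by
      intro x
      rw [hAdef, LinearMap.mem_ker, LinearMap.sub_apply, Module.End.one_apply, sub_eq_zero]
    have hcomm : ∀ m x, (s ^ m) (s x) = s ((s ^ m) x) := by
      intro m x
      rw [← Module.End.mul_apply, ← Module.End.mul_apply, ← pow_succ, ← pow_succ']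
    have hA : ∀ x ∈ A, s x ∈ A := by
      intro x hx
      rw [hmemA] at hx ⊢
      rw [hcomm, hx]
    set sA := s.restrict hA with hsA
    have hsA1 : sA ^ (p ^ r) = 1 := by
      ext x
      rw [hsA, restrict_pow_apply, (hmemA _).mp x.2]
      rfl
    -- the quotient `C`
    set C : Submodule ℤ M := LinearMap.range (s ^ (p ^ r) - 1) with hCdef
    have hC : ∀ x ∈ C, s x ∈ C := by
      rintro _ ⟨y, rfl⟩
      refine ⟨s y, ?_⟩
      rw [LinearMap.sub_apply, LinearMap.sub_apply, hcomm, map_sub]
      rfl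
    set sC := s.restrict hC with hsC
    have hcycl : aeval sC (cyclotomic (p ^ (r + 1)) ℤ) = 0 := by
      rw [cyclotomic_prime_pow_eq_geom_sum hp.out, map_sum]
      simp only [map_pow, aeval_X]
      ext ⟨_, ⟨y, rfl⟩⟩
      have h1 : ∑ x ∈ Finset.range p, (sC ^ p ^ r) ^ x = nm (sC ^ p ^ r) p := rfl
      rw [h1]
      have h2 : nm (sC ^ p ^ r) p * (sC ^ (p ^ r) - 1) = 0 := by
        rw [nm_mul_sub, ← pow_mul, ← pow_succ]
        ext x
        rw [LinearMap.sub_apply, AddSubgroupClass.coe_sub, hsC, restrict_pow_apply, hs]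
        simp
      -- direct computation
      have h3 : ∀ x : C, ((nm (sC ^ p ^ r) p x : C) : M) = nm (s ^ p ^ r) p (x : M) := by
        intro x
        rw [nm, nm, LinearMap.sum_apply, LinearMap.sum_apply, AddSubmonoidClass.coe_finsetSum]
        refine Finset.sum_congr rfl fun i _ => ?_
        rw [← pow_mul, ← pow_mul, hsC, restrict_pow_apply]
      rw [h3]
      change (nm (s ^ p ^ r) p * (s ^ (p ^ r) - 1)) y = 0
      rw [nm_mul_sub, ← pow_mul, ← pow_succ, hs, sub_self]
      rfl
    obtain ⟨hinjC, hidx⟩ := cyc_index p r sC hcycl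
    -- ranks
    have hrank : finrank ℤ C = a r * Nat.totient (p ^ (r + 1)) := by
      have h1 := finrank_range_add_ker (s ^ (p ^ r) - 1 : Module.End ℤ M)
      have h2 := ha r (Nat.lt_succ_self r)
      have h3 : rkFix s (p ^ (r + 1)) = finrank ℤ M := by
        rw [rkFix, hs, sub_self, LinearMap.ker_zero, finrank_top]
      rw [h3, rkFix] at h2
      rw [← hCdef, ← hAdef] at h1
      rw [← hAdef] at h2
      omega
    have hidxC : idx (sC - 1) = p ^ a r := by
      rw [hrank, pow_mul] at hidx
      have hφ : Nat.totient (p ^ (r + 1)) ≠ 0 :=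
        (Nat.totient_pos.mpr (Nat.pos_of_ne_zero (pow_ne_zero _ hp0))).ne'
      exact Nat.pow_left_injective hφ hidx
    -- ranks for A
    have hrkA : ∀ j ≤ r, rkFix sA (p ^ j) = rkFix s (p ^ j) := by
      intro j hj
      have hle : LinearMap.ker (s ^ (p ^ j) - 1) ≤ A := by
        intro x hx
        rw [LinearMap.mem_ker, LinearMap.sub_apply, Module.End.one_apply, sub_eq_zero] at hx
        rw [hmemA]
        obtain ⟨k, rfl⟩ := Nat.exists_eq_add_of_le hj
        rw [pow_add, pow_mul]
        generalize p ^ k = m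
        induction m with
        | zero => rfl
        | succ m ihm => rw [pow_succ, Module.End.mul_apply, hx, ihm]
      have e : (LinearMap.ker (sA ^ (p ^ j) - 1)).map A.subtype = LinearMap.ker (s ^ (p ^ j) - 1) := by
        ext x
        constructor
        · rintro ⟨y, hy, rfl⟩
          rw [SetLike.mem_coe, LinearMap.mem_ker, LinearMap.sub_apply, Module.End.one_apply,
            sub_eq_zero] at hy
          rw [LinearMap.mem_ker, LinearMap.sub_apply, Module.End.one_apply, sub_eq_zero]
          have := congrArg (Subtype.val) hy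
          rwa [hsA, restrict_pow_apply] at this
        · intro hx
          refine ⟨⟨x, hle hx⟩, ?_, rfl⟩
          rw [SetLike.mem_coe, LinearMap.mem_ker, LinearMap.sub_apply, Module.End.one_apply,
            sub_eq_zero]
          rw [LinearMap.mem_ker, LinearMap.sub_apply, Module.End.one_apply, sub_eq_zero] at hx
          apply Subtype.ext
          rw [hsA, restrict_pow_apply]
          exact hx
      rw [rkFix, rkFix, ← e]
      exact ((Submodule.equivMapOfInjective A.subtype A.injective_subtype _).finrank_eq)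
    obtain ⟨ih1, ih2, ih3⟩ := ih A sA hsA1 a (fun j hj => by
      rw [hrkA _ hj, hrkA _ (Nat.le_of_lt hj)]
      exact ha j (Nat.lt_succ_of_lt hj))
    -- norms
    have hnA : nm sA (p ^ (r + 1)) = (p : Module.End ℤ A) * nm sA (p ^ r) := by
      rw [pow_succ, nm_mul, hsA1, nm_one]
    have hnC : nm sC (p ^ (r + 1)) = 0 := by
      rw [pow_succ, nm_mul]
      have : nm (sC ^ p ^ r) p = 0 := by
        have h := hcycl
        rw [cyclotomic_prime_pow_eq_geom_sum hp.out, map_sum] at h
        simp only [map_pow, aeval_X] at h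
        exact h
      rw [this, zero_mul]
    -- the A part
    set f0 : AddSubgroup A := (LinearMap.ker (sA - 1)).toAddSubgroup with hf0
    set g0 : AddSubgroup A := (LinearMap.range (nm sA (p ^ r))).toAddSubgroup with hg0
    have hh0 : hE (sA - 1) (nm sA (p ^ r)) = g0.relIndex f0 := rfl
    have hle0 : g0 ≤ f0 := by
      rintro _ ⟨y, rfl⟩
      change (sA - 1) (nm sA (p ^ r) y) = 0
      rw [← Module.End.mul_apply, sub_mul_nm, hsA1, sub_self]
      rfl
    have hrkg : finrank ℤ g0 = rkFix s 1 := by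
      haveI : g0.IsFiniteRelIndex f0 := by
        rw [AddSubgroup.isFiniteRelIndex_iff_relIndex_ne_zero, ← hh0]
        exact ih2
      have h1 : rkFix s 1 = rkFix sA 1 := by
        have := hrkA 0 (Nat.zero_le r)
        rw [pow_zero] at this
        exact this.symm
      have h2 : finrank ℤ f0 = rkFix sA 1 := by
        rw [rkFix, pow_one]
        rfl
      rw [h1, ← h2]
      haveI : Module.Finite ℤ f0 := inferInstanceAs (Module.Finite ℤ (LinearMap.ker (sA - 1)))
      haveI : Module.Free ℤ (LinearMap.ker (sA - 1)) := inferInstance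
      haveI : Module.IsTorsionFree ℤ f0 :=
        inferInstanceAs (Module.IsTorsionFree ℤ (LinearMap.ker (sA - 1)))
      exact AddSubgroup.finrank_eq_of_isFiniteRelIndex hle0
    have hA0 : hE (sA - 1) (nm sA (p ^ (r + 1))) = hE (sA - 1) (nm sA (p ^ r)) * p ^ rkFix s 1 := by
      rw [hnA, hh0]
      have e1 : (LinearMap.range ((p : Module.End ℤ A) * nm sA (p ^ r))).toAddSubgroup =
          g0.map (nsmulAddMonoidHom (α := A) p) := by
        ext x
        constructor
        · rintro ⟨y, rfl⟩
          exact ⟨nm sA (p ^ r) y, ⟨y, rfl⟩, by simp⟩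
        · rintro ⟨_, ⟨y, rfl⟩, rfl⟩
          exact ⟨y, by simp⟩
      have e2 : hE (sA - 1) ((p : Module.End ℤ A) * nm sA (p ^ r)) =
          (g0.map (nsmulAddMonoidHom (α := A) p)).relIndex f0 := by
        rw [← e1]
        rfl
      have e3 : g0.map (nsmulAddMonoidHom (α := A) p) ≤ g0 := by
        rintro _ ⟨y, hy, rfl⟩
        exact AddSubgroup.nsmul_mem _ hy p
      haveI : Module.Free ℤ ↥g0.toIntSubmodule := inferInstance
      haveI : Module.Finite ℤ ↥g0.toIntSubmodule := inferInstance
      rw [e2, ← AddSubgroup.relIndex_mul_relIndex _ _ _ e3 hle0, AddSubgroup.relIndex_map_nsmul,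
        hrkg, mul_comm]
    have hA1 : hE (nm sA (p ^ (r + 1))) (sA - 1) = hE (nm sA (p ^ r)) (sA - 1) := by
      rw [hnA]
      have e1 := ker_nsmul_mul p hp0 (nm sA (p ^ r))
      have e2 : hE ((p : Module.End ℤ A) * nm sA (p ^ r)) (sA - 1) =
        (LinearMap.range (sA - 1)).toAddSubgroup.relIndex
          (LinearMap.ker ((p : Module.End ℤ A) * nm sA (p ^ r))).toAddSubgroup := rfl
      rw [e2, e1]
      rfl
    -- the C part
    have hC0 : hE (sC - 1) (nm sC (p ^ (r + 1))) = 1 := by
      rw [hE, hq, AddSubgroup.relIndex_eq_one]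
      intro x hx
      have hx' : (sC - 1) x = 0 := hx
      have : x = 0 := hinjC (by rw [hx', map_zero])
      rw [this]
      exact zero_mem _
    have hC1 : hE (nm sC (p ^ (r + 1))) (sC - 1) = p ^ a r := by
      rw [hnC, ← hidxC, idx]
      have e2 : hE (0 : Module.End ℤ C) (sC - 1) =
        (LinearMap.range (sC - 1)).toAddSubgroup.relIndex
          (LinearMap.ker (0 : Module.End ℤ C)).toAddSubgroup := rfl
      rw [e2, LinearMap.ker_zero]
      exact AddSubgroup.relIndex_top_right _
    -- exactness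
    have hi : Function.Injective A.subtype.toAddMonoidHom := A.injective_subtype
    set π := (s ^ (p ^ r) - 1).rangeRestrict with hπdef
    have hπ : Function.Surjective π.toAddMonoidHom := LinearMap.surjective_rangeRestrict _
    have hex : π.toAddMonoidHom.ker = A.subtype.toAddMonoidHom.range := by
      ext x
      constructor
      · intro hx
        have hx' : π x = 0 := hx
        have hx2 : (s ^ (p ^ r) - 1) x = 0 := congrArg Subtype.val hx'
        exact ⟨⟨x, hx2⟩, rfl⟩
      · rintro ⟨y, rfl⟩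
        change π (y : M) = 0
        apply Subtype.ext
        exact y.2
    have hfA : ∀ y : A, A.subtype.toAddMonoidHom ((sA - 1).toAddMonoidHom y) =
        (s - 1).toAddMonoidHom (A.subtype.toAddMonoidHom y) := fun y => rfl
    have hgA : ∀ y : A, A.subtype.toAddMonoidHom ((nm sA (p ^ (r + 1))).toAddMonoidHom y) =
        (nm s (p ^ (r + 1))).toAddMonoidHom (A.subtype.toAddMonoidHom y) := fun y =>
      restrict_nm_apply s A hA _ y
    have hπs : ∀ x, s ((s ^ (p ^ r) - 1) x) = (s ^ (p ^ r) - 1) (s x) := by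
      intro x
      rw [LinearMap.sub_apply, LinearMap.sub_apply, map_sub, hcomm]
      rfl
    have hfC : ∀ y : M, (sC - 1).toAddMonoidHom (π.toAddMonoidHom y) =
        π.toAddMonoidHom ((s - 1).toAddMonoidHom y) := by
      intro y
      apply Subtype.ext
      change s ((s ^ (p ^ r) - 1) y) - (s ^ (p ^ r) - 1) y = (s ^ (p ^ r) - 1) (s y - y)
      rw [hπs, map_sub]
    have hgC : ∀ y : M, (nm sC (p ^ (r + 1))).toAddMonoidHom (π.toAddMonoidHom y) =
        π.toAddMonoidHom ((nm s (p ^ (r + 1))).toAddMonoidHom y) := by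
      intro y
      apply Subtype.ext
      change ((nm sC (p ^ (r + 1))) (π y) : M) = (s ^ (p ^ r) - 1) ((nm s (p ^ (r + 1))) y)
      rw [hsC, restrict_nm_apply]
      change (nm s (p ^ (r + 1)) * (s ^ (p ^ r) - 1)) y = ((s ^ (p ^ r) - 1) * nm s (p ^ (r + 1))) y
      congr 1
      have hc : Commute (s ^ (p ^ r) - 1) (nm s (p ^ (r + 1))) := by
        rw [nm]
        refine Commute.sum_right _ _ _ fun i _ => ?_
        exact Commute.sub_left (Commute.pow_pow_self s _ _) (Commute.one_left _)
      exact hc.eq.symm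
    have hfg : ∀ y : M, (s - 1).toAddMonoidHom ((nm s (p ^ (r + 1))).toAddMonoidHom y) = 0 := by
      intro y
      change ((s - 1) * nm s (p ^ (r + 1))) y = 0
      rw [sub_mul_nm, hs, sub_self]
      rfl
    have hgf : ∀ y : M, (nm s (p ^ (r + 1))).toAddMonoidHom ((s - 1).toAddMonoidHom y) = 0 := by
      intro y
      change (nm s (p ^ (r + 1)) * (s - 1)) y = 0
      rw [nm_mul_sub, hs, sub_self]
      rfl
    have key : hE (sA - 1) (nm sA (p ^ (r + 1))) * hE (sC - 1) (nm sC (p ^ (r + 1))) *
        hE (nm s (p ^ (r + 1))) (s - 1) = hE (nm sA (p ^ (r + 1))) (sA - 1) *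
        hE (nm sC (p ^ (r + 1))) (sC - 1) * hE (s - 1) (nm s (p ^ (r + 1))) :=
      hq_exact _ hi _ hπ hex _ _ _ _ _ _ hfA hgA hfC hgC hfg hgf
    have nz0 : hE (s - 1) (nm s (p ^ (r + 1))) ≠ 0 := by
      refine hq_exact_ne_zero _ hi _ hπ hex _ _ _ _ _ _ hfA hgA hfC hgC hfg ?_ ?_
      · change hE (sA - 1) (nm sA (p ^ (r + 1))) ≠ 0
        rw [hA0]
        exact mul_ne_zero ih2 (pow_ne_zero _ hp0)
      · change hE (sC - 1) (nm sC (p ^ (r + 1))) ≠ 0
        rw [hC0]
        exact one_ne_zero
    have nz1 : hE (nm s (p ^ (r + 1))) (s - 1) ≠ 0 := by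
      refine hq_exact_ne_zero _ hi _ hπ hex _ _ _ _ _ _ hgA hfA hgC hfC hgf ?_ ?_
      · change hE (nm sA (p ^ (r + 1))) (sA - 1) ≠ 0
        rw [hA1]
        exact ih3
      · change hE (nm sC (p ^ (r + 1))) (sC - 1) ≠ 0
        rw [hC1]
        exact pow_ne_zero _ hp0
    refine ⟨?_, nz0, nz1⟩
    rw [hA0, hA1, hC0, hC1, mul_one] at key
    apply Nat.eq_of_mul_eq_mul_left (Nat.pos_of_ne_zero ih3)
    have h1A : rkFix sA 1 = rkFix s 1 := by
      have := hrkA 0 (Nat.zero_le r)
      rwa [pow_zero] at this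
    rw [h1A] at ih1
    rw [Finset.sum_range_succ]
    calc hE (nm sA (p ^ r)) (sA - 1) * (hE (s - 1) (nm s (p ^ (r + 1))) *
          p ^ (∑ j ∈ Finset.range r, a j + a r))
        = (hE (nm sA (p ^ r)) (sA - 1) * p ^ a r * hE (s - 1) (nm s (p ^ (r + 1)))) *
          p ^ (∑ j ∈ Finset.range r, a j) := by rw [pow_add]; ring
      _ = (hE (sA - 1) (nm sA (p ^ r)) * p ^ (∑ j ∈ Finset.range r, a j)) * p ^ rkFix s 1 *
          hE (nm s (p ^ (r + 1))) (s - 1) := by rw [← key]; ring
      _ = hE (nm sA (p ^ r)) (sA - 1) * p ^ (r * rkFix s 1) * p ^ rkFix s 1 *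
          hE (nm s (p ^ (r + 1))) (s - 1) := by rw [ih1]
      _ = _ := by rw [add_mul, one_mul, pow_add]; ring

end Fermat.Agent.CFT
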