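import Fermat.Agent.CFT.Herbrand3

/-!
# The Herbrand quotient of a finitely generated module under a cyclic group of prime power order
-/

set_option autoImplicit false
set_option linter.unusedSectionVars false
set_option linter.style.haveILetI false

open scoped Classical

namespace Fermat.Agent.CFT

open Module Polynomial

universe u

theorem iso_pow_apply {A B : Type*} [AddCommGroup A] [AddCommGroup B] (i : A →ₗ[ℤ] B)
    (sA : Module.End ℤ A) (sB : Module.End ℤ B) (hA : ∀ a, i (sA a) = sB (i a)) (n : ℕ) (a : A) :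
    i ((sA ^ n) a) = (sB ^ n) (i a) := by
  induction n generalizing a with
  | zero => rfl
  | succ n ih => rw [pow_succ, pow_succ, Module.End.mul_apply, Module.End.mul_apply, ih, hA]

theorem iso_nm_apply {A B : Type*} [AddCommGroup A] [AddCommGroup B] (i : A →ₗ[ℤ] B)
    (sA : Module.End ℤ A) (sB : Module.End ℤ B) (hA : ∀ a, i (sA a) = sB (i a)) (n : ℕ) (a : A) :
    i (nm sA n a) = nm sB n (i a) := by
  rw [nm, nm, LinearMap.sum_apply, LinearMap.sum_apply, map_sum]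
  exact Finset.sum_congr rfl fun k _ => iso_pow_apply i sA sB hA k a

/-- Multiplicativity of the Herbrand quotient for cyclic groups. -/
theorem hE_exact {A B C : Type*} [AddCommGroup A] [AddCommGroup B] [AddCommGroup C]
    (i : A →ₗ[ℤ] B) (hi : Function.Injective i) (π : B →ₗ[ℤ] C) (hπ : Function.Surjective π)
    (hex : ∀ b, π b = 0 ↔ ∃ a, i a = b) (sA : Module.End ℤ A) (sB : Module.End ℤ B)
    (sC : Module.End ℤ C) (hA : ∀ a, i (sA a) = sB (i a)) (hC : ∀ b, π (sB b) = sC (π b))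
    (n : ℕ) (hn : sB ^ n = 1) :
    (hE (sA - 1) (nm sA n) * hE (sC - 1) (nm sC n) * hE (nm sB n) (sB - 1) =
      hE (nm sA n) (sA - 1) * hE (nm sC n) (sC - 1) * hE (sB - 1) (nm sB n)) ∧
    (hE (sA - 1) (nm sA n) ≠ 0 → hE (sC - 1) (nm sC n) ≠ 0 → hE (sB - 1) (nm sB n) ≠ 0) ∧
    (hE (nm sA n) (sA - 1) ≠ 0 → hE (nm sC n) (sC - 1) ≠ 0 → hE (nm sB n) (sB - 1) ≠ 0) := by
  have hi' : Function.Injective i.toAddMonoidHom := hi
  have hπ' : Function.Surjective π.toAddMonoidHom := hπ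
  have hex' : π.toAddMonoidHom.ker = i.toAddMonoidHom.range := by
    ext x
    exact hex x
  have hfA : ∀ y : A, i.toAddMonoidHom ((sA - 1).toAddMonoidHom y) =
      (sB - 1).toAddMonoidHom (i.toAddMonoidHom y) := by
    intro y
    change i (sA y - y) = sB (i y) - i y
    rw [map_sub, hA]
  have hgA : ∀ y : A, i.toAddMonoidHom ((nm sA n).toAddMonoidHom y) =
      (nm sB n).toAddMonoidHom (i.toAddMonoidHom y) := fun y => iso_nm_apply i sA sB hA n y
  have hfC : ∀ y : B, (sC - 1).toAddMonoidHom (π.toAddMonoidHom y) =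
      π.toAddMonoidHom ((sB - 1).toAddMonoidHom y) := by
    intro y
    change sC (π y) - π y = π (sB y - y)
    rw [map_sub, hC]
  have hgC : ∀ y : B, (nm sC n).toAddMonoidHom (π.toAddMonoidHom y) =
      π.toAddMonoidHom ((nm sB n).toAddMonoidHom y) := fun y => (iso_nm_apply π sB sC hC n y).symm
  have hfg : ∀ y : B, (sB - 1).toAddMonoidHom ((nm sB n).toAddMonoidHom y) = 0 := by
    intro y
    change ((sB - 1) * nm sB n) y = 0
    rw [sub_mul_nm, hn, sub_self]
    rfl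
  have hgf : ∀ y : B, (nm sB n).toAddMonoidHom ((sB - 1).toAddMonoidHom y) = 0 := by
    intro y
    change (nm sB n * (sB - 1)) y = 0
    rw [nm_mul_sub, hn, sub_self]
    rfl
  exact ⟨hq_exact _ hi' _ hπ' hex' _ _ _ _ _ _ hfA hgA hfC hgC hfg hgf,
    fun h1 h2 => hq_exact_ne_zero _ hi' _ hπ' hex' _ _ _ _ _ _ hfA hgA hfC hgC hfg h1 h2,
    fun h1 h2 => hq_exact_ne_zero _ hi' _ hπ' hex' _ _ _ _ _ _ hgA hfA hgC hfC hgf h1 h2⟩

theorem hE_finite {M : Type*} [AddCommGroup M] [Finite M] (s : Module.End ℤ M) (n : ℕ)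
    (hs : s ^ n = 1) : hE (s - 1) (nm s n) = hE (nm s n) (s - 1) ∧ hE (s - 1) (nm s n) ≠ 0 := by
  refine ⟨hq_finite _ _ ?_ ?_, hq_finite_ne_zero _ _⟩
  · intro y
    change ((s - 1) * nm s n) y = 0
    rw [sub_mul_nm, hs, sub_self]
    rfl
  · intro y
    change (nm s n * (s - 1)) y = 0
    rw [nm_mul_sub, hs, sub_self]
    rfl

/-- modifying a module by a finite submodule -/
theorem hE_quot_finite {A B C : Type*} [AddCommGroup A] [AddCommGroup B] [AddCommGroup C] [Finite A]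
    (i : A →ₗ[ℤ] B) (hi : Function.Injective i) (π : B →ₗ[ℤ] C) (hπ : Function.Surjective π)
    (hex : ∀ b, π b = 0 ↔ ∃ a, i a = b) (sA : Module.End ℤ A) (sB : Module.End ℤ B)
    (sC : Module.End ℤ C) (hA : ∀ a, i (sA a) = sB (i a)) (hC : ∀ b, π (sB b) = sC (π b))
    (n : ℕ) (hn : sB ^ n = 1) (h0 : hE (sC - 1) (nm sC n) ≠ 0)
    (h1 : hE (nm sC n) (sC - 1) ≠ 0) :
    hE (sC - 1) (nm sC n) * hE (nm sB n) (sB - 1) =
      hE (nm sC n) (sC - 1) * hE (sB - 1) (nm sB n) ∧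
    hE (sB - 1) (nm sB n) ≠ 0 ∧ hE (nm sB n) (sB - 1) ≠ 0 := by
  have hsA : sA ^ n = 1 := by
    ext x
    apply hi
    rw [iso_pow_apply i sA sB hA, hn]
    rfl
  obtain ⟨e1, e2⟩ := hE_finite sA n hsA
  obtain ⟨k1, k2, k3⟩ := hE_exact i hi π hπ hex sA sB sC hA hC n hn
  rw [← e1, mul_assoc, mul_assoc] at k1
  exact ⟨Nat.eq_of_mul_eq_mul_left (Nat.pos_of_ne_zero e2) k1, k2 e2 h0, k3 (e1 ▸ e2) h1⟩

/-- modifying a module by a finite quotient -/
theorem hE_sub_finite {A B C : Type*} [AddCommGroup A] [AddCommGroup B] [AddCommGroup C] [Finite C]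
    (i : A →ₗ[ℤ] B) (hi : Function.Injective i) (π : B →ₗ[ℤ] C) (hπ : Function.Surjective π)
    (hex : ∀ b, π b = 0 ↔ ∃ a, i a = b) (sA : Module.End ℤ A) (sB : Module.End ℤ B)
    (sC : Module.End ℤ C) (hA : ∀ a, i (sA a) = sB (i a)) (hC : ∀ b, π (sB b) = sC (π b))
    (n : ℕ) (hn : sB ^ n = 1) (h0 : hE (sA - 1) (nm sA n) ≠ 0)
    (h1 : hE (nm sA n) (sA - 1) ≠ 0) :
    hE (sA - 1) (nm sA n) * hE (nm sB n) (sB - 1) =
      hE (nm sA n) (sA - 1) * hE (sB - 1) (nm sB n) ∧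
    hE (sB - 1) (nm sB n) ≠ 0 ∧ hE (nm sB n) (sB - 1) ≠ 0 := by
  have hsC : sC ^ n = 1 := by
    ext x
    obtain ⟨y, rfl⟩ := hπ x
    rw [← iso_pow_apply π sB sC hC, hn]
    rfl
  obtain ⟨e1, e2⟩ := hE_finite sC n hsC
  obtain ⟨k1, k2, k3⟩ := hE_exact i hi π hπ hex sA sB sC hA hC n hn
  rw [← e1] at k1
  refine ⟨?_, k2 h0 e2, k3 h1 (e1 ▸ e2)⟩
  apply Nat.eq_of_mul_eq_mul_left (Nat.pos_of_ne_zero e2)
  calc _ = hE (sA - 1) (nm sA n) * hE (sC - 1) (nm sC n) * hE (nm sB n) (sB - 1) := by ring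
    _ = _ := by rw [k1]; ring

theorem finrank_of_torsion {N : Type*} [AddCommGroup N] [Module.Finite ℤ N]
    (h : Module.IsTorsion ℤ N) : finrank ℤ N = 0 :=
  Module.finrank_eq_zero_iff_isTorsion.mpr h

variable {M : Type u} [AddCommGroup M] [Module.Finite ℤ M]

theorem finrank_map_of_ker_torsion {N N' : Type*} [AddCommGroup N] [AddCommGroup N']
    [Module.Finite ℤ N] (f : N →ₗ[ℤ] N') (h : ∀ x, f x = 0 → ∃ a : ℤ, a ≠ 0 ∧ a • x = 0) :
    finrank ℤ (LinearMap.range f) = finrank ℤ N := by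
  rw [← finrank_range_add_ker f]
  have : finrank ℤ (LinearMap.ker f) = 0 := by
    refine finrank_of_torsion ?_
    intro x
    obtain ⟨a, ha, hx⟩ := h x x.2
    refine ⟨⟨a, mem_nonZeroDivisors_of_ne_zero ha⟩, ?_⟩
    apply Subtype.ext
    exact hx
  rw [this, add_zero]

theorem finrank_quot_torsion : finrank ℤ (M ⧸ Submodule.torsion ℤ M) = finrank ℤ M := by
  have h := Submodule.finrank_quotient_add_finrank (Submodule.torsion ℤ M)
  rw [← h]
  have : finrank ℤ (Submodule.torsion ℤ M) = 0 :=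
    finrank_of_torsion (Submodule.torsion_isTorsion)
  rw [this, add_zero]

/-- the endomorphism induced on the quotient by torsion -/
noncomputable def modTors (s : Module.End ℤ M) : Module.End ℤ (M ⧸ Submodule.torsion ℤ M) :=
  (Submodule.torsion ℤ M).mapQ (Submodule.torsion ℤ M) s (by
    rintro x ⟨a, ha⟩
    refine ⟨a, ?_⟩
    have : (a : ℤ) • s x = s ((a : ℤ) • x) := (map_smul _ _ _).symm
    change (a : ℤ) • s x = 0
    rw [this]
    change s (a • x) = 0
    rw [ha, map_zero])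

theorem modTors_mk (s : Module.End ℤ M) (x : M) :
    modTors s (Submodule.Quotient.mk x) = Submodule.Quotient.mk (s x) := rfl

theorem modTors_pow_mk (s : Module.End ℤ M) (n : ℕ) (x : M) :
    (modTors s ^ n) (Submodule.Quotient.mk x) = Submodule.Quotient.mk ((s ^ n) x) := by
  induction n generalizing x with
  | zero => rfl
  | succ n ih => rw [pow_succ, pow_succ, Module.End.mul_apply, Module.End.mul_apply, modTors_mk, ih]

theorem modTors_pow_sub_mk (s : Module.End ℤ M) (n : ℕ) (x : M) :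
    (modTors s ^ n - 1) (Submodule.Quotient.mk x) = Submodule.Quotient.mk ((s ^ n - 1) x) := by
  rw [LinearMap.sub_apply, LinearMap.sub_apply, modTors_pow_mk]
  rfl

theorem rkFix_modTors (s : Module.End ℤ M) (m : ℕ) : rkFix (modTors s) m = rkFix s m := by
  have h1 := finrank_range_add_ker (s ^ m - 1 : Module.End ℤ M)
  have h2 := finrank_range_add_ker (modTors s ^ m - 1 : Module.End ℤ _)
  rw [finrank_quot_torsion, ← h1] at h2
  have h3 : finrank ℤ (LinearMap.range (modTors s ^ m - 1)) =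
      finrank ℤ (LinearMap.range (s ^ m - 1)) := by
    set g : LinearMap.range (s ^ m - 1) →ₗ[ℤ] M ⧸ Submodule.torsion ℤ M :=
      (Submodule.torsion ℤ M).mkQ ∘ₗ (LinearMap.range (s ^ m - 1)).subtype with hg
    have e : LinearMap.range (modTors s ^ m - 1) = LinearMap.range g := by
      ext x
      constructor
      · rintro ⟨y, rfl⟩
        obtain ⟨y, rfl⟩ := Submodule.Quotient.mk_surjective _ y
        refine ⟨⟨(s ^ m - 1) y, ⟨y, rfl⟩⟩, ?_⟩
        rw [modTors_pow_sub_mk]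
        rfl
      · rintro ⟨⟨_, ⟨y, rfl⟩⟩, rfl⟩
        refine ⟨Submodule.Quotient.mk y, ?_⟩
        rw [modTors_pow_sub_mk]
        rfl
    rw [e]
    refine finrank_map_of_ker_torsion g ?_
    intro x hx
    have h4 : (x : M) ∈ Submodule.torsion ℤ M := (Submodule.Quotient.mk_eq_zero _).mp hx
    obtain ⟨a, ha⟩ := h4
    refine ⟨a, nonZeroDivisors.ne_zero a.2, ?_⟩
    apply Subtype.ext
    exact ha
  rw [rkFix, rkFix]
  omega

theorem fg_case (p : ℕ) [hp : Fact p.Prime] (r : ℕ) (s : Module.End ℤ M) (hs : s ^ (p ^ r) = 1)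
    (a : ℕ → ℕ) (ha : ∀ j < r, rkFix s (p ^ (j + 1)) = rkFix s (p ^ j) +
      a j * Nat.totient (p ^ (j + 1))) :
    hE (s - 1) (nm s (p ^ r)) * p ^ (∑ j ∈ Finset.range r, a j) =
      hE (nm s (p ^ r)) (s - 1) * p ^ (r * rkFix s 1) ∧
    hE (s - 1) (nm s (p ^ r)) ≠ 0 ∧ hE (nm s (p ^ r)) (s - 1) ≠ 0 := by
  haveI : Module.Finite ℤ (Submodule.torsion ℤ M) := inferInstance
  haveI hfin : Finite (Submodule.torsion ℤ M) :=
    Module.finite_of_fg_torsion _ Submodule.torsion_isTorsion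
  have hs'1 : modTors s ^ (p ^ r) = 1 := by
    apply LinearMap.ext
    intro x
    obtain ⟨y, rfl⟩ := Submodule.Quotient.mk_surjective _ x
    rw [modTors_pow_mk, hs]
    rfl
  obtain ⟨h1, h2, h3⟩ := free_case p r _ (modTors s) hs'1 a (fun j hj => by
    rw [rkFix_modTors, rkFix_modTors]; exact ha j hj)
  rw [rkFix_modTors] at h1
  have hTs : ∀ x ∈ Submodule.torsion ℤ M, s x ∈ Submodule.torsion ℤ M := by
    rintro x ⟨a, ha⟩
    refine ⟨a, ?_⟩
    have : (a : ℤ) • s x = s ((a : ℤ) • x) := (map_smul _ _ _).symm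
    change (a : ℤ) • s x = 0
    rw [this]
    change s (a • x) = 0
    rw [ha, map_zero]
  obtain ⟨key, nz0, nz1⟩ := hE_quot_finite (Submodule.torsion ℤ M).subtype
    (Submodule.injective_subtype _) (Submodule.torsion ℤ M).mkQ (Submodule.mkQ_surjective _)
    (fun b => by
      rw [Submodule.mkQ_apply, Submodule.Quotient.mk_eq_zero]
      exact ⟨fun h => ⟨⟨b, h⟩, rfl⟩, by rintro ⟨a, rfl⟩; exact a.2⟩)
    (s.restrict hTs) s (modTors s) (fun a => rfl) (fun b => rfl) (p ^ r) hs h2 h3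
  refine ⟨?_, nz0, nz1⟩
  apply Nat.eq_of_mul_eq_mul_left (Nat.pos_of_ne_zero h3)
  calc hE (nm (modTors s) (p ^ r)) (modTors s - 1) *
        (hE (s - 1) (nm s (p ^ r)) * p ^ (∑ j ∈ Finset.range r, a j))
      = (hE (nm (modTors s) (p ^ r)) (modTors s - 1) * hE (s - 1) (nm s (p ^ r))) *
        p ^ (∑ j ∈ Finset.range r, a j) := by ring
    _ = (hE (modTors s - 1) (nm (modTors s) (p ^ r)) * p ^ (∑ j ∈ Finset.range r, a j)) *
        hE (nm s (p ^ r)) (s - 1) := by rw [← key]; ring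
    _ = _ := by rw [h1]; ring

end Fermat.Agent.CFT
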