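import Fermat.Agent.CFT.Hasse

/-!
# Normal basis lattices and multiplicative neighbourhoods of one
-/

set_option autoImplicit false
set_option linter.unusedSectionVars false
set_option linter.style.haveILetI false
set_option linter.unusedVariables false

open scoped Classical nonZeroDivisors

namespace Fermat.Agent.CFT

open Module NumberField IsDedekindDomain WithZero

section

variable {K F : Type} [Field K] [NumberField K] [Field F] [NumberField F] [Algebra K F]
  [IsGalois K F]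

/-- coordinates in the normal basis -/
noncomputable def co (τ : F ≃ₐ[K] F) (y : F) : K := (IsGalois.normalBasis K F).repr y τ

/-- the generator of the normal basis -/
noncomputable def th (K F : Type) [Field K] [NumberField K] [Field F] [NumberField F]
    [Algebra K F] [IsGalois K F] : F := IsGalois.normalBasis K F 1

theorem co_add (τ : F ≃ₐ[K] F) (x y : F) : co τ (x + y) = co τ x + co τ y := by
  rw [co, co, co, map_add]; rfl

theorem co_neg (τ : F ≃ₐ[K] F) (x : F) : co τ (-x) = -co τ x := by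
  rw [co, co, map_neg]; rfl

theorem co_sub (τ : F ≃ₐ[K] F) (x y : F) : co τ (x - y) = co τ x - co τ y := by
  rw [co, co, co, map_sub]; rfl

theorem co_zero (τ : F ≃ₐ[K] F) : co τ (0 : F) = 0 := by
  rw [co, map_zero]; rfl

theorem co_sum {ι : Type*} (τ : F ≃ₐ[K] F) (s : Finset ι) (f : ι → F) :
    co τ (∑ i ∈ s, f i) = ∑ i ∈ s, co τ (f i) := by
  induction s using Finset.induction_on with
  | empty => simp [co_zero]
  | insert a s ha ih => rw [Finset.sum_insert ha, Finset.sum_insert ha, co_add, ih]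

theorem co_smul (τ : F ≃ₐ[K] F) (a : K) (x : F) : co τ (algebraMap K F a * x) = a * co τ x := by
  rw [← Algebra.smul_def, co, co, map_smul]; rfl

theorem co_basis (τ ρ : F ≃ₐ[K] F) : co τ (ρ (th K F)) = if ρ = τ then 1 else 0 := by
  rw [th, ← IsGalois.normalBasis_apply, co, Basis.repr_self, Finsupp.single_apply]

theorem co_act (σ τ : F ≃ₐ[K] F) (y : F) : co τ (σ y) = co (σ⁻¹ * τ) y := by
  have h : y = ∑ ρ, algebraMap K F (co ρ y) * ρ (th K F) := by
    conv_lhs => rw [← (IsGalois.normalBasis K F).sum_repr y]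
    refine Finset.sum_congr rfl fun ρ _ => ?_
    rw [Algebra.smul_def, IsGalois.normalBasis_apply]
    rfl
  conv_lhs => rw [h]
  rw [map_sum, co_sum]
  have e : ∀ ρ : F ≃ₐ[K] F, co τ (σ (algebraMap K F (co ρ y) * ρ (th K F))) =
      if ρ = σ⁻¹ * τ then co ρ y else 0 := by
    intro ρ
    rw [map_mul, AlgEquiv.commutes]
    have : σ (ρ (th K F)) = (σ * ρ) (th K F) := rfl
    rw [this, co_smul, co_basis]
    by_cases h : ρ = σ⁻¹ * τ
    · rw [if_pos h, if_pos (by rw [h, mul_inv_cancel_left]), mul_one]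
    · rw [if_neg h, if_neg (fun h2 => h (by rw [← h2, inv_mul_cancel_left])), mul_zero]
  rw [Finset.sum_congr rfl fun ρ _ => e ρ, Finset.sum_ite_eq' Finset.univ (σ⁻¹ * τ)
    (fun ρ => co ρ y), if_pos (Finset.mem_univ _)]

theorem sum_co (y : F) : y = ∑ ρ, algebraMap K F (co ρ y) * ρ (th K F) := by
  conv_lhs => rw [← (IsGalois.normalBasis K F).sum_repr y]
  refine Finset.sum_congr rfl fun ρ _ => ?_
  rw [Algebra.smul_def, IsGalois.normalBasis_apply]
  rfl

variable (w : HeightOneSpectrum (𝓞 K))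

/-- the lattice `π^k Λ` -/
def Lam (F : Type) [Field F] [NumberField F] [Algebra K F] [IsGalois K F]
    (w : HeightOneSpectrum (𝓞 K)) (k : ℤ) : AddSubgroup F where
  carrier := {y | ∀ τ : F ≃ₐ[K] F, w.valuation K (co τ y) ≤ exp (-k)}
  zero_mem' τ := by rw [co_zero, map_zero]; exact zero_le
  add_mem' {a b} ha hb τ := by
    rw [co_add]
    exact (Valuation.map_add _ _ _).trans (max_le (ha τ) (hb τ))
  neg_mem' {a} ha τ := by
    rw [co_neg, Valuation.map_neg]
    exact ha τ

variable {w}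

theorem mem_Lam {k : ℤ} {y : F} : y ∈ Lam F w k ↔ ∀ τ : F ≃ₐ[K] F, w.valuation K (co τ y) ≤ exp (-k) :=
  Iff.rfl

theorem Lam_mono {j k : ℤ} (h : j ≤ k) : Lam F w k ≤ Lam F w j := by
  intro y hy τ
  refine (hy τ).trans ?_
  rw [exp_le_exp]
  omega

theorem act_mem_Lam {k : ℤ} {y : F} (hy : y ∈ Lam F w k) (σ : F ≃ₐ[K] F) : σ y ∈ Lam F w k := by
  intro τ
  rw [co_act]
  exact hy _

theorem smul_mem_Lam {j k : ℤ} {y : F} (hy : y ∈ Lam F w k) {a : K}
    (ha : w.valuation K a ≤ exp (-j)) : algebraMap K F a * y ∈ Lam F w (j + k) := by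
  intro τ
  rw [co_smul, map_mul, neg_add, exp_add]
  exact mul_le_mul' ha (hy τ)

theorem th_mem_Lam (ρ : F ≃ₐ[K] F) : ρ (th K F) ∈ Lam F w 0 := by
  intro τ
  rw [co_basis, neg_zero, exp_zero]
  split_ifs
  · rw [map_one]
  · rw [map_zero]; exact zero_le

theorem exists_mem_Lam (y : F) : ∃ k : ℤ, y ∈ Lam F w k := by
  have h1 : ∀ τ : F ≃ₐ[K] F, ∃ k : ℤ, w.valuation K (co τ y) ≤ exp (-k) := by
    intro τ
    by_cases h0 : co τ y = 0
    · exact ⟨0, by rw [h0, map_zero]; exact zero_le⟩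
    · refine ⟨ordv w (Units.mk0 _ h0), le_of_eq ?_⟩
      exact valuation_eq w (Units.mk0 _ h0)
  choose k hk using h1
  obtain ⟨m, hm⟩ : ∃ m : ℤ, ∀ τ, m ≤ k τ := by
    obtain ⟨τ0, hτ0⟩ := Finite.exists_min k
    exact ⟨k τ0, hτ0⟩
  refine ⟨m, fun τ => (hk τ).trans ?_⟩
  rw [exp_le_exp]
  have := hm τ
  omega

/-- structure constants -/
theorem exists_mul_const (F : Type) [Field F] [NumberField F] [Algebra K F] [IsGalois K F]
    (w : HeightOneSpectrum (𝓞 K)) : ∃ c : ℕ, ∀ (j k : ℤ) (x y : F), x ∈ Lam F w j → y ∈ Lam F w k →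
    x * y ∈ Lam F w (j + k - c) := by
  choose d hd using fun p : (F ≃ₐ[K] F) × (F ≃ₐ[K] F) =>
    exists_mem_Lam (w := w) (p.1 (th K F) * p.2 (th K F))
  obtain ⟨m, hm⟩ : ∃ m : ℤ, ∀ p, m ≤ d p := by
    obtain ⟨p0, hp0⟩ := Finite.exists_min d
    exact ⟨d p0, hp0⟩
  refine ⟨(-m).toNat, fun j k x y hx hy => ?_⟩
  rw [sum_co (K := K) x, sum_co (K := K) y, Finset.sum_mul_sum]
  refine AddSubgroup.sum_mem _ fun ρ _ => AddSubgroup.sum_mem _ fun ρ' _ => ?_
  have e : algebraMap K F (co ρ x) * ρ (th K F) * (algebraMap K F (co ρ' y) * ρ' (th K F)) =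
      algebraMap K F (co ρ x) * (algebraMap K F (co ρ' y) * (ρ (th K F) * ρ' (th K F))) := by ring
  rw [e]
  have h1 := smul_mem_Lam (hd (ρ, ρ')) (hy ρ')
  have h2 := smul_mem_Lam h1 (hx ρ)
  refine Lam_mono ?_ h2
  have := hm (ρ, ρ')
  omega

/-- coordinates of one -/
theorem co_const (τ τ' : F ≃ₐ[K] F) : co τ (1 : F) = co τ' 1 := by
  have h := co_act (τ * τ'⁻¹) τ (1 : F)
  rw [map_one] at h
  rw [h]
  congr 1
  group

theorem co_one_ne_zero (τ : F ≃ₐ[K] F) : co τ (1 : F) ≠ 0 := by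
  intro h
  have h1 := sum_co (K := K) (1 : F)
  rw [Finset.sum_eq_zero] at h1
  · exact one_ne_zero h1
  · intro ρ _
    rw [co_const ρ τ, h, map_zero, zero_mul]

theorem co_algebraMap (τ : F ≃ₐ[K] F) (a : K) : co τ (algebraMap K F a) = a * co τ 1 := by
  have := co_smul τ a (1 : F)
  rwa [mul_one] at this

/-- a bound such that elements of `K` in `Lam k` are small -/
theorem exists_gamma (F : Type) [Field F] [NumberField F] [Algebra K F] [IsGalois K F]
    (w : HeightOneSpectrum (𝓞 K)) : ∃ γ : ℤ, ∀ (k : ℤ) (a : K),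
    algebraMap K F a ∈ Lam F w k ↔ w.valuation K a ≤ exp (γ - k) := by
  refine ⟨ordv w (Units.mk0 _ (co_one_ne_zero (K := K) (F := F) 1)), fun k a => ?_⟩
  have h1 : w.valuation K (co (1 : F ≃ₐ[K] F) (1 : F)) =
      exp (-(ordv w (Units.mk0 _ (co_one_ne_zero (K := K) (F := F) 1)))) :=
    valuation_eq w (Units.mk0 _ (co_one_ne_zero (K := K) (F := F) 1))
  have h2 : ∀ τ : F ≃ₐ[K] F, w.valuation K (co τ (algebraMap K F a)) = w.valuation K a *
      exp (-(ordv w (Units.mk0 _ (co_one_ne_zero (K := K) (F := F) 1)))) := by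
    intro τ
    rw [co_algebraMap, map_mul, co_const τ 1, h1]
  rw [mem_Lam]
  have h3 : (w.valuation K a ≤ exp (ordv w (Units.mk0 _ (co_one_ne_zero (K := K) (F := F) 1)) - k)) ↔
      w.valuation K a * exp (-(ordv w (Units.mk0 _ (co_one_ne_zero (K := K) (F := F) 1)))) ≤
        exp (-k) := by
    rw [← le_div_iff₀ exp_pos, ← exp_sub]
    constructor
    · intro h
      refine h.trans (le_of_eq ?_)
      congr 1
      ring
    · intro h
      refine h.trans (le_of_eq ?_)
      congr 1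
      ring
  rw [h3]
  constructor
  · intro h
    rw [← h2 1]
    exact h 1
  · intro h τ
    rw [h2 τ]
    exact h

end

end Fermat.Agent.CFT
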