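import Fermat.Agent.CFT.Lam

/-!
# Cohomology of the multiplicative neighbourhoods of one
-/

set_option autoImplicit false
set_option linter.unusedSectionVars false
set_option linter.style.haveILetI false
set_option linter.unusedVariables false

open scoped Classical nonZeroDivisors

namespace Fermat.Agent.CFT

open Module NumberField IsDedekindDomain WithZero

section

variable {K F : Type} [Field K] [NumberField K] [Field F] [NumberField F] [Algebra K F]
  [IsGalois K F]

/-- good constants for `w` -/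
structure LamConst (F : Type) [Field F] [NumberField F] [Algebra K F] [IsGalois K F]
    (w : HeightOneSpectrum (𝓞 K)) where
  c : ℕ
  mul : ∀ (j k : ℤ) (x y : F), x ∈ Lam F w j → y ∈ Lam F w k → x * y ∈ Lam F w (j + k - c)
  g : ℤ
  alg : ∀ (k : ℤ) (a : K), algebraMap K F a ∈ Lam F w k ↔ w.valuation K a ≤ exp (g - k)
  k0 : ℤ
  hk1 : (c : ℤ) + 1 ≤ k0
  hk2 : g + 1 ≤ k0

theorem exists_lamConst (F : Type) [Field F] [NumberField F] [Algebra K F] [IsGalois K F]
    (w : HeightOneSpectrum (𝓞 K)) : Nonempty (LamConst F w) := by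
  obtain ⟨c, hc⟩ := exists_mul_const F w
  obtain ⟨g, hg⟩ := exists_gamma F w
  exact ⟨⟨c, hc, g, hg, max ((c : ℤ) + 1) (g + 1), le_max_left _ _, le_max_right _ _⟩⟩

variable {w : HeightOneSpectrum (𝓞 K)} (L : LamConst F w)

namespace LamConst

theorem one_notMem {k : ℤ} (hk : L.k0 ≤ k) : (1 : F) ∉ Lam F w k := by
  intro h
  have h1 : algebraMap K F (1 : K) ∈ Lam F w k := by rwa [map_one]
  rw [L.alg, map_one, ← exp_zero, exp_le_exp] at h1
  have := L.hk2
  omega

/-- the submonoid -/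
theorem mul_sub_one {k : ℤ} (hk : L.k0 ≤ k) {x y : F} (hx : x - 1 ∈ Lam F w k)
    (hy : y - 1 ∈ Lam F w k) : x * y - 1 ∈ Lam F w k := by
  have e : x * y - 1 = (x - 1) * (y - 1) + (x - 1) + (y - 1) := by ring
  rw [e]
  refine AddSubgroup.add_mem _ (AddSubgroup.add_mem _ (Lam_mono ?_ (L.mul _ _ _ _ hx hy)) hx) hy
  have := L.hk1
  omega

theorem prod_sub_one {ι : Type*} {k : ℤ} (hk : L.k0 ≤ k) (s : Finset ι) (f : ι → F)
    (h : ∀ i ∈ s, f i - 1 ∈ Lam F w k) : ∏ i ∈ s, f i - 1 ∈ Lam F w k := by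
  induction s using Finset.induction_on with
  | empty => simp [zero_mem]
  | insert a s ha ih =>
    rw [Finset.prod_insert ha]
    exact L.mul_sub_one hk (h a (Finset.mem_insert_self a s))
      (ih fun i hi => h i (Finset.mem_insert_of_mem hi))

theorem act_sub_one {k : ℤ} {x : F} (hx : x - 1 ∈ Lam F w k) (σ : F ≃ₐ[K] F) :
    σ x - 1 ∈ Lam F w k := by
  have : σ x - 1 = σ (x - 1) := by rw [map_sub, map_one]
  rw [this]
  exact act_mem_Lam hx σ

theorem mul_mem_of_sub_one {j k : ℤ} (hk : L.k0 ≤ k) {u y : F} (hu : u - 1 ∈ Lam F w k)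
    (hy : y ∈ Lam F w j) : u * y ∈ Lam F w j := by
  have e : u * y = (u - 1) * y + y := by ring
  rw [e]
  refine AddSubgroup.add_mem _ (Lam_mono ?_ (L.mul _ _ _ _ hu hy)) hy
  have := L.hk1
  omega

theorem val_one {k : ℤ} (hk : L.k0 ≤ k) {a : K} (ha : algebraMap K F a - 1 ∈ Lam F w k) :
    w.valuation K a = 1 := by
  have h1 : algebraMap K F (a - 1) ∈ Lam F w k := by rwa [map_sub, map_one]
  rw [L.alg] at h1
  have h2 : w.valuation K (a - 1) < 1 := by
    refine h1.trans_lt ?_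
    rw [← exp_zero, exp_lt_exp]
    have := L.hk2
    omega
  have h3 : w.valuation K ((a - 1) + 1) = w.valuation K (1 : K) :=
    Valuation.map_add_eq_of_lt_right _ (by rw [map_one]; exact h2)
  rwa [map_one, sub_add_cancel] at h3

variable (σ : F ≃ₐ[K] F) (hσ : ∀ τ : F ≃ₐ[K] F, τ ∈ Subgroup.zpowers σ)

/-- the group `V_k` -/
def V (hσ : ∀ τ : F ≃ₐ[K] F, τ ∈ Subgroup.zpowers σ) (k : ℤ) (hk : L.k0 ≤ k) : Subgroup Fˣ where
  carrier := {u | (u : F) - 1 ∈ Lam F w k}
  one_mem' := by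
    change ((1 : Fˣ) : F) - 1 ∈ Lam F w k
    rw [Units.val_one, sub_self]
    exact zero_mem _
  mul_mem' {a b} ha hb := by
    change ((a * b : Fˣ) : F) - 1 ∈ Lam F w k
    rw [Units.val_mul]
    exact L.mul_sub_one hk ha hb
  inv_mem' {u} hu := by
    change ((u⁻¹ : Fˣ) : F) - 1 ∈ Lam F w k
    have hu' : (u : F) - 1 ∈ Lam F w k := hu
    -- the complementary product
    set n := finrank K F with hn
    have hnpos : 0 < n := finrank_pos
    have hN := incl_NK σ hσ u
    rw [← hn] at hN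
    obtain ⟨m, hm⟩ := Nat.exists_eq_succ_of_ne_zero hnpos.ne'
    rw [hm, Finset.prod_range_succ', pow_zero] at hN
    set q : Fˣ := ∏ i ∈ Finset.range m, gact (σ ^ (i + 1)) u with hq
    have hq1 : (q : F) - 1 ∈ Lam F w k := by
      rw [hq, Units.coe_prod]
      refine L.prod_sub_one hk _ _ fun i _ => ?_
      rw [gact_coe]
      exact act_sub_one hu' _
    have h1 : gact (1 : F ≃ₐ[K] F) u = u := Units.ext rfl
    rw [h1] at hN
    have ha1 : algebraMap K F (NK K F u : K) - 1 ∈ Lam F w k := by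
      rw [← incl_coe, hN, Units.val_mul]
      exact L.mul_sub_one hk hq1 hu'
    have hval := L.val_one hk ha1
    have e : ((u⁻¹ : Fˣ) : F) - 1 = algebraMap K F ((NK K F u : K)⁻¹) *
        (((q : F) - 1) - (algebraMap K F (NK K F u : K) - 1)) := by
      have h2 : algebraMap K F (NK K F u : K) = (q : F) * u := by
        rw [← incl_coe, hN, Units.val_mul]
      have h3 : algebraMap K F (NK K F u : K) ≠ 0 := by
        rw [h2]
        exact mul_ne_zero q.ne_zero u.ne_zero
      rw [map_inv₀, h2, Units.val_inv_eq_inv_val]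
      have h4 : (u : F) ≠ 0 := u.ne_zero
      have h5 : (q : F) ≠ 0 := q.ne_zero
      field_simp
      ring
    rw [e]
    have h6 : w.valuation K ((NK K F u : K)⁻¹) ≤ exp (-(0 : ℤ)) := by
      rw [map_inv₀, hval, inv_one, neg_zero, exp_zero]
    have h7 := smul_mem_Lam (AddSubgroup.sub_mem _ hq1 ha1) h6
    rwa [zero_add] at h7

theorem mem_V {k : ℤ} {hk : L.k0 ≤ k} {u : Fˣ} : u ∈ L.V σ hσ k hk ↔ (u : F) - 1 ∈ Lam F w k :=
  Iff.rfl

theorem gact_mem_V {k : ℤ} {hk : L.k0 ≤ k} {u : Fˣ} (hu : u ∈ L.V σ hσ k hk) (τ : F ≃ₐ[K] F) :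
    gact τ u ∈ L.V σ hσ k hk := act_sub_one hu τ

theorem exists_unit {k : ℤ} (hk : L.k0 ≤ k) {z : F} (hz : z ∈ Lam F w k) :
    ∃ v : Fˣ, (v : F) = 1 + z ∧ v ∈ L.V σ hσ k hk := by
  have h0 : (1 : F) + z ≠ 0 := by
    intro h
    have : (1 : F) = -z := by
      rw [eq_neg_iff_add_eq_zero, h]
    exact L.one_notMem hk (this ▸ neg_mem hz)
  refine ⟨Units.mk0 _ h0, rfl, ?_⟩
  rw [mem_V, Units.val_mk0, add_sub_cancel_left]
  exact hz

theorem prod_one_add {ι : Type*} {k : ℤ} (hk : L.k0 ≤ k) (s : Finset ι) (x : ι → F)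
    (h : ∀ i ∈ s, x i ∈ Lam F w k) :
    ∏ i ∈ s, (1 + x i) - 1 - ∑ i ∈ s, x i ∈ Lam F w (k + 1) := by
  induction s using Finset.induction_on with
  | empty => simp [zero_mem]
  | insert a s ha ih =>
    rw [Finset.prod_insert ha, Finset.sum_insert ha]
    have ih' := ih fun i hi => h i (Finset.mem_insert_of_mem hi)
    have hxa := h a (Finset.mem_insert_self a s)
    have hp : ∏ i ∈ s, (1 + x i) - 1 ∈ Lam F w k := by
      refine L.prod_sub_one hk s _ fun i hi => ?_
      rw [add_sub_cancel_left]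
      exact h i (Finset.mem_insert_of_mem hi)
    have e : (1 + x a) * ∏ i ∈ s, (1 + x i) - 1 - (x a + ∑ i ∈ s, x i) =
        x a * (∏ i ∈ s, (1 + x i) - 1) + (∏ i ∈ s, (1 + x i) - 1 - ∑ i ∈ s, x i) := by ring
    rw [e]
    refine AddSubgroup.add_mem _ (Lam_mono ?_ (L.mul _ _ _ _ hxa hp)) ih'
    have := L.hk1
    omega

include hσ in
/-- coordinates of the trace -/
theorem co_sum_act (x : F) (τ : F ≃ₐ[K] F) :
    co τ (∑ i ∈ Finset.range (finrank K F), (σ ^ i) x) =
      ∑ i ∈ Finset.range (finrank K F), co (σ ^ i) x := by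
  rw [co_sum]
  have e : ∀ f : (F ≃ₐ[K] F) → K, ∑ i ∈ Finset.range (finrank K F), f (σ ^ i) = ∑ ρ, f ρ := by
    intro f
    refine Finset.sum_bij (fun i _ => σ ^ i) (fun i _ => Finset.mem_univ _) ?_ ?_ (fun _ _ => rfl)
    · intro i hi j hj h
      have h1 : i < orderOf σ := by rw [orderOf_gen σ hσ]; exact Finset.mem_range.mp hi
      have h2 : j < orderOf σ := by rw [orderOf_gen σ hσ]; exact Finset.mem_range.mp hj
      exact pow_injOn_Iio_orderOf h1 h2 h
    · intro τ _
      have h1 := (hσ τ)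
      rw [mem_zpowers_iff_mem_range_orderOf] at h1
      obtain ⟨i, hi, rfl⟩ := Finset.mem_image.mp h1
      rw [orderOf_gen σ hσ] at hi
      exact ⟨i, hi, rfl⟩
  rw [Finset.sum_congr rfl fun i _ => co_act (σ ^ i) τ x, e (fun ρ => co ρ x),
    e (fun ρ => co (ρ⁻¹ * τ) x)]
  exact Fintype.sum_equiv ((Equiv.inv _).trans (Equiv.mulRight τ)) _ _ fun ρ => rfl

include hσ in
theorem sum_co_pow (x : F) : x = ∑ i ∈ Finset.range (finrank K F),
    algebraMap K F (co (σ ^ i) x) * (σ ^ i) (th K F) := by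
  have e : ∀ f : (F ≃ₐ[K] F) → F, ∑ i ∈ Finset.range (finrank K F), f (σ ^ i) = ∑ ρ, f ρ := by
    intro f
    refine Finset.sum_bij (fun i _ => σ ^ i) (fun i _ => Finset.mem_univ _) ?_ ?_ (fun _ _ => rfl)
    · intro i hi j hj h
      have h1 : i < orderOf σ := by rw [orderOf_gen σ hσ]; exact Finset.mem_range.mp hi
      have h2 : j < orderOf σ := by rw [orderOf_gen σ hσ]; exact Finset.mem_range.mp hj
      exact pow_injOn_Iio_orderOf h1 h2 h
    · intro τ _
      have h1 := (hσ τ)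
      rw [mem_zpowers_iff_mem_range_orderOf] at h1
      obtain ⟨i, hi, rfl⟩ := Finset.mem_image.mp h1
      rw [orderOf_gen σ hσ] at hi
      exact ⟨i, hi, rfl⟩
  rw [e (fun ρ => algebraMap K F (co ρ x) * ρ (th K F))]
  exact sum_co x

/-- one step of the approximation -/
theorem step {k : ℤ} (hk : L.k0 ≤ k) (u : Fˣ) (hu : u ∈ L.V σ hσ k hk) (hN : NK K F u = 1) :
    ∃ v ∈ L.V σ hσ k hk, u * (v / gact σ v) ∈ L.V σ hσ (k + 1) (by omega) := by
  set x : F := (u : F) - 1 with hx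
  have hxm : x ∈ Lam F w k := hu
  have hux : (u : F) = 1 + x := by rw [hx]; ring
  -- the trace is small
  have htr : ∑ i ∈ Finset.range (finrank K F), (σ ^ i) x ∈ Lam F w (k + 1) := by
    have h1 := L.prod_one_add hk (Finset.range (finrank K F)) (fun i => (σ ^ i) x)
      (fun i _ => act_mem_Lam hxm _)
    have h2 : ∏ i ∈ Finset.range (finrank K F), (1 + (σ ^ i) x) = 1 := by
      have h3 := incl_NK σ hσ u
      rw [hN, map_one] at h3
      have h4 := congrArg Units.val h3
      rw [Units.val_one, Units.coe_prod] at h4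
      refine Eq.trans (Finset.prod_congr rfl fun i _ => ?_) h4.symm
      rw [gact_coe, hux, map_add, map_one]
    rw [h2, sub_self, zero_sub] at h1
    exact neg_mem_iff.mp h1
  set s0 : K := ∑ i ∈ Finset.range (finrank K F), co (σ ^ i) x with hs0
  have hs0v : w.valuation K s0 ≤ exp (-(k + 1)) := by
    have h5 := htr 1
    rwa [co_sum_act σ hσ] at h5
  -- the element `z`
  set z : F := ∑ i ∈ Finset.range (finrank K F), algebraMap K F (co (σ ^ i) x) *
    ∑ j ∈ Finset.range i, (σ ^ j) (th K F) with hz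
  have hzm : z ∈ Lam F w k := by
    refine AddSubgroup.sum_mem _ fun i _ => ?_
    have h6 := smul_mem_Lam (AddSubgroup.sum_mem _ fun j (_ : j ∈ Finset.range i) =>
      th_mem_Lam (w := w) (σ ^ j)) (hxm (σ ^ i))
    rwa [add_zero] at h6
  have hσz : σ z - z = x - algebraMap K F s0 * th K F := by
    have h7 : σ z - z = ∑ i ∈ Finset.range (finrank K F), algebraMap K F (co (σ ^ i) x) *
        ((σ ^ i) (th K F) - th K F) := by
      rw [hz, map_sum, ← Finset.sum_sub_distrib]
      refine Finset.sum_congr rfl fun i _ => ?_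
      rw [map_mul, AlgEquiv.commutes, ← mul_sub, map_sum]
      congr 1
      have h8 : ∀ j, σ ((σ ^ j) (th K F)) = (σ ^ (j + 1)) (th K F) := by
        intro j
        rw [pow_succ']
        rfl
      rw [Finset.sum_congr rfl fun j _ => h8 j, ← Finset.sum_sub_distrib,
        Finset.sum_range_sub (fun j => (σ ^ j) (th K F)) i]
      rfl
    rw [h7]
    simp only [mul_sub]
    rw [Finset.sum_sub_distrib, ← sum_co_pow σ hσ x, ← Finset.sum_mul, hs0, map_sum]
  obtain ⟨v, hv, hvm⟩ := L.exists_unit σ hσ hk hzm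
  refine ⟨v, hvm, ?_⟩
  have hgv : (gact σ v : F) = 1 + σ z := by rw [gact_coe, hv, map_add, map_one]
  have hgm : (gact σ v)⁻¹ ∈ L.V σ hσ k hk := inv_mem (L.gact_mem_V σ hσ hvm σ)
  rw [mem_V]
  have e1 : ((u * (v / gact σ v) : Fˣ) : F) - 1 = (((gact σ v)⁻¹ : Fˣ) : F) *
      ((u : F) * v - gact σ v) := by
    have h9 : (gact σ v : F) ≠ 0 := (gact σ v).ne_zero
    rw [Units.val_mul, Units.val_div_eq_div_val, Units.val_inv_eq_inv_val]
    field_simp
  rw [e1]
  refine L.mul_mem_of_sub_one hk hgm ?_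
  have e2 : (u : F) * v - gact σ v = algebraMap K F s0 * th K F + x * z := by
    rw [hgv, hux, hv]
    linear_combination -hσz
  rw [e2]
  refine AddSubgroup.add_mem _ ?_ (Lam_mono ?_ (L.mul _ _ _ _ hxm hzm))
  · have h11 := smul_mem_Lam (th_mem_Lam (w := w) (1 : F ≃ₐ[K] F)) hs0v
    rwa [add_zero] at h11
  · have := L.hk1
    omega

end LamConst

end

end Fermat.Agent.CFT
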