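import Fermat.Agent.CFT.Lam2

/-!
# Approximately fixed elements
-/

set_option autoImplicit false
set_option linter.unusedSectionVars false
set_option linter.style.haveILetI false
set_option linter.unusedVariables false

open scoped Classical nonZeroDivisors

namespace Fermat.Agent.CFT

open Module NumberField IsDedekindDomain WithZero

section

variable {K F : Type} [Field K] [NumberField K] [Field F] [NumberField F] [Algebra K F]
  [IsGalois K F]

variable {w : HeightOneSpectrum (𝓞 K)} (L : LamConst F w)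

theorem NK_gact (σ : F ≃ₐ[K] F) (y : Fˣ) : NK K F (gact σ y) = NK K F y := by
  apply Units.ext
  rw [NK_coe, NK_coe, gact_coe]
  exact Algebra.norm_eq_of_algEquiv σ (y : F)

namespace LamConst

variable (σ : F ≃ₐ[K] F) (hσ : ∀ τ : F ≃ₐ[K] F, τ ∈ Subgroup.zpowers σ)

theorem V_mono {j k : ℤ} (hj : L.k0 ≤ j) (hk : L.k0 ≤ k) (h : j ≤ k) :
    L.V σ hσ k hk ≤ L.V σ hσ j hj := by
  intro u hu
  rw [mem_V] at hu ⊢
  exact Lam_mono h hu

theorem exists_improve {k : ℤ} (hk : L.k0 ≤ k) (y : Fˣ)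
    (hy : gact σ y / y ∈ L.V σ hσ k hk) (m : ℕ) : ∀ (k' : ℤ) (hk' : L.k0 ≤ k'), k' = k + m →
    ∃ v ∈ L.V σ hσ k hk, gact σ (y * v) / (y * v) ∈ L.V σ hσ k' hk' := by
  induction m with
  | zero =>
    intro k' hk' h
    rw [Nat.cast_zero, add_zero] at h
    subst h
    exact ⟨1, one_mem _, by rwa [mul_one]⟩
  | succ m ih =>
    intro k' hk' h
    obtain ⟨v, hv, h1⟩ := ih (k + m) (by omega) rfl
    have hN : NK K F (gact σ (y * v) / (y * v)) = 1 := by
      rw [map_div, NK_gact, div_self']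
    obtain ⟨v', hv', h2⟩ := L.step σ hσ (by omega) _ h1 hN
    refine ⟨v / v', ?_, ?_⟩
    · exact div_mem hv (L.V_mono σ hσ hk (by omega) (by omega) hv')
    · have e : gact σ (y * (v / v')) / (y * (v / v')) =
          gact σ (y * v) / (y * v) * (v' / gact σ v') := by
        rw [← mul_div_assoc, map_div]
        rw [div_div_div_eq, div_mul_div_comm]
        congr 1
        rw [mul_comm]
      rw [e]
      have h3 : k' = k + m + 1 := by
        rw [h]; push_cast; ring
      subst h3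
      exact h2

include hσ in
theorem pow_finrank : σ ^ finrank K F = 1 := by
  rw [← orderOf_gen σ hσ, pow_orderOf_eq_one]

include hσ in
theorem sum_pow_eq (f : (F ≃ₐ[K] F) → F) :
    ∑ i ∈ Finset.range (finrank K F), f (σ ^ i) = ∑ ρ, f ρ := by
  refine Finset.sum_bij (fun i _ => σ ^ i) (fun i _ => Finset.mem_univ _) ?_ ?_ (fun _ _ => rfl)
  · intro i hi j hj h
    have h1 : i < orderOf σ := by rw [orderOf_gen σ hσ]; exact Finset.mem_range.mp hi
    have h2 : j < orderOf σ := by rw [orderOf_gen σ hσ]; exact Finset.mem_range.mp hj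
    exact pow_injOn_Iio_orderOf h1 h2 h
  · intro τ _
    have h1 := (hσ τ)
    rw [mem_zpowers_iff_mem_range_orderOf] at h1
    obtain ⟨i, hi, rfl⟩ := Finset.mem_image.mp h1
    rw [orderOf_gen σ hσ] at hi
    exact ⟨i, hi, rfl⟩

/-- elements of `Fˣ` fixed modulo `V` come from `Kˣ` modulo `V` -/
theorem fixed {k : ℤ} (hk : L.k0 ≤ k) (y : Fˣ) (hy : gact σ y / y ∈ L.V σ hσ k hk) :
    ∃ a : Kˣ, ∃ v ∈ L.V σ hσ k hk, y = incl K F a * v := by
  -- an element of trace one
  obtain ⟨c, hc⟩ := Algebra.trace_surjective K F (1 : K)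
  have hc1 : ∑ i ∈ Finset.range (finrank K F), (σ ^ i) c = 1 := by
    rw [sum_pow_eq σ hσ (fun ρ => ρ c), ← trace_eq_sum_automorphisms, hc, map_one]
  obtain ⟨kc, hkc⟩ := exists_mem_Lam (w := w) c
  set m : ℕ := ((L.c : ℤ) - kc).toNat with hm
  obtain ⟨v, hv, hu⟩ := L.exists_improve σ hσ hk y hy m (k + m) (by omega) rfl
  set y' : Fˣ := y * v with hy'
  have hui : ∀ i : ℕ, gact (σ ^ i) y' / y' ∈ L.V σ hσ (k + m) (by omega) := by
    intro i
    induction i with
    | zero =>
      have : gact (σ ^ 0) y' / y' = 1 := by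
        rw [pow_zero]
        exact div_self' y'
      rw [this]
      exact one_mem _
    | succ i ih =>
      have e : gact (σ ^ (i + 1)) y' / y' = gact σ (gact (σ ^ i) y' / y') * (gact σ y' / y') := by
        rw [pow_succ', gact_mul, map_div]
        rw [div_mul_div_cancel]
      rw [e]
      exact mul_mem (L.gact_mem_V σ hσ ih σ) hu
  set z : F := ∑ i ∈ Finset.range (finrank K F), (σ ^ i) c * ((gact (σ ^ i) y' / y' : Fˣ) - 1) with hz
  have hzm : z ∈ Lam F w k := by
    refine AddSubgroup.sum_mem _ fun i _ => ?_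
    refine Lam_mono ?_ (L.mul _ _ _ _ (act_mem_Lam hkc (σ ^ i)) (hui i))
    omega
  obtain ⟨v2, hv2, hv2m⟩ := L.exists_unit σ hσ hk hzm
  have hx : ((y' * v2 : Fˣ) : F) = ∑ i ∈ Finset.range (finrank K F), (σ ^ i) (c * y') := by
    have h0 : (y' : F) ≠ 0 := y'.ne_zero
    have e1 : ∀ i ∈ Finset.range (finrank K F), (σ ^ i) (c * y') =
        (y' : F) * (σ ^ i) c + y' * ((σ ^ i) c * ((gact (σ ^ i) y' / y' : Fˣ) - 1)) := by
      intro i _
      rw [Units.val_div_eq_div_val, gact_coe, _root_.map_mul (σ ^ i) c (y' : F)]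
      field_simp
      ring
    rw [Finset.sum_congr rfl e1, Finset.sum_add_distrib, ← Finset.mul_sum, ← Finset.mul_sum, hc1,
      Units.val_mul, hv2, mul_add, hz]
  have hfix : gact σ (y' * v2) = y' * v2 := by
    apply Units.ext
    rw [gact_coe, hx, map_sum, ← sub_eq_zero, ← Finset.sum_sub_distrib]
    have e : ∀ i, σ ((σ ^ i) (c * y')) = (σ ^ (i + 1)) (c * y') := by
      intro i
      rw [pow_succ']
      rfl
    rw [Finset.sum_congr rfl fun i _ => by rw [e i], Finset.sum_range_sub (fun i => (σ ^ i) (c * y')),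
      pow_finrank σ hσ, pow_zero, sub_self]
  obtain ⟨a, ha⟩ := exists_incl_of_fixed σ hσ _ hfix
  refine ⟨a, (v * v2)⁻¹, inv_mem (mul_mem hv hv2m), ?_⟩
  rw [ha, hy', mul_assoc y v v2, mul_inv_cancel_right]

end LamConst

end

end Fermat.Agent.CFT
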