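import Fermat.Agent.CFT.Lam3

/-!
# Finiteness of the quotient of the semi-local units
-/

set_option autoImplicit false
set_option linter.unusedSectionVars false
set_option linter.style.haveILetI false
set_option linter.unusedVariables false

open scoped Classical nonZeroDivisors

namespace Fermat.Agent.CFT

open Module NumberField IsDedekindDomain WithZero

section one

variable {K : Type*} [Field K] [NumberField K]

/-- the units at `v` -/
def O1 (v : HeightOneSpectrum (𝓞 K)) : Subgroup Kˣ where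
  carrier := {x | ordv v x = 0}
  one_mem' := ordv_one v
  mul_mem' {a b} ha hb := by
    have ha' : ordv v a = 0 := ha
    have hb' : ordv v b = 0 := hb
    change ordv v (a * b) = 0
    rw [ordv_mul, ha', hb', add_zero]
  inv_mem' {a} ha := by
    have ha' : ordv v a = 0 := ha
    change ordv v a⁻¹ = 0
    rw [ordv_inv, ha', neg_zero]

theorem mem_O1 {v : HeightOneSpectrum (𝓞 K)} {x : Kˣ} : x ∈ O1 v ↔ ordv v x = 0 := Iff.rfl

instance finite_quot_pow (v : HeightOneSpectrum (𝓞 K)) (m : ℕ) : Finite (𝓞 K ⧸ v.asIdeal ^ m) :=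
  Ideal.finiteQuotientOfFreeOfNeBot _ (pow_ne_zero _ v.ne_bot)

/-- `U^{(m)}` has finite index in the local units -/
theorem relIndex_Uw_ne_zero (v : HeightOneSpectrum (𝓞 K)) (m : ℕ) : (Uw v m).relIndex (O1 v) ≠ 0 := by
  have h1 : ∀ x : O1 v, ∃ a : 𝓞 K, v.valuation K ((a : K) - ((x : Kˣ) : K)) ≤ exp (-((m : ℤ) + 1)) := by
    intro x
    have hx : v.valuation K ((x : Kˣ) : K) ≤ 1 := by
      rw [valuation_le_one_iff, mem_O1.mp x.2]
    obtain ⟨a, ha⟩ := v.exists_valuation_sub_lt_of_integer hx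
      (Units.mk0 (exp (-((m : ℤ) + 1))) exp_ne_zero)
    exact ⟨a, ha.le⟩
  choose a ha using h1
  have hinj : ∀ x y : O1 v, (Ideal.Quotient.mk (v.asIdeal ^ (m + 1)) (a x)) =
      Ideal.Quotient.mk (v.asIdeal ^ (m + 1)) (a y) → x⁻¹ * y ∈ (Uw v m).subgroupOf (O1 v) := by
    intro x y h
    rw [Ideal.Quotient.eq, ← HeightOneSpectrum.intValuation_le_pow_iff_mem] at h
    have h2 : v.valuation K ((a x : K) - a y) ≤ exp (-((m : ℤ) + 1)) := by
      have h3 : v.valuation K ((a x : K) - a y) = v.intValuation (a x - a y) := by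
        rw [← map_sub]
        exact v.valuation_of_algebraMap (a x - a y)
      rw [h3]
      refine h.trans (le_of_eq ?_)
      push_cast
      rfl
    have h4 : v.valuation K (((y : Kˣ) : K) - ((x : Kˣ) : K)) ≤ exp (-((m : ℤ) + 1)) := by
      have e : ((y : Kˣ) : K) - ((x : Kˣ) : K) =
          ((a x : K) - ((x : Kˣ) : K)) - ((a y : K) - ((y : Kˣ) : K)) - ((a x : K) - a y) := by ring
      rw [e]
      exact (Valuation.map_sub _ _ _).trans (max_le ((Valuation.map_sub _ _ _).trans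
        (max_le (ha x) (ha y))) h2)
    rw [Subgroup.mem_subgroupOf, mem_Uw]
    have hx1 : v.valuation K ((x : Kˣ) : K) = 1 := by
      rw [valuation_eq_one_iff]
      exact x.2
    have e2 : (((x⁻¹ * y : O1 v) : Kˣ) : K) - 1 =
        (((x : Kˣ) : K))⁻¹ * (((y : Kˣ) : K) - ((x : Kˣ) : K)) := by
      have : ((x : Kˣ) : K) ≠ 0 := Units.ne_zero _
      rw [Subgroup.coe_mul, Subgroup.coe_inv, Units.val_mul, Units.val_inv_eq_inv_val]
      field_simp
    rw [e2, map_mul, map_inv₀, hx1, inv_one, one_mul]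
    exact h4
  rw [Subgroup.relIndex]
  have : Finite (O1 v ⧸ (Uw v m).subgroupOf (O1 v)) := by
    refine Finite.of_injective (fun q => Ideal.Quotient.mk (v.asIdeal ^ (m + 1)) (a q.out)) ?_
    intro q q' h
    have h5 := hinj _ _ h
    rw [← QuotientGroup.out_eq' q, ← QuotientGroup.out_eq' q', QuotientGroup.eq]
    exact h5
  exact Subgroup.index_ne_zero_of_finite

end one

section

variable {K F : Type} [Field K] [NumberField K] [Field F] [NumberField F] [Algebra K F]
  [IsGalois K F]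

theorem val_algebraMap_le (P : HeightOneSpectrum (𝓞 F)) (a : K) (k : ℤ) (hk : 0 ≤ k)
    (ha : (under K F P).valuation K a ≤ exp (-k)) : P.valuation F (algebraMap K F a) ≤ exp (-k) := by
  by_cases h0 : a = 0
  · subst h0
    rw [map_zero, map_zero]
    exact zero_le
  · have h1 := valuation_eq (under K F P) (Units.mk0 a h0)
    rw [Units.val_mk0] at h1
    rw [h1, exp_le_exp] at ha
    have h2 := valuation_eq P (incl K F (Units.mk0 a h0))
    rw [incl_coe, Units.val_mk0] at h2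
    rw [h2, exp_le_exp, ordv_incl]
    have h3 : (1 : ℤ) ≤ ramE K P := by exact_mod_cast ramE_pos P
    nlinarith

theorem val_gact (P : HeightOneSpectrum (𝓞 F)) (τ : F ≃ₐ[K] F) (y : F) :
    P.valuation F (τ y) = (act τ⁻¹ P).valuation F y := by
  by_cases h0 : y = 0
  · subst h0
    rw [map_zero, map_zero, map_zero]
  · have h1 := valuation_eq P (gact τ (Units.mk0 y h0))
    rw [gact_coe, Units.val_mk0, ordv_gact] at h1
    have h2 := valuation_eq (act τ⁻¹ P) (Units.mk0 y h0)
    rw [Units.val_mk0] at h2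
    rw [h1, h2]

/-- traces of small elements are small -/
theorem trace_small (P0 : HeightOneSpectrum (𝓞 F)) (j : ℕ) (y : F)
    (h : ∀ P : HeightOneSpectrum (𝓞 F), under K F P = under K F P0 →
      P.valuation F y ≤ exp (-((ramE K P0 * j : ℕ) : ℤ))) :
    (under K F P0).valuation K (Algebra.trace K F y) ≤ exp (-(j : ℤ)) := by
  by_cases h0 : Algebra.trace K F y = 0
  · rw [h0, map_zero]
    exact zero_le
  · have h1 : P0.valuation F (algebraMap K F (Algebra.trace K F y)) ≤
        exp (-((ramE K P0 * j : ℕ) : ℤ)) := by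
      rw [trace_eq_sum_automorphisms]
      refine Valuation.map_sum_le _ fun τ _ => ?_
      rw [val_gact]
      exact h _ (under_act _ _)
    have h2 := valuation_eq P0 (incl K F (Units.mk0 _ h0))
    rw [incl_coe, Units.val_mk0] at h2
    rw [h2, exp_le_exp, ordv_incl] at h1
    have h3 := valuation_eq (under K F P0) (Units.mk0 _ h0)
    rw [Units.val_mk0] at h3
    rw [h3, exp_le_exp]
    have h4 : (0 : ℤ) < ramE K P0 := by exact_mod_cast ramE_pos P0
    push_cast at h1
    rw [neg_le_neg_iff] at h1 ⊢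
    exact le_of_mul_le_mul_left h1 h4

theorem co_eq_trace (τ : F ≃ₐ[K] F) (y : F) :
    co τ y = Algebra.trace K F (y * (IsGalois.normalBasis K F).traceDual τ) := by
  have h := (IsGalois.normalBasis K F).traceDual.traceDual_repr_apply y τ
  rw [Module.Basis.traceDual_traceDual] at h
  rw [co, h]
  rfl

/-- small elements belong to `Lam` -/
theorem exists_small_mem_Lam (w : HeightOneSpectrum (𝓞 K)) (k : ℤ) :
    ∃ m : ℕ, ∀ z : F, (∀ P : HeightOneSpectrum (𝓞 F), under K F P = w →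
      P.valuation F z ≤ exp (-(m : ℤ))) → z ∈ Lam F w k := by
  obtain ⟨P0, rfl⟩ := under_surjective (F := F) w
  set β : (F ≃ₐ[K] F) → F := fun τ => (IsGalois.normalBasis K F).traceDual τ with hβ
  have hβ0 : ∀ τ, β τ ≠ 0 := fun τ => (IsGalois.normalBasis K F).traceDual.ne_zero τ
  haveI : Finite (above F {under K F P0}) := above_finite (Set.finite_singleton _)
  obtain ⟨B, hB⟩ : ∃ B : ℕ, ∀ (p : (above F {under K F P0}) × (F ≃ₐ[K] F)),
      -(ordv p.1.1 (Units.mk0 _ (hβ0 p.2))) ≤ B := by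
    haveI : Nonempty ((above F {under K F P0}) × (F ≃ₐ[K] F)) := ⟨⟨⟨P0, rfl⟩, 1⟩⟩
    obtain ⟨p0, hp0⟩ := Finite.exists_max
      (fun p : (above F {under K F P0}) × (F ≃ₐ[K] F) => -(ordv p.1.1 (Units.mk0 _ (hβ0 p.2))))
    exact ⟨(-(ordv p0.1.1 (Units.mk0 _ (hβ0 p0.2)))).toNat,
      fun p => (hp0 p).trans (Int.self_le_toNat _)⟩
  refine ⟨ramE K P0 * k.toNat + B, fun z hz τ => ?_⟩
  rw [co_eq_trace]
  refine (trace_small P0 k.toNat _ fun P hP => ?_).trans ?_
  · rw [map_mul]
    have h1 := hz P hP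
    have h2 := valuation_eq P (Units.mk0 _ (hβ0 τ))
    rw [Units.val_mk0] at h2
    have h3 := hB ⟨⟨P, hP⟩, τ⟩
    have h4 : P.valuation F (β τ) ≤ exp (B : ℤ) := by
      rw [h2, exp_le_exp]
      exact h3
    refine (mul_le_mul' h1 h4).trans ?_
    rw [← exp_add, exp_le_exp]
    push_cast
    linarith
  · rw [exp_le_exp]
    have := Int.self_le_toNat k
    omega

/-- elements of `Lam k` are small -/
theorem exists_Lam_small (w : HeightOneSpectrum (𝓞 K)) :
    ∃ k1 : ℤ, ∀ y : F, y ∈ Lam F w k1 → ∀ P : HeightOneSpectrum (𝓞 F), under K F P = w →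
      P.valuation F y < 1 := by
  obtain ⟨P0, rfl⟩ := under_surjective (F := F) w
  have hθ0 : ∀ τ : F ≃ₐ[K] F, τ (th K F) ≠ 0 := by
    intro τ
    rw [th, ← IsGalois.normalBasis_apply]
    exact (IsGalois.normalBasis K F).ne_zero τ
  haveI : Finite (above F {under K F P0}) := above_finite (Set.finite_singleton _)
  obtain ⟨B, hB⟩ : ∃ B : ℕ, ∀ (p : (above F {under K F P0}) × (F ≃ₐ[K] F)),
      -(ordv p.1.1 (Units.mk0 _ (hθ0 p.2))) ≤ B := by
    haveI : Nonempty ((above F {under K F P0}) × (F ≃ₐ[K] F)) := ⟨⟨⟨P0, rfl⟩, 1⟩⟩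
    obtain ⟨p0, hp0⟩ := Finite.exists_max
      (fun p : (above F {under K F P0}) × (F ≃ₐ[K] F) => -(ordv p.1.1 (Units.mk0 _ (hθ0 p.2))))
    exact ⟨(-(ordv p0.1.1 (Units.mk0 _ (hθ0 p0.2)))).toNat,
      fun p => (hp0 p).trans (Int.self_le_toNat _)⟩
  refine ⟨(B : ℤ) + 1, fun y hy P hP => ?_⟩
  rw [sum_co (K := K) y]
  refine Valuation.map_sum_lt _ one_ne_zero fun τ _ => ?_
  rw [map_mul]
  have h1 : P.valuation F (algebraMap K F (co τ y)) ≤ exp (-((B : ℤ) + 1)) := by
    refine val_algebraMap_le P _ _ (by omega) ?_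
    rw [hP]
    exact hy τ
  have h2 := valuation_eq P (Units.mk0 _ (hθ0 τ))
  rw [Units.val_mk0] at h2
  have h3 := hB ⟨⟨P, hP⟩, τ⟩
  have h4 : P.valuation F (τ (th K F)) ≤ exp (B : ℤ) := by
    rw [h2, exp_le_exp]
    exact h3
  refine (mul_le_mul' h1 h4).trans_lt ?_
  rw [← exp_add, ← exp_zero, exp_lt_exp]
  omega

/-- the semi-local units -/
def OU (F : Type) [Field F] [NumberField F] [Algebra K F] (w : HeightOneSpectrum (𝓞 K)) :
    Subgroup Fˣ := ⨅ P : above F {w}, O1 P.1

theorem mem_OU {w : HeightOneSpectrum (𝓞 K)} {x : Fˣ} :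
    x ∈ OU F w ↔ ∀ P : HeightOneSpectrum (𝓞 F), under K F P = w → ordv P x = 0 := by
  rw [OU, Subgroup.mem_iInf]
  exact ⟨fun h P hP => h ⟨P, hP⟩, fun h P => h P.1 P.2⟩

variable {w : HeightOneSpectrum (𝓞 K)} (L : LamConst F w)
variable (σ : F ≃ₐ[K] F) (hσ : ∀ τ : F ≃ₐ[K] F, τ ∈ Subgroup.zpowers σ)

/-- a good neighbourhood -/
theorem LamConst.exists_good : ∃ (k : ℤ) (hk : L.k0 ≤ k), L.V σ hσ k hk ≤ OU F w ∧
    (L.V σ hσ k hk).relIndex (OU F w) ≠ 0 ∧ ∃ m : ℕ, ∀ u ∈ Uw w m, incl K F u ∈ L.V σ hσ k hk := by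
  obtain ⟨k1, hk1⟩ := exists_Lam_small (F := F) w
  refine ⟨max L.k0 k1, le_max_left _ _, ?_, ?_, ?_⟩
  · intro u hu
    rw [mem_OU]
    intro P hP
    rw [LamConst.mem_V] at hu
    have h1 := hk1 _ (Lam_mono (le_max_right _ _) hu) P hP
    have h3 : P.valuation F (((u : F) - 1) + 1) = P.valuation F (1 : F) :=
      Valuation.map_add_eq_of_lt_right _ (by rw [map_one]; exact h1)
    rw [map_one, sub_add_cancel] at h3
    rwa [valuation_eq_one_iff] at h3
  · obtain ⟨m, hm⟩ := exists_small_mem_Lam (F := F) w (max L.k0 k1)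
    haveI : Finite (above F {w}) := above_finite (Set.finite_singleton _)
    have h1 : (⨅ P : above F {w}, Uw P.1 m) ≤ L.V σ hσ (max L.k0 k1) (le_max_left _ _) := by
      intro u hu
      rw [LamConst.mem_V]
      refine hm _ fun P hP => ?_
      have h2 := mem_Uw.mp (Subgroup.mem_iInf.mp hu ⟨P, hP⟩)
      refine h2.trans ?_
      rw [exp_le_exp]
      omega
    have h2 : (⨅ P : above F {w}, Uw P.1 m).relIndex (OU F w) ≠ 0 := by
      refine Subgroup.relIndex_iInf_ne_zero fun P => ?_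
      intro h3
      exact relIndex_Uw_ne_zero P.1 m (Subgroup.relIndex_eq_zero_of_le_right (iInf_le _ P) h3)
    intro h3
    exact h2 (Subgroup.relIndex_eq_zero_of_le_left h1 h3)
  · refine ⟨(max L.k0 k1 - L.g).toNat, fun u hu => ?_⟩
    rw [LamConst.mem_V, incl_coe]
    have : algebraMap K F (u : K) - 1 = algebraMap K F ((u : K) - 1) := by
      rw [map_sub, map_one]
    rw [this, L.alg]
    refine (mem_Uw.mp hu).trans ?_
    rw [exp_le_exp]
    have := Int.self_le_toNat (max L.k0 k1 - L.g)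
    omega

end

end Fermat.Agent.CFT
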