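import Fermat.Agent.CFT.Lam4

/-!
# The local Herbrand quotient and the local norm index
-/

set_option autoImplicit false
set_option linter.unusedSectionVars false
set_option linter.style.haveILetI false
set_option linter.unusedVariables false

open scoped Classical nonZeroDivisors

namespace Fermat.Agent.CFT

open Module NumberField IsDedekindDomain WithZero

section

variable {K F : Type} [Field K] [NumberField K] [Field F] [NumberField F] [Algebra K F]

/-- the quotient `Fˣ / V`, additively -/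
def QV (V : Subgroup Fˣ) : Type := Additive (Fˣ ⧸ V)

noncomputable instance (V : Subgroup Fˣ) : AddCommGroup (QV V) :=
  inferInstanceAs (AddCommGroup (Additive (Fˣ ⧸ V)))

/-- the projection -/
def qm (V : Subgroup Fˣ) (y : Fˣ) : QV V := Additive.ofMul (QuotientGroup.mk y : Fˣ ⧸ V)

theorem qm_mul (V : Subgroup Fˣ) (y z : Fˣ) : qm V (y * z) = qm V y + qm V z := rfl

theorem qm_div (V : Subgroup Fˣ) (y z : Fˣ) : qm V (y / z) = qm V y - qm V z := rfl

theorem qm_one (V : Subgroup Fˣ) : qm V 1 = 0 := rfl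

theorem qm_prod {ι : Type*} (V : Subgroup Fˣ) (s : Finset ι) (f : ι → Fˣ) :
    qm V (∏ i ∈ s, f i) = ∑ i ∈ s, qm V (f i) := by
  induction s using Finset.induction_on with
  | empty => rw [Finset.prod_empty, Finset.sum_empty, qm_one]
  | insert a s ha ih => rw [Finset.prod_insert ha, Finset.sum_insert ha, qm_mul, ih]

theorem exists_qm {V : Subgroup Fˣ} (b : QV V) : ∃ y : Fˣ, qm V y = b :=
  QuotientGroup.mk_surjective (s := V) b

theorem qm_eq_zero {V : Subgroup Fˣ} (y : Fˣ) : qm V y = 0 ↔ y ∈ V :=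
  QuotientGroup.eq_one_iff y

theorem qm_eq {V : Subgroup Fˣ} (y z : Fˣ) : qm V y = qm V z ↔ y⁻¹ * z ∈ V :=
  QuotientGroup.eq

/-- the additive projection as a homomorphism, extended along a homomorphism -/
noncomputable def liftQ {V : Subgroup Fˣ} {A : Type} [AddCommGroup A] (f : Fˣ → A)
    (hf : ∀ x y, f (x * y) = f x + f y) (h : ∀ x ∈ V, f x = 0) : QV V →ₗ[ℤ] A :=
  AddMonoidHom.toIntLinearMap (AddMonoidHom.mk' (fun b : QV V =>
    Quotient.liftOn' (s₁ := QuotientGroup.leftRel V) b f (by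
      intro x y hxy
      rw [QuotientGroup.leftRel_apply] at hxy
      have h1 := h _ hxy
      have h2 := hf x (x⁻¹ * y)
      rw [mul_inv_cancel_left, h1, add_zero] at h2
      exact h2.symm)) (by
      intro a b
      obtain ⟨x, rfl⟩ := exists_qm a
      obtain ⟨y, rfl⟩ := exists_qm b
      exact hf x y))

theorem liftQ_qm {V : Subgroup Fˣ} {A : Type} [AddCommGroup A] (f : Fˣ → A)
    (hf : ∀ x y, f (x * y) = f x + f y) (h : ∀ x ∈ V, f x = 0) (y : Fˣ) :
    liftQ f hf h (qm V y) = f y := rfl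

/-- the action on `Fˣ / V` -/
noncomputable def sV (σ : F ≃ₐ[K] F) (V : Subgroup Fˣ) (hV : V ≤ V.comap (gact σ)) :
    Module.End ℤ (QV V) :=
  liftQ (fun y => qm V (gact σ y)) (fun x y => by rw [map_mul, qm_mul])
    (fun x hx => (qm_eq_zero _).mpr (hV hx))

theorem sV_mk (σ : F ≃ₐ[K] F) (V : Subgroup Fˣ) (hV : V ≤ V.comap (gact σ)) (y : Fˣ) :
    sV σ V hV (qm V y) = qm V (gact σ y) := rfl

theorem sV_pow_mk (σ : F ≃ₐ[K] F) (V : Subgroup Fˣ) (hV : V ≤ V.comap (gact σ)) (i : ℕ) (y : Fˣ) :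
    (sV σ V hV ^ i) (qm V y) = qm V (gact (σ ^ i) y) := by
  induction i with
  | zero => rfl
  | succ i ih =>
    rw [pow_succ', Module.End.mul_apply, ih, sV_mk, pow_succ']
    rfl

theorem nm_sV_mk (σ : F ≃ₐ[K] F) (V : Subgroup Fˣ) (hV : V ≤ V.comap (gact σ)) (n : ℕ) (y : Fˣ) :
    nm (sV σ V hV) n (qm V y) = qm V (∏ i ∈ Finset.range n, gact (σ ^ i) y) := by
  rw [nm, LinearMap.sum_apply, Finset.sum_congr rfl fun i _ => sV_pow_mk σ V hV i y, qm_prod]

section div

variable [IsGalois K F]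

/-- the divisor map on `Fˣ / V` -/
noncomputable def dV (w : HeightOneSpectrum (𝓞 K)) (V : Subgroup Fˣ) (h : V ≤ OU F w) :
    QV V →ₗ[ℤ] (above F {w} → ℤ) :=
  liftQ (fun y => fun P : above F {w} => ordv P.1 y) (fun x y => funext fun P => ordv_mul P.1 x y)
    (fun x hx => funext fun P => mem_OU.mp (h hx) P.1 P.2)

theorem dV_mk (w : HeightOneSpectrum (𝓞 K)) (V : Subgroup Fˣ) (h : V ≤ OU F w) (y : Fˣ)
    (P : above F {w}) : dV w V h (qm V y) P = ordv P.1 y := rfl

theorem dV_surjective (w : HeightOneSpectrum (𝓞 K)) (V : Subgroup Fˣ) (h : V ≤ OU F w) :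
    Function.Surjective (dV w V h) := by
  intro f
  haveI : Finite (above F {w}) := above_finite (Set.finite_singleton _)
  haveI : Fintype (above F {w}) := Fintype.ofFinite _
  choose π hπ using fun P : above F {w} => exists_ordv_one P.1
  obtain ⟨x, hx⟩ := weak_approx (above F {w}) (fun P => π P ^ (f P)) 0
  refine ⟨qm V x, ?_⟩
  funext P
  rw [dV_mk]
  have h1 := ordv_eq_zero_of_Uw (hx P)
  rw [ordv_div, ordv_zpow, hπ, mul_one] at h1
  omega

theorem ker_dV_finite (w : HeightOneSpectrum (𝓞 K)) (V : Subgroup Fˣ) (h : V ≤ OU F w)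
    (hfin : V.relIndex (OU F w) ≠ 0) : Finite (LinearMap.ker (dV w V h)) := by
  haveI : Finite (OU F w ⧸ V.subgroupOf (OU F w)) := Nat.finite_of_card_ne_zero hfin
  choose y hy using fun b : LinearMap.ker (dV w V h) => exists_qm b.1
  have hmem : ∀ b, y b ∈ OU F w := by
    intro b
    rw [mem_OU]
    intro P hP
    have h1 : dV w V h b.1 = 0 := b.2
    rw [← hy b] at h1
    exact congrFun h1 ⟨P, hP⟩
  refine Finite.of_injective (fun b => (QuotientGroup.mk ⟨y b, hmem b⟩ :
    OU F w ⧸ V.subgroupOf (OU F w))) ?_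
  intro b b' hb
  have h2 := QuotientGroup.eq.mp hb
  apply Subtype.ext
  rw [← hy b, ← hy b', qm_eq]
  exact h2

end div

variable [IsGalois K F] (σ : F ≃ₐ[K] F) (hσ : ∀ τ : F ≃ₐ[K] F, τ ∈ Subgroup.zpowers σ)

include hσ in
/-- the local Herbrand quotient -/
theorem hE_sV (w : HeightOneSpectrum (𝓞 K)) (V : Subgroup Fˣ) (h : V ≤ OU F w)
    (hfin : V.relIndex (OU F w) ≠ 0) (hV : V ≤ V.comap (gact σ)) :
    locDeg K F w * hE (nm (sV σ V hV) (finrank K F)) (sV σ V hV - 1) =
      hE (sV σ V hV - 1) (nm (sV σ V hV) (finrank K F)) := by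
  have hSfin : ({w} : Set (HeightOneSpectrum (𝓞 K))).Finite := Set.finite_singleton _
  haveI : Finite (above F {w}) := above_finite hSfin
  haveI : Fintype (above F {w}) := Fintype.ofFinite _
  set n := finrank K F with hn
  have hn0 : 0 < n := finrank_pos
  have hord : orderOf σ = n := orderOf_gen σ hσ
  -- permutation module
  have htn : tS σ {w} ^ n = 1 := by
    ext P
    rw [tS_pow_coe, ← hord, pow_orderOf_eq_one, act_one]
    rfl
  have hπt : ∀ P, piS K F {w} (tS σ {w} P) = piS K F {w} P := by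
    intro P
    apply Subtype.ext
    exact under_act σ P.1
  have htr : ∀ P Q, piS K F {w} P = piS K F {w} Q → ∃ k : ℕ, (tS σ {w} ^ k) P = Q := by
    intro P Q h
    obtain ⟨k, hk⟩ := exists_pow_act σ hσ P.1 Q.1 (congrArg Subtype.val h)
    refine ⟨k, ?_⟩
    apply Subtype.ext
    rw [tS_pow_coe, hk]
  have hX1 := hE_perm_one (piS_surjective {w}) hπt htr htn hn0
  have hX0 := hE_perm_zero (piS_surjective {w}) hπt htr htn hn0
  have hmult : ∀ v : ({w} : Set (HeightOneSpectrum (𝓞 K))),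
      mult (piS K F {w}) n v = locDeg K F v.1 := by
    intro v
    rw [mult, locDeg, hn]
    congr 1
    have e1 : (Finset.univ.filter fun P => piS K F {w} P = v).card =
        (under K F ⁻¹' {v.1}).ncard := by
      rw [← Set.ncard_coe_finset]
      refine Set.ncard_congr (fun P _ => P.1) ?_ ?_ ?_
      · intro P hP
        simp only [Finset.coe_filter, Finset.mem_univ, true_and, Set.mem_ofPred_eq] at hP
        exact congrArg Subtype.val hP
      · intro P Q _ _ h
        exact Subtype.ext h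
      · intro P hP
        have hP' : under K F P = v.1 := hP
        refine ⟨⟨P, by rw [mem_above, hP']; exact v.2⟩, ?_, rfl⟩
        simp only [Finset.coe_filter, Finset.mem_univ, true_and, Set.mem_ofPred_eq]
        exact Subtype.ext hP'
    have e2 : (under K F ⁻¹' {v.1}).ncard = (v.1.asIdeal.primesOver (𝓞 F)).ncard := by
      rw [← Nat.card_coe_set_eq, ← Nat.card_coe_set_eq]
      exact Nat.card_congr (fiberEquiv K F v.1)
    rw [← e2, ← e1]
    congr!
  have hprod : hE (sX (tS σ {w}) - 1) (nm (sX (tS σ {w})) n) = locDeg K F w := by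
    rw [hX0, Finset.prod_congr rfl fun v _ => hmult v]
    rw [Finset.prod_congr rfl (g := fun _ => locDeg K F w) fun v _ => by rw [v.2]]
    rw [Finset.prod_const, Finset.card_univ, Fintype.card_unique, pow_one]
  have hsn : sV σ V hV ^ n = 1 := by
    apply LinearMap.ext
    intro b
    obtain ⟨y, rfl⟩ := exists_qm b
    rw [sV_pow_mk, ← hord, pow_orderOf_eq_one]
    rfl
  have hcomm : ∀ b, dV w V h (sV σ V hV b) = sX (tS σ {w}) (dV w V h b) := by
    intro b
    obtain ⟨y, rfl⟩ := exists_qm b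
    funext P
    rw [sV_mk, dV_mk, ordv_gact]
    rfl
  have hkers : ∀ x ∈ LinearMap.ker (dV w V h), sV σ V hV x ∈ LinearMap.ker (dV w V h) := by
    intro x hx
    rw [LinearMap.mem_ker] at hx ⊢
    rw [hcomm, hx, map_zero]
  haveI := ker_dV_finite w V h hfin
  obtain ⟨key, nz0, nz1⟩ := hE_quot_finite (LinearMap.ker (dV w V h)).subtype
    (Submodule.injective_subtype _) (dV w V h) (dV_surjective w V h)
    (fun b => ⟨fun hb => ⟨⟨b, hb⟩, rfl⟩, by rintro ⟨a, rfl⟩; exact a.2⟩)
    ((sV σ V hV).restrict hkers) (sV σ V hV) (sX (tS σ {w})) (fun a => rfl) hcomm n hsn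
    (by
      rw [hprod, ← hmult ⟨w, rfl⟩]
      exact (mult_pos (piS_surjective {w}) hπt htr htn hn0 ⟨w, rfl⟩).ne') (by rw [hX1]; exact one_ne_zero)
  rw [hprod, hX1, one_mul] at key
  exact key

include hσ in
/-- **The local norm index is divisible by the local degree.** -/
theorem locDeg_dvd_index' (w : HeightOneSpectrum (𝓞 K)) : locDeg K F w ∣ (LN F w).index := by
  obtain ⟨L⟩ := exists_lamConst F w
  obtain ⟨k, hk, hVO, hfin, m, hm⟩ := L.exists_good σ hσ
  set V := L.V σ hσ k hk with hVdef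
  have hV : V ≤ V.comap (gact σ) := fun u hu => L.gact_mem_V σ hσ hu σ
  have key := hE_sV σ hσ w V hVO hfin hV
  set κ : Additive Kˣ →+ QV V :=
    AddMonoidHom.mk' (fun a => qm V (incl K F a.toMul)) (fun a b => by
      rw [toMul_add, map_mul, qm_mul]) with hκ
  have hκapp : ∀ a : Kˣ, κ (Additive.ofMul a) = qm V (incl K F a) :=
    fun a => rfl
  have hker : (sV σ V hV - 1).toAddMonoidHom.ker = κ.range := by
    ext b
    constructor
    · intro hb
      obtain ⟨y, rfl⟩ := exists_qm b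
      have h1 : sV σ V hV (qm V y) - qm V y = 0 := hb
      rw [sV_mk, ← qm_div, qm_eq_zero] at h1
      obtain ⟨a, v, hv, rfl⟩ := L.fixed σ hσ hk y h1
      refine ⟨Additive.ofMul a, ?_⟩
      rw [hκapp, qm_eq, inv_mul_cancel_left]
      exact hv
    · rintro ⟨a, rfl⟩
      change sV σ V hV (qm V (incl K F a.toMul)) - qm V (incl K F a.toMul) = 0
      rw [sV_mk, gact_incl, sub_self]
  have hle : Subgroup.toAddSubgroup (LN F w) ≤
      ((nm (sV σ V hV) (finrank K F)).toAddMonoidHom.range).comap κ := by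
    intro a ha
    have ha' : a.toMul ∈ LN F w := ha
    rw [LN, Subgroup.mem_iInf] at ha'
    obtain ⟨_, ⟨b, rfl⟩, u, hu, hbu⟩ := Subgroup.mem_sup.mp (ha' m)
    refine ⟨qm V b, ?_⟩
    change nm (sV σ V hV) (finrank K F) (qm V b) = qm V (incl K F a.toMul)
    rw [nm_sV_mk, ← incl_NK σ hσ, ← hbu, map_mul, qm_eq, inv_mul_cancel_left]
    exact hm u hu
  have h1 := AddSubgroup.index_dvd_of_le hle
  rw [AddSubgroup.index_comap, ← hker, Subgroup.index_toAddSubgroup] at h1
  refine (Dvd.intro _ key).trans ?_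
  exact h1

variable [IsUnramifiedAtInfinitePlaces K F]

include hσ in
/-- **Local norm indices**, for cyclic extensions of prime degree. -/
theorem index_LN (p : ℕ) [hp : Fact p.Prime] (hn : finrank K F = p) (w : HeightOneSpectrum (𝓞 K)) :
    (LN F w).index = locDeg K F w :=
  (hasse_norm σ hσ p hn fun P _ hne => Nat.le_of_dvd (Nat.pos_of_ne_zero hne)
    (locDeg_dvd_index' σ hσ _)).1 w

include hσ in
/-- **The Hasse norm theorem**, for cyclic extensions of prime degree. -/
theorem hasse_norm' (p : ℕ) [hp : Fact p.Prime] (hn : finrank K F = p) (a : Kˣ)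
    (ha : ∀ w : HeightOneSpectrum (𝓞 K), a ∈ LN F w) : ∃ b : Fˣ, NK K F b = a :=
  (hasse_norm σ hσ p hn fun P _ hne => Nat.le_of_dvd (Nat.pos_of_ne_zero hne)
    (locDeg_dvd_index' σ hσ _)).2 a ha

end

end Fermat.Agent.CFT
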