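import Fermat.Agent.CFT.PrimeSums

/-!
# Sums over primes which split completely
-/

set_option autoImplicit false
set_option linter.unusedSectionVars false
set_option linter.deprecated false
set_option linter.style.haveILetI false

open scoped Classical nonZeroDivisors Topology

namespace Fermat.Agent.CFT

open NumberField Filter IsDedekindDomain H03 Module

section

variable (K L : Type*) [Field K] [NumberField K] [Field L] [NumberField L] [Algebra K L]

/-- the prime below -/
noncomputable def under (w : HeightOneSpectrum (𝓞 L)) : HeightOneSpectrum (𝓞 K) where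
  asIdeal := w.asIdeal.under (𝓞 K)
  isPrime := inferInstance
  ne_bot := mt Ideal.eq_bot_of_comap_eq_bot w.ne_bot

theorem under_asIdeal (w : HeightOneSpectrum (𝓞 L)) :
    (under K L w).asIdeal = w.asIdeal.under (𝓞 K) := rfl

instance liesOver_under (w : HeightOneSpectrum (𝓞 L)) :
    w.asIdeal.LiesOver (under K L w).asIdeal := ⟨rfl⟩

/-- the fibers of `under` -/
noncomputable def fiberEquiv (v : HeightOneSpectrum (𝓞 K)) :
    (under K L ⁻¹' {v}) ≃ (v.asIdeal.primesOver (𝓞 L)) where
  toFun w := ⟨w.1.asIdeal, w.1.isPrime, ⟨by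
    rw [← under_asIdeal, show under K L w.1 = v from w.2]⟩⟩
  invFun P := ⟨⟨P.1, P.2.1, by
    intro h
    have h1 := P.2.2.over
    rw [h] at h1
    have h2 : (⊥ : Ideal (𝓞 L)).under (𝓞 K) = ⊥ := by
      rw [Ideal.under_def, ← RingHom.ker_eq_comap_bot]
      exact (RingHom.injective_iff_ker_eq_bot _).mp (FaithfulSMul.algebraMap_injective _ _)
    rw [h2] at h1
    exact v.ne_bot h1⟩, by
      rw [Set.mem_preimage, Set.mem_singleton_iff]
      exact HeightOneSpectrum.ext P.2.2.over.symm⟩
  left_inv w := rfl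
  right_inv P := rfl

/-- completely split primes -/
def Spl (v : HeightOneSpectrum (𝓞 K)) : Prop :=
  (v.asIdeal.primesOver (𝓞 L)).ncard = finrank K L

variable {K L}

theorem inertiaDeg'_eq_one {v : HeightOneSpectrum (𝓞 K)} (hv : Spl K L v) (P : Ideal (𝓞 L))
    [hP : P.IsPrime] [hPo : P.LiesOver v.asIdeal] : v.asIdeal.inertiaDeg' P = 1 := by
  have hmax : v.asIdeal.IsMaximal := v.isMaximal
  have h1 := Ideal.sum_ramification_inertia (R := 𝓞 K) (𝓞 L) K L (p := v.asIdeal) v.ne_bot
  have hge : ∀ Q ∈ IsDedekindDomain.primesOverFinset v.asIdeal (𝓞 L),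
      1 ≤ v.asIdeal.ramificationIdx' Q * v.asIdeal.inertiaDeg' Q := by
    intro Q hQ
    have hQ' := (IsDedekindDomain.mem_primesOverFinset_iff v.ne_bot (𝓞 L)).mp hQ
    haveI := hQ'.1
    haveI := hQ'.2
    exact Right.one_le_mul
      (Nat.pos_iff_ne_zero.mpr <| Ideal.IsDedekindDomain.ramificationIdx'_ne_zero_of_liesOver _ v.ne_bot)
      (Nat.pos_iff_ne_zero.mpr <| Ideal.inertiaDeg'_ne_zero v.asIdeal Q)
  have hcard : (IsDedekindDomain.primesOverFinset v.asIdeal (𝓞 L)).card = finrank K L := by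
    rw [← hv, ← IsDedekindDomain.coe_primesOverFinset v.ne_bot (𝓞 L), Set.ncard_coe_finset]
  have h2 : ∑ Q ∈ IsDedekindDomain.primesOverFinset v.asIdeal (𝓞 L), 1 =
      ∑ Q ∈ IsDedekindDomain.primesOverFinset v.asIdeal (𝓞 L),
        v.asIdeal.ramificationIdx' Q * v.asIdeal.inertiaDeg' Q := by
    rw [h1, Finset.sum_const, smul_eq_mul, mul_one, hcard]
  have h3 := (Finset.sum_eq_sum_iff_of_le hge).mp h2 P
    ((IsDedekindDomain.mem_primesOverFinset_iff v.ne_bot (𝓞 L)).mpr ⟨hP, hPo⟩)
  exact Nat.eq_one_of_mul_eq_one_left h3.symm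

theorem absNorm_eq_of_spl {v : HeightOneSpectrum (𝓞 K)} (hv : Spl K L v) (P : Ideal (𝓞 L))
    [hP : P.IsPrime] [hPo : P.LiesOver v.asIdeal] : Ideal.absNorm P = Ideal.absNorm v.asIdeal := by
  rw [Ideal.absNorm_eq_pow_inertiaDeg'_of_liesOver P v.asIdeal v.isPrime v.ne_bot,
    inertiaDeg'_eq_one hv, pow_one]

theorem tsum_fiber {v : HeightOneSpectrum (𝓞 K)} (hv : Spl K L v) (s : ℝ) :
    ∑' w : (under K L ⁻¹' {v}), nrm L s w.1.asIdeal = finrank K L * nrm K s v.asIdeal := by
  have e : ∀ w : (under K L ⁻¹' {v}), nrm L s w.1.asIdeal = nrm K s v.asIdeal := by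
    rintro ⟨w, rfl⟩
    rw [nrm, nrm, absNorm_eq_of_spl hv w.asIdeal]
  rw [tsum_congr e, tsum_const, nsmul_eq_mul, Nat.card_congr (fiberEquiv K L v)]
  congr 2

variable (K L)

/-- primes which split completely, upper bound -/
theorem split_le {s : ℝ} (hs : 1 < s) (hs2 : s ≤ 2) :
    (finrank K L : ℝ) * psum K s (Spl K L) ≤
      ∑' w : HeightOneSpectrum (𝓞 L), nrm L s w.asIdeal := by
  have h := (summable_nrm_prime L hs hs2).hasSum.tsum_fiberwise (under K L)
  rw [← h.tsum_eq, psum, ← tsum_mul_left]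
  refine Summable.tsum_le_tsum (fun v => ?_) ((summable_psum K hs hs2 _).mul_left _) h.summable
  split_ifs with hv
  · rw [tsum_fiber hv]
  · rw [mul_zero]
    exact tsum_nonneg fun w => nrm_nonneg L s _

/-- In the Galois case a prime of degree one, which is unramified over `K`, lies over a prime
which splits completely. -/
theorem spl_of_deg1 [IsGalois K L] (w : HeightOneSpectrum (𝓞 L)) (hw : Deg1 L w)
    (hd : ¬ w.asIdeal ∣ differentIdeal (𝓞 K) (𝓞 L)) :
    Deg1 K (under K L w) ∧ Spl K L (under K L w) := by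
  have hmax : (under K L w).asIdeal.IsMaximal := (under K L w).isMaximal
  have hmaxw : w.asIdeal.IsMaximal := w.isMaximal
  have h1 : Ideal.absNorm w.asIdeal = Ideal.absNorm (under K L w).asIdeal ^
      ((under K L w).asIdeal.inertiaDeg' w.asIdeal) :=
    Ideal.absNorm_eq_pow_inertiaDeg'_of_liesOver w.asIdeal (under K L w).asIdeal
      (under K L w).isPrime (under K L w).ne_bot
  have hw' : (Ideal.absNorm w.asIdeal).Prime := hw
  have hf : (under K L w).asIdeal.inertiaDeg' w.asIdeal = 1 := by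
    rw [h1] at hw'
    exact hw'.eq_one_of_pow
  rw [hf, pow_one] at h1
  refine ⟨by rw [Deg1, ← h1]; exact hw', ?_⟩
  have hun : Algebra.IsUnramifiedAt (𝓞 K) w.asIdeal := not_dvd_differentIdeal_iff.mp hd
  have he : w.asIdeal.ramificationIdx (𝓞 K) = 1 := Ideal.ramificationIdx_eq_one_of_isUnramifiedAt
  have hmain := Ideal.ncard_primesOver_mul_ramificationIdxIn_mul_inertiaDegIn
    (under K L w).asIdeal (𝓞 L) Gal(L/K)
  rw [Ideal.ramificationIdxIn_eq_ramificationIdx (under K L w).asIdeal w.asIdeal Gal(L/K), he,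
    Ideal.inertiaDegIn_eq_inertiaDeg (under K L w).asIdeal w.asIdeal Gal(L/K),
    ← Ideal.inertiaDeg'_eq_inertiaDeg (under K L w).asIdeal w.asIdeal, hf, mul_one, mul_one,
    IsGalois.card_aut_eq_finrank] at hmain
  exact hmain

/-- finitely many ramified primes -/
theorem finite_ramified : {w : HeightOneSpectrum (𝓞 L) |
    w.asIdeal ∣ differentIdeal (𝓞 K) (𝓞 L)}.Finite :=
  Ideal.finite_factors differentIdeal_ne_bot

/-- sums over finite exceptional sets -/
theorem psum_le_add_of_finite {s : ℝ} (hs : 1 < s) (hs2 : s ≤ 2)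
    {P Q : HeightOneSpectrum (𝓞 K) → Prop} (hfin : {v | P v ∧ ¬ Q v}.Finite) :
    psum K s P ≤ psum K s Q + hfin.toFinset.card := by
  have h0 := fun v : HeightOneSpectrum (𝓞 K) => nrm_nonneg K s v.asIdeal
  have hE : HasSum (fun v : HeightOneSpectrum (𝓞 K) => if v ∈ hfin.toFinset then (1 : ℝ) else 0)
      hfin.toFinset.card := by
    have : HasSum (fun v : HeightOneSpectrum (𝓞 K) => if v ∈ hfin.toFinset then (1 : ℝ) else 0)
      (∑ v ∈ hfin.toFinset, if v ∈ hfin.toFinset then (1 : ℝ) else 0) :=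
      hasSum_sum_of_ne_finset_zero (fun v hv => if_neg hv)
    rwa [Finset.sum_ite_mem, Finset.inter_self, Finset.sum_const, nsmul_eq_mul, mul_one] at this
  rw [← hE.tsum_eq, psum, psum, ← (summable_psum K hs hs2 Q).tsum_add hE.summable]
  refine Summable.tsum_le_tsum (fun v => ?_) (summable_psum K hs hs2 P)
    ((summable_psum K hs hs2 Q).add hE.summable)
  have h1 := nrm_le_one K (by linarith : 0 < s) v
  have h2 := h0 v
  by_cases hP : P v
  · by_cases hQ : Q v
    · rw [if_pos hP, if_pos hQ]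
      have : (0 : ℝ) ≤ if v ∈ hfin.toFinset then (1 : ℝ) else 0 := by split_ifs <;> norm_num
      linarith
    · rw [if_pos hP, if_neg hQ, if_pos (hfin.mem_toFinset.mpr ⟨hP, hQ⟩)]
      linarith
  · rw [if_neg hP]
    have : (0 : ℝ) ≤ if v ∈ hfin.toFinset then (1 : ℝ) else 0 := by split_ifs <;> norm_num
    have : (0 : ℝ) ≤ if Q v then nrm K s v.asIdeal else 0 := by
      split_ifs
      · exact h2
      · exact le_rfl
    linarith

/-- **Lower bound** for the sum over the completely split primes of degree one. -/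
theorem exists_split_lower [IsGalois K L] : ∃ C : ℝ, ∀ᶠ s in 𝓝[>] (1 : ℝ),
    ell s - C ≤ (finrank K L : ℝ) * psum K s (fun v => Deg1 K v ∧ Spl K L v) := by
  obtain ⟨C, hC⟩ := exists_lower L
  have hfin : {w : HeightOneSpectrum (𝓞 L) | Deg1 L w ∧
      ¬ (fun w => Deg1 K (under K L w) ∧ Spl K L (under K L w)) w}.Finite := by
    refine (finite_ramified K L).subset fun w hw => ?_
    by_contra hd
    exact hw.2 (spl_of_deg1 K L w hw.1 hd)
  refine ⟨C + hfin.toFinset.card, ?_⟩
  filter_upwards [hC, eventually_Ioc] with s hs hs1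
  have h1 := psum_le_add_of_finite L hs1.1 hs1.2 hfin
  have h2 : psum L s (fun w => Deg1 K (under K L w) ∧ Spl K L (under K L w)) =
      (finrank K L : ℝ) * psum K s (fun v => Deg1 K v ∧ Spl K L v) := by
    have h := (summable_psum L hs1.1 hs1.2
      (fun w => Deg1 K (under K L w) ∧ Spl K L (under K L w))).hasSum.tsum_fiberwise (under K L)
    rw [psum, ← h.tsum_eq, psum, ← tsum_mul_left]
    refine tsum_congr fun v => ?_
    by_cases hv : Deg1 K v ∧ Spl K L v
    · rw [if_pos hv, ← tsum_fiber hv.2 s]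
      refine tsum_congr fun w => ?_
      refine if_pos ?_
      rw [show under K L w.1 = v from w.2]
      exact hv
    · rw [if_neg hv, mul_zero]
      refine (tsum_congr fun w => ?_).trans tsum_zero
      refine if_neg ?_
      rw [show under K L w.1 = v from w.2]
      exact hv
  rw [h2] at h1
  linarith

end

end Fermat.Agent.CFT
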