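import Fermat.Agent.CFT.Ord
import Fermat.Agent.CFT.SplitSums

/-!
# Orders and the Galois action
-/

set_option autoImplicit false
set_option linter.unusedSectionVars false
set_option linter.style.haveILetI false

open scoped Classical nonZeroDivisors Pointwise

namespace Fermat.Agent.CFT

open Module NumberField IsDedekindDomain WithZero

section

variable {K F : Type*} [Field K] [NumberField K] [Field F] [NumberField F] [Algebra K F]

/-- the action of the Galois group on the primes -/
noncomputable def act (σ : F ≃ₐ[K] F) (P : HeightOneSpectrum (𝓞 F)) : HeightOneSpectrum (𝓞 F) where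
  asIdeal := σ • P.asIdeal
  isPrime := by
    haveI := P.isPrime
    infer_instance
  ne_bot := by
    intro h
    have h1 : σ⁻¹ • (σ • P.asIdeal) = σ⁻¹ • (⊥ : Ideal (𝓞 F)) := by rw [h]
    rw [inv_smul_smul] at h1
    apply P.ne_bot
    rw [h1, eq_bot_iff]
    intro x hx
    rw [Ideal.mem_inv_pointwise_smul_iff] at hx
    have h2 : σ • x = 0 := hx
    have h3 : x = 0 := by
      have := congrArg (fun y => σ⁻¹ • y) h2
      simpa using this
    exact h3

theorem act_one (P : HeightOneSpectrum (𝓞 F)) : act (1 : F ≃ₐ[K] F) P = P := by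
  apply HeightOneSpectrum.ext
  exact one_smul _ _

theorem act_mul (σ τ : F ≃ₐ[K] F) (P : HeightOneSpectrum (𝓞 F)) :
    act (σ * τ) P = act σ (act τ P) := by
  apply HeightOneSpectrum.ext
  exact mul_smul _ _ _

theorem under_act (σ : F ≃ₐ[K] F) (P : HeightOneSpectrum (𝓞 F)) :
    under K F (act σ P) = under K F P := by
  apply HeightOneSpectrum.ext
  change (σ • P.asIdeal).under (𝓞 K) = P.asIdeal.under (𝓞 K)
  ext x
  rw [Ideal.mem_comap, Ideal.mem_comap, ← Ideal.smul_mem_pointwise_smul_iff (a := σ⁻¹),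
    inv_smul_smul]
  have : σ⁻¹ • (algebraMap (𝓞 K) (𝓞 F) x) = algebraMap (𝓞 K) (𝓞 F) x := by
    apply RingOfIntegers.ext
    exact AlgEquiv.commutes σ⁻¹ (x : K)
  rw [this]

theorem exists_act [IsGalois K F] (P Q : HeightOneSpectrum (𝓞 F)) (h : under K F P = under K F Q) :
    ∃ σ : F ≃ₐ[K] F, act σ P = Q := by
  haveI := P.isPrime
  haveI := Q.isPrime
  haveI : Q.asIdeal.LiesOver (under K F P).asIdeal := by rw [h]; infer_instance
  obtain ⟨σ, hσ⟩ := Ideal.exists_smul_eq_of_isGaloisGroup (under K F P).asIdeal P.asIdeal Q.asIdeal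
    Gal(F/K)
  exact ⟨σ, HeightOneSpectrum.ext hσ⟩

/-- the action on units of `F` -/
noncomputable def gact (σ : F ≃ₐ[K] F) : Fˣ →* Fˣ := Units.map (σ : F →* F)

theorem gact_coe (σ : F ≃ₐ[K] F) (x : Fˣ) : (gact σ x : F) = σ x := rfl

theorem mem_pow_act (σ : F ≃ₐ[K] F) (P : HeightOneSpectrum (𝓞 F)) (a : 𝓞 F) (n : ℕ) :
    σ • a ∈ (act σ P).asIdeal ^ n ↔ a ∈ P.asIdeal ^ n := by
  change σ • a ∈ (σ • P.asIdeal) ^ n ↔ _
  rw [← smul_pow', Ideal.smul_mem_pointwise_smul_iff]

theorem intValuation_act (σ : F ≃ₐ[K] F) (P : HeightOneSpectrum (𝓞 F)) (a : 𝓞 F) :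
    (act σ P).intValuation (σ • a) = P.intValuation a := by
  by_cases ha : a = 0
  · subst ha
    simp
  have ha' : σ • a ≠ 0 := by
    intro h
    apply ha
    have := congrArg (fun y => σ⁻¹ • y) h
    simpa using this
  have h1 := fun n => mem_pow_act σ P a n
  rw [HeightOneSpectrum.intValuation_if_neg _ ha', HeightOneSpectrum.intValuation_if_neg _ ha]
  congr 2
  set m := (Associates.mk (act σ P).asIdeal).count (Associates.mk (Ideal.span {σ • a})).factors
  set k := (Associates.mk P.asIdeal).count (Associates.mk (Ideal.span {a})).factors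
  have e1 : ∀ n : ℕ, σ • a ∈ (act σ P).asIdeal ^ n ↔ n ≤ m := by
    intro n
    rw [← HeightOneSpectrum.intValuation_le_pow_iff_mem, HeightOneSpectrum.intValuation_if_neg _ ha',
      exp_le_exp]
    omega
  have e2 : ∀ n : ℕ, a ∈ P.asIdeal ^ n ↔ n ≤ k := by
    intro n
    rw [← HeightOneSpectrum.intValuation_le_pow_iff_mem, HeightOneSpectrum.intValuation_if_neg _ ha,
      exp_le_exp]
    omega
  have h3 : m = k := by
    apply le_antisymm
    · exact (e2 m).mp ((h1 m).mp ((e1 m).mpr le_rfl))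
    · exact (e1 k).mp ((h1 k).mpr ((e2 k).mpr le_rfl))
  rw [h3]

theorem coe_smul_int (σ : F ≃ₐ[K] F) (a : 𝓞 F) : ((σ • a : 𝓞 F) : F) = σ (a : F) := rfl

theorem ordv_act_coe (σ : F ≃ₐ[K] F) (P : HeightOneSpectrum (𝓞 F)) (x : Fˣ) (a : 𝓞 F)
    (ha : (a : F) = x) : ordv (act σ P) (gact σ x) = ordv P x := by
  have h1 := valuation_eq P x
  have h2 := valuation_eq (act σ P) (gact σ x)
  have h3 : ((σ • a : 𝓞 F) : F) = gact σ x := by rw [coe_smul_int, ha]; rfl
  have h4 : P.valuation F (x : F) = P.intValuation a := by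
    rw [← ha]; exact P.valuation_of_algebraMap a
  have h5 : (act σ P).valuation F ((gact σ x : Fˣ) : F) = (act σ P).intValuation (σ • a) := by
    rw [← h3]; exact (act σ P).valuation_of_algebraMap (σ • a)
  rw [h5, intValuation_act, ← h4, h1, exp_inj] at h2
  omega

theorem ordv_act (σ : F ≃ₐ[K] F) (P : HeightOneSpectrum (𝓞 F)) (x : Fˣ) :
    ordv (act σ P) (gact σ x) = ordv P x := by
  obtain ⟨a, b, y, z, ha, hb, rfl⟩ := exists_frac x
  rw [map_div, ordv_div, ordv_div, ordv_act_coe σ P y a ha, ordv_act_coe σ P z b hb]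

theorem ordv_gact (σ : F ≃ₐ[K] F) (P : HeightOneSpectrum (𝓞 F)) (x : Fˣ) :
    ordv P (gact σ x) = ordv (act σ⁻¹ P) x := by
  rw [← ordv_act σ (act σ⁻¹ P) x, ← act_mul, mul_inv_cancel, act_one]

/-- the inclusion of `Kˣ` -/
noncomputable def incl (K F : Type*) [Field K] [Field F] [Algebra K F] : Kˣ →* Fˣ :=
  Units.map (algebraMap K F).toMonoidHom

theorem incl_coe (x : Kˣ) : (incl K F x : F) = algebraMap K F x := rfl

theorem incl_injective : Function.Injective (incl K F) := by
  intro x y h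
  apply Units.ext
  exact (algebraMap K F).injective (congrArg Units.val h)

/-- the ramification index -/
noncomputable def ramE (K : Type*) {F : Type*} [Field K] [NumberField K] [Field F] [NumberField F]
    [Algebra K F] (P : HeightOneSpectrum (𝓞 F)) : ℕ :=
  (under K F P).asIdeal.ramificationIdx' P.asIdeal

theorem ordv_incl (P : HeightOneSpectrum (𝓞 F)) (x : Kˣ) :
    ordv P (incl K F x) = ramE K P * ordv (under K F P) x := by
  have h := HeightOneSpectrum.valuation_liesOver F (under K F P) P (x : K)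
  rw [valuation_eq, ← incl_coe, valuation_eq, ← exp_nsmul, exp_inj] at h
  rw [ramE]
  simp only [smul_neg, neg_inj] at h
  rw [← h, nsmul_eq_mul]

theorem ramE_pos (P : HeightOneSpectrum (𝓞 F)) : 0 < ramE K P :=
  Nat.pos_of_ne_zero (Ideal.IsDedekindDomain.ramificationIdx'_ne_zero_of_liesOver _
    (under K F P).ne_bot)

theorem under_surjective : Function.Surjective (under K F) := by
  intro v
  haveI := v.isPrime
  obtain ⟨P⟩ : Nonempty (v.asIdeal.primesOver (𝓞 F)) := inferInstance
  exact ⟨((fiberEquiv K F v).symm P).1, ((fiberEquiv K F v).symm P).2⟩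

theorem fiber_finite (v : HeightOneSpectrum (𝓞 K)) : (under K F ⁻¹' {v}).Finite := by
  haveI : v.asIdeal.IsMaximal := v.isMaximal
  have h1 : (v.asIdeal.primesOver (𝓞 F)).Finite :=
    Algebra.QuasiFinite.finite_primesOver v.asIdeal
  haveI : Finite (v.asIdeal.primesOver (𝓞 F)) := h1
  haveI : Finite (under K F ⁻¹' {v}) := Finite.of_equiv _ (fiberEquiv K F v).symm
  exact Set.toFinite _

end

end Fermat.Agent.CFT
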