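import Fermat.Agent.CFT.Herbrand4

/-!
# The Herbrand quotient of a permutation module
-/

set_option autoImplicit false
set_option linter.unusedSectionVars false
set_option linter.style.haveILetI false

open scoped Classical

namespace Fermat.Agent.CFT

open Module

section

variable {X S : Type*} [Fintype X] [Fintype S] (π : X → S) (t : Equiv.Perm X)

/-- the action on functions -/
noncomputable def sX : Module.End ℤ (X → ℤ) := LinearMap.funLeft ℤ ℤ t.symm

theorem sX_apply (f : X → ℤ) (x : X) : sX t f x = f (t.symm x) := rfl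

theorem sX_pow_apply (n : ℕ) (f : X → ℤ) (x : X) : (sX t ^ n) f x = f ((t ^ n).symm x) := by
  induction n generalizing x with
  | zero => rfl
  | succ n ih =>
    rw [pow_succ', Module.End.mul_apply, sX_apply, ih]
    congr 1

theorem nm_sX_apply (n : ℕ) (f : X → ℤ) (x : X) :
    nm (sX t) n f x = ∑ i ∈ Finset.range n, f ((t ^ i).symm x) := by
  rw [nm, LinearMap.sum_apply, Finset.sum_apply]
  exact Finset.sum_congr rfl fun i _ => sX_pow_apply t i f x

variable {π t} {n : ℕ} (hπ : Function.Surjective π) (hπt : ∀ x, π (t x) = π x)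
  (htr : ∀ x y, π x = π y → ∃ k : ℕ, (t ^ k) x = y) (htn : t ^ n = 1) (hn : 0 < n)

/-- fibre sums -/
noncomputable def fsum (π : X → S) (f : X → ℤ) (w : S) : ℤ := ∑ x with π x = w, f x

include hπt in
theorem π_pow (k : ℕ) (x : X) : π ((t ^ k) x) = π x := by
  induction k with
  | zero => rfl
  | succ k ih => rw [pow_succ', Equiv.Perm.mul_apply, hπt, ih]

include hπt in
theorem fsum_sX_pow (k : ℕ) (f : X → ℤ) (w : S) : fsum π ((sX t ^ k) f) w = fsum π f w := by
  rw [fsum, fsum]
  refine Finset.sum_bij' (fun x _ => (t ^ k).symm x) (fun x _ => (t ^ k) x) ?_ ?_ ?_ ?_ ?_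
  · intro x hx
    simp only [Finset.mem_filter, Finset.mem_univ, true_and] at hx ⊢
    rw [← hx]
    conv_rhs => rw [← Equiv.apply_symm_apply (t ^ k) x]
    rw [π_pow hπt]
  · intro x hx
    simp only [Finset.mem_filter, Finset.mem_univ, true_and] at hx ⊢
    rw [π_pow hπt, hx]
  · intro x _
    simp
  · intro x _
    simp
  · intro x _
    rw [sX_pow_apply]

include hπt in
theorem fsum_nm (f : X → ℤ) (w : S) : fsum π (nm (sX t) n f) w = n * fsum π f w := by
  have : nm (sX t) n f = ∑ i ∈ Finset.range n, (sX t ^ i) f := by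
    rw [nm, LinearMap.sum_apply]
  rw [this]
  have h2 : fsum π (∑ i ∈ Finset.range n, (sX t ^ i) f) w =
      ∑ i ∈ Finset.range n, fsum π ((sX t ^ i) f) w := by
    simp only [fsum, Finset.sum_apply]
    exact Finset.sum_comm
  rw [h2, Finset.sum_congr rfl fun i _ => fsum_sX_pow hπt i f w]
  simp

include htr in
theorem const_of_fixed (f : X → ℤ) (hf : sX t f = f) (x y : X) (h : π x = π y) : f x = f y := by
  obtain ⟨k, rfl⟩ := htr x y h
  have h1 : (sX t ^ k) f = f := by
    clear h
    induction k with
    | zero => rfl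
    | succ k ih => rw [pow_succ, Module.End.mul_apply, hf, ih]
  have h2 := congrFun h1 ((t ^ k) x)
  rw [sX_pow_apply, Equiv.symm_apply_apply] at h2
  exact h2

include htn in
theorem sX_pow_n : sX t ^ n = 1 := by
  ext f x
  rw [LinearMap.comp_apply, LinearMap.comp_apply]
  change (sX t ^ n) _ x = _
  rw [sX_pow_apply, htn]
  rfl

include htn in
theorem sX_nm (f : X → ℤ) : sX t (nm (sX t) n f) = nm (sX t) n f := by
  have h := congrArg (fun g => g f) (sub_mul_nm (sX t) n)
  simp only [sX_pow_n htn, sub_self] at h
  have h2 : sX t (nm (sX t) n f) - nm (sX t) n f = 0 := h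
  exact sub_eq_zero.mp h2

/-- the multiplicity `n / |fibre|` -/
noncomputable def mult (π : X → S) (n : ℕ) (w : S) : ℕ := n / (Finset.univ.filter fun x => π x = w).card

include hπ hπt htr htn hn in
theorem nm_eq (f : X → ℤ) (x : X) : nm (sX t) n f x = mult π n (π x) * fsum π f (π x) := by
  have key : ∀ (f : X → ℤ) (x : X), ((Finset.univ.filter fun y => π y = π x).card : ℤ) *
      nm (sX t) n f x = n * fsum π f (π x) := by
    intro f x
    rw [← fsum_nm (t := t) hπt f (π x), fsum]
    have : ∀ y ∈ Finset.univ.filter (fun y => π y = π x), nm (sX t) n f y = nm (sX t) n f x := by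
      intro y hy
      simp only [Finset.mem_filter, Finset.mem_univ, true_and] at hy
      exact const_of_fixed htr _ (sX_nm htn f) y x hy
    rw [Finset.sum_congr rfl this, Finset.sum_const, nsmul_eq_mul]
  have hdvd : ((Finset.univ.filter fun y => π y = π x).card : ℤ) ∣ n := by
    have h := key (Pi.single x 1) x
    have h2 : fsum π (Pi.single x (1 : ℤ)) (π x) = 1 := by
      rw [fsum, Finset.sum_eq_single x]
      · simp
      · intro y _ hyx
        exact Pi.single_eq_of_ne hyx 1
      · intro h
        exact absurd (by simp) h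
    rw [h2, mul_one] at h
    exact ⟨_, h.symm⟩
  have hdvd' : (Finset.univ.filter fun y => π y = π x).card ∣ n := by exact_mod_cast hdvd
  have hpos : 0 < (Finset.univ.filter fun y => π y = π x).card :=
    Finset.card_pos.mpr ⟨x, by simp⟩
  have h := key f x
  have h3 : (n : ℤ) = (Finset.univ.filter fun y => π y = π x).card * mult π n (π x) := by
    rw [mult, ← Nat.cast_mul, Nat.mul_div_cancel' hdvd']
  rw [h3, mul_assoc] at h
  exact mul_left_cancel₀ (by exact_mod_cast hpos.ne') h

include hπ hπt htr htn hn in
theorem mult_mul_card (w : S) : mult π n w * (Finset.univ.filter fun y => π y = w).card = n := by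
  obtain ⟨x, rfl⟩ := hπ w
  have h1 := nm_eq hπ hπt htr htn hn (Pi.single x 1) x
  have h2 := fsum_nm (n := n) hπt (t := t) (Pi.single x (1 : ℤ)) (π x)
  have h3 : fsum π (Pi.single x (1 : ℤ)) (π x) = 1 := by
    rw [fsum, Finset.sum_eq_single x]
    · simp
    · intro y _ hyx
      exact Pi.single_eq_of_ne hyx 1
    · intro h
      exact absurd (by simp) h
  rw [h3, mul_one] at h2
  rw [fsum] at h2
  have : ∀ y ∈ Finset.univ.filter (fun y => π y = π x),
      nm (sX t) n (Pi.single x (1 : ℤ)) y = mult π n (π x) := by
    intro y hy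
    simp only [Finset.mem_filter, Finset.mem_univ, true_and] at hy
    rw [nm_eq hπ hπt htr htn hn, hy, h3, mul_one]
  rw [Finset.sum_congr rfl this, Finset.sum_const, nsmul_eq_mul] at h2
  have h4 : ((mult π n (π x) * (Finset.univ.filter fun y => π y = π x).card : ℕ) : ℤ) = n := by
    rw [Nat.cast_mul, mul_comm]
    exact h2
  exact_mod_cast h4

include hπ hπt htr htn hn in
theorem mult_pos (w : S) : 0 < mult π n w := by
  have := mult_mul_card hπ hπt htr htn hn w
  rcases Nat.eq_zero_or_pos (mult π n w) with h | h
  · rw [h, zero_mul] at this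
    omega
  · exact h

theorem single_sub_mem (k : ℕ) (x : X) :
    (Pi.single ((t ^ k) x) 1 - Pi.single x 1 : X → ℤ) ∈ LinearMap.range (sX t - 1) := by
  have hs : ∀ x : X, sX t (Pi.single x 1) = Pi.single (t x) (1 : ℤ) := by
    intro x
    ext y
    rw [sX_apply]
    by_cases h : y = t x
    · subst h
      rw [Equiv.symm_apply_apply, Pi.single_eq_same, Pi.single_eq_same]
    · rw [Pi.single_eq_of_ne h, Pi.single_eq_of_ne]
      intro h2
      exact h (by rw [← h2, Equiv.apply_symm_apply])
  induction k with
  | zero => simp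
  | succ k ih =>
    have : (Pi.single ((t ^ (k + 1)) x) 1 - Pi.single x 1 : X → ℤ) =
        (sX t - 1) (Pi.single ((t ^ k) x) 1) + (Pi.single ((t ^ k) x) 1 - Pi.single x 1) := by
      rw [LinearMap.sub_apply, hs, Module.End.one_apply, pow_succ', Equiv.Perm.mul_apply]
      abel
    rw [this]
    exact Submodule.add_mem _ ⟨_, rfl⟩ ih

include hπ hπt htr htn hn in
theorem hE_perm_one : hE (nm (sX t) n) (sX t - 1) = 1 := by
  have hgoal : ∀ f : X → ℤ, nm (sX t) n f = 0 → f ∈ LinearMap.range (sX t - 1) := by
    intro f hf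
    have hfs : ∀ w, fsum π f w = 0 := by
      intro w
      obtain ⟨x, rfl⟩ := hπ w
      have h1 := nm_eq hπ hπt htr htn hn f x
      rw [hf] at h1
      have h2 := mult_pos hπ hπt htr htn hn (π x)
      have h3 : (mult π n (π x) : ℤ) * fsum π f (π x) = 0 := h1.symm
      rcases mul_eq_zero.mp h3 with h4 | h4
      · exact absurd h4 (by exact_mod_cast h2.ne')
      · exact h4
    choose r hr using hπ
    have e : f = ∑ x, f x • (Pi.single x 1 - Pi.single (r (π x)) 1 : X → ℤ) := by
      have h1 : ∑ x, f x • (Pi.single (r (π x)) 1 : X → ℤ) = 0 := by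
        have h2 : ∑ x, f x • (Pi.single (r (π x)) 1 : X → ℤ) =
            ∑ w, ∑ x with π x = w, f x • (Pi.single (r w) 1 : X → ℤ) := by
          rw [← Finset.sum_fiberwise (s := Finset.univ) (g := π)]
          refine Finset.sum_congr rfl fun w _ => Finset.sum_congr rfl fun x hx => ?_
          simp only [Finset.mem_filter, Finset.mem_univ, true_and] at hx
          rw [hx]
        rw [h2]
        refine Finset.sum_eq_zero fun w _ => ?_
        rw [← Finset.sum_smul]
        have := hfs w
        rw [fsum] at this
        rw [this, zero_smul]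
      simp only [smul_sub, Finset.sum_sub_distrib]
      rw [h1, sub_zero]
      ext y
      rw [Finset.sum_apply, Finset.sum_eq_single y]
      · simp
      · intro x _ hxy
        rw [Pi.smul_apply, Pi.single_eq_of_ne (Ne.symm hxy), smul_zero]
      · intro h
        exact absurd (Finset.mem_univ _) h
    rw [e]
    refine Submodule.sum_mem _ fun x _ => Submodule.smul_mem _ _ ?_
    obtain ⟨k, hk⟩ := htr (r (π x)) x (hr (π x))
    conv => rw [← hk]
    have h5 := single_sub_mem (t := t) k (r (π x))
    have h6 : π ((t ^ k) (r (π x))) = π x := by rw [hk]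
    rw [h6]
    exact h5
  rw [hE, hq, AddSubgroup.relIndex_eq_one]
  intro f hf
  exact hgoal f hf

include hπ hπt htr htn hn in
theorem hE_perm_zero : hE (sX t - 1) (nm (sX t) n) = ∏ w, mult π n w := by
  -- pull-back along `π`
  set ps : (S → ℤ) →+ (X → ℤ) := (LinearMap.funLeft ℤ ℤ π).toAddMonoidHom with hps
  have hpsapp : ∀ (f : S → ℤ) (x : X), ps f x = f (π x) := fun f x => rfl
  have hinj : Function.Injective ps := by
    intro f g h
    ext w
    obtain ⟨x, rfl⟩ := hπ w
    exact congrFun h x
  set D : AddSubgroup (S → ℤ) := (AddMonoidHom.ker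
    (AddMonoidHom.mk' (fun (f : S → ℤ) (w : S) => ((f w : ℤ) : ZMod (mult π n w)))
      (fun f g => by ext w; simp) : (S → ℤ) →+ ((w : S) → ZMod (mult π n w)))) with hD
  have hDmem : ∀ f : S → ℤ, f ∈ D ↔ ∀ w, (mult π n w : ℤ) ∣ f w := by
    intro f
    rw [hD, AddMonoidHom.mem_ker]
    constructor
    · intro h w
      have := congrFun h w
      exact (ZMod.intCast_zmod_eq_zero_iff_dvd _ _).mp this
    · intro h
      ext w
      exact (ZMod.intCast_zmod_eq_zero_iff_dvd _ _).mpr (h w)
  have hidx : D.index = ∏ w, mult π n w := by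
    rw [hD, AddSubgroup.index_ker]
    have hsurj : (AddMonoidHom.mk' (fun (f : S → ℤ) (w : S) => ((f w : ℤ) : ZMod (mult π n w)))
      (fun f g => by ext w; simp) : (S → ℤ) →+ ((w : S) → ZMod (mult π n w))).range = ⊤ := by
      rw [eq_top_iff]
      intro g _
      choose f hf using fun w => ZMod.intCast_surjective (g w)
      exact ⟨f, funext hf⟩
    rw [hsurj, AddSubgroup.card_top, Nat.card_pi]
    exact Finset.prod_congr rfl fun w _ => Nat.card_zmod _
  have e1 : (sX t - 1).toAddMonoidHom.ker = (⊤ : AddSubgroup (S → ℤ)).map ps := by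
    ext f
    constructor
    · intro hf
      have hf' : sX t f = f := by
        have : sX t f - f = 0 := hf
        exact sub_eq_zero.mp this
      choose r hr using hπ
      refine ⟨fun w => f (r w), trivial, ?_⟩
      ext x
      rw [hpsapp]
      exact const_of_fixed htr f hf' _ _ (hr _)
    · rintro ⟨g, _, rfl⟩
      have : sX t (ps g) = ps g := by
        ext x
        rw [sX_apply, hpsapp, hpsapp]
        congr 1
        conv_rhs => rw [← Equiv.apply_symm_apply t x]
        rw [hπt]
      change sX t (ps g) - ps g = 0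
      rw [this, sub_self]
  have e2 : (nm (sX t) n).toAddMonoidHom.range = D.map ps := by
    ext f
    constructor
    · rintro ⟨g, rfl⟩
      refine ⟨fun w => mult π n w * fsum π g w, ?_, ?_⟩
      · rw [SetLike.mem_coe, hDmem]
        intro w
        exact dvd_mul_right _ _
      · ext x
        rw [hpsapp]
        exact (nm_eq hπ hπt htr htn hn g x).symm
    · rintro ⟨g, hg, rfl⟩
      rw [SetLike.mem_coe, hDmem] at hg
      choose c hc using hg
      obtain ⟨r, hr⟩ : ∃ r : S → X, ∀ w, π (r w) = w := ⟨fun w => (hπ w).choose, fun w => (hπ w).choose_spec⟩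
      refine ⟨∑ w, c w • Pi.single (r w) 1, ?_⟩
      ext x
      change nm (sX t) n _ x = ps g x
      rw [nm_eq hπ hπt htr htn hn, hpsapp, hc]
      congr 1
      have h1 : fsum π (∑ w, c w • (Pi.single (r w) 1 : X → ℤ)) (π x) =
          ∑ w, c w * fsum π (Pi.single (r w) (1 : ℤ)) (π x) := by
        simp only [fsum, Finset.sum_apply, Pi.smul_apply, smul_eq_mul]
        rw [Finset.sum_comm]
        exact Finset.sum_congr rfl fun w _ => (Finset.mul_sum _ _ _).symm
      rw [h1, Finset.sum_eq_single (π x)]
      · have : fsum π (Pi.single (r (π x)) (1 : ℤ)) (π x) = 1 := by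
          rw [fsum, Finset.sum_eq_single (r (π x))]
          · simp
          · intro y _ hyx
            exact Pi.single_eq_of_ne hyx 1
          · intro h
            exact absurd (by simp [hr]) h
        rw [this, mul_one]
      · intro w _ hw
        have : fsum π (Pi.single (r w) (1 : ℤ)) (π x) = 0 := by
          rw [fsum]
          refine Finset.sum_eq_zero fun y hy => ?_
          simp only [Finset.mem_filter, Finset.mem_univ, true_and] at hy
          refine Pi.single_eq_of_ne ?_ 1
          rintro rfl
          rw [hr] at hy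
          exact hw hy
        rw [this, mul_zero]
      · intro h
        exact absurd (Finset.mem_univ _) h
  rw [hE, hq, e1, e2, AddSubgroup.relIndex_map_map_of_injective _ _ hinj,
    AddSubgroup.relIndex_top_right, hidx]

end

end Fermat.Agent.CFT
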