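import Fermat.Agent.CFT.EulerIneq
import Fermat.Agent.H03.LBound
import Fermat.Agent.H25.ZetaLog2

/-!
# Sums over primes
-/

set_option autoImplicit false
set_option linter.unusedSectionVars false

open scoped Classical nonZeroDivisors Topology

namespace Fermat.Agent.CFT

open NumberField Filter IsDedekindDomain H03

section

variable (K : Type*) [Field K] [NumberField K]

theorem asIdeal_injective :
    Function.Injective (fun v : HeightOneSpectrum (𝓞 K) => v.asIdeal) :=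
  fun _ _ h => HeightOneSpectrum.ext h

theorem summable_nrm_prime {s : ℝ} (hs : 1 < s) (hs2 : s ≤ 2) :
    Summable fun v : HeightOneSpectrum (𝓞 K) => nrm K s v.asIdeal :=
  (summable_nrm K hs hs2).comp_injective (asIdeal_injective K)

theorem one_le_absNorm (v : HeightOneSpectrum (𝓞 K)) : (1 : ℝ) ≤ Ideal.absNorm v.asIdeal := by
  exact_mod_cast Nat.one_le_iff_ne_zero.mpr (Ideal.absNorm_eq_zero_iff.not.mpr v.ne_bot)

theorem nrm_le_one {s : ℝ} (hs : 0 < s) (v : HeightOneSpectrum (𝓞 K)) :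
    nrm K s v.asIdeal ≤ 1 :=
  Real.rpow_le_one_of_one_le_of_nonpos (one_le_absNorm K v) (by linarith)

theorem nrm_sq_le {s : ℝ} (hs : 1 < s) (v : HeightOneSpectrum (𝓞 K)) :
    nrm K s v.asIdeal ^ 2 ≤ nrm K 2 v.asIdeal := by
  have h1 := one_le_absNorm K v
  rw [nrm, nrm, ← Real.rpow_natCast, ← Real.rpow_mul (by linarith)]
  exact Real.rpow_le_rpow_of_exponent_le h1 (by push_cast; linarith)

theorem summable_ite {ι : Type*} {f : ι → ℝ} (hf : Summable f) (h0 : ∀ i, 0 ≤ f i)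
    (p : ι → Prop) : Summable fun i => if p i then f i else 0 := by
  refine Summable.of_nonneg_of_le (fun i => ?_) (fun i => ?_) hf
  · split_ifs
    · exact h0 i
    · exact le_rfl
  · split_ifs
    · exact le_rfl
    · exact h0 i

/-- the sum over the primes satisfying `P`. -/
noncomputable def psum (s : ℝ) (P : HeightOneSpectrum (𝓞 K) → Prop) : ℝ :=
  ∑' v : HeightOneSpectrum (𝓞 K), if P v then nrm K s v.asIdeal else 0

theorem summable_psum {s : ℝ} (hs : 1 < s) (hs2 : s ≤ 2) (P : HeightOneSpectrum (𝓞 K) → Prop) :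
    Summable fun v : HeightOneSpectrum (𝓞 K) => if P v then nrm K s v.asIdeal else 0 :=
  summable_ite (summable_nrm_prime K hs hs2) (fun v => nrm_nonneg K s _) P

/-- the twist of a multiplicative function -/
noncomputable def twist (ψ : Ideal (𝓞 K) →*₀ ℂ) {s : ℝ} (hs : s ≠ 0) : Ideal (𝓞 K) →*₀ ℂ where
  toFun I := ψ I * (nrm K s I : ℂ)
  map_zero' := by rw [map_zero, zero_mul]
  map_one' := by
    rw [map_one, one_mul, nrm, map_one]
    simp
  map_mul' I J := by
    rw [map_mul, nrm_mul]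
    push_cast
    ring

theorem twist_apply (ψ : Ideal (𝓞 K) →*₀ ℂ) {s : ℝ} (hs : s ≠ 0) (I : Ideal (𝓞 K)) :
    twist K ψ hs I = ψ I * (nrm K s I : ℂ) := rfl

theorem summable_twist {ψ : Ideal (𝓞 K) →*₀ ℂ} (hψ : ∀ I, ‖ψ I‖ ≤ 1) {s : ℝ} (hs : 1 < s)
    (hs2 : s ≤ 2) : Summable fun I => ‖twist K ψ (show s ≠ 0 by linarith) I‖ := by
  refine Summable.of_nonneg_of_le (fun I => norm_nonneg _) (fun I => ?_) (summable_nrm K hs hs2)
  rw [twist_apply, norm_mul, Complex.norm_real, Real.norm_of_nonneg (nrm_nonneg K s I)]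
  exact mul_le_of_le_one_left (nrm_nonneg K s I) (hψ I)

/-- Upper bound for the sum over primes. -/
theorem tsum_prime_re_le {ψ : Ideal (𝓞 K) →*₀ ℂ} (hψ : ∀ I, ‖ψ I‖ ≤ 1) {s : ℝ} (hs : 1 < s)
    (hs2 : s ≤ 2) {M : ℝ} (hM : ‖∑' I : Ideal (𝓞 K), ψ I * (nrm K s I : ℂ)‖ ≤ M) :
    ∑' v : HeightOneSpectrum (𝓞 K), (ψ v.asIdeal).re * nrm K s v.asIdeal ≤
      Real.log M + (∑' v : HeightOneSpectrum (𝓞 K), nrm K 2 v.asIdeal) / 2 := by
  have h1 := (tsum_re_le (summable_twist K hψ hs hs2) (M := M) (by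
    simpa only [twist_apply] using hM)).2
  have h2 : ∀ v : HeightOneSpectrum (𝓞 K),
      (twist K ψ (show s ≠ 0 by linarith) v.asIdeal).re =
        (ψ v.asIdeal).re * nrm K s v.asIdeal := by
    intro v
    rw [twist_apply, Complex.re_mul_ofReal]
  rw [tsum_congr h2] at h1
  refine h1.trans (add_le_add le_rfl ?_)
  have h3 := summable_nrm_prime K (s := 2) (by norm_num) le_rfl
  have h4 : ∀ v : HeightOneSpectrum (𝓞 K),
      ‖twist K ψ (show s ≠ 0 by linarith) v.asIdeal‖ ^ 2 ≤ nrm K 2 v.asIdeal := by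
    intro v
    refine le_trans ?_ (nrm_sq_le K hs v)
    refine pow_le_pow_left₀ (norm_nonneg _) ?_ 2
    rw [twist_apply, norm_mul, Complex.norm_real, Real.norm_of_nonneg (nrm_nonneg K s _)]
    exact mul_le_of_le_one_left (nrm_nonneg K s _) (hψ _)
  have h5 : Summable fun v : HeightOneSpectrum (𝓞 K) =>
      ‖twist K ψ (show s ≠ 0 by linarith) v.asIdeal‖ ^ 2 :=
    Summable.of_nonneg_of_le (fun v => by positivity) h4 h3
  have h6 := h5.tsum_le_tsum h4 h3
  linarith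

/-- `log (1/(s-1))` -/
noncomputable def ell (s : ℝ) : ℝ := Real.log (1 / (s - 1))

theorem tendsto_ell : Tendsto ell (𝓝[>] 1) atTop := H25.tendsto_log_one_div

/-- the trivial multiplicative function -/
noncomputable def triv : Ideal (𝓞 K) →*₀ ℂ where
  toFun I := if I = 0 then 0 else 1
  map_zero' := if_pos rfl
  map_one' := if_neg one_ne_zero
  map_mul' I J := by
    by_cases h1 : I = 0
    · rw [h1, zero_mul, if_pos rfl, zero_mul]
    · by_cases h2 : J = 0
      · rw [h2, mul_zero, if_pos rfl, mul_zero]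
      · rw [if_neg (mul_ne_zero h1 h2), if_neg h1, if_neg h2, mul_one]

theorem triv_apply (I : Ideal (𝓞 K)) : triv K I = if I = 0 then 0 else 1 := rfl

/-- **Upper bound** for the sum over all primes. -/
theorem exists_upper : ∃ C : ℝ, ∀ᶠ s in 𝓝[>] (1 : ℝ),
    ∑' v : HeightOneSpectrum (𝓞 K), nrm K s v.asIdeal ≤ ell s + C := by
  obtain ⟨D, hD, h⟩ := exists_zK_upper K
  refine ⟨Real.log D + (∑' v : HeightOneSpectrum (𝓞 K), nrm K 2 v.asIdeal) / 2, ?_⟩
  filter_upwards [h, eventually_Ioc] with s hs hs1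
  have hs0 : s ≠ 0 := by linarith [hs1.1]
  have hs' : 0 < s - 1 := sub_pos.mpr hs1.1
  have h1 : ‖∑' I : Ideal (𝓞 K), triv K I * (nrm K s I : ℂ)‖ ≤ D / (s - 1) := by
    have e : ∀ I : Ideal (𝓞 K), triv K I * (nrm K s I : ℂ) = ((nrm K s I : ℝ) : ℂ) := by
      intro I
      rw [triv_apply]
      split_ifs with h0
      · rw [h0, show (0 : Ideal (𝓞 K)) = ⊥ from rfl, nrm_bot K hs0]; simp
      · rw [one_mul]
    rw [tsum_congr e, ← Complex.ofReal_tsum, Complex.norm_real]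
    change ‖zK K s‖ ≤ _
    rw [Real.norm_of_nonneg (zK_nonneg K s)]
    exact hs
  have h2 := tsum_prime_re_le K (ψ := triv K) (fun I => by
    rw [triv_apply]; split_ifs <;> simp) hs1.1 hs1.2 h1
  have e : ∀ v : HeightOneSpectrum (𝓞 K), ((triv K) v.asIdeal).re * nrm K s v.asIdeal =
      nrm K s v.asIdeal := by
    intro v
    rw [triv_apply, if_neg (show v.asIdeal ≠ 0 from v.ne_bot)]
    simp
  rw [tsum_congr e] at h2
  have h3 : Real.log (D / (s - 1)) = ell s + Real.log D := by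
    rw [ell, one_div, div_eq_mul_inv, Real.log_mul hD.ne' (inv_ne_zero hs'.ne'), add_comm]
  rw [h3] at h2
  linarith

/-- the degree one primes. -/
def Deg1 (v : HeightOneSpectrum (𝓞 K)) : Prop := (Ideal.absNorm v.asIdeal).Prime

theorem Pr_eq {s : ℝ} (hs : 1 < s) (hs2 : s ≤ 2) : H25.Pr K s =
    psum K s (Deg1 K) := by
  unfold psum
  let β := {v : HeightOneSpectrum (𝓞 K) // Deg1 K v}
  let g : β → Nat.Primes := fun v => ⟨Ideal.absNorm v.1.asIdeal, v.2⟩
  have h1 : ∑' v : HeightOneSpectrum (𝓞 K), (if Deg1 K v then nrm K s v.asIdeal else 0) =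
      ∑' v : β, nrm K s v.1.asIdeal := by
    refine Eq.trans ?_
      (tsum_subtype {v : HeightOneSpectrum (𝓞 K) | Deg1 K v} (fun v => nrm K s v.asIdeal)).symm
    refine tsum_congr fun v => ?_
    rw [Set.indicator_apply]
    exact if_congr Iff.rfl rfl rfl
  have hβ : Summable fun v : β => nrm K s v.1.asIdeal :=
    (summable_nrm_prime K hs hs2).comp_injective Subtype.val_injective
  have h2 := hβ.hasSum.tsum_fiberwise g
  rw [h1, H25.Pr, ← h2.tsum_eq]
  refine tsum_congr fun p => ?_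
  have e1 : ∀ b : g ⁻¹' {p}, nrm K s b.1.1.asIdeal = ((p : ℕ) : ℝ) ^ (-s) := by
    intro b
    have : Ideal.absNorm b.1.1.asIdeal = (p : ℕ) := congrArg Subtype.val b.2
    rw [nrm, this]
  rw [tsum_congr e1, tsum_const, nsmul_eq_mul]
  have e2 : Nat.card (g ⁻¹' {p}) = H25.idealCount K (p : ℕ) := by
    rw [H25.idealCount]
    refine Nat.card_congr ⟨fun b => ⟨b.1.1.asIdeal, congrArg Subtype.val b.2⟩, fun I => ?_, ?_, ?_⟩
    · have hI : (Ideal.absNorm I.1).Prime := by rw [I.2]; exact p.2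
      exact ⟨⟨⟨I.1, Ideal.isPrime_of_irreducible_absNorm hI, fun h => by
        rw [h, Ideal.absNorm_bot] at hI
        exact Nat.not_prime_zero hI⟩, hI⟩, Subtype.ext I.2⟩
    · intro b; rfl
    · intro I; rfl
  rw [e2, H25.zterm, if_neg p.2.ne_zero, Real.rpow_neg (Nat.cast_nonneg _), div_eq_mul_inv]

/-- **Lower bound** for the sum over the primes of degree one. -/
theorem exists_lower : ∃ C : ℝ, ∀ᶠ s in 𝓝[>] (1 : ℝ),
    ell s - C ≤ psum K s (Deg1 K) := by
  have hκ : 0 < dedekindZeta_residue K := dedekindZeta_residue_pos K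
  have h1 := (H25.tendsto_Zr K).eventually (lt_mem_nhds (half_lt_self hκ))
  refine ⟨H25.C2 K - Real.log (dedekindZeta_residue K / 2), ?_⟩
  filter_upwards [h1, eventually_Ioc] with s hs hs1
  have hs' : 0 < s - 1 := sub_pos.mpr hs1.1
  rw [← Pr_eq K hs1.1 hs1.2]
  have h2 := abs_le.mp (H25.abs_log_Zr_sub_le K hs1.1)
  have h3 : Real.log (dedekindZeta_residue K / 2) ≤ Real.log ((s - 1) * H25.Zr K s) :=
    Real.log_le_log (by positivity) hs.le
  rw [Real.log_mul hs'.ne' (H25.Zr_pos K hs1.1).ne'] at h3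
  have h4 : ell s = - Real.log (s - 1) := by rw [ell, one_div, Real.log_inv]
  linarith [h2.2]

variable {K}

/-- Nontrivial characters. -/
theorem exists_char_bound {𝔪 : Ideal (𝓞 K)} (χ : HChar 𝔪) (h𝔪 : 𝔪 ≠ ⊥)
    (hχ : ∃ J : Ideal (𝓞 K), J ≠ ⊥ ∧ IsCoprime J 𝔪 ∧ χ.ψ J ≠ 1) :
    ∃ C : ℝ, ∀ᶠ s in 𝓝[>] (1 : ℝ),
      ∑' v : HeightOneSpectrum (𝓞 K), (χ.ψ v.asIdeal).re * nrm K s v.asIdeal ≤ C := by
  obtain ⟨C, hC, h⟩ := HChar.exists_L_bound χ h𝔪 hχ
  refine ⟨Real.log C + (∑' v : HeightOneSpectrum (𝓞 K), nrm K 2 v.asIdeal) / 2, ?_⟩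
  filter_upwards [h, eventually_Ioc] with s hs hs1
  exact tsum_prime_re_le K χ.norm_le hs1.1 hs1.2 hs

end

end Fermat.Agent.CFT
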