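import Fermat.Agent.CFT.UnitRank
import Fermat.Agent.CFT.PermMod

/-!
# The Herbrand quotient of the `S`-units
-/

set_option autoImplicit false
set_option linter.unusedSectionVars false
set_option linter.style.haveILetI false

open scoped Classical nonZeroDivisors

namespace Fermat.Agent.CFT

open Module NumberField IsDedekindDomain

section fin

variable {M : Type*} [AddCommGroup M] [Module.Finite ℤ M]

theorem relIndex_ne_zero_of_nsmul (A B : AddSubgroup M) (n : ℕ) (hn : n ≠ 0)
    (h : ∀ x ∈ A, n • x ∈ B) : B.relIndex A ≠ 0 := by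
  have hAf : Module.Finite ℤ A.toIntSubmodule := inferInstance
  haveI : Module.Finite ℤ A := hAf
  set f : A →ₗ[ℤ] (A ⧸ B.addSubgroupOf A) :=
    (QuotientAddGroup.mk' (B.addSubgroupOf A)).toIntLinearMap
  haveI : Module.Finite ℤ (A ⧸ B.addSubgroupOf A) :=
    Module.Finite.of_surjective f (QuotientAddGroup.mk'_surjective _)
  have htors : Module.IsTorsion ℤ (A ⧸ B.addSubgroupOf A) := by
    intro x
    refine ⟨⟨(n : ℤ), mem_nonZeroDivisors_of_ne_zero (Int.natCast_ne_zero.mpr hn)⟩, ?_⟩
    obtain ⟨y, rfl⟩ := QuotientAddGroup.mk_surjective x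
    change (n : ℤ) • (y : A ⧸ B.addSubgroupOf A) = 0
    rw [natCast_zsmul, ← QuotientAddGroup.mk_nsmul, QuotientAddGroup.eq_zero_iff]
    exact h y y.2
  haveI : Finite (A ⧸ B.addSubgroupOf A) := Module.finite_of_fg_torsion _ htors
  rw [AddSubgroup.relIndex]
  exact AddSubgroup.index_ne_zero_of_finite

theorem hE_ne_zero (s : Module.End ℤ M) (n : ℕ) (hn : n ≠ 0) :
    hE (s - 1) (nm s n) ≠ 0 ∧ hE (nm s n) (s - 1) ≠ 0 := by
  constructor
  · refine relIndex_ne_zero_of_nsmul _ _ n hn ?_
    intro x hx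
    have hx' : s x = x := by
      have : s x - x = 0 := hx
      exact sub_eq_zero.mp this
    refine ⟨x, ?_⟩
    change nm s n x = n • x
    have hp : ∀ i : ℕ, (s ^ i) x = x := by
      intro i
      induction i with
      | zero => rfl
      | succ i ih => rw [pow_succ, Module.End.mul_apply, hx', ih]
    rw [nm, LinearMap.sum_apply, Finset.sum_congr rfl fun i _ => hp i]
    simp
  · refine relIndex_ne_zero_of_nsmul _ _ n hn ?_
    intro x hx
    have hx' : nm s n x = 0 := hx
    have hmem : ∀ i : ℕ, x - (s ^ i) x ∈ LinearMap.range (s - 1) := by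
      intro i
      refine ⟨-(nm s i x), ?_⟩
      rw [map_neg, ← Module.End.mul_apply, sub_mul_nm, LinearMap.sub_apply]
      simp
    have h2 : n • x = ∑ i ∈ Finset.range n, (x - (s ^ i) x) := by
      rw [Finset.sum_sub_distrib]
      rw [nm, LinearMap.sum_apply] at hx'
      rw [hx']
      simp
    rw [h2]
    exact Submodule.sum_mem (LinearMap.range (s - 1)) fun i _ => hmem i

end fin

section

variable {K F : Type*} [Field K] [NumberField K] [Field F] [NumberField F] [Algebra K F]

/-- `S`-units -/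
def SU (S : Set (HeightOneSpectrum (𝓞 K))) : Subgroup Kˣ where
  carrier := {x | ∀ v ∉ S, ordv v x = 0}
  one_mem' v _ := ordv_one v
  mul_mem' {a b} ha hb v hv := by rw [ordv_mul, ha v hv, hb v hv, add_zero]
  inv_mem' {a} ha v hv := by rw [ordv_inv, ha v hv, neg_zero]

theorem mem_SU {S : Set (HeightOneSpectrum (𝓞 K))} {x : Kˣ} :
    x ∈ SU S ↔ ∀ v ∉ S, ordv v x = 0 := Iff.rfl

/-- the primes above `S` -/
def above (F : Type*) [Field F] [NumberField F] [Algebra K F] (S : Set (HeightOneSpectrum (𝓞 K))) :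
    Set (HeightOneSpectrum (𝓞 F)) := under K F ⁻¹' S

theorem mem_above {S : Set (HeightOneSpectrum (𝓞 K))} {P : HeightOneSpectrum (𝓞 F)} :
    P ∈ above F S ↔ under K F P ∈ S := Iff.rfl

theorem above_finite {S : Set (HeightOneSpectrum (𝓞 K))} (hS : S.Finite) : (above F S).Finite := by
  have : above F S = ⋃ v ∈ S, under K F ⁻¹' {v} := by
    ext P
    simp [above]
  rw [this]
  exact hS.biUnion fun v _ => fiber_finite v

theorem gact_mem_SU (σ : F ≃ₐ[K] F) (S : Set (HeightOneSpectrum (𝓞 K))) {x : Fˣ}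
    (hx : x ∈ SU (above F S)) : gact σ x ∈ SU (above F S) := by
  intro P hP
  rw [ordv_gact]
  apply hx
  rw [mem_above, under_act]
  exact hP

/-- the action on `S`-units -/
noncomputable def sactHom (σ : F ≃ₐ[K] F) (S : Set (HeightOneSpectrum (𝓞 K))) :
    SU (above F S) →* SU (above F S) :=
  ((gact σ).comp (SU (above F S)).subtype).codRestrict _ fun x => gact_mem_SU σ S x.2

/-- the endomorphism of the `S`-units -/
noncomputable def sS (σ : F ≃ₐ[K] F) (S : Set (HeightOneSpectrum (𝓞 K))) :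
    Module.End ℤ (Additive (SU (above F S))) :=
  (MonoidHom.toAdditive (sactHom σ S)).toIntLinearMap

theorem sS_coe (σ : F ≃ₐ[K] F) (S : Set (HeightOneSpectrum (𝓞 K)))
    (x : Additive (SU (above F S))) :
    ((sS σ S x).toMul : Fˣ) = gact σ (x.toMul : Fˣ) := rfl

theorem sS_mul (σ τ : F ≃ₐ[K] F) (S : Set (HeightOneSpectrum (𝓞 K))) :
    sS (σ * τ) S = sS σ S * sS τ S := by
  apply LinearMap.ext
  intro u
  rfl

theorem sS_one (S : Set (HeightOneSpectrum (𝓞 K))) : sS (1 : F ≃ₐ[K] F) S = 1 := by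
  apply LinearMap.ext
  intro u
  rfl

theorem sS_pow (σ : F ≃ₐ[K] F) (S : Set (HeightOneSpectrum (𝓞 K))) (m : ℕ) :
    sS σ S ^ m = sS (σ ^ m) S := by
  induction m with
  | zero => rw [pow_zero, pow_zero, sS_one]
  | succ m ih => rw [pow_succ, pow_succ, sS_mul, ih]

/-- the divisor map -/
noncomputable def dS (K F : Type*) [Field K] [NumberField K] [Field F] [NumberField F] [Algebra K F]
    (S : Set (HeightOneSpectrum (𝓞 K))) :
    Additive (SU (above F S)) →ₗ[ℤ] (above F S → ℤ) :=
  (AddMonoidHom.mk' (fun (x : Additive (SU (above F S))) (P : above F S) =>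
    ordv P.1 (x.toMul : Fˣ)) (fun x y => by
      ext P
      exact ordv_mul P.1 _ _)).toIntLinearMap

theorem dS_apply (S : Set (HeightOneSpectrum (𝓞 K))) (x : Additive (SU (above F S)))
    (P : above F S) : dS K F S x P = ordv P.1 (x.toMul : Fˣ) := rfl

/-- the permutation of the primes above `S` -/
noncomputable def tS (σ : F ≃ₐ[K] F) (S : Set (HeightOneSpectrum (𝓞 K))) :
    Equiv.Perm (above F S) where
  toFun P := ⟨act σ P.1, by rw [mem_above, under_act]; exact P.2⟩
  invFun P := ⟨act σ⁻¹ P.1, by rw [mem_above, under_act]; exact P.2⟩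
  left_inv P := by
    apply Subtype.ext
    change act σ⁻¹ (act σ P.1) = P.1
    rw [← act_mul, inv_mul_cancel, act_one]
  right_inv P := by
    apply Subtype.ext
    change act σ (act σ⁻¹ P.1) = P.1
    rw [← act_mul, mul_inv_cancel, act_one]

theorem tS_coe (σ : F ≃ₐ[K] F) (S : Set (HeightOneSpectrum (𝓞 K))) (P : above F S) :
    (tS σ S P).1 = act σ P.1 := rfl

theorem tS_pow_coe (σ : F ≃ₐ[K] F) (S : Set (HeightOneSpectrum (𝓞 K))) (m : ℕ) (P : above F S) :
    ((tS σ S ^ m) P).1 = act (σ ^ m) P.1 := by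
  induction m with
  | zero => rw [pow_zero, pow_zero, act_one]; rfl
  | succ m ih => rw [pow_succ', Equiv.Perm.mul_apply, tS_coe, ih, pow_succ', act_mul]

theorem dS_sS (σ : F ≃ₐ[K] F) (S : Set (HeightOneSpectrum (𝓞 K))) (x : Additive (SU (above F S))) :
    dS K F S (sS σ S x) = sX (tS σ S) (dS K F S x) := by
  ext P
  rw [dS_apply, sS_coe, ordv_gact]
  rfl

/-- inclusion of the units -/
noncomputable def iS (K F : Type*) [Field K] [NumberField K] [Field F] [NumberField F] [Algebra K F]
    (S : Set (HeightOneSpectrum (𝓞 K))) : Additive (𝓞 F)ˣ →ₗ[ℤ] Additive (SU (above F S)) :=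
  (MonoidHom.toAdditive ((unitsHom F).codRestrict (SU (above F S)) fun u => by
    intro P _
    exact ordv_unitsHom P u)).toIntLinearMap

theorem iS_coe (S : Set (HeightOneSpectrum (𝓞 K))) (u : (𝓞 F)ˣ) :
    ((iS K F S (Additive.ofMul u)).toMul : Fˣ) = unitsHom F u := rfl

/-- below map -/
noncomputable def piS (K F : Type*) [Field K] [NumberField K] [Field F] [NumberField F] [Algebra K F]
    (S : Set (HeightOneSpectrum (𝓞 K))) : above F S → S := fun P => ⟨under K F P.1, P.2⟩

theorem piS_surjective (S : Set (HeightOneSpectrum (𝓞 K))) : Function.Surjective (piS K F S) := by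
  rintro ⟨v, hv⟩
  obtain ⟨P, rfl⟩ := under_surjective (F := F) v
  exact ⟨⟨P, hv⟩, rfl⟩

/-- the local degree at `v`, i.e. `n / g_v` -/
noncomputable def locDeg (K F : Type*) [Field K] [NumberField K] [Field F] [NumberField F]
    [Algebra K F] (v : HeightOneSpectrum (𝓞 K)) : ℕ :=
  finrank K F / (v.asIdeal.primesOver (𝓞 F)).ncard

variable [IsGalois K F] (σ : F ≃ₐ[K] F) (hσ : ∀ τ : F ≃ₐ[K] F, τ ∈ Subgroup.zpowers σ)

include hσ in
theorem exists_pow_act (P Q : HeightOneSpectrum (𝓞 F)) (h : under K F P = under K F Q) :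
    ∃ k : ℕ, act (σ ^ k) P = Q := by
  obtain ⟨τ, hτ⟩ := exists_act P Q h
  obtain ⟨k, rfl⟩ := (Submonoid.mem_powers_iff _ _).mp (mem_powers_iff_mem_zpowers.mpr (hσ τ))
  exact ⟨k, hτ⟩

variable [IsUnramifiedAtInfinitePlaces K F]

include hσ in
/-- **The Herbrand quotient of the `S`-units.** -/
theorem hE_SU (S : Set (HeightOneSpectrum (𝓞 K))) [Fintype S] (p r : ℕ) [hp : Fact p.Prime]
    (hn : finrank K F = p ^ r) :
    hE (sS σ S - 1) (nm (sS σ S) (p ^ r)) * p ^ r =
      hE (nm (sS σ S) (p ^ r)) (sS σ S - 1) * ∏ v : S, locDeg K F v.1 := by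
  have hSfin : S.Finite := Set.toFinite S
  haveI : Finite (above F S) := above_finite hSfin
  haveI : Fintype (above F S) := Fintype.ofFinite _
  have hp0 : p ^ r ≠ 0 := pow_ne_zero _ hp.out.ne_zero
  have hord : orderOf σ = p ^ r := by rw [orderOf_gen σ hσ, hn]
  -- permutation module
  have htn : tS σ S ^ (p ^ r) = 1 := by
    ext P
    rw [tS_pow_coe, ← hord, pow_orderOf_eq_one, act_one]
    rfl
  have hπt : ∀ P, piS K F S (tS σ S P) = piS K F S P := by
    intro P
    apply Subtype.ext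
    exact under_act σ P.1
  have htr : ∀ P Q, piS K F S P = piS K F S Q → ∃ k : ℕ, (tS σ S ^ k) P = Q := by
    intro P Q h
    obtain ⟨k, hk⟩ := exists_pow_act σ hσ P.1 Q.1 (congrArg Subtype.val h)
    refine ⟨k, ?_⟩
    apply Subtype.ext
    rw [tS_pow_coe, hk]
  have hX1 := hE_perm_one (piS_surjective S) hπt htr htn (Nat.pos_of_ne_zero hp0)
  have hX0 := hE_perm_zero (piS_surjective S) hπt htr htn (Nat.pos_of_ne_zero hp0)
  have hmult : ∀ v : S, mult (piS K F S) (p ^ r) v = locDeg K F v.1 := by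
    intro v
    rw [mult, locDeg, hn]
    congr 1
    have e1 : (Finset.univ.filter fun P => piS K F S P = v).card =
        (under K F ⁻¹' {v.1}).ncard := by
      rw [← Set.ncard_coe_finset]
      refine Set.ncard_congr (fun P _ => P.1) ?_ ?_ ?_
      · intro P hP
        simp only [Finset.coe_filter, Finset.mem_univ, true_and, Set.mem_ofPred_eq] at hP
        exact congrArg Subtype.val hP
      · intro P Q _ _ h
        exact Subtype.ext h
      · intro P hP
        have hP' : under K F P = v.1 := hP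
        refine ⟨⟨P, by rw [mem_above, hP']; exact v.2⟩, ?_, rfl⟩
        simp only [Finset.coe_filter, Finset.mem_univ, true_and, Set.mem_ofPred_eq]
        exact Subtype.ext hP'
    have e2 : (under K F ⁻¹' {v.1}).ncard = (v.1.asIdeal.primesOver (𝓞 F)).ncard := by
      rw [← Nat.card_coe_set_eq, ← Nat.card_coe_set_eq]
      exact Nat.card_congr (fiberEquiv K F v.1)
    rw [← e2, ← e1]
    congr!
  -- the image of the divisor map
  set L := LinearMap.range (dS K F S) with hL
  have hLs : ∀ x ∈ L, sX (tS σ S) x ∈ L := by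
    rintro _ ⟨y, rfl⟩
    exact ⟨sS σ S y, dS_sS σ S y⟩
  set sL := (sX (tS σ S)).restrict hLs with hsL
  haveI : Module.Finite ℤ L := inferInstance
  obtain ⟨hL0, hL1⟩ := hE_ne_zero sL (p ^ r) hp0
  -- finite quotient
  have hQtors : Module.IsTorsion ℤ ((above F S → ℤ) ⧸ L) := by
    obtain ⟨h, hh, hpr⟩ := exists_principal_pow F
    intro x
    refine ⟨⟨(h : ℤ), mem_nonZeroDivisors_of_ne_zero (Int.natCast_ne_zero.mpr hh.ne')⟩, ?_⟩
    obtain ⟨f, rfl⟩ := Submodule.Quotient.mk_surjective _ x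
    change (h : ℤ) • (Submodule.Quotient.mk f : (above F S → ℤ) ⧸ L) = 0
    rw [← Submodule.Quotient.mk_smul, Submodule.Quotient.mk_eq_zero]
    -- the finsupp
    obtain ⟨x, hx⟩ := hpr (Finsupp.onFinset (above_finite hSfin).toFinset
      (fun P => if hP : P ∈ above F S then f ⟨P, hP⟩ else 0) (fun P hP => by
        rw [Set.Finite.mem_toFinset]
        by_contra hne
        exact hP (dif_neg hne)))
    have hxS : x ∈ SU (above F S) := by
      intro P hP
      rw [hx, Finsupp.onFinset_apply, dif_neg hP, mul_zero]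
    refine ⟨Additive.ofMul ⟨x, hxS⟩, ?_⟩
    ext P
    rw [dS_apply]
    change ordv P.1 x = _
    rw [hx, Finsupp.onFinset_apply, dif_pos P.2]
    rfl
  haveI : Finite ((above F S → ℤ) ⧸ L) := Module.finite_of_fg_torsion _ hQtors
  obtain ⟨hLX, _, _⟩ := hE_sub_finite L.subtype L.injective_subtype L.mkQ (Submodule.mkQ_surjective L)
    (fun b => by
      rw [Submodule.mkQ_apply, Submodule.Quotient.mk_eq_zero]
      exact ⟨fun h => ⟨⟨b, h⟩, rfl⟩, by rintro ⟨a, rfl⟩; exact a.2⟩)
    sL (sX (tS σ S)) (L.mapQ L (sX (tS σ S)) hLs) (fun a => rfl) (fun b => rfl) (p ^ r)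
    (sX_pow_n htn) hL0 hL1
  rw [hX1, hX0, mul_one] at hLX
  -- units
  obtain ⟨hU, hU0, hU1⟩ := hE_units σ hσ p r hn
  obtain ⟨key, _, _⟩ := hE_exact (iS K F S) (fun u v h => by
      have h1 : unitsHom F u.toMul = unitsHom F v.toMul := by
        have := congrArg (fun z : Additive (SU (above F S)) => (z.toMul : Fˣ)) h
        exact this
      exact unitsHom_injective h1)
    (dS K F S).rangeRestrict (LinearMap.surjective_rangeRestrict _)
    (fun b => by
      constructor
      · intro hb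
        have hb' : dS K F S b = 0 := congrArg Subtype.val hb
        obtain ⟨u, hu⟩ := exists_unit_of_ordv_eq_zero (b.toMul : Fˣ) (fun P => by
          by_cases hP : P ∈ above F S
          · exact congrFun hb' ⟨P, hP⟩
          · exact b.toMul.2 P hP)
        refine ⟨Additive.ofMul u, ?_⟩
        apply Subtype.ext
        exact hu
      · rintro ⟨u, rfl⟩
        apply Subtype.ext
        ext P
        exact ordv_unitsHom P.1 u.toMul)
    (sU σ) (sS σ S) sL
    (fun u => by
      apply Subtype.ext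
      exact unitsHom_uact σ u.toMul)
    (fun b => by
      apply Subtype.ext
      exact dS_sS σ S b) (p ^ r)
    (by rw [sS_pow, ← hord, pow_orderOf_eq_one, sS_one])
  have hprod : ∏ v : S, mult (piS K F S) (p ^ r) v = ∏ v : S, locDeg K F v.1 :=
    Finset.prod_congr rfl fun v _ => hmult v
  rw [hprod] at hLX
  rw [hLX, ← hU] at key
  -- h0U * (h1L * prod) * h1E = (h0U * n) * h1L * h0E
  have hpos : 0 < hE (sU σ - 1) (nm (sU σ) (p ^ r)) * hE (nm sL (p ^ r)) (sL - 1) :=
    Nat.mul_pos (Nat.pos_of_ne_zero hU0) (Nat.pos_of_ne_zero hL1)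
  apply Nat.eq_of_mul_eq_mul_left hpos
  calc _ = hE (sU σ - 1) (nm (sU σ) (p ^ r)) * p ^ r * hE (nm sL (p ^ r)) (sL - 1) *
        hE (sS σ S - 1) (nm (sS σ S) (p ^ r)) := by ring
    _ = _ := by rw [← key]; ring

end

end Fermat.Agent.CFT
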