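import Fermat.Agent.CFT.SUnits

/-!
# Norm index of the `S`-units
-/

set_option autoImplicit false
set_option linter.unusedSectionVars false
set_option linter.style.haveILetI false

open scoped Classical nonZeroDivisors

namespace Fermat.Agent.CFT

open Module NumberField IsDedekindDomain

section

variable {K F : Type} [Field K] [NumberField K] [Field F] [NumberField F] [Algebra K F]

/-- the norm on units -/
noncomputable def NK (K F : Type) [Field K] [NumberField K] [Field F] [NumberField F]
    [Algebra K F] : Fˣ →* Kˣ := Units.map (Algebra.norm K)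

theorem NK_coe (x : Fˣ) : (NK K F x : K) = Algebra.norm K (x : F) := rfl

theorem NK_incl (c : Kˣ) : NK K F (incl K F c) = c ^ finrank K F := by
  apply Units.ext
  rw [NK_coe, incl_coe, Algebra.norm_algebraMap, Units.val_pow_eq_pow_val]

theorem gact_incl (σ : F ≃ₐ[K] F) (c : Kˣ) : gact σ (incl K F c) = incl K F c := by
  apply Units.ext
  exact σ.commutes (c : K)

theorem gact_mul (σ τ : F ≃ₐ[K] F) (x : Fˣ) : gact (σ * τ) x = gact σ (gact τ x) := rfl

variable [IsGalois K F] (σ : F ≃ₐ[K] F) (hσ : ∀ τ : F ≃ₐ[K] F, τ ∈ Subgroup.zpowers σ)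

include hσ in
theorem incl_NK (x : Fˣ) : incl K F (NK K F x) = ∏ i ∈ Finset.range (finrank K F), gact (σ ^ i) x := by
  apply Units.ext
  rw [incl_coe, NK_coe, Algebra.norm_eq_prod_automorphisms, Units.coe_prod]
  refine (Finset.prod_bij (fun i _ => σ ^ i) (fun i _ => Finset.mem_univ _) ?_ ?_ ?_).symm
  · intro i hi j hj h
    have h1 : i < orderOf σ := by rw [orderOf_gen σ hσ]; exact Finset.mem_range.mp hi
    have h2 : j < orderOf σ := by rw [orderOf_gen σ hσ]; exact Finset.mem_range.mp hj
    exact pow_injOn_Iio_orderOf h1 h2 h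
  · intro τ _
    have h1 := (hσ τ)
    rw [mem_zpowers_iff_mem_range_orderOf] at h1
    obtain ⟨i, hi, rfl⟩ := Finset.mem_image.mp h1
    rw [orderOf_gen σ hσ] at hi
    exact ⟨i, hi, rfl⟩
  · intro i _
    rfl

include hσ in
theorem nm_sS_coe (S : Set (HeightOneSpectrum (𝓞 K))) (x : Additive (SU (above F S))) :
    ((nm (sS σ S) (finrank K F) x).toMul : Fˣ) = incl K F (NK K F (x.toMul : Fˣ)) := by
  rw [incl_NK σ hσ, nm, LinearMap.sum_apply, toMul_sum, SubmonoidClass.coe_finsetProd]
  refine Finset.prod_congr rfl fun i _ => ?_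
  rw [sS_pow]
  rfl

include hσ in
theorem exists_incl_of_fixed (x : Fˣ) (h : gact σ x = x) : ∃ c : Kˣ, incl K F c = x := by
  have h1 : ∀ τ : F ≃ₐ[K] F, τ (x : F) = x := by
    intro τ
    obtain ⟨k, rfl⟩ := Subgroup.mem_zpowers_iff.mp (hσ τ)
    have h2 : σ ∈ MulAction.stabilizer (F ≃ₐ[K] F) (x : F) := congrArg Units.val h
    exact (MulAction.stabilizer (F ≃ₐ[K] F) (x : F)).zpow_mem h2 k
  obtain ⟨c, hc⟩ := (IsGalois.mem_range_algebraMap_iff_fixed (x : F)).mpr h1
  have hc0 : c ≠ 0 := by
    rintro rfl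
    rw [map_zero] at hc
    exact x.ne_zero hc.symm
  exact ⟨Units.mk0 c hc0, Units.ext hc⟩

include hσ in
/-- `H^{-1}` of the `S`-units vanishes -/
theorem hE_SU_one (S : Set (HeightOneSpectrum (𝓞 K))) (hgen : SGen S)
    (hunr : ∀ P : HeightOneSpectrum (𝓞 F), under K F P ∉ S → ramE K P = 1) :
    hE (nm (sS σ S) (finrank K F)) (sS σ S - 1) = 1 := by
  rw [hE, hq, AddSubgroup.relIndex_eq_one]
  intro x hx
  have hx' : nm (sS σ S) (finrank K F) x = 0 := hx
  have hN : NK K F (x.toMul : Fˣ) = 1 := by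
    apply incl_injective (F := F)
    rw [← nm_sS_coe σ hσ S x, hx', map_one]
    rfl
  haveI : IsCyclic (F ≃ₐ[K] F) := ⟨σ, hσ⟩
  obtain ⟨y, hy⟩ := groupCohomology.exists_div_of_norm_eq_one (K := K) (L := F) hσ
    (x := ((x.toMul : Fˣ) : F)) (by
      have := congrArg Units.val hN
      exact this)
  have hy' : y / gact σ y = (x.toMul : Fˣ) := by
    apply Units.ext
    rw [Units.val_div_eq_div_val]
    exact hy
  have hinv : ∀ P, P ∉ above F S → ordv (act σ P) y = ordv P y := by
    intro P hP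
    have h1 : act σ P ∉ above F S := by
      rw [mem_above, under_act]
      exact hP
    have h2 : ordv (act σ P) (x.toMul : Fˣ) = 0 := x.toMul.2 _ h1
    rw [← hy', ordv_div, ordv_act] at h2
    omega
  have hinvk : ∀ k : ℕ, ∀ P, P ∉ above F S → ordv (act (σ ^ k) P) y = ordv P y := by
    intro k
    induction k with
    | zero => intro P _; rw [pow_zero, act_one]
    | succ k ih =>
      intro P hP
      rw [pow_succ', act_mul, hinv _ (by rw [mem_above, under_act]; exact hP), ih P hP]
  have hconst : ∀ P Q, P ∉ above F S → under K F P = under K F Q → ordv Q y = ordv P y := by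
    intro P Q hP h
    obtain ⟨k, rfl⟩ := exists_pow_act σ hσ P Q h
    exact hinvk k P hP
  set sec : HeightOneSpectrum (𝓞 K) → HeightOneSpectrum (𝓞 F) :=
    Function.surjInv (under_surjective (K := K) (F := F)) with hsec
  have hsecu : ∀ v, under K F (sec v) = v := fun v => Function.surjInv_eq _ v
  have hfin : (under K F '' {P : HeightOneSpectrum (𝓞 F) | ordv P y ≠ 0}).Finite :=
    (ordv_finite y).image _
  obtain ⟨c, hc⟩ := hgen (Finsupp.onFinset hfin.toFinset
    (fun v => if v ∈ S then 0 else ordv (sec v) y) (fun v hv => by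
      rw [Set.Finite.mem_toFinset]
      refine ⟨sec v, ?_, hsecu v⟩
      intro h0
      apply hv
      rw [h0, ite_self]))
  have hz : y / incl K F c ∈ SU (above F S) := by
    intro P hP
    rw [ordv_div, ordv_incl, hunr P hP, hc _ hP, Finsupp.onFinset_apply,
      if_neg (show under K F P ∉ S from hP), Nat.cast_one,
      one_mul, hconst (sec (under K F P)) P (by rw [mem_above, hsecu]; exact hP) (hsecu _), sub_self]
  refine ⟨-(Additive.ofMul ⟨y / incl K F c, hz⟩), ?_⟩
  change (sS σ S - 1) (-(Additive.ofMul ⟨y / incl K F c, hz⟩)) = x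
  rw [map_neg, LinearMap.sub_apply, neg_sub]
  apply Subtype.ext
  change (y / incl K F c) / (gact σ (y / incl K F c)) = (x.toMul : Fˣ)
  rw [map_div, gact_incl, ← hy', div_div_div_cancel_right]

/-- translation to `Kˣ` -/
theorem hE_SU_zero_eq (S : Set (HeightOneSpectrum (𝓞 K)))
    (hσ : ∀ τ : F ≃ₐ[K] F, τ ∈ Subgroup.zpowers σ) :
    hE (sS σ S - 1) (nm (sS σ S) (finrank K F)) =
      ((SU (above F S)).map (NK K F)).relIndex (SU S) := by
  set j : Additive (SU (above F S)) →+ Additive Fˣ := MonoidHom.toAdditive (SU (above F S)).subtype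
    with hj
  have hjinj : Function.Injective j := Subtype.val_injective
  set i : Additive Kˣ →+ Additive Fˣ := MonoidHom.toAdditive (incl K F) with hi
  have hiinj : Function.Injective i := incl_injective
  have e1 : (sS σ S - 1).toAddMonoidHom.ker.map j = (Subgroup.toAddSubgroup (SU S)).map i := by
    ext x
    constructor
    · rintro ⟨y, hy, rfl⟩
      have hy' : sS σ S y = y := by
        have : sS σ S y - y = 0 := hy
        exact sub_eq_zero.mp this
      have h2 : gact σ (y.toMul : Fˣ) = (y.toMul : Fˣ) := by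
        have := congrArg (fun z : Additive (SU (above F S)) => (z.toMul : Fˣ)) hy'
        exact this
      obtain ⟨c, hc⟩ := exists_incl_of_fixed σ hσ _ h2
      refine ⟨Additive.ofMul c, ?_, hc⟩
      change c ∈ SU S
      intro v hv
      obtain ⟨P, rfl⟩ := under_surjective (F := F) v
      have h3 : ordv P (y.toMul : Fˣ) = 0 := y.toMul.2 P hv
      rw [← hc, ordv_incl] at h3
      rcases mul_eq_zero.mp h3 with h4 | h4
      · exact absurd h4 (by exact_mod_cast (ramE_pos P).ne')
      · exact h4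
    · rintro ⟨c, hc, rfl⟩
      have hc' : c.toMul ∈ SU S := hc
      have hmem : incl K F c.toMul ∈ SU (above F S) := by
        intro P hP
        rw [ordv_incl, hc' _ hP, mul_zero]
      refine ⟨Additive.ofMul ⟨incl K F c.toMul, hmem⟩, ?_, rfl⟩
      change sS σ S _ - _ = 0
      rw [sub_eq_zero]
      apply Subtype.ext
      exact gact_incl σ c.toMul
  have e2 : (nm (sS σ S) (finrank K F)).toAddMonoidHom.range.map j =
      (Subgroup.toAddSubgroup ((SU (above F S)).map (NK K F))).map i := by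
    ext x
    constructor
    · rintro ⟨_, ⟨y, rfl⟩, rfl⟩
      refine ⟨Additive.ofMul (NK K F (y.toMul : Fˣ)), ⟨(y.toMul : Fˣ), y.toMul.2, rfl⟩, ?_⟩
      exact (nm_sS_coe σ hσ S y).symm
    · rintro ⟨_, ⟨y, hy, rfl⟩, rfl⟩
      refine ⟨_, ⟨Additive.ofMul ⟨y, hy⟩, rfl⟩, ?_⟩
      exact nm_sS_coe σ hσ S (Additive.ofMul ⟨y, hy⟩)
  rw [hE, hq, ← AddSubgroup.relIndex_map_map_of_injective _ _ hjinj, e1, e2,
    AddSubgroup.relIndex_map_map_of_injective _ _ hiinj, Subgroup.relIndex_toAddSubgroup]

variable [IsUnramifiedAtInfinitePlaces K F]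

include hσ in
/-- **Norm index of the `S`-units**: `n [E_S : N E_{S_F}] = ∏_{v ∈ S} n_v`. -/
theorem index_SU (S : Set (HeightOneSpectrum (𝓞 K))) [Fintype S] (p r : ℕ) [hp : Fact p.Prime]
    (hn : finrank K F = p ^ r) (hgen : SGen S)
    (hunr : ∀ P : HeightOneSpectrum (𝓞 F), under K F P ∉ S → ramE K P = 1) :
    ((SU (above F S)).map (NK K F)).relIndex (SU S) * finrank K F = ∏ v : S, locDeg K F v.1 := by
  have h1 := hE_SU σ hσ S p r hn
  have h2 := hE_SU_one σ hσ S hgen hunr
  have h3 := hE_SU_zero_eq σ S hσ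
  rw [← hn, h2, h3, one_mul] at h1
  exact h1

end

end Fermat.Agent.CFT
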