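import Fermat.Agent.CFT.OrdGal
import Fermat.Agent.CFT.Herbrand4

/-!
# The Herbrand quotient of the units
-/

set_option autoImplicit false
set_option linter.unusedSectionVars false
set_option linter.style.haveILetI false

open scoped Classical nonZeroDivisors

namespace Fermat.Agent.CFT

open Module NumberField IsDedekindDomain

section

variable {K F : Type*} [Field K] [NumberField K] [Field F] [NumberField F] [Algebra K F]

/-- the action on units -/
noncomputable def uact (σ : F ≃ₐ[K] F) : (𝓞 F)ˣ →* (𝓞 F)ˣ :=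
  Units.map (MulSemiringAction.toRingHom (F ≃ₐ[K] F) (𝓞 F) σ).toMonoidHom

theorem uact_coe (σ : F ≃ₐ[K] F) (u : (𝓞 F)ˣ) : ((uact σ u : 𝓞 F) : F) = σ ((u : 𝓞 F) : F) := rfl

theorem unitsHom_uact (σ : F ≃ₐ[K] F) (u : (𝓞 F)ˣ) :
    unitsHom F (uact σ u) = gact σ (unitsHom F u) := rfl

/-- the endomorphism of the units -/
noncomputable def sU (σ : F ≃ₐ[K] F) : Module.End ℤ (Additive (𝓞 F)ˣ) :=
  (MonoidHom.toAdditive (uact σ)).toIntLinearMap

theorem sU_apply (σ : F ≃ₐ[K] F) (u : (𝓞 F)ˣ) :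
    sU σ (Additive.ofMul u) = Additive.ofMul (uact σ u) := rfl

theorem sU_mul (σ τ : F ≃ₐ[K] F) : sU (σ * τ) = sU σ * sU τ := by
  apply LinearMap.ext
  intro u
  rfl

theorem sU_one : sU (1 : F ≃ₐ[K] F) = 1 := by
  apply LinearMap.ext
  intro u
  rfl

theorem sU_pow (σ : F ≃ₐ[K] F) (m : ℕ) : sU σ ^ m = sU (σ ^ m) := by
  induction m with
  | zero => rw [pow_zero, pow_zero, sU_one]
  | succ m ih => rw [pow_succ, pow_succ, sU_mul, ih]

theorem rkFix_sU_eq (τ : F ≃ₐ[K] F) :
    finrank ℤ (LinearMap.ker (sU τ - 1)) =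
      Units.rank (IntermediateField.fixedField (Subgroup.zpowers τ)) := by
  set E := IntermediateField.fixedField (Subgroup.zpowers τ) with hE
  rw [← Units.finrank_eq]
  set f : Additive (𝓞 E)ˣ →ₗ[ℤ] Additive (𝓞 F)ˣ :=
    (MonoidHom.toAdditive (Units.map (algebraMap (𝓞 E) (𝓞 F)).toMonoidHom)).toIntLinearMap with hf
  have hfapp : ∀ u : (𝓞 E)ˣ, (((f (Additive.ofMul u)).toMul : 𝓞 F) : F) = (((u : 𝓞 E) : E) : F) :=
    fun u => rfl
  have hinj : Function.Injective f := by
    intro u v h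
    have h1 : (((f u).toMul : 𝓞 F) : F) = (((f v).toMul : 𝓞 F) : F) := by rw [h]
    apply Units.ext
    apply RingOfIntegers.ext
    apply Subtype.ext
    exact h1
  have hrange : LinearMap.range f = LinearMap.ker (sU τ - 1) := by
    ext u
    have hmem : u ∈ LinearMap.ker (sU τ - 1) ↔ τ ((u.toMul : 𝓞 F) : F) = ((u.toMul : 𝓞 F) : F) := by
      rw [LinearMap.mem_ker, LinearMap.sub_apply, Module.End.one_apply, sub_eq_zero]
      constructor
      · intro h
        have : (((sU τ u).toMul : 𝓞 F) : F) = ((u.toMul : 𝓞 F) : F) := by rw [h]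
        exact this
      · intro h
        apply Units.ext
        apply RingOfIntegers.ext
        exact h
    rw [hmem]
    constructor
    · rintro ⟨v, rfl⟩
      have h1 : (((v.toMul : 𝓞 E) : E) : F) ∈ E := SetLike.coe_mem _
      exact (IntermediateField.mem_fixedField_iff (Subgroup.zpowers τ) _).mp h1 τ
        (Subgroup.mem_zpowers τ)
    · intro h
      have hfix : ∀ x : F, τ x = x → x ∈ E := by
        intro x hx
        rw [hE, IntermediateField.mem_fixedField_iff]
        intro g hg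
        obtain ⟨k, rfl⟩ := Subgroup.mem_zpowers_iff.mp hg
        have h2 : τ ∈ MulAction.stabilizer (F ≃ₐ[K] F) x := hx
        exact (MulAction.stabilizer (F ≃ₐ[K] F) x).zpow_mem h2 k
      set w : (𝓞 F)ˣ := u.toMul with hw
      have h1 := hfix _ h
      have h2 : τ (((w⁻¹ : (𝓞 F)ˣ) : 𝓞 F) : F) = (((w⁻¹ : (𝓞 F)ˣ) : 𝓞 F) : F) := by
        have h3 : (((w⁻¹ : (𝓞 F)ˣ) : 𝓞 F) : F) = (((w : 𝓞 F) : F))⁻¹ := by
          apply eq_inv_of_mul_eq_one_left
          rw [← map_mul, ← Units.val_mul, inv_mul_cancel, Units.val_one, map_one]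
        rw [h3, map_inv₀, h]
      have h4 := hfix _ h2
      have hint : ∀ (x : 𝓞 F) (hx : (x : F) ∈ E), IsIntegral ℤ (⟨(x : F), hx⟩ : E) := by
        intro x hx
        rw [← isIntegral_algebraMap_iff (B := F) (algebraMap E F).injective]
        exact x.isIntegral_coe
      refine ⟨Additive.ofMul ⟨⟨⟨_, h1⟩, hint _ h1⟩, ⟨⟨_, h4⟩, hint _ h4⟩, ?_, ?_⟩, ?_⟩
      · apply RingOfIntegers.ext
        apply Subtype.ext
        change ((w : 𝓞 F) : F) * (((w⁻¹ : (𝓞 F)ˣ) : 𝓞 F) : F) = 1
        rw [← map_mul, ← Units.val_mul, mul_inv_cancel, Units.val_one, map_one]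
      · apply RingOfIntegers.ext
        apply Subtype.ext
        change (((w⁻¹ : (𝓞 F)ˣ) : 𝓞 F) : F) * ((w : 𝓞 F) : F) = 1
        rw [← map_mul, ← Units.val_mul, inv_mul_cancel, Units.val_one, map_one]
      · apply Units.ext
        apply RingOfIntegers.ext
        rfl
  rw [← hrange]
  exact ((LinearEquiv.ofInjective f hinj).finrank_eq).symm

variable [IsGalois K F] (σ : F ≃ₐ[K] F) (hσ : ∀ τ : F ≃ₐ[K] F, τ ∈ Subgroup.zpowers σ)

include hσ in
theorem orderOf_gen : orderOf σ = finrank K F := by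
  have h1 : Nat.card (Subgroup.zpowers σ) = orderOf σ := Nat.card_zpowers σ
  have h2 : Subgroup.zpowers σ = ⊤ := by
    rw [eq_top_iff]
    intro τ _
    exact hσ τ
  rw [← h1, h2, Subgroup.card_top]
  exact IsGalois.card_aut_eq_finrank K F

include hσ in
theorem comm_gen (τ ρ : F ≃ₐ[K] F) : τ * ρ = ρ * τ := by
  obtain ⟨a, rfl⟩ := Subgroup.mem_zpowers_iff.mp (hσ τ)
  obtain ⟨b, rfl⟩ := Subgroup.mem_zpowers_iff.mp (hσ ρ)
  rw [← zpow_add, ← zpow_add, add_comm]

include hσ in
theorem finrank_fixed (m k : ℕ) (hm : 0 < m) (hmk : m * k = finrank K F) :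
    finrank K (IntermediateField.fixedField (Subgroup.zpowers (σ ^ m))) = m := by
  have h1 := IntermediateField.finrank_fixedField_eq_card (Subgroup.zpowers (σ ^ m))
  rw [Nat.card_zpowers, orderOf_pow' _ hm.ne', orderOf_gen σ hσ, ← hmk, Nat.gcd_mul_right_left,
    Nat.mul_div_cancel_left _ hm] at h1
  have h2 := finrank_mul_finrank K (IntermediateField.fixedField (Subgroup.zpowers (σ ^ m))) F
  rw [h1, ← hmk] at h2
  have hk : 0 < k := by
    rcases Nat.eq_zero_or_pos k with h | h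
    · rw [h, mul_zero] at hmk
      have : 0 < finrank K F := finrank_pos
      omega
    · exact h
  exact Nat.eq_of_mul_eq_mul_right hk h2

variable [IsUnramifiedAtInfinitePlaces K F]

include hσ in
theorem rkFix_sU (m k : ℕ) (hm : 0 < m) (hmk : m * k = finrank K F) :
    rkFix (sU σ) m = m * Fintype.card (InfinitePlace K) - 1 := by
  rw [rkFix, sU_pow, rkFix_sU_eq, Units.rank]
  set H := Subgroup.zpowers (σ ^ m)
  haveI : H.Normal := by
    constructor
    intro n hn g
    rw [comm_gen σ hσ g n, mul_assoc, mul_inv_cancel, mul_one]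
    exact hn
  haveI : IsUnramifiedAtInfinitePlaces K (IntermediateField.fixedField H) :=
    IsUnramifiedAtInfinitePlaces.bot K (IntermediateField.fixedField H) F
  rw [IsUnramifiedAtInfinitePlaces.card_infinitePlace K (IntermediateField.fixedField H),
    finrank_fixed σ hσ m k hm hmk, mul_comm]

include hσ in
/-- **The Herbrand quotient of the units**, for a cyclic extension of prime power degree,
unramified at infinity. -/
theorem hE_units (p r : ℕ) [hp : Fact p.Prime] (hn : finrank K F = p ^ r) :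
    hE (sU σ - 1) (nm (sU σ) (p ^ r)) * p ^ r = hE (nm (sU σ) (p ^ r)) (sU σ - 1) ∧
    hE (sU σ - 1) (nm (sU σ) (p ^ r)) ≠ 0 ∧ hE (nm (sU σ) (p ^ r)) (sU σ - 1) ≠ 0 := by
  have hs : sU σ ^ (p ^ r) = 1 := by
    rw [sU_pow, ← hn, ← orderOf_gen σ hσ, pow_orderOf_eq_one, sU_one]
  have hR : 0 < Fintype.card (InfinitePlace K) := Fintype.card_pos
  set R := Fintype.card (InfinitePlace K) with hRdef
  have hrk : ∀ j ≤ r, rkFix (sU σ) (p ^ j) = p ^ j * R - 1 := by
    intro j hj
    refine rkFix_sU σ hσ (p ^ j) (p ^ (r - j)) (pow_pos hp.out.pos j) ?_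
    rw [← pow_add, Nat.add_sub_cancel' hj, hn]
  obtain ⟨h1, h2, h3⟩ := fg_case p r (sU σ) hs (fun _ => R) (fun j hj => by
    rw [hrk _ hj, hrk _ hj.le, Nat.totient_prime_pow_succ hp.out, pow_succ]
    have h4 : 0 < p ^ j * R := Nat.mul_pos (pow_pos hp.out.pos j) hR
    have h5 : p ^ j * p * R = p ^ j * R + R * (p ^ j * (p - 1)) := by
      obtain ⟨q, hq⟩ := Nat.exists_eq_succ_of_ne_zero hp.out.ne_zero
      rw [hq]
      simp only [Nat.succ_sub_one]
      rw [Nat.succ_eq_add_one]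
      ring
    rw [h5]
    omega)
  refine ⟨?_, h2, h3⟩
  have h6 := hrk 0 (Nat.zero_le r)
  rw [pow_zero, one_mul] at h6
  rw [h6, Finset.sum_const, Finset.card_range, smul_eq_mul] at h1
  have h7 : r * R = r + r * (R - 1) := by
    obtain ⟨q, hq⟩ := Nat.exists_eq_succ_of_ne_zero hR.ne'
    rw [hq, Nat.succ_sub_one]
    rw [Nat.succ_eq_add_one]
    ring
  rw [h7, pow_add, ← mul_assoc] at h1
  exact Nat.eq_of_mul_eq_mul_right (pow_pos hp.out.pos _) h1

end

end Fermat.Agent.CFT
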