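import Fermat.Agent.CFT.HasseP

/-!
# Number fields are unramified outside a finite set of primes
-/

set_option autoImplicit false
set_option linter.unusedSectionVars false
set_option linter.style.haveILetI false
set_option linter.unusedVariables false

open scoped Classical Pointwise

noncomputable section

namespace Fermat.Agent.CFT

open Module NumberField IsDedekindDomain Polynomial
open Fermat.Agent.CC

theorem mul_mem_nonunits {A : ValuationSubring Qb} {x y : Qb} (hx : x ∈ A.nonunits) (hy : y ∈ A) :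
    x * y ∈ A.nonunits := by
  rw [ValuationSubring.mem_nonunits_iff] at hx ⊢
  rw [map_mul]
  exact mul_lt_one_of_lt_of_le hx ((A.valuation_le_one_iff _).mpr hy)

theorem exists_int_of_integral (δ : Qb) (hδ : IsIntegral ℤ δ) (h0 : δ ≠ 0) :
    ∃ n : ℤ, n ≠ 0 ∧ ∀ A : ValuationSubring Qb, δ ∈ A.nonunits → (n : Qb) ∈ A.nonunits := by
  have hc : (minpoly ℤ δ).coeff 0 ≠ 0 := by
    intro hc
    have h1 : minpoly ℚ δ = (minpoly ℤ δ).map (algebraMap ℤ ℚ) :=
      minpoly.isIntegrallyClosed_eq_field_fractions' ℚ hδ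
    apply h0
    have hδQ : IsIntegral ℚ δ := hδ.tower_top
    rw [← minpoly.coeff_zero_eq_zero hδQ, h1, coeff_map, hc, map_zero]
  refine ⟨-(minpoly ℤ δ).coeff 0, neg_ne_zero.mpr hc, fun A hA => ?_⟩
  have h1 : aeval δ (minpoly ℤ δ) = 0 := minpoly.aeval ℤ δ
  rw [← divX_mul_X_add (minpoly ℤ δ)] at h1
  simp only [map_add, map_mul, aeval_X, aeval_C] at h1
  have h2 : ((-(minpoly ℤ δ).coeff 0 : ℤ) : Qb) = δ * aeval δ (minpoly ℤ δ).divX := by
    have h3 : (algebraMap ℤ Qb) ((minpoly ℤ δ).coeff 0) = (((minpoly ℤ δ).coeff 0 : ℤ) : Qb) := rfl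
    rw [h3] at h1
    push_cast
    linear_combination -h1
  rw [h2]
  apply mul_mem_nonunits hA
  apply H05.mem_of_isIntegral A
  exact IsIntegral.of_mem_of_fg (Algebra.adjoin ℤ {δ}) hδ.fg_adjoin_singleton _
    (aeval_mem_adjoin_singleton ℤ δ)

/-- **Finiteness of ramification** -/
theorem exists_unramifiedOutside (L : IntermediateField ℚ Qb) [FiniteDimensional ℚ L] :
    ∃ S : Finset Nat.Primes, L.IsUnramifiedOutside S := by
  haveI : NumberField L := ⟨⟩
  set b := integralBasis L with hb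
  have hbint : ∀ i, IsIntegral ℤ ((b i : L) : Qb) := by
    intro i
    rw [hb, integralBasis_apply]
    exact (NumberField.RingOfIntegers.isIntegral_coe _).map (L.val.restrictScalars ℤ)
  -- differences of conjugates
  set Z : Set Qb := ⋃ i, (fun x => x - ((b i : L) : Qb)) '' ((minpoly ℚ ((b i : L) : Qb)).rootSet Qb) with hZ
  have hZfin : Z.Finite := Set.finite_iUnion fun i => (rootSet_finite _ _).image _
  have hZint : ∀ z ∈ Z, IsIntegral ℤ z := by
    intro z hz
    obtain ⟨i, x, hx, rfl⟩ := Set.mem_iUnion.mp hz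
    refine IsIntegral.sub ?_ (hbint i)
    have h1 : minpoly ℚ ((b i : L) : Qb) = (minpoly ℤ ((b i : L) : Qb)).map (algebraMap ℤ ℚ) :=
      minpoly.isIntegrallyClosed_eq_field_fractions' ℚ (hbint i)
    have h2 := (mem_rootSet.mp hx).2
    rw [h1, aeval_map_algebraMap] at h2
    exact ⟨minpoly ℤ ((b i : L) : Qb), minpoly.monic (hbint i), h2⟩
  have hex : ∀ z : Qb, ∃ n : ℤ, n ≠ 0 ∧ (z ∈ Z → z ≠ 0 → ∀ A : ValuationSubring Qb,
      z ∈ A.nonunits → (n : Qb) ∈ A.nonunits) := by
    intro z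
    by_cases hz : z ∈ Z ∧ z ≠ 0
    · obtain ⟨n, hn, h⟩ := exists_int_of_integral z (hZint z hz.1) hz.2
      exact ⟨n, hn, fun _ _ => h⟩
    · exact ⟨1, one_ne_zero, fun h1 h2 => absurd ⟨h1, h2⟩ hz⟩
  choose n hn0 hn using hex
  set N : ℤ := ∏ z ∈ hZfin.toFinset, n z with hN
  have hN0 : N ≠ 0 := Finset.prod_ne_zero_iff.mpr fun z _ => hn0 z
  have hfin : {q : Nat.Primes | ((q : ℕ) : ℤ) ∣ N}.Finite := by
    have h1 : (N.natAbs.primeFactors : Set ℕ).Finite := Finset.finite_toSet _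
    refine (h1.preimage (f := fun q : Nat.Primes => (q : ℕ)) Subtype.val_injective.injOn).subset ?_
    intro q hq
    rw [Set.mem_preimage, Finset.mem_coe, Nat.mem_primeFactors]
    exact ⟨q.2, Int.natCast_dvd.mp hq, Int.natAbs_ne_zero.mpr hN0⟩
  refine ⟨hfin.toFinset, inferInstance, fun q hq A hA σ hσ => ?_⟩
  rw [IntermediateField.mem_fixingSubgroup_iff]
  have hfix : ∀ i, σ ((b i : L) : Qb) = ((b i : L) : Qb) := by
    intro i
    by_contra hne
    have h0 : σ ((b i : L) : Qb) - ((b i : L) : Qb) ≠ 0 := sub_ne_zero.mpr hne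
    have hz : σ ((b i : L) : Qb) - ((b i : L) : Qb) ∈ Z := by
      refine Set.mem_iUnion.mpr ⟨i, σ ((b i : L) : Qb), ?_, rfl⟩
      rw [mem_rootSet]
      refine ⟨minpoly.ne_zero (hbint i).tower_top, ?_⟩
      have := minpoly.aeval ℚ ((b i : L) : Qb)
      have h2 := congrArg σ this
      rw [map_zero] at h2
      rw [← h2]
      exact (aeval_algHom_apply (σ : Qb →ₐ[ℚ] Qb) _ _)
    have hnon : σ ((b i : L) : Qb) - ((b i : L) : Qb) ∈ A.nonunits :=
      ((H09.mem_inertia_iff A σ).mp hσ).2 _ (H05.mem_of_isIntegral A (hbint i))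
    have h1 := hn _ hz h0 A hnon
    apply hq
    rw [Set.Finite.mem_toFinset]
    have h3 : ((q : ℕ) : ℤ) ∣ n (σ ((b i : L) : Qb) - ((b i : L) : Qb)) := by
      by_contra hnd
      exact H05.natCast_not_mem_nonunits q.2 hA hnd h1
    exact h3.trans (Finset.dvd_prod_of_mem n (hZfin.mem_toFinset.mpr hz))
  intro x hx
  have h1 : (⟨x, hx⟩ : L) = ∑ i, b.repr ⟨x, hx⟩ i • b i := (b.sum_repr _).symm
  have h2 : x = ∑ i, b.repr ⟨x, hx⟩ i • ((b i : L) : Qb) := by
    have := congrArg (fun y : L => (y : Qb)) h1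
    beta_reduce at this
    rw [← IntermediateField.coe_val, map_sum] at this
    refine this.trans (Finset.sum_congr rfl fun i _ => ?_)
    rfl
  rw [h2, map_sum]
  refine Finset.sum_congr rfl fun i _ => ?_
  rw [Algebra.smul_def, map_mul, AlgEquiv.commutes, hfix]

end Fermat.Agent.CFT
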